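import Fermat.Prelude.Def_GaloisRep_Flat
import Fermat.Agent.Raising.Inputs

/-!
# The modular inputs of the last step at `p`

`LastInputs` is what a level with `p` once more in it provides over the levels `0, …, m` of a
`RaiseInputs`, all prime to `p`: the two degeneracy maps at `p`, the operator at `p` with values
`α + p / α` for the unit root `α`, and saturation by the eigensystems with unit root `± 1`.
-/

noncomputable section

namespace Fermat.Agent.Raising

open IsLocalRing Polynomial Fermat.Agent.LevelLowering Fermat.Agent.Gal Fermat.Agent.TW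

local notation "Qbar" => AlgebraicClosure ℚ
local notation "GQ" => (AlgebraicClosure ℚ ≃ₐ[ℚ] AlgebraicClosure ℚ)

section Shapes

variable {R : Type} [CommRing R] [IsLocalRing R] (ρ : GaloisRepAdic R)

/-- A basis whose first line is stable under decomposition, inertia acting trivially on the
quotient. -/
def IsOrdBasisAt (A : ValuationSubring Qbar) (b : Module.Basis (Fin 2) R ρ.V) : Prop :=
  (∀ σ ∈ A.decompositionSubgroup ℚ, ∀ v ∈ R ∙ b 0, ρ.ρ σ v ∈ R ∙ b 0) ∧
    ∀ σ ∈ A.inertiaSubgroupIn ℚ, ∀ v, ρ.ρ σ v - v ∈ R ∙ b 0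

/-- Ordinary at every place over `p`. -/
def HasOrdBases (p : ℕ) : Prop :=
  ∀ A : ValuationSubring Qbar, A.LiesOverPrime p →
    ∃ b : Module.Basis (Fin 2) R ρ.V, IsOrdBasisAt ρ A b

/-- Ordinary with Frobenius acting on the quotient by a sign, at every place over `p`. -/
def IsNewAtP (p : ℕ) : Prop :=
  ∀ A : ValuationSubring Qbar, A.LiesOverPrime p → ∃ b : Module.Basis (Fin 2) R ρ.V,
    IsOrdBasisAt ρ A b ∧ ∀ σ : GQ, A.IsFrobeniusAt σ p →
      ∃ α : R, (α = 1 ∨ α = -1) ∧ ∀ v, ρ.ρ σ v - α • v ∈ R ∙ b 0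

end Shapes

variable {O : Type} [CommRing O] [IsDomain O] [IsDiscreteValuationRing O]
  [IsAdicComplete (maximalIdeal O) O] [Finite (ResidueField O)]
  {p : ℕ} {ρbar : ResidualGaloisRep (ResidueField O)}
  {bbar : Module.Basis (Fin 2) (ResidueField O) ρbar.V} {m D : ℕ}
  {K : Type} [Field K] [Algebra O K]
  {P : Fin m → RaisedPrime p ρbar bbar} {Smin : Finset ℕ} {c₀ : ℕ → O}
  {d : ℕ → ℕ} {Tm : ∀ j, ℕ → Matrix (Fin (d j)) (Fin (d j)) O} {S₀ : Finset ℕ}
  {qv : Fin D → ℕ} {lv : Fin D → ℕ}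

/-- The level raised at the first `m` primes and at `p`, over the levels of `R`; `dp` and `Tp` are
the rank and the operators without auxiliary primes. -/
structure LastInputs (R : RaiseInputs K P Smin c₀ d Tm S₀ qv lv) (dp : ℕ)
    (Tp : ℕ → Matrix (Fin dp) (Fin dp) O) : Type 1 where
  /-- The level with `p` once more in it. -/
  top : OpLevel O R.S c₀ (DiaCoords O p lv) dp
  aug_x : ∀ ℓ : ℕ, ℓ.Prime → ℓ ∉ R.S →
    (top.Φ (top.x ℓ)).map
      (Ideal.Quotient.lift _ MvPowerSeries.constantCoeff (diamondIdeal_aug p lv)) = Tp ℓ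
  /-- The first degeneracy map at `p`, from level `m` to the top one. -/
  upA : Matrix (Fin dp) (Fin (d m)) (DiaCoords O p lv)
  /-- The second degeneracy map at `p`, from level `m` to the top one. -/
  upB : Matrix (Fin dp) (Fin (d m)) (DiaCoords O p lv)
  /-- The transfer of the first degeneracy map. -/
  downA : Matrix (Fin (d m)) (Fin dp) (DiaCoords O p lv)
  /-- The transfer of the second degeneracy map. -/
  downB : Matrix (Fin (d m)) (Fin dp) (DiaCoords O p lv)
  up_comm : ∀ ℓ : ℕ, ℓ.Prime → ℓ ∉ R.S →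
    upA * (R.L m).Φ ((R.L m).x ℓ) = top.Φ (top.x ℓ) * upA ∧
      upB * (R.L m).Φ ((R.L m).x ℓ) = top.Φ (top.x ℓ) * upB
  down_comm : ∀ ℓ : ℕ, ℓ.Prime → ℓ ∉ R.S →
    downA * top.Φ (top.x ℓ) = (R.L m).Φ ((R.L m).x ℓ) * downA ∧
      downB * top.Φ (top.x ℓ) = (R.L m).Φ ((R.L m).x ℓ) * downB
  up_inv : ∃ X : Matrix (Fin (d m) ⊕ Fin (d m)) (Fin dp) (DiaCoords O p lv),
    X * Matrix.fromCols upA upB = 1
  down_inv : ∃ X : Matrix (Fin dp) (Fin (d m) ⊕ Fin (d m)) (DiaCoords O p lv),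
    Matrix.fromRows downA downB * X = 1
  /-- The operator at `p`. -/
  tp : (R.L m).A
  down_up :
    downA * upA = (p + 1 : DiaCoords O p lv) • (1 : Matrix (Fin (d m)) (Fin (d m)) _) ∧
    downA * upB = (R.L m).Φ tp ∧
    downB * upA = (R.L m).Φ tp ∧
    downB * upB = (p + 1 : DiaCoords O p lv) • (1 : Matrix (Fin (d m)) (Fin (d m)) _)
  flat : ∀ (j : ℕ) (a : (R.L j).κ), j ≤ m → ((R.L j).ρ a).IsFlatAt p
  ordinary : ∀ (j : ℕ) (a : (R.L j).κ), j ≤ m → HasOrdBases ((R.L j).ρ a) p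
  ordinary_top : ∀ a : top.κ, HasOrdBases (top.ρ a) p
  /-- The values of the operator at `p` through the unit root. -/
  tp_ev : ∀ (a : (R.L m).κ) (A : ValuationSubring Qbar), A.LiesOverPrime p →
    ∀ b : Module.Basis (Fin 2) ((R.L m).F a) ((R.L m).ρ a).V, IsOrdBasisAt ((R.L m).ρ a) A b →
      ∀ σ : GQ, A.IsFrobeniusAt σ p → ∀ α : (R.L m).F a,
        (∀ v, ((R.L m).ρ a).ρ σ v - α • v ∈ (R.L m).F a ∙ b 0) →
          α * α - (R.L m).ev a tp * α + (p : (R.L m).F a) = 0
  /-- An operator killed by the eigensystems with unit root `± 1` comes from the level below. -/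
  saturated : ∀ z : top.A,
    (∀ a : top.κ, IsNewAtP (top.ρ a) p → top.ev a z = 0) →
    ∃ XA XB : Matrix (Fin (d m)) (Fin dp) (DiaCoords O p lv), top.Φ z = upA * XA + upB * XB
  unramified : ∀ a : top.κ, ∀ l : ℕ, l.Prime →
    l ∉ insert p (ramSet P Smin m ∪ Finset.univ.image qv) → (top.ρ a).IsUnramifiedAt l
  unipotent : ∀ a : top.κ, ∀ l ∈ ramSet P Smin m, l.Prime → l ≠ p →
    (top.ρ a).IsUnipotentOnInertiaAt l
  /-- An eigencharacter at a character of the diamonds has the kernel of an eigensystem, unipotent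
  at the auxiliary primes where the character is trivial, not at the one supporting it. -/
  tw_point : ∀ (φ : DiaCoords O p lv →ₐ[O] K) (e : top.A →+* K),
    (∃ w : Fin dp → K, w ≠ 0 ∧ ∀ z, ((top.Φ z).map φ).mulVec w = e z • w) →
    ∃ a : top.κ, (∀ z, e z = 0 ↔ top.ev a z = 0) ∧
      (∀ i, φ (diaX O p lv i) = 0 → (top.ρ a).IsUnipotentOnInertiaAt (qv i)) ∧
      ∀ i, (∀ i', i' ≠ i → φ (diaX O p lv i') = 0) →
        IsPrimitiveRoot (1 + φ (diaX O p lv i)) p → ¬ (top.ρ a).IsUnipotentOnInertiaAt (qv i)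

end Fermat.Agent.Raising
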