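import Fermat.Agent.Raising.AtResidualPrime.LastInputs
import Fermat.Agent.Raising.Coeff.BaseChange
import Fermat.Agent.Raising.Coeff.Curve
import Fermat.Agent.Raising.OrdClosure
import Fermat.Agent.Raising.Tate.AtP
import Fermat.Agent.TW.BaseChange

/-!
# The curve at `p`

The Tate module over a coefficient ring is ordinary at `p` with Frobenius acting on the quotient by
one sign `ε`; the residual representation has a frame, and the scalar of every ordinary lift reduces
to `ε`.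
-/

noncomputable section

namespace Fermat.Agent.Raising.AtResidualPrime

open IsLocalRing Matrix Module Fermat.Agent.Gal Fermat.Agent.TW Fermat.Agent.PT
  Fermat.Agent.Raising.Coeff Fermat.Agent.Raising.Tate

open scoped Pointwise

local notation "Qbar" => AlgebraicClosure ℚ

section General

variable {T : Type} [CommRing T] [IsLocalRing T] {ρ : GaloisRepAdic T} {A : ValuationSubring Qbar}

/-- In an ordinary basis the matrices are upper triangular, the corner being the scalar on the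
quotient. -/
theorem toMatrix_ordBasis {bL : Basis (Fin 2) T ρ.V} (hbL : IsOrdBasisAt ρ A bL) :
    (∀ σ ∈ A.decompositionSubgroup ℚ, LinearMap.toMatrix bL bL (ρ.ρ σ) 1 0 = 0) ∧
      (∀ σ ∈ A.inertiaSubgroupIn ℚ, LinearMap.toMatrix bL bL (ρ.ρ σ) 1 1 = 1) ∧
      ∀ σ, ∀ α : T, (∀ v, ρ.ρ σ v - α • v ∈ T ∙ bL 0) →
        LinearMap.toMatrix bL bL (ρ.ρ σ) 1 1 = α :=
  ⟨fun σ hσ => (OrdPoints.toMatrix_one_zero_iff bL _).2 (hbL.1 σ hσ),
    fun σ hσ => OrdPoints.toMatrix_one_one_eq bL fun v => by rw [one_smul]; exact hbL.2 σ hσ v,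
    fun _ _ hα => OrdPoints.toMatrix_one_one_eq bL hα⟩

/-- An ordinary basis moved by a Galois element is ordinary at the moved place, with the conjugate
scalars. -/
theorem exists_ordBasis_conj {bL : Basis (Fin 2) T ρ.V} (hbL : IsOrdBasisAt ρ A bL) (τ : AG) :
    ∃ b' : Basis (Fin 2) T ρ.V, IsOrdBasisAt ρ (τ • A) b' ∧
      ∀ σ, ∀ α : T, (∀ v, ρ.ρ σ v - α • v ∈ T ∙ bL 0) →
        ∀ v, ρ.ρ (τ * σ * τ⁻¹) v - α • v ∈ T ∙ b' 0 := by
  have h1 : ∀ g v, ρ.ρ g (ρ.ρ g⁻¹ v) = v := fun g v => by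
    rw [← Module.End.mul_apply, ← map_mul, mul_inv_cancel, map_one, Module.End.one_apply]
  let e : ρ.V ≃ₗ[T] ρ.V := LinearEquiv.ofLinearMap (ρ.ρ τ) (ρ.ρ τ⁻¹)
    (LinearMap.ext fun v => h1 τ v) (LinearMap.ext fun v => by simp)
  have he : ∀ v, e v = ρ.ρ τ v := fun _ => rfl
  have hmem : ∀ v, v ∈ T ∙ bL 0 → ρ.ρ τ v ∈ T ∙ (bL.map e) 0 := fun v hv => by
    obtain ⟨c, rfl⟩ := Submodule.mem_span_singleton.1 hv
    rw [map_smul, Basis.map_apply, he]
    exact Submodule.smul_mem _ c (Submodule.mem_span_singleton_self _)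
  have hc : ∀ σ v, ρ.ρ (τ * σ * τ⁻¹) v = ρ.ρ τ (ρ.ρ σ (ρ.ρ τ⁻¹ v)) := fun σ v => by
    rw [map_mul, map_mul]; rfl
  refine ⟨bL.map e, ⟨fun σ hσ v hv => ?_, fun σ hσ v => ?_⟩, fun σ α hα v => ?_⟩
  · have hσ' : τ⁻¹ * σ * τ ∈ A.decompositionSubgroup ℚ := by
      have := Gal.conj_mem_decomposition hσ τ⁻¹
      rwa [inv_smul_smul, inv_inv] at this
    obtain ⟨c, rfl⟩ := Submodule.mem_span_singleton.1 hv
    rw [map_smul]
    refine Submodule.smul_mem _ c ?_
    have := hmem _ (hbL.1 _ hσ' _ (Submodule.mem_span_singleton_self _))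
    rwa [← Module.End.mul_apply, ← map_mul, show τ * (τ⁻¹ * σ * τ) = σ * τ by group, map_mul,
      Module.End.mul_apply, ← he, ← Basis.map_apply] at this
  · have hσ' : τ⁻¹ * σ * τ ∈ A.inertiaSubgroupIn ℚ := by
      have := Gal.conj_mem_inertia hσ τ⁻¹
      rwa [inv_smul_smul, inv_inv] at this
    have := hmem _ (hbL.2 _ hσ' (ρ.ρ τ⁻¹ v))
    rwa [map_sub, h1, ← hc, show τ * (τ⁻¹ * σ * τ) * τ⁻¹ = σ by group] at this
  · have := hmem _ (hα (ρ.ρ τ⁻¹ v))
    rwa [map_sub, map_smul, h1, ← hc] at this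

/-- The reduction of an ordinary representation is ordinary. -/
theorem isOrdinaryAt_residual {p : ℕ} (h : ρ.IsOrdinaryAt p) :
    (GaloisRepAdic.ofResidualGaloisRep ρ.residual).IsOrdinaryAt p :=
  Coeff.isOrdinaryAt_baseChange (φ := residue T) inferInstance h

/-- Ordinarity of residual representations passes along equivalences. -/
theorem isOrdinaryAt_residual_congr {k : Type} [Field k] {r r' : ResidualGaloisRep k} {p : ℕ}
    (e : r.IsEquiv r') (h : (GaloisRepAdic.ofResidualGaloisRep r).IsOrdinaryAt p) :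
    (GaloisRepAdic.ofResidualGaloisRep r').IsOrdinaryAt p := fun P hP => by
  obtain ⟨e⟩ := e
  obtain ⟨L, ⟨b, rfl⟩, hD, hI⟩ := h P hP
  let E : (GaloisRepAdic.ofResidualGaloisRep r).V ≃ₗ[k] (GaloisRepAdic.ofResidualGaloisRep r').V :=
    e.toLinearEquiv
  have hE : ∀ σ v, E ((GaloisRepAdic.ofResidualGaloisRep r).ρ σ v) =
      (GaloisRepAdic.ofResidualGaloisRep r').ρ σ (E v) := e.map_apply
  have hmem : ∀ v, v ∈ k ∙ b 0 → E v ∈ k ∙ (b.map E) 0 := fun v hv => by
    obtain ⟨c, rfl⟩ := Submodule.mem_span_singleton.1 hv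
    rw [map_smul, Basis.map_apply]
    exact Submodule.smul_mem _ c (Submodule.mem_span_singleton_self _)
  refine ⟨_, ⟨b.map E, rfl⟩, fun σ hσ v hv => ?_, fun σ hσ v => ?_⟩
  · obtain ⟨c, rfl⟩ := Submodule.mem_span_singleton.1 hv
    rw [map_smul]
    refine Submodule.smul_mem _ c ?_
    have := hmem _ (hD σ hσ _ (Submodule.mem_span_singleton_self _))
    rwa [hE, ← Basis.map_apply] at this
  · obtain ⟨w, rfl⟩ := E.surjective v
    have := hmem _ (hI σ hσ w)
    rwa [map_sub, hE] at this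

variable {O : Type} [CommRing O] [IsLocalRing O] [Algebra O T] [IsLocalHom (algebraMap O T)]
  {ρbar : ResidualGaloisRep (ResidueField O)} {bbar : Basis (Fin 2) (ResidueField O) ρbar.V}
  {hres : Function.Surjective (residue T ∘ algebraMap O T)} {b : Basis (Fin 2) T ρ.V}
  {p : ℕ} [Fact p.Prime] [CharP (ResidueField O) p]

/-- The scalar of an ordinary lift reduces to the corner of any residual frame. -/
theorem toRes_scalar_eq (hb : Adapted bbar hres ρ b) (hA : A.LiesOverPrime p) (hp2 : p ≠ 2)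
    {P P' : M2 (ResidueField O)} (hF : IsOrdFrame p A (rbar bbar) P P')
    {bL : Basis (Fin 2) T ρ.V} (hbL : IsOrdBasisAt ρ A bL)
    {σ : AG} (hσ : σ ∈ A.decompositionSubgroup ℚ) {α : T}
    (hα : ∀ v, ρ.ρ σ v - α • v ∈ T ∙ bL 0) :
    toRes hres α = (P' * rbar bbar σ * P) 1 1 := by
  obtain ⟨hu, hI, hz⟩ := toMatrix_ordBasis hbL
  set Q := b.toMatrix bL
  set Q' := bL.toMatrix b
  have hM : ∀ g, Q' * matrixRep b ρ.ρ g * Q = LinearMap.toMatrix bL bL (ρ.ρ g) := fun g =>
    basis_toMatrix_mul_linearMap_toMatrix_mul_basis_toMatrix bL b bL b (ρ.ρ g)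
  set Q₀ := Q.map (toRes hres) with hQ₀
  set Q₀' := Q'.map (toRes hres) with hQ₀'
  have hm : Q₀ * Q₀' = 1 := by
    rw [← Matrix.map_mul, Basis.toMatrix_mul_toMatrix_flip,
      Matrix.map_one _ (map_zero _) (map_one _)]
  have hm' : Q₀' * Q₀ = 1 := by
    rw [← Matrix.map_mul, Basis.toMatrix_mul_toMatrix_flip,
      Matrix.map_one _ (map_zero _) (map_one _)]
  have hu₀ : ∀ g ∈ A.decompositionSubgroup ℚ, (Q₀' * rbar bbar g * Q₀) 1 0 = 0 := fun g hg => by
    rw [← map_toRes_mul hb, map_apply, hM, hu g hg, map_zero]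
  have hspan := frameE_mem_span_of_unramified hA hp2 hF hm hm' hu₀ fun g hg => by
    rw [← map_toRes_mul hb, map_apply, hM, hI g hg, map_one]
  -- the two frames differ by an upper triangular matrix
  obtain ⟨s, hs⟩ := Submodule.mem_span_singleton.1 hspan
  have h2 := congrArg Subtype.val hs
  rw [Submodule.coe_smul, coe_frameE hF.inv_mul, coe_frameE hm'] at h2
  set S := P' * Q₀ with hS
  have hSS : S * (Q₀' * P) = 1 := by
    rw [hS, mul_assoc, ← mul_assoc Q₀, hm, one_mul, hF.inv_mul]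
  have h3 : (s • !![0, 1; 0, 0] : M2 (ResidueField O)) * S = S * !![0, 1; 0, 0] := by
    calc (s • !![0, 1; 0, 0] : M2 (ResidueField O)) * S
        = P' * (s • (P * !![0, 1; 0, 0] * P')) * Q₀ := by
          rw [mul_smul_comm, smul_mul_assoc, smul_mul_assoc]
          congr 1
          calc !![0, 1; 0, 0] * S = (P' * P) * !![0, 1; 0, 0] * (P' * Q₀) := by
                rw [hF.inv_mul, one_mul]
            _ = _ := by simp only [mul_assoc]
      _ = P' * Q₀ * !![0, 1; 0, 0] * (Q₀' * Q₀) := by rw [h2]; simp only [mul_assoc]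
      _ = S * !![0, 1; 0, 0] := by rw [hm', mul_one]
  have hS10 : S 1 0 = 0 := by
    have := congrFun (congrFun h3 1) 1
    simpa [mul_apply, Fin.sum_univ_two] using this.symm
  obtain ⟨hS'10, -, hS11, -⟩ := conj_upper hSS hS10
  have e : P' * rbar bbar σ * P = S * (Q₀' * rbar bbar σ * Q₀) * (Q₀' * P) := by
    calc P' * rbar bbar σ * P = P' * (Q₀ * Q₀') * rbar bbar σ * (Q₀ * Q₀') * P := by
          rw [hm, mul_one, mul_one]
      _ = _ := by simp only [hS, mul_assoc]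
  have h11 : (Q₀' * rbar bbar σ * Q₀) 1 1 = toRes hres α := by
    rw [← map_toRes_mul hb, map_apply, hM, hz σ α hα]
  have h10 := hu₀ σ hσ
  rw [e]
  generalize Q₀' * rbar bbar σ * Q₀ = N at h10 h11
  generalize Q₀' * P = S' at hS'10 hS11
  simp [mul_apply, Fin.sum_univ_two, hS10, h10, h11]
  linear_combination -(toRes hres α) * hS11

end General

section Curve

variable {p : ℕ} [Fact p.Prime] (C : CoeffRing p) {W : WeierstrassCurve ℤ}
  [(W.map (Int.castRingHom ℚ)).IsElliptic] (F : TateFrame (W.map (Int.castRingHom ℚ)) p)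
  (bbar : Basis (Fin 2) (ResidueField C.O) (curveRbar C (W.map (Int.castRingHom ℚ))).V)
  (hp2 : p ≠ 2) (hΔ0 : W.Δ ≠ 0) (hΔ : (p : ℤ) ∣ W.Δ) (hss : W.IsSemistableModel)
  (hdet : F.ρ.DetIsCyclotomic p)

/-- A basis of the Tate module reducing to a given basis of the torsion. -/
theorem exists_adapted_tateRep :
    ∃ (hres : Function.Surjective (residue C.O ∘ algebraMap C.O C.O))
      (b : Basis (Fin 2) C.O (tateRep C F).V), Adapted bbar hres (tateRep C F) b := by
  have hres : Function.Surjective (residue C.O ∘ algebraMap C.O C.O) := by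
    simpa using residue_surjective (R := C.O)
  obtain ⟨e⟩ := tateRep_residual C F
  obtain ⟨b, hb⟩ := TW.exists_basis_lift (tateRep C F).finrank_eq (bbar.map e.toLinearEquiv.symm)
  refine ⟨hres, b, fun σ => ?_⟩
  have h1 := matrixRep_baseChange (tateRep C F).ρ (tateRep C F).residual.ρ (fun _ => rfl) b σ
  rw [hb] at h1
  have h2 : matrixRep (bbar.map e.toLinearEquiv.symm) (tateRep C F).residual.ρ σ = rbar bbar σ :=
    matrixRep_map _ (tateRep C F).residual.ρ e.toLinearEquiv.symm e.symm.map_apply bbar σ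
  have h5 := h2.symm.trans h1
  ext i j
  have h4 := congrFun (congrFun h5 i) j
  simp only [map_apply] at h4 ⊢
  rw [h4]
  exact toRes_algebraMap hres _

include hp2 hΔ0 hΔ hss hdet

omit [(W.map (Int.castRingHom ℚ)).IsElliptic] in
/-- The Tate module over the coefficient ring is strictly ordinary at `p`. -/
theorem isStrictOrdinaryAt_tateRep : (tateRep C F).IsStrictOrdinaryAt p :=
  TW.isStrictOrdinaryAt_baseChange _ (F.isStrictOrdinaryAt hp2 hΔ0 hΔ (hss p Fact.out hΔ) hdet)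

/-- **The residual frame at `p`.** -/
theorem exists_ordFrame_curveRbar :
    ∃ P P' : M2 (ResidueField C.O),
      IsOrdFrame p (padicPlace ((pP p : Nat.Primes) : ℕ)) (rbar bbar) P P' := by
  obtain ⟨hres, b, hb⟩ := exists_adapted_tateRep C F bbar
  exact TW.exists_ordFrame hb padicPlace_liesOverPrime
    (isStrictOrdinaryAt_tateRep C F hp2 hΔ0 hΔ hss hdet)

/-- The torsion over the residue field is ordinary at `p`. -/
theorem isOrdinaryAt_curveRbar :
    (GaloisRepAdic.ofResidualGaloisRep (curveRbar C (W.map (Int.castRingHom ℚ)))).IsOrdinaryAt p :=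
  isOrdinaryAt_residual_congr (tateRep_residual C F)
    (isOrdinaryAt_residual (isStrictOrdinaryAt_tateRep C F hp2 hΔ0 hΔ hss hdet).isOrdinaryAt)

omit [(W.map (Int.castRingHom ℚ)).IsElliptic] hdet in
/-- The Tate module over the coefficient ring is new at `p`. -/
theorem isNewAtP_tateRep : IsNewAtP (tateRep C F) p := by
  intro A hA
  have hc₄ := hss p Fact.out hΔ
  obtain ⟨b, hb⟩ := F.exists_basis_e0Line hA hΔ0 hΔ hc₄ hp2
  let : Algebra ℤ_[p] C.O := (algebraMap ℤ_[p] C.O).toAlgebra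
  let bc : Basis (Fin 2) C.O (TensorProduct ℤ_[p] C.O F.ρ.V) :=
    Algebra.TensorProduct.basis C.O b
  have hb0 : bc 0 = (1 : C.O) ⊗ₜ[ℤ_[p]] b 0 := Algebra.TensorProduct.basis_apply b 0
  have hmem : ∀ (c : C.O), ∀ l ∈ ℤ_[p] ∙ b 0, c ⊗ₜ[ℤ_[p]] l ∈ C.O ∙ bc 0 := fun c l hl => by
    obtain ⟨a, rfl⟩ := Submodule.mem_span_singleton.1 hl
    refine Submodule.mem_span_singleton.2 ⟨a • c, ?_⟩
    rw [hb0, TensorProduct.smul_tmul', smul_eq_mul, mul_one, TensorProduct.smul_tmul]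
  have hkey : ∀ (σ : AG) (z : ℤ_[p]), (∀ v, F.ρ.ρ σ v - z • v ∈ ℤ_[p] ∙ b 0) →
      ∀ v : TensorProduct ℤ_[p] C.O F.ρ.V,
        (F.ρ.ρ σ).baseChange C.O v - algebraMap ℤ_[p] C.O z • v ∈ C.O ∙ bc 0 := fun σ z hz v => by
    induction v using TensorProduct.induction_on with
    | zero => simp
    | tmul c w =>
      rw [LinearMap.baseChange_tmul, algebraMap_smul, ← TensorProduct.tmul_smul,
        ← TensorProduct.tmul_sub]
      exact hmem c _ (hz w)
    | add v w hv hw => rw [map_add, smul_add, add_sub_add_comm]; exact add_mem hv hw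
  refine ⟨bc, ⟨fun σ hσ (v : TensorProduct ℤ_[p] C.O F.ρ.V) hv => ?_,
    fun σ hσ (v : TensorProduct ℤ_[p] C.O F.ρ.V) => ?_⟩, fun σ hσ => ?_⟩
  · obtain ⟨c, rfl⟩ := (Submodule.mem_span_singleton (R := C.O)
      (M := TensorProduct ℤ_[p] C.O F.ρ.V) (y := bc 0)).1 hv
    change (F.ρ.ρ σ).baseChange C.O (c • bc 0) ∈ C.O ∙ bc 0
    rw [map_smul, hb0, LinearMap.baseChange_tmul, ← hb0]
    refine Submodule.smul_mem _ c (hmem 1 _ (hb ▸ F.apply_mem_e0Line hA hΔ0 hΔ hc₄ hσ ?_))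
    rw [hb]
    exact Submodule.mem_span_singleton_self _
  · change (F.ρ.ρ σ).baseChange C.O v - v ∈ C.O ∙ bc 0
    obtain ⟨z, -, hz1, hz⟩ := F.exists_sign_e0Line hA hΔ0 hΔ hc₄ hp2
      (Gal.mem_inertia_iff.1 hσ).1
    have := hkey σ z (fun w => hb ▸ hz w) v
    rwa [hz1 hσ, map_one, one_smul] at this
  · obtain ⟨z, hz2, -, hz⟩ := F.exists_sign_e0Line hA hΔ0 hΔ hc₄ hp2
      (Gal.isFrobeniusAt_iff.1 hσ).1
    refine ⟨algebraMap ℤ_[p] C.O z, ?_, fun v => hkey σ z (fun w => hb ▸ hz w) v⟩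
    rcases mul_self_eq_one_iff.1 hz2 with h | h
    · exact Or.inl (by rw [h, map_one])
    · exact Or.inr (by rw [h, map_neg, map_one])

/-- **The sign at `p`**: the Tate module has it as unit root, and every ordinary lift reduces
to it. -/
theorem exists_sign_curve : ∃ ε : C.O, (ε = 1 ∨ ε = -1) ∧
    (∀ A : ValuationSubring Qbar, A.LiesOverPrime p → ∃ bL : Basis (Fin 2) C.O (tateRep C F).V,
      IsOrdBasisAt (tateRep C F) A bL ∧ ∀ σ, A.IsFrobeniusAt σ p →
        ∀ v, (tateRep C F).ρ σ v - ε • v ∈ C.O ∙ bL 0) ∧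
    ∀ {R : Type} [CommRing R] [IsLocalRing R] [Algebra C.O R] [IsLocalHom (algebraMap C.O R)]
      {hres : Function.Surjective (residue R ∘ algebraMap C.O R)} {ρ : GaloisRepAdic R}
      {b : Basis (Fin 2) R ρ.V}, Adapted bbar hres ρ b →
      ∀ A : ValuationSubring Qbar, A.LiesOverPrime p → ∀ bL : Basis (Fin 2) R ρ.V,
        IsOrdBasisAt ρ A bL → ∀ σ, A.IsFrobeniusAt σ p → ∀ α : R,
          (∀ v, ρ.ρ σ v - α • v ∈ R ∙ bL 0) →
            α - algebraMap C.O R ε ∈ maximalIdeal R ∧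
              ((α = 1 ∨ α = -1) → α = algebraMap C.O R ε) := by
  have hp : p.Prime := Fact.out
  set A₀ := padicPlace ((pP p : Nat.Primes) : ℕ)
  have hA₀ : A₀.LiesOverPrime p := padicPlace_liesOverPrime
  obtain ⟨P, P', hF⟩ := exists_ordFrame_curveRbar C F bbar hp2 hΔ0 hΔ hss hdet
  obtain ⟨Φ, hΦ⟩ := Gal.exists_isFrobeniusAt (A := A₀) hp hA₀
  have hΦD := (Gal.isFrobeniusAt_iff.1 hΦ).1
  -- the corner at a Frobenius element does not depend on it
  have hcorner : ∀ σ, A₀.IsFrobeniusAt σ p →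
      (P' * rbar bbar σ * P) 1 1 = (P' * rbar bbar Φ * P) 1 1 := fun σ hσ => by
    have hI := Gal.inv_mul_mem_inertia hΦ hσ
    have e : P' * rbar bbar σ * P =
        (P' * rbar bbar Φ * P) * (P' * rbar bbar (Φ⁻¹ * σ) * P) := by
      conv_lhs => rw [← mul_inv_cancel_left Φ σ, map_mul]
      calc P' * (rbar bbar Φ * rbar bbar (Φ⁻¹ * σ)) * P
          = P' * rbar bbar Φ * (P * P') * rbar bbar (Φ⁻¹ * σ) * P := by
            rw [hF.mul_inv, mul_one]; simp only [mul_assoc]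
        _ = _ := by simp only [mul_assoc]
    rw [e, mul_apply, Fin.sum_univ_two, hF.upper Φ hΦD, hF.unram _ hI, zero_mul, zero_add, mul_one]
  -- every ordinary lift reduces to that corner
  have hlift : ∀ {R : Type} [CommRing R] [IsLocalRing R] [Algebra C.O R]
      [IsLocalHom (algebraMap C.O R)]
      {hres : Function.Surjective (residue R ∘ algebraMap C.O R)} {ρ : GaloisRepAdic R}
      {b : Basis (Fin 2) R ρ.V}, Adapted bbar hres ρ b →
      ∀ A : ValuationSubring Qbar, A.LiesOverPrime p → ∀ bL : Basis (Fin 2) R ρ.V,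
        IsOrdBasisAt ρ A bL → ∀ σ, A.IsFrobeniusAt σ p → ∀ α : R,
          (∀ v, ρ.ρ σ v - α • v ∈ R ∙ bL 0) →
            toRes hres α = (P' * rbar bbar Φ * P) 1 1 := by
    intro R _ _ _ _ hres ρ b hb A hA bL hbL σ hσ α hα
    obtain ⟨τ, hτ⟩ := Gal.exists_smul_eq hp hA hA₀
    obtain ⟨b', hb', hsc⟩ := exists_ordBasis_conj hbL τ
    rw [hτ] at hb'
    have hσ' := Gal.isFrobeniusAt_conj hσ τ
    rw [hτ] at hσ'
    exact (toRes_scalar_eq hb hA₀ hp2 hF hb' (Gal.isFrobeniusAt_iff.1 hσ').1 (hsc σ α hα)).trans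
      (hcorner _ hσ')
  obtain ⟨hres, b, hb⟩ := exists_adapted_tateRep C F bbar
  have hnew := isNewAtP_tateRep C F hp2 hΔ0 hΔ hss
  obtain ⟨b₀, hb₀, hz⟩ := hnew A₀ hA₀
  obtain ⟨ε, hε, hεα⟩ := hz Φ hΦ
  have hεc : toRes hres ε = (P' * rbar bbar Φ * P) 1 1 := hlift hb A₀ hA₀ b₀ hb₀ Φ hΦ ε hεα
  have hεc' : residue C.O ε = (P' * rbar bbar Φ * P) 1 1 :=
    (toRes_algebraMap hres ε).symm.trans hεc
  have h2 : (2 : ResidueField C.O) ≠ 0 := fun h => hp2 ((Nat.prime_dvd_prime_iff_eq hp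
    Nat.prime_two).1 ((CharP.cast_eq_zero_iff (ResidueField C.O) p 2).1 (by simpa using h)))
  -- signs with the same reduction are equal
  have hsign : ∀ {R : Type} [CommRing R] [IsLocalRing R] [Algebra C.O R]
      [IsLocalHom (algebraMap C.O R)] (hres : Function.Surjective (residue R ∘ algebraMap C.O R))
      (α : R), (α = 1 ∨ α = -1) → toRes hres α = residue C.O ε → α = algebraMap C.O R ε := by
    intro R _ _ _ _ hres α hα he
    rcases hα with rfl | rfl <;> rcases hε with rfl | rfl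
    · rw [map_one]
    · exfalso
      rw [map_one, map_neg, map_one] at he
      exact h2 (by linear_combination he)
    · exfalso
      rw [map_neg, map_one, map_one] at he
      exact h2 (by linear_combination -he)
    · rw [map_neg, map_one]
  refine ⟨ε, hε, fun A hA => ?_, fun {R} _ _ _ _ {hresR ρ bR} hbR A hA bL hbL σ hσ α hα => ?_⟩
  · obtain ⟨bL, hbL, hzA⟩ := hnew A hA
    refine ⟨bL, hbL, fun σ hσ => ?_⟩
    obtain ⟨α, hα1, hα⟩ := hzA σ hσ
    rw [show ε = α from (hsign hres α hα1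
      ((hlift hb A hA bL hbL σ hσ α hα).trans hεc'.symm)).symm]
    exact hα
  · have h := (hlift hbR A hA bL hbL σ hσ α hα).trans hεc'.symm
    refine ⟨?_, fun hα1 => hsign hresR α hα1 h⟩
    rw [← toRes_eq_zero_iff hresR, map_sub, toRes_algebraMap, h, sub_self]

end Curve

end Fermat.Agent.Raising.AtResidualPrime

end
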