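import Fermat.Agent.Flat.Assembly

/-!
# A model whose functions respect congruences of the coordinates

The functions of the finite flat model are coefficients of the coordinates on the auxiliary étale
set, so they take congruent values at two points with congruent coordinates.
-/

noncomputable section

namespace Fermat.Agent.Raising.AtResidualPrime

open Fermat.Agent.Flat Fermat.Agent.Flat.GoodModel Module
open scoped TensorProduct

local notation "Qbar" => AlgebraicClosure ℚ
local notation "Gal0" => (AlgebraicClosure ℚ ≃ₐ[ℚ] AlgebraicClosure ℚ)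

variable {ℓ : ℕ} [Fact ℓ.Prime] (E : EtaleSet ℓ)

/-- Equivariant integral separating coordinates give a model whose functions take congruent values
at points with congruent coordinates. -/
theorem exists_congrModel {M : Type} [AddCommGroup M] {act : Gal0 → M → M} {n : Type}
    (F : n → M × E.Θ → Qbar)
    (hFeq : ∀ i, IsEquiv (fun (σ : Gal0) (p : M × E.Θ) => (act σ p.1, E.act σ p.2)) (F i))
    (hFint : ∀ i p, IsIntegral (Zl ℓ) (F i p))
    (hsep : ∀ a a' : M, (∀ i θ, F i (a, θ) = F i (a', θ)) → a = a')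
    (hreg : ∀ K : Subalgebra (Zl ℓ) ((M × M) × E.Θ → Qbar),
      (∀ f ∈ K, ∀ p, IsIntegral (Zl ℓ) (f p)) →
      (∀ i, (fun p => F i (p.1.1, p.2)) ∈ K) → (∀ i, (fun p => F i (p.1.2, p.2)) ∈ K) →
      (∀ f ∈ E.B, (fun p => f p.2) ∈ K) → ∀ i, (fun p => F i (p.1.1 + p.1.2, p.2)) ∈ K) :
    ∃ H : Subalgebra (Zl ℓ) (M → Qbar), IsModelAlg ℓ M act H ∧
      ∀ (v : Pl ℓ) (a a' : M), (∀ i θ, red v.A (F i (a, θ)) = red v.A (F i (a', θ))) →
        ∀ f ∈ H, red v.A (f a) = red v.A (f a') := by
  classical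
  obtain ⟨ι, iι, dι, b, hb, hspan⟩ := E.exists_basis
  choose y hye hyi hy using fun i => E.exists_coeff (act := act) b hb hspan (hFeq i) (hFint i)
  set H : Subalgebra (Zl ℓ) (M → Qbar) :=
    Algebra.adjoin (Zl ℓ) (Set.range fun p : n × ι => y p.1 p.2)
  have hH : IsModelAlg ℓ M act H :=
    E.isModelAlg_adjoin_coeff b hb hye hyi hy hsep fun K hK _ => hreg K hK
  refine ⟨H, hH, fun v a a' h f hf => ?_⟩
  have hint : ∀ g ∈ H, ∀ c, g c ∈ v.A := fun g hg c => isIntegral_mem v (hH.integral g hg c)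
  induction hf using Algebra.adjoin_induction with
  | mem x hx =>
    obtain ⟨⟨i, j⟩, rfl⟩ := hx
    have hbA : ∀ j θ, (b j : E.Θ → Qbar) θ ∈ v.A :=
      fun j θ => isIntegral_mem v (E.integral _ (b j).2 θ)
    have hyA : ∀ l c, y i l c ∈ v.A := fun l c => isIntegral_mem v (hyi i l c)
    have h0 : ∑ l, (red v.A (y i l a) - red v.A (y i l a')) •
        (fun θ => red v.A ((b l : E.Θ → Qbar) θ)) = 0 := by
      funext θ
      have h1 := h i θ
      rw [hy, hy, red_sum fun l _ => v.A.mul_mem _ _ (hyA l a) (hbA l θ),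
        red_sum fun l _ => v.A.mul_mem _ _ (hyA l a') (hbA l θ)] at h1
      simp only [Finset.sum_apply, Pi.smul_apply, Pi.zero_apply, smul_eq_mul, sub_mul,
        Finset.sum_sub_distrib]
      rw [sub_eq_zero]
      refine Eq.trans ?_ (h1.trans ?_)
      · exact Finset.sum_congr rfl fun l _ => (red_mul (hyA l a) (hbA l θ)).symm
      · exact Finset.sum_congr rfl fun l _ => red_mul (hyA l a') (hbA l θ)
    exact sub_eq_zero.mp
      (Fintype.linearIndependent_iff.mp (E.red_basis_indep v b hb hspan) _ h0 j)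
  | algebraMap z => rfl
  | add x x' hx0 hx0' hx hx' =>
    simp only [Pi.add_apply]
    rw [red_add (hint x hx0 a) (hint x' hx0' a), red_add (hint x hx0 a') (hint x' hx0' a'), hx,
      hx']
  | mul x x' hx0 hx0' hx hx' =>
    simp only [Pi.mul_apply]
    rw [red_mul (hint x hx0 a) (hint x' hx0' a), red_mul (hint x hx0 a') (hint x' hx0' a'), hx,
      hx']

variable {C : GoodModel ℓ}

/-- The flat model of a module of classes, with congruences. -/
theorem exists_classModel (D : C.ClassData) :
    ∃ (X : Aux D) (H : Subalgebra (Zl ℓ) (D.M → Qbar)), IsModelAlg ℓ D.M D.act H ∧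
      ∀ (v : Pl ℓ) (a a' : D.M),
        (∀ θ i j, red v.A (X.coord a θ i j) = red v.A (X.coord a' θ i j)) →
        ∀ f ∈ H, red v.A (f a) = red v.A (f a') := by
  classical
  obtain ⟨X⟩ := D.exists_aux
  obtain ⟨H, hH, hc⟩ := exists_congrModel X.etale (act := D.act)
    (n := C.Idx C.chartDeg × C.Idx C.chartDeg)
    (fun ij p => X.coord p.1 p.2 ij.1 ij.2) (fun ij σ p => by
      show X.coord (D.act σ p.1) (X.actΘ σ p.2) ij.1 ij.2 = σ (X.coord p.1 p.2 ij.1 ij.2)
      rw [X.coord_act, Matrix.map_apply])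
    (fun ij p => X.coord_integral _ _ _ _)
    (fun a a' h => X.coord_separates a a' fun θ => by ext i j; exact h (i, j) θ)
    (fun K hKint h1 h2 hB ij => X.coord_add_mem hKint h1 h2 hB ij)
  exact ⟨X, H, hH, fun v a a' h => hc v a a' fun ij θ => h θ ij.1 ij.2⟩

end Fermat.Agent.Raising.AtResidualPrime
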