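import Fermat.Agent.Raising.AtResidualPrime.RedSpace

/-!
# Coordinates of classes with equal reduction

If two torsion classes have the same image in the special Jacobian, their representatives reduce to
the same ideal, so their coordinates on the auxiliary étale set are congruent.
-/

noncomputable section

namespace Fermat.Agent.Raising.AtResidualPrime

open ModularCurve AlgebraicCurve Module Fermat.Agent.Flat Fermat.Agent.Flat.GoodModel
open Fermat.Agent.FF
open scoped TensorProduct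

local notation "Qbar" => AlgebraicClosure ℚ

section Rigid

variable {K R : Type*} [Field K] [IsAlgClosed K] [CommRing R] [Algebra K R] [IsDedekindDomain R]
  (P : PoleBasis K R)

/-- Two ideals of the same codimension with a good common complement class are equal. -/
theorem eq_of_good {I J Y : Ideal R} {a b : R} (hI : I ≠ ⊥) (hJ : J ≠ ⊥) (hY : Y ≠ ⊥)
    (ha : a ≠ 0) (hb : b ≠ 0) (hIY : I * Y = Ideal.span {b})
    (hrel : Ideal.span {b} * J = Ideal.span {a} * I) (hcI : P.codim I = P.g)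
    (hcJ : P.codim J = P.g) (hgood : P.GOOD Y) : J = I := by
  have hJY : J * Y = Ideal.span {a} := by
    refine mul_left_cancel₀ (show Ideal.span {b} ≠ (⊥ : Ideal R) by simpa using hb) ?_
    rw [← mul_assoc, hrel, mul_assoc, hIY, mul_comm]
  have hbY : b ∈ Y :=
    (Ideal.mul_le_right : I * Y ≤ Y) (by rw [hIY]; exact Ideal.mem_span_singleton_self b)
  have haY : a ∈ Y :=
    (Ideal.mul_le_right : J * Y ≤ Y) (by rw [hJY]; exact Ideal.mem_span_singleton_self a)
  have hdb : P.deg b = P.codim Y + P.g := by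
    rw [← P.codim_span_singleton hb, ← hIY, P.codim_mul hI hY, hcI, add_comm]
  have hda : P.deg a = P.codim Y + P.g := by
    rw [← P.codim_span_singleton ha, ← hJY, P.codim_mul hJ hY, hcJ, add_comm]
  have hma : a ∈ P.LI Y (P.codim Y + P.g) := ⟨haY, P.deg_le_iff.mp hda.le⟩
  have hmb : b ∈ P.LI Y (P.codim Y + P.g) := ⟨hbY, P.deg_le_iff.mp hdb.le⟩
  obtain ⟨t, ht⟩ := (finrank_eq_one_iff_of_nonzero' (⟨b, hmb⟩ : P.LI Y (P.codim Y + P.g))
    (fun h0 => hb (congrArg Subtype.val h0))).mp (PoleBasis.GOOD.finrank_LI P hY hgood) ⟨a, hma⟩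
  have ht' : t • b = a := congrArg Subtype.val ht
  have ht0 : t ≠ 0 := fun h0 => ha (by rw [← ht', h0, zero_smul])
  have hspan : Ideal.span {a} = Ideal.span {b} := by
    rw [← ht', Algebra.smul_def]
    exact Ideal.span_singleton_mul_left_unit ((IsUnit.mk0 t ht0).map (algebraMap K R)) b
  exact mul_right_cancel₀ hY (by rw [hJY, hIY, hspan])

end Rigid

variable {N : ℕ} [NeZero N] {ℓ : ℕ} [Fact ℓ.Prime] {hℓN : ¬ ℓ ∣ N}
  {hg : ∀ v : Pl ℓ, Mdl.GenusLe N v} (v : Pl ℓ)

/-- Ideals of codimension `g` with linearly equivalent reduced divisors reduce to the same ideal. -/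
theorem redI_eq_of_equiv
    {r : Place Qbar (modularFunctionFieldBar N) → Place v.k (modularFunctionFieldFullC v.k N)}
    (hr : IsPlaceReductionAlong v.A (IsLocalRing.residue v.O) N r)
    {I J : Ideal ((Mdl.model hℓN hg).R Qbar)} {E E' : Divisor Qbar (modularFunctionFieldBar N)}
    (hE : AC.Off (Mdl.Pinf N) E) (hE' : AC.Off (Mdl.Pinf N) E')
    (hI : I = Mdl.idealOf hℓN hg E) (hJ : J = Mdl.idealOf hℓN hg E')
    (hdE : Divisor.degree E = (((Mdl.model hℓN hg).P Qbar).codim I : ℤ))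
    (hdE' : Divisor.degree E' = (((Mdl.model hℓN hg).P Qbar).codim J : ℤ))
    (hcI : ((Mdl.model hℓN hg).P Qbar).codim I = (Mdl.model hℓN hg).g)
    (hcJ : ((Mdl.model hℓN hg).P Qbar).codim J = (Mdl.model hℓN hg).g)
    (hAI : AFF v I) (hAJ : AFF v J) (hgood : GoodInv v I)
    {h : modularFunctionFieldFullC v.k N} (hh : h ≠ 0)
    (hdiv : Finsupp.mapDomain r E - Finsupp.mapDomain r E' = divOf h) :
    redI v J = redI v I := by
  classical
  subst hI hJ
  have := ((Mdl.model hℓN hg).P v.k).noZeroDivisors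
  have := ((Mdl.model hℓN hg).P v.k).nontrivial
  set I := Mdl.idealOf hℓN hg E
  set J := Mdl.idealOf hℓN hg E'
  -- multiplication by `h` between the spaces
  have hmul : ∀ (n : ℕ) (c : modularFunctionFieldFullC v.k N) (F F' : Divisor Qbar
      (modularFunctionFieldBar N)), c ≠ 0 →
      Finsupp.mapDomain r F - Finsupp.mapDomain r F' = divOf c →
      ∀ f ∈ riemannRochSpace (Finsupp.mapDomain r (AC.nP (Mdl.Pinf N) n - F')),
        c * f ∈ riemannRochSpace (Finsupp.mapDomain r (AC.nP (Mdl.Pinf N) n - F)) := by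
    intro n c F F' hc hcd f hf
    rcases eq_or_ne f 0 with rfl | hf0
    · rw [mul_zero]; exact Submodule.zero_mem _
    rw [mem_rrSpace_of_ord (mul_ne_zero hc hf0)]
    intro Q
    have h1 := (mem_rrSpace_of_ord hf0).mp hf Q
    have h2 := congrArg (fun D : Divisor v.k (modularFunctionFieldFullC v.k N) => D Q) hcd
    simp only [Finsupp.sub_apply, divOf_apply] at h2
    rw [Finsupp.mapDomain_sub, Finsupp.sub_apply] at h1 ⊢
    rw [Q.ord_mul hc hf0]
    omega
  have hpartner : ∀ (c : modularFunctionFieldFullC v.k N) (F F' : Divisor Qbar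
      (modularFunctionFieldBar N)), c ≠ 0 →
      Finsupp.mapDomain r F - Finsupp.mapDomain r F' = divOf c →
      AC.Off (Mdl.Pinf N) F → AC.Off (Mdl.Pinf N) F' →
      AFF v (Mdl.idealOf hℓN hg F) → AFF v (Mdl.idealOf hℓN hg F') →
      Divisor.degree F = (((Mdl.model hℓN hg).P Qbar).codim (Mdl.idealOf hℓN hg F) : ℤ) →
      Divisor.degree F' = (((Mdl.model hℓN hg).P Qbar).codim (Mdl.idealOf hℓN hg F') : ℤ) →
      ((Mdl.model hℓN hg).P Qbar).codim (Mdl.idealOf hℓN hg F) = (Mdl.model hℓN hg).g →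
      ((Mdl.model hℓN hg).P Qbar).codim (Mdl.idealOf hℓN hg F') = (Mdl.model hℓN hg).g →
      ∀ z ∈ redI v (Mdl.idealOf hℓN hg F'), ∃ z' ∈ redI v (Mdl.idealOf hℓN hg F),
        specFun hℓN hg v z' = c * specFun hℓN hg v z := by
    intro c F F' hc hcd hF hF' hA hA' hd hd' hc1 hc2 z hz
    set n := max (((Mdl.model hℓN hg).P v.k).deg z) (4 * (Mdl.model hℓN hg).g)
    have h1 : specFun hℓN hg v z ∈ redSpace hℓN hg v (Mdl.idealOf hℓN hg F') n :=
      ⟨z, ⟨hz, ((Mdl.model hℓN hg).P v.k).deg_le_iff.mp (le_max_left _ _)⟩, rfl⟩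
    rw [redSpace_eq hℓN hg v hr hF' hA' hd' (by omega)] at h1
    have h2 := hmul n c F F' hc hcd _ h1
    rw [← redSpace_eq hℓN hg v hr hF hA hd (by omega)] at h2
    obtain ⟨z', hz', e⟩ := h2
    exact ⟨z', hz'.1, e⟩
  have hdiv' : Finsupp.mapDomain r E' - Finsupp.mapDomain r E = divOf h⁻¹ := by
    rw [← neg_sub, hdiv]
    ext Q
    rw [Finsupp.neg_apply, divOf_apply, divOf_apply, Place.ord_inv]
  have hto := hpartner h E E' hh hdiv hE hE' hAI hAJ hdE hdE' hcI hcJ
  have hfrom := hpartner h⁻¹ E' E (inv_ne_zero hh) hdiv' hE' hE hAJ hAI hdE' hdE hcJ hcI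
  obtain ⟨a, haJ, ha0⟩ := Submodule.exists_mem_ne_zero_of_ne_bot (redI_ne_bot v hAJ.1)
  obtain ⟨b, hbI, hab⟩ := hto a haJ
  have hb0 : b ≠ 0 := fun h0 => ha0 (specFun_injective hℓN hg v (by
    rw [h0, map_zero] at hab
    rw [map_zero]
    exact (mul_eq_zero.mp hab.symm).resolve_left hh))
  have hrel : Ideal.span {b} * redI v J = Ideal.span {a} * redI v I := by
    ext w
    rw [Ideal.mem_span_singleton_mul, Ideal.mem_span_singleton_mul]
    constructor
    · rintro ⟨z, hz, rfl⟩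
      obtain ⟨z', hz', e⟩ := hto z hz
      refine ⟨z', hz', specFun_injective hℓN hg v ?_⟩
      rw [specFun_mul, specFun_mul, e, hab]
      ring
    · rintro ⟨z', hz', rfl⟩
      obtain ⟨z, hz, e⟩ := hfrom z' hz'
      refine ⟨z, hz, specFun_injective hℓN hg v ?_⟩
      rw [specFun_mul, specFun_mul, e, hab]
      field_simp
  obtain ⟨Y, hY⟩ := exists_complement (C := Mdl.model hℓN hg) hbI
  have hY0 : Y ≠ ⊥ := fun h0 => by
    rw [h0, Ideal.mul_bot, Ideal.span_singleton_eq_bot] at hY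
    exact hb0 hY
  refine eq_of_good _ (redI_ne_bot v hAI.1) (redI_ne_bot v hAJ.1) hY0 ha0 hb0 hY.symm hrel ?_ ?_
    (hgood Y hY0 b hb0 hY.symm)
  · rw [hAI.2, hcI, (Mdl.model hℓN hg).P_g v.k]
  · rw [hAJ.2, hcJ, (Mdl.model hℓN hg).P_g v.k]

variable {k : ℕ}

/-- The point of the Jacobian underlying a class. -/
def toJ (a : (Mdl.classData hℓN hg k).M) : JZero N :=
  Subtype.val (show ↥(Submodule.torsionBy ℤ (JZero N) ((ℓ : ℤ) ^ k)) from a)

variable (X : Aux (Mdl.classData hℓN hg k))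

/-- The divisor of a representative. -/
theorem exists_rep_divisor (a : (Mdl.classData hℓN hg k).M) (θ : X.Θ) :
    ∃ E Eθ, AC.Off (Mdl.Pinf N) E ∧ AC.Off (Mdl.Pinf N) Eθ ∧
      X.rep a θ = Mdl.idealOf hℓN hg E ∧ ptIdeal (X.pts θ) = Mdl.idealOf hℓN hg Eθ ∧
      Divisor.degree E = (((Mdl.model hℓN hg).P Qbar).codim (X.rep a θ) : ℤ) ∧
      Mdl.cls N (E + Eθ) = (toJ a) := by
  obtain ⟨h0, -, hrel⟩ := X.rep_spec a θ
  obtain ⟨v⟩ := EtaleSet.exists_place (ℓ := ℓ)
  obtain ⟨E, hE, hEI, hdeg⟩ := exists_idealOf hℓN hg h0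
  obtain ⟨Eθ, hEθ, hEθI, -⟩ := exists_idealOf hℓN hg (aff_ptIdeal v (X.pts θ)).1.1
  refine ⟨E, Eθ, hE, hEθ, hEI, hEθI, hdeg, ?_⟩
  obtain ⟨hJ, hJcls⟩ := (Mdl.exists_cls (N := N) (toJ a)).choose_spec
  rw [hEI, hEθI, ← Mdl.idealOf_add hℓN hg hE hEθ] at hrel
  refine (Mdl.cls_eq_iff.mpr (AC.principal_of_lin (hE.add hEθ) hJ
    (Mdl.lin_of_rel hℓN hg hrel))).trans hJcls

/-- **Equal reductions give congruent coordinates.** -/
theorem coord_congr (hin : ReductionInputsModL v.A N) {a b : (Mdl.classData hℓN hg k).M}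
    (hab : reductionModL v.A N (toJ a) = reductionModL v.A N (toJ b)) (θ : X.Θ)
    (i j : (Mdl.model hℓN hg).Idx (Mdl.model hℓN hg).chartDeg) :
    red v.A (X.coord a θ i j) = red v.A (X.coord b θ i j) := by
  classical
  obtain ⟨Ea, Eθ, hEa, hEθ, hIa, hIθ, hda, hca⟩ := exists_rep_divisor X a θ
  obtain ⟨Eb, Eθ', hEb, hEθ', hIb, hIθ', hdb, hcb⟩ := exists_rep_divisor X b θ
  have hEE : Eθ' = Eθ := by
    have e : Mdl.idealOf hℓN hg Eθ' = Mdl.idealOf hℓN hg Eθ := hIθ'.symm.trans hIθ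
    have e' : ∀ x, x ∈ AC.divIdeal (Mdl.Pinf N) Eθ' ↔ x ∈ AC.divIdeal (Mdl.Pinf N) Eθ := fun x => by
      have := SetLike.ext_iff.mp e ((Mdl.genEquiv hℓN hg).symm x)
      rwa [Mdl.mem_idealOf, Mdl.mem_idealOf, (Mdl.genEquiv hℓN hg).apply_symm_apply] at this
    exact le_antisymm (AC.le_of_divIdeal_le hEθ hEθ' fun x hx => (e' x).mpr hx)
      (AC.le_of_divIdeal_le hEθ' hEθ fun x hx => (e' x).mp hx)
  subst hEE
  have hprin : Finsupp.mapDomain (placeReductionModL hin)
      (AC.norm0 (Mdl.Pinf N) (Ea + Eθ') - AC.norm0 (Mdl.Pinf N) (Eb + Eθ')) ∈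
      Divisor.principal (K := v.k) (F := modularFunctionFieldFullC v.k N) := by
    rw [Finsupp.mapDomain_sub]
    rw [← hca, ← hcb, Mdl.cls, Mdl.cls, reductionModL_mk hin, reductionModL_mk hin] at hab
    have h := AddSubgroup.mem_addSubgroupOf.mp (QuotientAddGroup.eq_iff_sub_mem.mp hab)
    exact h
  have hnorm : AC.norm0 (Mdl.Pinf N) (Ea + Eθ') - AC.norm0 (Mdl.Pinf N) (Eb + Eθ') = Ea - Eb := by
    rw [AC.norm0, AC.norm0, map_add, map_add, hda, hdb, (X.rep_spec a θ).2.1,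
      (X.rep_spec b θ).2.1]
    abel
  rw [hnorm, Finsupp.mapDomain_sub] at hprin
  obtain ⟨h, hh, hord⟩ := hprin
  have hdiv : Finsupp.mapDomain (placeReductionModL hin) Ea -
      Finsupp.mapDomain (placeReductionModL hin) Eb = divOf h := Finsupp.ext fun Q => hord Q
  have hred : redI v (X.rep b θ) = redI v (X.rep a θ) :=
    redI_eq_of_equiv v (isPlaceReductionModL_placeReductionModL hin) hEa hEb hIa hIb hda hdb
      (X.rep_spec a θ).2.1 (X.rep_spec b θ).2.1 (X.rep_aff v a θ).1 (X.rep_aff v b θ).1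
      (X.rep_aff v a θ).2 hh hdiv
  have hU : redSub v.A (X.U b θ) = redSub v.A (X.U a θ) := by
    show redSub v.A ((Mdl.model hℓN hg).vLI Qbar (X.rep b θ) _) =
      redSub v.A ((Mdl.model hℓN hg).vLI Qbar (X.rep a θ) _)
    have hc := (X.rep_spec a θ).2.1
    have hc' := (X.rep_spec b θ).2.1
    rw [(X.rep_aff v b θ).1.redSub_vLI (by rw [hc']; unfold chartDeg; omega),
      (X.rep_aff v a θ).1.redSub_vLI (by rw [hc]; unfold chartDeg; omega), hred]
  obtain ⟨-, -, hdisj⟩ := X.general_position v a θ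
  set e : (Mdl.model hℓN hg).Idx (Mdl.model hℓN hg).chartDeg → Qbar := Pi.single j 1
  have hemem : ∀ s, e s ∈ v.A := fun s => by
    rcases eq_or_ne s j with rfl | hs
    · simp only [e, Pi.single_eq_same]; exact v.A.one_mem
    · simp only [e, Pi.single_eq_of_ne hs]; exact v.A.zero_mem
  have hcol : ∀ (c : (Mdl.classData hℓN hg k).M) (s), (X.coord c θ).mulVec e s = X.coord c θ s j :=
    fun c s => by
      show (X.coord c θ).mulVec (Pi.single j 1) s = _
      rw [Matrix.mulVec_single]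
      simp
  have hA : ∀ (c : (Mdl.classData hℓN hg k).M) (s), (X.coord c θ).mulVec e s ∈ v.A :=
    fun c s => by rw [hcol]; exact X.coord_mem v c θ s j
  have hW : ∀ c, (fun s => red v.A ((X.coord c θ).mulVec e s)) ∈ redSub v.A (X.W θ) := fun c =>
    mem_redSub ((X.coord_spec c θ).1 e).1 (hA c)
  have hUc : ∀ c, (fun s => red v.A (e s - (X.coord c θ).mulVec e s)) ∈ redSub v.A (X.U c θ) :=
    fun c => mem_redSub ((X.coord_spec c θ).1 e).2
      fun s => sub_mem (hemem s) (hA c s)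
  have h0 := Submodule.disjoint_def.mp hdisj _ (Submodule.sub_mem _ (hUc a) (hU ▸ hUc b)) (by
    convert Submodule.sub_mem _ (hW b) (hW a) using 1
    funext s
    simp only [Pi.sub_apply]
    rw [red_sub (hemem s) (hA a s), red_sub (hemem s) (hA b s)]
    abel)
  have h1 := congrFun h0 i
  simp only [Pi.sub_apply, Pi.zero_apply] at h1
  rw [red_sub (hemem i) (hA a i), red_sub (hemem i) (hA b i), sub_sub_sub_cancel_left,
    sub_eq_zero, hcol, hcol] at h1
  exact h1.symm

end Fermat.Agent.Raising.AtResidualPrime
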