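import Fermat.Agent.Flat.ModularTorsion
import Fermat.Agent.Raising.AtResidualPrime.CongrModel
import Fermat.Agent.Raising.AtResidualPrime.RedCoord
import Fermat.Agent.TwoComponent.Ordinary.OfFlat
import Fermat.Agent.TwoComponent.Ordinary.Product

/-!
# The kernel of reduction on torsion

A torsion point of `J₀(M)` with trivial reduction at `p ∤ M` which is fixed by inertia modulo a
stable subgroup of such points containing its multiple by `p` lies in that subgroup.
-/

noncomputable section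

namespace Fermat.Agent.Raising.AtResidualPrime

open ModularCurve AlgebraicCurve Fermat.Agent.Flat Fermat.Agent.TwoComponent.Ordinary
open scoped TensorProduct Pointwise

local notation "Qbar" => AlgebraicClosure ℚ
local notation "GQ" => (AlgebraicClosure ℚ ≃ₐ[ℚ] AlgebraicClosure ℚ)

/-- A subgroup without nonzero unramified quotient. -/
def NoUnramQuot (A : ValuationSubring Qbar) (p : ℕ) {M : Type*} [AddCommGroup M]
    [DistribMulAction GQ M] (C : AddSubgroup M) : Prop :=
  ∀ H : AddSubgroup M, H ≤ C → (∀ σ ∈ A.inertiaSubgroupIn ℚ, ∀ x ∈ H, σ • x ∈ H) →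
    ∀ y ∈ C, p • y ∈ H → (∀ σ ∈ A.inertiaSubgroupIn ℚ, σ • y - y ∈ H) → y ∈ H

variable {M : ℕ} [NeZero M] {p : ℕ} [Fact p.Prime]

/-- The torsion points with trivial reduction. -/
def redKer (A : ValuationSubring Qbar) (M p n : ℕ) [NeZero M] : AddSubgroup (JZero M) where
  carrier := {x | p ^ n • x = 0 ∧ reductionModL A M x = 0}
  zero_mem' := ⟨by simp, map_zero _⟩
  add_mem' ha hb := ⟨(nsmul_add _ _ _).trans (by rw [ha.1, hb.1, add_zero]), by simp [ha.2, hb.2]⟩
  neg_mem' ha := ⟨by simp [ha.1], by simp [ha.2]⟩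

omit [Fact (Nat.Prime p)] in
theorem mem_redKer {A : ValuationSubring Qbar} {n : ℕ} {x : JZero M} :
    x ∈ redKer A M p n ↔ p ^ n • x = 0 ∧ reductionModL A M x = 0 := Iff.rfl

/-- The inputs of the reduction map at a prime not dividing the level. -/
theorem reductionInputs (hpM : ¬ p ∣ M) {A : ValuationSubring Qbar} (hA : A.LiesOverPrime p) :
    ReductionInputsModL A M :=
  Red.reductionInputsModL_of_genus_le hpM hA (Flat.Mdl.genusLe hpM ⟨A, hA⟩)

/-- **The kernel of reduction has no unramified quotient.** -/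
theorem noUnramQuot_redKer (hp2 : p ≠ 2) (hpM : ¬ p ∣ M) {A : ValuationSubring Qbar}
    (hA : A.LiesOverPrime p) (n : ℕ) : NoUnramQuot A p (redKer A M p n) := by
  classical
  let v : Pl p := ⟨A, hA⟩
  set hg := Flat.Mdl.genusLe (N := M) hpM
  obtain ⟨X, Hf, hH, hcong⟩ := exists_classModel (Flat.Mdl.classData hpM hg n)
  set Mn := ↥(Submodule.torsionBy ℤ (JZero M) ((p : ℤ) ^ n))
  have : Finite Mn :=
    haveI : NeZero p := ⟨(Fact.out : p.Prime).ne_zero⟩
    Flat.Mdl.finite_torsionBy_pow p n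
  let : DistribMulAction GQ Mn :=
    { smul := fun σ x => ⟨σ • (x : JZero M), Flat.Mdl.smul_mem_torsionBy σ x.2⟩
      one_smul := fun x => Subtype.ext (one_smul GQ (x : JZero M))
      mul_smul := fun σ τ x => Subtype.ext (mul_smul σ τ (x : JZero M))
      smul_zero := fun σ => Subtype.ext (smul_zero σ)
      smul_add := fun σ x y => Subtype.ext (smul_add σ (x : JZero M) (y : JZero M)) }
  let Hf' : Subalgebra (Zl p) (Mn → Qbar) := Hf
  have hH' : IsModelAlg p Mn (fun σ x => σ • x) Hf' := hH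
  have hsc : ∀ z : Zl p, algebraMap (Zl p) Qbar z ∈ R0 A := fun z =>
    mem_R0.mpr ⟨algebraMap_mem_of_liesOverPrime hA z, fun σ _ => by
      rw [IsScalarTower.algebraMap_apply (Zl p) ℚ Qbar]
      exact σ.commutes _⟩
  have hfin : Module.Finite (Zl p) Hf' :=
    module_finite (act := fun (σ : GQ) (x : Mn) => σ • x) (Subalgebra.toSubmodule Hf')
      hH'.equiv hH'.integral
  have hfg : (Submodule.span (R0 A) (Hf' : Set (Mn → Qbar))).FG := by
    convert fg_span_range hsc fun x : Mn =>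
      (Pi.evalAlgHom (Zl p) (fun _ => Qbar) x).comp Hf'.val using 2
    exact Subtype.range_coe.symm
  let P : FunModel A Mn := FunModel.ofSpan (Hf' : Set (Mn → Qbar)) hfg Hf'.one_mem
    (fun _ hf _ hg => Hf'.mul_mem hf hg) (fun f hf x => isIntegral_mem v (hH'.integral f hf x))
    (fun f hf σ _ x => hH'.equiv f hf σ x) (fun x x' h => hH'.separates x x' h) fun f hf => by
      obtain ⟨t, ht⟩ := hH'.add_mem f hf
      obtain ⟨S, hS⟩ := TensorProduct.exists_finset t
      let ι' := S.equivFin.symm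
      refine ⟨_, fun i => ((ι' i).1.1 : Mn → Qbar), fun i => ((ι' i).1.2 : Mn → Qbar),
        fun i => (ι' i).1.1.2, fun i => (ι' i).1.2.2, fun x x' => ?_⟩
      rw [show f (x + x') = pairHom Hf'.val Hf'.val t (x, x') from (congrFun ht (x, x')).symm,
        hS, map_sum, Finset.sum_apply, ← Finset.sum_coe_sort S,
        ← Equiv.sum_comp ι' fun i : {i // i ∈ S} =>
          pairHom Hf'.val Hf'.val (i.1.1 ⊗ₜ i.1.2) (x, x')]
      exact Finset.sum_congr rfl fun i _ => pairHom_tmul _ _ _ _ _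
  intro H hle hstab y hy hpy hfix
  have hmem : ∀ x ∈ redKer A M p n, x ∈ Submodule.torsionBy ℤ (JZero M) ((p : ℤ) ^ n) :=
    fun x hx => by
      rw [Submodule.mem_torsionBy_iff,
        show ((p : ℤ) ^ n) = (((p ^ n : ℕ)) : ℤ) by push_cast; rfl, natCast_zsmul, hx.1]
  have hred : (⟨y, hmem y hy⟩ : Mn) ∈ P.kerRed := by
    intro f hf
    have hy0 : reductionModL v.A M y = reductionModL v.A M (0 : JZero M) := by
      rw [map_zero]; exact hy.2
    have hH0 : ∀ g ∈ Hf, red v.A (g (⟨y, hmem y hy⟩ : Mn)) = red v.A (g (0 : Mn)) :=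
      hcong v (⟨y, hmem y hy⟩ : Mn) (0 : Mn)
        fun θ i j => coord_congr v X (reductionInputs hpM hA) (a := (⟨y, hmem y hy⟩ : Mn))
          (b := (0 : Mn)) hy0 θ i j
    refine sub_mem_nonunits_of_mem_span (fun f hf => ?_) hf
    have h1 := hH0 f hf
    have ha : ∀ x, f x ∈ A := fun x => isIntegral_mem v (hH'.integral f hf x)
    rw [← sub_eq_zero, ← red_sub (A := A) (ha _) (ha _)] at h1
    exact (red_eq_zero_iff (sub_mem (ha _) (ha _))).mp h1
  have h := P.mem_of_smul_sub_mem Fact.out hp2 hA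
    (H.comap (Submodule.torsionBy ℤ (JZero M) ((p : ℤ) ^ n)).subtype.toAddMonoidHom)
    (fun σ hσ x hx => hstab σ hσ _ hx) hred hpy (fun σ hσ => hfix σ hσ)
  exact h

omit [Fact (Nat.Prime p)] in
/-- Having no unramified quotient passes to finite powers. -/
theorem NoUnramQuot.pi {A : ValuationSubring Qbar} {J : Type*} [AddCommGroup J]
    [DistribMulAction GQ J] {C : AddSubgroup J} (hC : NoUnramQuot A p C) (ι : Type*) [Finite ι] :
    NoUnramQuot A p (powerSubgroup ι C) :=
  mem_of_smul_sub_mem_powerSubgroup hC ι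

omit [Fact (Nat.Prime p)] in
/-- A group with trivial inertia action modulo a stable `Q` meets such a subgroup inside `Q`. -/
theorem NoUnramQuot.inter_le {A : ValuationSubring Qbar} {J : Type*} [AddCommGroup J]
    [DistribMulAction GQ J] {C : AddSubgroup J} (hC : NoUnramQuot A p C)
    (hCstab : ∀ σ ∈ A.inertiaSubgroupIn ℚ, ∀ x ∈ C, σ • x ∈ C) {n : ℕ}
    (hkill : ∀ x ∈ C, p ^ n • x = 0) {W Q : AddSubgroup J}
    (hQ : ∀ σ ∈ A.inertiaSubgroupIn ℚ, ∀ x ∈ Q, σ • x ∈ Q)
    (hW : ∀ σ ∈ A.inertiaSubgroupIn ℚ, ∀ x ∈ W, σ • x - x ∈ Q) :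
    ∀ x ∈ C, x ∈ W → x ∈ Q := by
  have key : ∀ m : ℕ, ∀ x ∈ C, x ∈ W → p ^ m • x = 0 → x ∈ C ⊓ Q := by
    intro m
    induction m with
    | zero =>
      intro x _ _ h
      rw [pow_zero, one_nsmul] at h
      rw [h]
      exact zero_mem _
    | succ m ih =>
      intro x hx hxW h
      refine hC (C ⊓ Q) inf_le_left
        (fun σ hσ z hz => AddSubgroup.mem_inf.mpr ⟨hCstab σ hσ z hz.1, hQ σ hσ z hz.2⟩) x hx
        (ih _ (nsmul_mem hx p) (nsmul_mem hxW p) (by rw [smul_smul, ← pow_succ, h])) fun σ hσ => ?_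
      exact AddSubgroup.mem_inf.mpr ⟨sub_mem (hCstab σ hσ x hx) hx, hW σ hσ x hxW⟩
  exact fun x hx hxW => (key n x hx hxW (hkill x hx)).2

end Fermat.Agent.Raising.AtResidualPrime
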