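import Fermat.Agent.EichlerShimura.MainGenus
import Fermat.Agent.Raising.AtResidualPrime.RedKernel
import Fermat.Agent.TwoComponent.Ordinary.Points

/-!
# The congruence relation at `p` on torsion

For a Frobenius element `σ` at `p ∤ M` the element `σ² x - T_p σ x + p x` reduces to zero.
-/

noncomputable section

namespace Fermat.Agent.Raising.AtResidualPrime

open ModularCurve AlgebraicCurve Fermat.Agent.Attach Fermat.Agent.TwoComponent
  Fermat.Agent.TwoComponent.Ordinary

local notation "Qbar" => AlgebraicClosure ℚ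
local notation "GQ" => (AlgebraicClosure ℚ ≃ₐ[ℚ] AlgebraicClosure ℚ)

section Red

variable {M : ℕ} [NeZero M] {p : ℕ} [Fact p.Prime]

/-- The inputs of the congruence relation at a prime not dividing the level. -/
theorem specializationInputs [NeZero p] (hpM : ¬ p ∣ M) {A : ValuationSubring Qbar}
    (hA : A.LiesOverPrime p) : EichlerShimura.SpecializationInputs M p A where
  red := reductionInputs hpM hA
  bounded := EichlerShimura.boundedClasses_of_isFunctionField _ _
  deg_one := fun P => FF.place_deg_eq_one P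
  hecke := Hecke.heckeInputsAlong_bar M p
  embeddings := fun ζ hζ =>
    @EichlerShimura.heckeEmbeddings_of_prime _ _ _ _ _ M p _ _ ‹Fact p.Prime› hpM ζ hζ
  charP := Gal.residueField_charP Fact.out hA
  frobenius := Gal.exists_isFrobeniusAt Fact.out hA
  injective := fun m hm z hmz hz =>
    Red.eq_zero_of_reductionModL_eq_zero_of_genus_le M hpM A hA (Flat.Mdl.genusLe hpM ⟨A, hA⟩)
      (reductionInputs hpM hA) m hm z hmz hz

omit [NeZero M] in
theorem nsmul_smul_eq_zero {x : JZero M} {m : ℕ} (σ : GQ) (hx : m • x = 0) : m • (σ • x) = 0 := by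
  show m • DistribSMul.toAddMonoidHom (JZero M) σ x = 0
  rw [← map_nsmul, hx, map_zero]

/-- The kernel of reduction is stable under inertia. -/
theorem inertia_mem_redKer (hpM : ¬ p ∣ M) {A : ValuationSubring Qbar} (hA : A.LiesOverPrime p)
    {σ : GQ} (hσ : σ ∈ A.inertiaSubgroupIn ℚ) {n : ℕ} {x : JZero M}
    (hx : x ∈ redKer A M p n) : σ • x ∈ redKer A M p n := by
  have : NeZero p := ⟨(Fact.out : p.Prime).ne_zero⟩
  refine mem_redKer.mpr ⟨nsmul_smul_eq_zero σ hx.1, ?_⟩
  rw [(specializationInputs hpM hA).reduction_inertia hσ]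
  exact hx.2

/-- **The congruence relation.** -/
theorem frobenius_mem_redKer (hpM : ¬ p ∣ M) {A : ValuationSubring Qbar} (hA : A.LiesOverPrime p)
    {σ : GQ} (hσ : A.IsFrobeniusAt σ p) {n : ℕ} {x : JZero M} (hx : p ^ n • x = 0) :
    σ • σ • x - heckeOperatorBar M ⟨p, Fact.out⟩ (σ • x) + p • x ∈ redKer A M p n := by
  have : NeZero p := ⟨(Fact.out : p.Prime).ne_zero⟩
  refine mem_redKer.mpr ⟨?_, ?_⟩
  · have h1 : p ^ n • heckeOperatorBar M ⟨p, Fact.out⟩ (σ • x) = 0 := by
      rw [← map_nsmul, nsmul_smul_eq_zero σ hx, map_zero]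
    rw [nsmul_add, nsmul_sub, nsmul_smul_eq_zero σ (nsmul_smul_eq_zero σ hx), h1, smul_comm, hx]
    simp
  · rw [map_add, map_sub, map_nsmul, (specializationInputs hpM hA).reduction_hecke Fact.out hσ]
    abel

end Red

section Levels

variable {p : ℕ} [Fact p.Prime] {O : Type} [CommRing O] [IsDomain O] [IsDiscreteValuationRing O]
  [IsAdicComplete (IsLocalRing.maximalIdeal O) O] [CharZero O]
  [Finite (IsLocalRing.ResidueField O)] (hp : (p : O) ∈ IsLocalRing.maximalIdeal O)
  {N : ℕ} [NeZero N] (M : TorsionModel N p)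

/-- Level maps commuting with the Galois group and the Hecke operators. -/
theorem exists_level_maps_hecke :
    ∃ (d : ℕ) (Φ : ∀ _n : ℕ, (Fin M.rk → O) →+ (Fin d → JZero N)),
      (∀ n (g : GQ) x, g • Φ n x = Φ n ((M.repO hp g).mulVec x)) ∧
      (∀ n x, Φ n x = 0 → ∀ i, x i ∈ IsLocalRing.maximalIdeal O ^ n) ∧
      (∀ n x, p ^ n • Φ n x = 0) ∧
      (∀ (ℓ : Nat.Primes) (hℓN : ¬ (ℓ : ℕ) ∣ N) n x j, heckeOperatorBar N ℓ (Φ n x j) =
        Φ n (((M.mat (CuspForm.heckeAlgebra.T ℓ.2 hℓN hℓN)).map (Int.castRingHom O)).mulVec x) j) ∧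
      ∀ (N' : ℕ) [NeZero N'] (M' : TorsionModel N' p) (f : JZero N →+ JZero N')
        (B : Matrix (Fin M'.rk) (Fin M.rk) ℤ), (∀ n v, f (M.pt n v) = M'.pt n (B.mulVec v)) →
        ∀ x, (B.map (Int.castRingHom O)).mulVec x = 0 → ∀ n j, f (Φ n x j) = 0 := by
  obtain ⟨d, c, hc⟩ := exists_coord hp
  have e {k : ℕ} (B : Matrix (Fin k) (Fin M.rk) ℤ) (x : Fin M.rk → O) (i : Fin k) (j : Fin d) :
      c ((B.map (Int.castRingHom O)).mulVec x i) j = ∑ l, B i l • c (x l) j := by
    rw [Matrix.mulVec, dotProduct, map_sum, Finset.sum_apply]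
    refine Finset.sum_congr rfl fun l _ => ?_
    rw [Matrix.map_apply, eq_intCast, ← zsmul_eq_mul, map_zsmul, Pi.smul_apply]
  refine ⟨d, coordLevelMap M c, smul_coordLevelMap hp M c hc,
    mem_pow_of_coordLevelMap_eq_zero hp M c hc,
    nsmul_coordLevelMap M c, fun ℓ hℓN n x j => ?_, fun N' _ M' f B hB x hx n j => ?_⟩
  · show heckeOperatorBar N ℓ (ptMod M n fun i => PadicInt.toZModPow n (c (x i) j)) =
      ptMod M n _
    set B := M.mat (CuspForm.heckeAlgebra.T ℓ.2 hℓN hℓN)
    set y : Fin M.rk → ZMod (p ^ n) := fun i => PadicInt.toZModPow n (c (x i) j)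
    rw [show ptMod M n y = M.pt n fun i => ((y i).cast : ℤ) from rfl, M.pt_hecke ℓ hℓN,
      ← ptMod_redVec]
    congr 1
    funext i
    rw [e, map_sum, TorsionModel.redVec, Matrix.mulVec, dotProduct, Int.cast_sum]
    refine Finset.sum_congr rfl fun l _ => ?_
    rw [zsmul_eq_mul, map_mul, map_intCast, Int.cast_mul, ZMod.intCast_zmod_cast]
  · show f (ptMod M n fun i => PadicInt.toZModPow n (c (x i) j)) = 0
    set y : Fin M.rk → ZMod (p ^ n) := fun i => PadicInt.toZModPow n (c (x i) j)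
    rw [show ptMod M n y = M.pt n fun i => ((y i).cast : ℤ) from rfl, hB, M'.pt_eq_zero_iff]
    intro i
    rw [← ZMod.intCast_zmod_eq_zero_iff_dvd]
    have h := congrArg (fun z => PadicInt.toZModPow n (c z j)) (congrFun hx i)
    simp only [Pi.zero_apply, map_zero] at h
    rw [← h, e, map_sum, Matrix.mulVec, dotProduct, Int.cast_sum]
    refine Finset.sum_congr rfl fun l _ => ?_
    rw [zsmul_eq_mul, map_mul, map_intCast, Int.cast_mul, ZMod.intCast_zmod_cast]

end Levels

end Fermat.Agent.Raising.AtResidualPrime
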