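import Fermat.Agent.Attach.Model
import Fermat.Agent.EigenTwist.NonUnipotent
import Fermat.Agent.Raising.NewPoints.Coeff
import Fermat.Agent.TwoComponent.Ordinary.HeckeExt

/-!
# Integral new eigenvectors

An eigenvector in `Hom_cl(Γ₀(N q), K)` killed by both transfers, with eigenvalues in the coefficient
ring, gives one with coordinates in the coefficient ring.
-/

noncomputable section

open CongruenceSubgroup ModularCurve
open Fermat.Agent.Grp Fermat.Agent.Ihara Fermat.Agent.TwoComponent Fermat.Agent.Attach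
  Fermat.Agent.EigenTwist

namespace Fermat.Agent.Raising.AtResidualPrime

/-- A kernel over a larger field gives one over the domain. -/
theorem exists_ne_zero_mulVec_eq_zero {O K : Type} [CommRing O] [IsDomain O] [Field K]
    (j : O →+* K) (hj : Function.Injective j) {m : Type} [Finite m] {r : ℕ}
    (C : Matrix m (Fin r) O) {v : Fin r → K} (hv : v ≠ 0) (hC : (C.map j).mulVec v = 0) :
    ∃ w : Fin r → O, w ≠ 0 ∧ C.mulVec w = 0 := by
  classical
  have := Fintype.ofFinite m
  by_contra! hno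
  let K₀ := FractionRing O
  let e := Fintype.equivFin m
  have h1 : LinearIndependent O C.col := Matrix.mulVec_injective_iff.mp fun a b h => by
    by_contra hab
    exact hno (a - b) (sub_ne_zero.mpr hab) (by rw [Matrix.mulVec_sub, h, sub_self])
  let f : (m → O) →ₗ[O] (Fin (Fintype.card m) → K₀) :=
    ((Algebra.linearMap O K₀).compLeft (Fin (Fintype.card m))).comp
      (LinearMap.funLeft O O e.symm)
  have hf : Function.Injective f := fun a b h => funext fun i => by
    have := congrFun h (e i)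
    exact IsFractionRing.injective O K₀ (by simpa [f] using this)
  have h2 : LinearIndependent K₀ fun l => f (C.col l) := by
    rw [← LinearIndependent.iff_fractionRing O K₀]
    exact h1.map' f (LinearMap.ker_eq_bot.mpr hf)
  have h3 := linearIndependent_map_field (IsFractionRing.lift (K := K₀) hj) _ h2
  refine hv (funext fun l => Fintype.linearIndependent_iff.mp h3 v ?_ l)
  funext i
  have h4 := congrFun hC (e.symm i)
  rw [Matrix.mulVec, dotProduct] at h4
  simp only [Finset.sum_apply, Pi.smul_apply, smul_eq_mul, Function.comp_apply,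
    Pi.zero_apply] at h4 ⊢
  refine Eq.trans (Finset.sum_congr rfl fun l _ => ?_) h4
  show v l * IsFractionRing.lift hj (algebraMap O K₀ (C (e.symm i) l)) = j (C (e.symm i) l) * v l
  rw [IsFractionRing.lift_algebraMap, mul_comm]

/-- An eigenvector of the generators `T_ℓ` is an eigenvector of the whole Hecke algebra. -/
theorem mulVec_eq_smul_of_T {N : ℕ} [NeZero N] {S : Set ℕ} (hS : ∀ r, r ∣ N → r.Prime → r ∈ S)
    {R : Type} [CommRing R] {m : Type} [Fintype m] [DecidableEq m]
    (f : CuspForm.heckeAlgebra N 2 S →+* Matrix m m R) (θ : CuspForm.heckeAlgebra N 2 S →+* R)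
    {u : m → R}
    (h : ∀ (ℓ : ℕ) (hℓ : ℓ.Prime) (hℓN : ¬ ℓ ∣ N) (hℓS : ℓ ∉ S),
      (f (CuspForm.heckeAlgebra.T hℓ hℓN hℓS)).mulVec u =
        θ (CuspForm.heckeAlgebra.T hℓ hℓN hℓS) • u)
    (t : CuspForm.heckeAlgebra N 2 S) : (f t).mulVec u = θ t • u := by
  let C : Subring (CuspForm.heckeAlgebra N 2 S) :=
    { carrier := {t | (f t).mulVec u = θ t • u}
      mul_mem' := fun {a b} (ha : _ = _) (hb : _ = _) => show _ = _ by
        rw [map_mul, map_mul, ← Matrix.mulVec_mulVec, hb, Matrix.mulVec_smul, ha, smul_smul,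
          mul_comm (θ b)]
      one_mem' := show _ = _ by rw [map_one, map_one, Matrix.one_mulVec, one_smul]
      add_mem' := fun {a b} (ha : _ = _) (hb : _ = _) => show _ = _ by
        rw [map_add, map_add, Matrix.add_mulVec, ha, hb, add_smul]
      zero_mem' := show _ = _ by rw [map_zero, map_zero, Matrix.zero_mulVec, zero_smul]
      neg_mem' := fun {a} (ha : _ = _) => show _ = _ by
        rw [map_neg, map_neg, Matrix.neg_mulVec, ha, neg_smul] }
  exact forall_mem_of_T_mem hS (RingHom.id _) C h t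

/-- **An integral new eigenvector.** -/
theorem exists_newVec {N q p : ℕ} [NeZero N] [NeZero q] [NeZero p] {S : Finset ℕ}
    (hS : ∀ r, r.Prime → r ∣ N * q → r ∈ (↑S : Set ℕ))
    {O : Type} [CommRing O] [IsDomain O]
    {K : Type} [Field K] (j : O →+* K) (hj : Function.Injective j)
    (θ : CuspForm.heckeAlgebra (N * q) 2 (↑S : Set ℕ) →+* O)
    (y : clH K (N * q)) (hy0 : y ≠ 0) (hA : clCorA K N q y = 0) (hB : clCorB K N q y = 0)
    (heig : ∀ (ℓ : ℕ) [NeZero ℓ] (hℓ : ℓ.Prime) (hℓN : ¬ ℓ ∣ N * q) (hℓS : ℓ ∉ (↑S : Set ℕ)),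
      clT K (N * q) ℓ y = j (θ (CuspForm.heckeAlgebra.T hℓ hℓN hℓS)) • y) :
    ∃ v : Fin (torsionModel (N * q) p).rk → O, v ≠ 0 ∧
      (∀ t, ((torsionModel (N * q) p).matO O hS t).mulVec v = θ t • v) ∧
      ((pushMat (torsionModel (N * q) p) (torsionModel N p) (latA N q)).map
        (Int.castRingHom O)).mulVec v = 0 ∧
      ((pushMat (torsionModel (N * q) p) (torsionModel N p) (latB N q)).map
        (Int.castRingHom O)).mulVec v = 0 := by
  classical
  set M := torsionModel (N * q) p with hM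
  set M' := torsionModel N p with hM'
  have hneg : ∀ L : ℕ, (-1 : Matrix.SpecialLinearGroup (Fin 2) ℤ) ∈ Gamma0 L :=
    Grp.neg_one_mem_Gamma0
  obtain ⟨u, hu⟩ := clVec_surjective (K := K) M.bas (hneg (N * q)) y
  have hu0 : u ≠ 0 := fun h => hy0 (by rw [← hu, h, map_zero])
  -- the transfers in coordinates
  have hker : ∀ (φ : clLattice (N * q) →+ clLattice N) (F : clH K (N * q) →ₗ[K] clH K N),
      (∀ x, F (clMap (Γ := Gamma0 (N * q)) (Int.castRingHom K) x) =
        clMap (Γ := Gamma0 N) (Int.castRingHom K) (φ x)) → F y = 0 →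
      ((pushMat M M' φ).map (Int.castRingHom K)).mulVec u = 0 := fun φ F hF hFy => by
    refine clVec_injective M'.bas (hneg N) ?_
    rw [map_zero, ← hFy, ← hu]
    exact comb_mulVec M.bas M'.bas (clMap (Γ := Gamma0 (N * q)) (Int.castRingHom K))
      (clMap (Γ := Gamma0 N) (Int.castRingHom K)) φ.toIntLinearMap F hF u
  have hkA := hker (latA N q) (clCorA K N q)
    (fun x => Subtype.ext (coresHom_comp _ (Int.castRingHom K).toAddMonoidHom x.1)) hA
  have hkB := hker (latB N q) (clCorB K N q)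
    (fun x => Subtype.ext (coresHom_comp _ (Int.castRingHom K).toAddMonoidHom
      (x.1.comp (MonoidHom.toAdditive (alphaUp N q))))) hB
  -- the Hecke operators in coordinates
  have hT : ∀ (ℓ : ℕ) (hℓ : ℓ.Prime) (hℓN : ¬ ℓ ∣ N * q) (hℓS : ℓ ∉ (↑S : Set ℕ)),
      ((M.matO O hS (CuspForm.heckeAlgebra.T hℓ hℓN hℓS)).map j).mulVec u =
        j (θ (CuspForm.heckeAlgebra.T hℓ hℓN hℓS)) • u := fun ℓ hℓ hℓN hℓS => by
    have : NeZero ℓ := ⟨hℓ.ne_zero⟩
    refine clVec_injective M.bas (hneg (N * q)) ?_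
    have e : (M.matO O hS (CuspForm.heckeAlgebra.T hℓ hℓN hℓS)).map j =
        (M.mat (CuspForm.heckeAlgebra.T hℓ hℓN hℓN)).map (Int.castRingHom K) :=
      Matrix.ext fun i l => map_intCast j _
    rw [e, map_smul, hu, ← heig ℓ hℓ hℓN hℓS, ← hu]
    refine comb_mulVec M.bas M.bas (clMap (Γ := Gamma0 (N * q)) (Int.castRingHom K))
      (clMap (Γ := Gamma0 (N * q)) (Int.castRingHom K))
      (M.hecke (CuspForm.heckeAlgebra.T hℓ hℓN hℓN)) (clT K (N * q) ℓ) (fun x => ?_) u
    exact (clT_clMap (Int.castRingHom K) x).trans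
      (congrArg _ (Subtype.ext (latticeHecke_T (N * q) hℓ hℓN x).symm))
  have hθ : ∀ t, ((M.matO O hS t).map j).mulVec u = j (θ t) • u :=
    mulVec_eq_smul_of_T (fun r hr hr' => hS r hr' hr) (j.mapMatrix.comp (M.matO O hS))
      (j.comp θ) hT
  -- finitely many equations
  have := Ordinary.module_finite_hecke M hS
  obtain ⟨s, hs⟩ :=
    (this.fg_top : (⊤ : Submodule ℤ (CuspForm.heckeAlgebra (N * q) 2 (↑S : Set ℕ))).FG)
  let E : Matrix ((↥s × Fin M.rk) ⊕ (Fin M'.rk ⊕ Fin M'.rk)) (Fin M.rk) O :=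
    Matrix.of fun i l => Sum.elim
      (fun ti => (M.matO O hS ti.1.1 - Matrix.scalar (Fin M.rk) (θ ti.1.1)) ti.2 l)
      (Sum.elim (fun i => (pushMat M M' (latA N q) i l : O))
        (fun i => (pushMat M M' (latB N q) i l : O))) i
  have hE : (E.map j).mulVec u = 0 := by
    funext i
    rcases i with ti | i | i
    · have h := congrFun (hθ ti.1.1) ti.2
      show ∑ l, j ((M.matO O hS ti.1.1 - Matrix.scalar (Fin M.rk) (θ ti.1.1)) ti.2 l) * u l = 0
      simp only [Matrix.sub_apply, map_sub, sub_mul, Finset.sum_sub_distrib]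
      rw [sub_eq_zero]
      refine Eq.trans ?_ (h.trans ?_)
      · rfl
      · simp [Matrix.diagonal_apply, apply_ite j, ite_mul]
    · refine Eq.trans ?_ (congrFun hkA i)
      simp [E, Matrix.mulVec, dotProduct]
    · refine Eq.trans ?_ (congrFun hkB i)
      simp [E, Matrix.mulVec, dotProduct]
  obtain ⟨w, hw0, hw⟩ := exists_ne_zero_mulVec_eq_zero j hj E hu0 hE
  refine ⟨w, hw0, fun t => ?_, funext fun i => congrFun hw (Sum.inr (Sum.inl i)),
    funext fun i => congrFun hw (Sum.inr (Sum.inr i))⟩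
  have hmem : t ∈ Submodule.span ℤ (s : Set (CuspForm.heckeAlgebra (N * q) 2 (↑S : Set ℕ))) := by
    rw [hs]; exact Submodule.mem_top
  induction hmem using Submodule.span_induction with
  | mem x hx =>
    funext i
    have h := congrFun hw (Sum.inl (⟨x, hx⟩, i))
    have h' : ∑ l, (M.matO O hS x - Matrix.scalar (Fin M.rk) (θ x)) i l * w l = 0 := h
    simp only [Matrix.sub_apply, sub_mul, Finset.sum_sub_distrib, sub_eq_zero] at h'
    refine Eq.trans h' ?_
    simp [Matrix.diagonal_apply, ite_mul]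
  | zero => rw [map_zero, map_zero, Matrix.zero_mulVec, zero_smul]
  | add a b _ _ ha hb => rw [map_add, map_add, Matrix.add_mulVec, ha, hb, add_smul]
  | smul z a _ ha => rw [map_zsmul, map_zsmul, Matrix.smul_mulVec, ha, ← smul_assoc]

end Fermat.Agent.Raising.AtResidualPrime
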