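import Fermat.Agent.Raising.AtResidualPrime.Quadratic

/-!
# The lower diagonal entry at the square of Frobenius on new classes

On a stable part `E` of the lattice whose images are killed by both pushforwards, `(d - 1)²` kills
the lower eigenspace, `d` the lower diagonal entry at an element `τ` of the decomposition group with
`(τ - 1)²` landing in the toric part.
-/

noncomputable section

namespace Fermat.Agent.Raising.AtResidualPrime

open Fermat.Agent.TwoComponent.Ordinary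

local notation "Qbar" => AlgebraicClosure ℚ
local notation "GQ" => (AlgebraicClosure ℚ ≃ₐ[ℚ] AlgebraicClosure ℚ)

variable {R : Type*} [CommRing R] {V : Type*} [AddCommGroup V] [Module R V]
  {J J₀ : Type*} [AddCommGroup J] [DistribMulAction GQ J] [AddCommGroup J₀]
  {A : ValuationSubring Qbar} {p : ℕ} [Fact p.Prime] (P : SplitData R V GQ)

theorem projA_mem {E : Submodule R V} (hE : ∀ σ, ∀ x ∈ E, P.rho σ x ∈ E) {x : V} (hx : x ∈ E) :
    P.projA x ∈ E :=
  E.smul_mem _ (E.sub_mem (hE _ _ hx) (E.smul_mem _ hx))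

theorem projD_mem {E : Submodule R V} (hE : ∀ σ, ∀ x ∈ E, P.rho σ x ∈ E) {x : V} (hx : x ∈ E) :
    P.projD x ∈ E :=
  E.sub_mem hx (projA_mem P hE hx)

/-- **The square of `d - 1` kills the lower eigenspace on `E`**, after applying `Φ`. -/
theorem projD_smul_eq_zero (hp2 : p ≠ 2) (I : Ideal R) (hpI : (p : R) ∈ I)
    (ha : P.rootA + 1 ∈ I) (hd : P.rootD - 1 ∈ I) (hsI : P.s ∈ A.inertiaSubgroupIn ℚ)
    (hsz : ∀ z : Qbar, z ^ p = 1 → P.s z = z⁻¹)
    (E : Submodule R V) (hE : ∀ σ, ∀ x ∈ E, P.rho σ x ∈ E)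
    {Φ : V →+ J} (hΦ : ∀ (σ : GQ) x, σ • Φ x = Φ (P.rho σ x)) {n k : ℕ}
    (hkill : ∀ x, p ^ n • Φ x = 0) (hk : ∀ r ∈ I ^ k, ∀ v, Φ (r • v) = 0)
    (f g : J →+ J₀) (hf : ∀ x ∈ E, f (Φ x) = 0) (hg : ∀ x ∈ E, g (Φ x) = 0) (C : AddSubgroup J)
    (hC2 : ∀ σ ∈ A.inertiaSubgroupIn ℚ, ∀ τ ∈ A.inertiaSubgroupIn ℚ, ∀ x : J, p ^ n • x = 0 →
      σ • (τ • x - x) - (τ • x - x) ∈ C)
    (hmult : ∀ x ∈ C, p • x = 0 → f x = 0 → g x = 0 →
      ∀ σ ∈ A.inertiaSubgroupIn ℚ, ∀ a : ℕ, ActsByOnRoots p σ a → σ • x = a • x)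
    {τ : GQ} (hlow : ∀ v, P.projD (P.rho τ (P.projA v)) = 0)
    (hτ : ∀ x : J, p ^ n • x = 0 → f x = 0 → g x = 0 → τ • (τ • x - x) - (τ • x - x) ∈ C) :
    ∀ w ∈ E, Φ (((P.entD τ - 1) * (P.entD τ - 1)) • P.projD w) = 0 := by
  intro w hw
  have hodd : Odd (p ^ k) := ((Fact.out : p.Prime).odd_of_ne_two hp2).pow
  set s := P.s ^ p ^ k
  have hsI' : s ∈ A.inertiaSubgroupIn ℚ := pow_mem hsI _
  have hsa : ∀ u, s • Φ (P.projA u) = -Φ (P.projA u) := fun u => by
    rw [hΦ, show P.rho (P.s ^ p ^ k) (P.projA u) = P.rootA ^ p ^ k • P.projA u from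
      LinearMap.congr_fun (P.rho_pow_projA _) u, ← add_eq_zero_iff_eq_neg, ← map_add]
    have e := pow_prime_pow_sub_mem hpI (x := P.rootA) (y := -1) (by rwa [sub_neg_eq_add]) k
    rw [hodd.neg_one_pow, sub_neg_eq_add] at e
    rw [show P.rootA ^ p ^ k • P.projA u + P.projA u = (P.rootA ^ p ^ k + 1) • P.projA u by
      rw [add_smul, one_smul]]
    exact hk _ (Ideal.pow_le_pow_right k.le_succ e) _
  have hsd : ∀ u, s • Φ (P.projD u) = Φ (P.projD u) := fun u => by
    rw [hΦ, show P.rho (P.s ^ p ^ k) (P.projD u) = P.rootD ^ p ^ k • P.projD u from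
      LinearMap.congr_fun (P.rho_pow_projD _) u, ← sub_eq_zero, ← map_sub]
    have e := pow_prime_pow_sub_mem hpI (x := P.rootD) (y := 1) hd k
    rw [one_pow] at e
    rw [show P.rootD ^ p ^ k • P.projD u - P.projD u = (P.rootD ^ p ^ k - 1) • P.projD u by
      rw [sub_smul, one_smul]]
    exact hk _ (Ideal.pow_le_pow_right k.le_succ e) _
  have hAC : ∀ u, Φ (P.projA u) ∈ C := fun u => by
    have h := hC2 s hsI' s hsI' _ (hkill (P.projA u))
    have hn : p ^ n • (2 • Φ (P.projA u)) = 0 := by rw [smul_comm, hkill, smul_zero]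
    refine mem_of_two_nsmul_mem hp2 (hkill _) (mem_of_two_nsmul_mem hp2 hn ?_)
    convert h using 1
    rw [smul_sub, hsa, smul_neg, hsa]
    simp only [two_nsmul]
    abel
  -- the element
  set u₀ := P.rho τ (P.projD w) - P.projD w
  set v' := P.rho τ u₀ - u₀
  have hu₀ : u₀ ∈ E := E.sub_mem (hE _ _ (projD_mem P hE hw)) (projD_mem P hE hw)
  have hv' : v' ∈ E := E.sub_mem (hE _ _ hu₀) hu₀
  have hDv' : P.projD v' = ((P.entD τ - 1) * (P.entD τ - 1)) • P.projD w := by
    simp only [v', u₀, map_sub, P.projD_rho hlow, projD_idem, sub_smul, mul_sub, sub_mul,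
      one_mul, mul_one, mul_smul, one_smul]
  have hmem : Φ (P.projD v') ∈ C := by
    have h1 := hτ _ (hkill (P.projD w)) (hf _ (projD_mem P hE hw)) (hg _ (projD_mem P hE hw))
    rw [hΦ, ← map_sub, hΦ, ← map_sub] at h1
    rw [show P.rho τ u₀ - u₀ = P.projA v' + P.projD v' from
      (LinearMap.congr_fun P.projA_add_projD v').symm, map_add] at h1
    exact (C.add_mem_cancel_left (hAC v')).mp h1
  rw [← hDv']
  set d := Φ (P.projD v')
  suffices H : ∀ m : ℕ, p ^ m • d = 0 → d = 0 from H n (hkill _)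
  intro m
  induction m with
  | zero => intro h; rwa [pow_zero, one_nsmul] at h
  | succ m ih =>
    intro h5
    refine ih ?_
    set y := p ^ m • d
    have hy : p • y = 0 := by rw [smul_smul, ← pow_succ', h5]
    have hy2 : (p - 1) • y = y := by
      refine (hmult y (nsmul_mem hmem _) hy
        (by rw [map_nsmul, hf _ (projD_mem P hE hv'), smul_zero])
        (by rw [map_nsmul, hg _ (projD_mem P hE hv'), smul_zero]) s hsI' _
        (actsByOnRoots_pow hsz hodd)).symm.trans ?_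
      show DistribSMul.toAddMonoidHom J s (p ^ m • d) = p ^ m • d
      rw [map_nsmul]
      exact congrArg (p ^ m • ·) (hsd v')
    refine eq_zero_of_two_nsmul hp2 (n := 1) (by rwa [pow_one]) ?_
    have h7 : (p - 1) • y + y = 0 := by
      rw [← succ_nsmul, Nat.sub_add_cancel (Fact.out : p.Prime).one_le]; exact hy
    rw [two_nsmul]
    rwa [hy2] at h7

end Fermat.Agent.Raising.AtResidualPrime
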