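import Fermat.Agent.SquareLevel.GluePush
import Fermat.Agent.TwoComponent.NewPart.Geo
import Fermat.Agent.TwoComponent.Ordinary.Interface
import Fermat.Agent.TwoComponent.Ordinary.Toric
import Fermat.Agent.TwoComponent.Trace

/-!
# The toric part and the square of Frobenius

On the classes killed by both pushforwards to level `M` the square of `τ - 1`, `τ` the square of a
Frobenius element at `p`, lands in the part of trivial reduction of `J₀(M p)`.
-/

noncomputable section

open ModularCurve AlgebraicCurve Fermat.Agent.Red Fermat.Agent.TwoComponent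

namespace Fermat.Agent.Raising.AtResidualPrime

local notation "Qb" => AlgebraicClosure ℚ
local notation "GQ" => (AlgebraicClosure ℚ ≃ₐ[ℚ] AlgebraicClosure ℚ)

section Classes

variable {K k F Fk : Type*} [Field K] [Field F] [Algebra K F] [Field k] [Field Fk] [Algebra k Fk]
variable {A : ValuationSubring K} {π : A →+* k}
variable {S : Type*} [Fintype S] {T : TwoRed A π F Fk S} (τ : SemiRed T)

/-- For a class of slope zero killed by both pushforwards, `τ z - z` has trivial reduction when `τ`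
acts on places as the composites of the two Frobenius maps. -/
theorem smul_sub_mem_T00_of_pushforward [IsAlgClosed K] (hτ : τ.FixesNodes) {m : ℕ} (hm : 0 < m)
    {F₀ F₁ : Type*} [Field F₀] [Algebra K F₀] [Field F₁] [Algebra K F₁]
    (G₀ : Degen T F₀) (G₁ : Degen T F₁) (hs₀ : G₀.side = false) (hs₁ : G₁.side = true)
    (hψ₀ : ∀ P : Place k Fk, G₀.ψ (G₁.ψ P) = τ.resAut • P)
    (hψ₁ : ∀ P : Place k Fk, G₁.ψ (G₀.ψ P) = τ.resAut • P)
    (hc₀ : ∀ h : F₀, (∀ v : Place K F₀, 0 ≤ v.ord h) → ∃ c : K, h = algebraMap K F₀ c)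
    (hc₁ : ∀ h : F₁, (∀ v : Place K F₁, 0 ≤ v.ord h) → ∃ c : K, h = algebraMap K F₁ c)
    (hi₀ : G₀.φ.toRingHom.IsIntegral) (hi₁ : G₁.φ.toRingHom.IsIntegral)
    (hf₀ : FiniteAlong K G₀.φ) (hf₁ : FiniteAlong K G₁.φ)
    (hn₀ : NormFormulaAlong K G₀.φ hf₀) (hn₁ : NormFormulaAlong K G₁.φ hf₁)
    {z : Pic0 K F} (hz : T.InT0 m z) {D : Divisor.degZero (K := K) (F := F)} (hD : Pic0.mk D = z)
    (hp₀ : Divisor.pushforwardAlong G₀.φ hi₀ (D : Divisor K F) ∈
      Divisor.principal (K := K) (F := F₀))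
    (hp₁ : Divisor.pushforwardAlong G₁.φ hi₁ (D : Divisor K F) ∈
      Divisor.principal (K := K) (F := F₁)) :
    τ.aut • z - z ∈ T.T00 hm := by
  have hmem : τ.aut • z - z ∈ T.T0 m := (T.T0 m).sub_mem (τ.smul_mem_T0 hτ.permutes hz) hz
  exact (T.mem_T00 hm).mpr ⟨hmem, τ.redClass_smul_sub_eq_zero hτ hm G₀ G₁ hs₀ hs₁ hψ₀ hψ₁ hc₀ hc₁
    hi₀ hi₁ hf₀ hf₁ hn₀ hn₁ hz hD hp₀ hp₁ hmem⟩

end Classes

/-- Stated separately because the search for it through the series field is slow. -/
local instance (priority := high) (N : ℕ) [NeZero N] (k : Type) [Field k] : Algebra k (CK N k) :=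
  (CK N k).algebra

/-- Likewise on the generic fibre. -/
local instance (priority := high) (N : ℕ) [NeZero N] : Algebra Qb (modularFunctionFieldBar N) :=
  (modularFunctionFieldBar N).algebra

/-- **The part of trivial reduction**, with the square of Frobenius. -/
theorem exists_toric_frobenius (M p : ℕ) [NeZero M] [NeZero p] [hp : Fact p.Prime] (hpM : ¬ p ∣ M)
    {A : ValuationSubring (AlgebraicClosure ℚ)} (hA : A.LiesOverPrime p) (n : ℕ) :
    ∃ C : AddSubgroup (JZero (M * p)),
      (∀ σ ∈ A.inertiaSubgroupIn ℚ, ∀ τ ∈ A.inertiaSubgroupIn ℚ, ∀ x : JZero (M * p),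
        p ^ n • x = 0 → σ • (τ • x - x) - (τ • x - x) ∈ C) ∧
      (∀ x ∈ C, p • x = 0 → SquareLevel.pushAlpha M p x = 0 → SquareLevel.pushBeta M p x = 0 →
        ∀ σ ∈ A.inertiaSubgroupIn ℚ, ∀ a : ℕ, Ordinary.ActsByOnRoots p σ a → σ • x = a • x) ∧
      ∀ φ : GQ, A.IsFrobeniusAt φ p → ∀ x : JZero (M * p), p ^ n • x = 0 →
        SquareLevel.pushAlpha M p x = 0 → SquareLevel.pushBeta M p x = 0 →
          (φ * φ) • ((φ * φ) • x - x) - ((φ * φ) • x - x) ∈ C := by
  have := Red.isAlgClosed_residueField A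
  have := Red.charP_residueField A hA
  have hres := residueAt p hA
  have hgen := Red.genus_le A hpM hA
  have hm : 0 < p ^ n := pow_pos hp.out.pos n
  set T := modelTwoRed M p hpM hres hgen with hT
  refine ⟨T.T00 hm, fun σ hσ τ hτ x hx => Ordinary.inertia_sub_mem_T00 M p hpM hres hgen hm
    hσ hτ hx,
    fun x hx hpx hfx hgx σ hσ a ha => Ordinary.smul_eq_nsmul_of_mem_T00 M p hpM hres hgen hm hA
      (Hecke.alphaIntegral Qb M p) (Hecke.betaIntegral Qb M p)
      (SquareLevel.pushAlpha_mk (N := M) (q := p))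
      (SquareLevel.pushBeta_mk (N := M) (q := p)) hx hpx hfx hgx hσ ha,
    fun φ hφ x hx hfx hgx => ?_⟩
  -- the square of Frobenius
  have hφd := hφ.mem_decompositionSubgroup
  have h2 : φ * φ ∈ A.decompositionSubgroup ℚ := mul_mem hφd hφd
  set ψ := EichlerShimura.residueAut A ⟨φ * φ, h2⟩ with hψdef
  have hψres : ∀ c, ψ c = c ^ (p * p) := fun c => by
    have e : ψ c = EichlerShimura.residueAut A ⟨φ, hφd⟩ (EichlerShimura.residueAut A ⟨φ, hφd⟩ c) :=
      mul_smul (⟨φ, hφd⟩ : A.decompositionSubgroup ℚ) ⟨φ, hφd⟩ c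
    rw [e, EichlerShimura.residueAut_frobenius hφ, EichlerShimura.residueAut_frobenius hφ,
      ← pow_mul]
  set S := modelSemiRed M p hpM hres hgen (EichlerShimura.inducesOn_residueAut h2) with hS
  have hSfix : S.FixesNodes := modelSemiRed_fixesNodes M p hpM hres hgen _ hψres
  have hψ : ∀ P, (degenAlpha M p hpM hres hgen).ψ ((degenBeta M p hpM hres hgen).ψ P) =
      S.resAut • P := fun P => by
    rw [hS, modelSemiRed_resAut, coeffSemilinear_sq M p ψ hψres, mul_smul]
    rfl
  have hψ' : ∀ P, (degenBeta M p hpM hres hgen).ψ ((degenAlpha M p hpM hres hgen).ψ P) =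
      S.resAut • P := hψ
  have hS_act : ∀ y : JZero (M * p), (φ * φ) • y = S.aut • y := fun y => rfl
  rw [hS_act, hS_act]
  set z := S.aut • x - x with hzdef
  obtain ⟨D, hD⟩ := Pic0.mk_surjective z
  have hα := Hecke.alphaIntegral Qb M p
  have hβ := Hecke.betaIntegral Qb M p
  refine smul_sub_mem_T00_of_pushforward S hSfix hm
    (degenAlpha M p hpM hres hgen) (degenBeta M p hpM hres hgen) rfl rfl hψ hψ'
    (fun h => RR.ofFF.eq_const_of_ord_nonneg (f := h))
    (fun h => RR.ofFF.eq_const_of_ord_nonneg (f := h)) hα hβ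
    (Hecke.finiteAlong _) (Hecke.finiteAlong _) (Hecke.normFormulaAlong _ _)
    (Hecke.normFormulaAlong _ _) (S.smul_sub_mem_of_fixesNodes hSfix hx) hD ?_ ?_
  · exact Ordinary.eq_zero_of_mem_principal
      (D := ⟨_, Divisor.pushforwardAlong_mem_degZero _ hα D.2⟩)
      (by
          rw [← SquareLevel.pushAlpha_mk, hD, hzdef, map_sub, ← hS_act,
            SquareLevel.pushAlpha_smul, hfx]
          exact sub_eq_zero.mpr (smul_zero (A := JZero M) (φ * φ)))
  · exact Ordinary.eq_zero_of_mem_principal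
      (D := ⟨_, Divisor.pushforwardAlong_mem_degZero _ hβ D.2⟩)
      (by
          rw [← SquareLevel.pushBeta_mk, hD, hzdef, map_sub, ← hS_act,
            SquareLevel.pushBeta_smul, hgx]
          exact sub_eq_zero.mpr (smul_zero (A := JZero M) (φ * φ)))

end Fermat.Agent.Raising.AtResidualPrime
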