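import Fermat.Agent.Attach.Inputs
import Fermat.Agent.Raising.AtResidualPrime.Levels
import Fermat.Agent.Raising.AtResidualPrime.NewVec
import Fermat.Agent.Raising.AtResidualPrime.StrictCore
import Fermat.Agent.Raising.AtResidualPrime.ToricFrob
import Fermat.Agent.TwoComponent.Ordinary.Frame
import Fermat.Agent.TwoComponent.Ordinary.Geo

/-!
# New points at `p`

An eigenvector at level `M p` killed by both transfers to level `M` has, when residually ordinary,
an ordinary representation at `p` on whose unramified quotient a Frobenius element acts by `±1`.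
-/

noncomputable section

namespace Fermat.Agent.Raising.AtResidualPrime

open ModularCurve IsLocalRing Polynomial Fermat.Agent.Attach Fermat.Agent.TwoComponent
  Fermat.Agent.TwoComponent.Ordinary Fermat.Agent.Ihara Fermat.Agent.EigenTwist
open scoped TensorProduct

local notation "Qbar" => AlgebraicClosure ℚ
local notation "GQ" => (AlgebraicClosure ℚ ≃ₐ[ℚ] AlgebraicClosure ℚ)

/-- A matrix intertwining the two `p`-adic Galois actions does so over the coefficient ring. -/
theorem map_commute_repO {N N' p : ℕ} [NeZero N] [NeZero N'] [Fact p.Prime] {M : TorsionModel N p}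
    {M' : TorsionModel N' p} {O : Type} [CommRing O] [IsLocalRing O]
    [IsAdicComplete (maximalIdeal O) O] (hp : (p : O) ∈ maximalIdeal O)
    (B : Matrix (Fin M'.rk) (Fin M.rk) ℤ) {g : GQ}
    (h : B.map (Int.castRingHom ℤ_[p]) * M.repPadic g =
      M'.repPadic g * B.map (Int.castRingHom ℤ_[p])) :
    B.map (Int.castRingHom O) * M.repO hp g = M'.repO hp g * B.map (Int.castRingHom O) := by
  have e : (B.map (Int.castRingHom ℤ_[p])).map (padicMap p (maximalIdeal O) hp) =
      B.map (Int.castRingHom O) := Matrix.ext fun i l => by simp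
  have h2 := congrArg
    (fun X : Matrix (Fin M'.rk) (Fin M.rk) ℤ_[p] => X.map (padicMap p (maximalIdeal O) hp)) h
  simp only [Matrix.map_mul, e] at h2
  exact h2

section EigenKernel

variable {N : ℕ} [NeZero N] {p : ℕ} [Fact p.Prime] (M : TorsionModel N p) {S : Set ℕ}
  (hS : ∀ r, r.Prime → r ∣ N → r ∈ S) {O L : Type} [CommRing O] [IsLocalRing O] [CommRing L]
  [Algebra O L] {π : CuspForm.heckeAlgebra N 2 S →+* O}

omit [Fact p.Prime] [IsLocalRing O] in
/-- An eigenvector of the Hecke algebra is one of the Hecke algebra with coefficients. -/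
theorem actO_mulVec_of_eigen {x : Fin M.rk → O} (hx : ∀ t, (M.matO O hS t).mulVec x = π t • x)
    (z : HeckeO N S O) : (actO M hS O z).mulVec x = piExt O π z • x := by
  induction z using TensorProduct.induction_on with
  | zero => rw [map_zero, map_zero, Matrix.zero_mulVec, zero_smul]
  | tmul a t =>
    rw [actO_tmul, Matrix.smul_mulVec, hx, smul_smul]
    exact congrArg (· • x) (piExt_tmul π a t).symm
  | add z z' hz hz' => rw [map_add, map_add, Matrix.add_mulVec, hz, hz', add_smul]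

variable (F : Factor (piExt O π) L)

omit [Fact p.Prime] in
/-- On an eigenvector the factor acts through the character. -/
theorem coe_smul_of_eigen {x : facLattice M hS F}
    (hx : ∀ t, (M.matO O hS t).mulVec (x : Fin M.rk → O) = π t • (x : Fin M.rk → O)) (l : L) :
    ((l • x : facLattice M hS F) : Fin M.rk → O) = F.toT l • (x : Fin M.rk → O) := by
  obtain ⟨z, rfl⟩ := F.surj l
  rw [fac_smul_def, actFac_proj, F.toT_proj]
  exact actO_mulVec_of_eigen M hS hx z

/-- The eigenvectors of the character in the lattice of a factor killed by two given matrices. -/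
def eigenKernel {m : ℕ} (PA PB : Matrix (Fin m) (Fin M.rk) O) :
    Submodule L (facLattice M hS F) where
  carrier := {x | (∀ t, (M.matO O hS t).mulVec (x : Fin M.rk → O) = π t • (x : Fin M.rk → O)) ∧
    PA.mulVec (x : Fin M.rk → O) = 0 ∧ PB.mulVec (x : Fin M.rk → O) = 0}
  add_mem' := fun {x x'} hx hx' => ⟨fun t => by
    rw [Submodule.coe_add, Matrix.mulVec_add, hx.1, hx'.1, smul_add],
    by rw [Submodule.coe_add, Matrix.mulVec_add, hx.2.1, hx'.2.1, add_zero],
    by rw [Submodule.coe_add, Matrix.mulVec_add, hx.2.2, hx'.2.2, add_zero]⟩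
  zero_mem' := ⟨fun t => by simp, by simp, by simp⟩
  smul_mem' := fun l {x} hx => ⟨fun t => by
    rw [coe_smul_of_eigen M hS F hx.1, Matrix.mulVec_smul, hx.1, smul_comm],
    by rw [coe_smul_of_eigen M hS F hx.1, Matrix.mulVec_smul, hx.2.1, smul_zero],
    by rw [coe_smul_of_eigen M hS F hx.1, Matrix.mulVec_smul, hx.2.2, smul_zero]⟩

end EigenKernel

/-- **Strict ordinarity at `p` of new points.** -/
theorem exists_strict {M₀ : ℕ} [NeZero M₀] {p : ℕ} [Fact p.Prime] [NeZero p] {S : Finset ℕ}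
    {O : Type} [CommRing O] [IsDomain O] [IsDiscreteValuationRing O]
    [IsAdicComplete (maximalIdeal O) O] [CharZero O] [Finite (ResidueField O)]
    (hp2 : p ≠ 2) (hpO : (p : O) ∈ maximalIdeal O) (hpM : ¬ p ∣ M₀) (hpS : p ∈ S)
    (hS : ∀ r, r.Prime → r ∣ M₀ * p → r ∈ (↑S : Set ℕ))
    {K : Type} [Field K] (j : O →+* K) (hj : Function.Injective j)
    (π : CuspForm.heckeAlgebra (M₀ * p) 2 (↑S : Set ℕ) →+* O)
    (y : clH K (M₀ * p)) (hy0 : y ≠ 0) (hyA : clCorA K M₀ p y = 0) (hyB : clCorB K M₀ p y = 0)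
    (heig : ∀ (ℓ : ℕ) [NeZero ℓ] (hℓ : ℓ.Prime) (hℓN : ¬ ℓ ∣ M₀ * p) (hℓS : ℓ ∉ (↑S : Set ℕ)),
      clT K (M₀ * p) ℓ y = j (π (CuspForm.heckeAlgebra.T hℓ hℓN hℓS)) • y)
    (ρ : GaloisRepAdic O)
    (hfrob : ∀ (ℓ : ℕ) (hℓ : ℓ.Prime) (hℓN : ¬ ℓ ∣ M₀ * p) (hℓS : ℓ ∉ (↑S : Set ℕ)),
      ∀ A : ValuationSubring Qbar, A.LiesOverPrime ℓ → ∀ σ : GQ, A.IsFrobeniusAt σ ℓ →
        LinearMap.charpoly (ρ.ρ σ) =
          X ^ 2 - C (π (CuspForm.heckeAlgebra.T hℓ hℓN hℓS)) * X + C ((ℓ : O)))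
    (habs : ρ.residual.IsAbsolutelyIrreducible)
    (hres : (GaloisRepAdic.ofResidualGaloisRep ρ.residual).IsOrdinaryAt p) :
    ∀ A : ValuationSubring Qbar, A.LiesOverPrime p → ∃ b : Module.Basis (Fin 2) O ρ.V,
      (∀ σ ∈ A.decompositionSubgroup ℚ, ∀ v ∈ O ∙ b 0, ρ.ρ σ v ∈ O ∙ b 0) ∧
      (∀ σ ∈ A.inertiaSubgroupIn ℚ, ∀ v, ρ.ρ σ v - v ∈ O ∙ b 0) ∧
      ∀ σ, A.IsFrobeniusAt σ p → ∃ α : O, (α = 1 ∨ α = -1) ∧
        ∀ v, ρ.ρ σ v - α • v ∈ O ∙ b 0 := by
  intro A hA
  have hpT : (p : O) ∈ maximalIdeal O := hpO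
  obtain ⟨I⟩ := nonempty_jacobianInputs (M₀ * p) p
  obtain ⟨I'⟩ := nonempty_jacobianInputs M₀ p
  let M := torsionModel (M₀ * p) p
  choose z hz htr hdet using exists_trace M (T := O) hpO I.galois hpS hS π ρ hfrob
  have hdetρ : ∀ σ, LinearMap.det (ρ.ρ σ) = TorsionModel.cycO hpT σ := fun σ => by
    rw [← det_repMat, hdet, map_cycO]
  let q := piExt O π
  have hq : Function.Surjective q := fun x => ⟨algebraMap O _ x, q.commutes x⟩
  have := module_finite_hecke M hS
  obtain ⟨L, _, _, _, F, hLc, hLfin, hloc⟩ := exists_factor q hq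
  have := isReduced_heckeO M hS O
  have := F.isReduced (q := q)
  obtain ⟨dd, Φ, hΦg, hΦker, hΦkill, -, hΦP⟩ := exists_level_maps_hecke hpO M
  obtain ⟨R⟩ := exists_ordinaryFrame (M := M) (hS := hS) F Φ hloc I.galois hp2 hpO hA ρ z hz htr
    hdetρ habs hres (f := (SquareLevel.pushAlpha M₀ p).compLeft (Fin dd))
    (g := (SquareLevel.pushBeta M₀ p).compLeft (Fin dd))
    (fun σ x => funext fun i => by simp [SquareLevel.pushAlpha_smul])
    (fun σ x => funext fun i => by simp [SquareLevel.pushBeta_smul])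
    ((hasToricPart M₀ p hpM hA).pi _) ((hasConnectedPart M₀ p hp2 hpM hA).pi _)
    hΦg hΦker hΦkill
  refine ⟨R.B, R.stable, R.unramified, fun σ hσ => ?_⟩
  let P := R.P
  have hσD : σ ∈ A.decompositionSubgroup ℚ := hσ.mem_decompositionSubgroup
  have hττD : σ * σ ∈ A.decompositionSubgroup ℚ := mul_mem hσD hσD
  obtain ⟨v₀, hv0, hveig, hvA, hvB⟩ := exists_newVec (p := p) hS j hj π y hy0 hyA hyB heig
  set PA := (pushMat M (torsionModel M₀ p) (latA M₀ p)).map (Int.castRingHom O) with hPA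
  set PB := (pushMat M (torsionModel M₀ p) (latB M₀ p)).map (Int.castRingHom O) with hPB
  let E := eigenKernel M hS F PA PB
  have hcA := fun g => map_commute_repO hpO _ (pushMat_commute M (torsionModel M₀ p) _ (latA M₀ p)
    (pushBeta_proj M₀ p p) (SquareLevel.pushBeta_smul M₀ p) g)
  have hcB := fun g => map_commute_repO hpO _ (pushMat_commute M (torsionModel M₀ p) _ (latB M₀ p)
    (pushAlpha_proj M₀ p p) (SquareLevel.pushAlpha_smul M₀ p) g)
  have hEρ : ∀ g, ∀ x ∈ E, P.rho g x ∈ E := fun g x hx => ⟨fun t => by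
      rw [R.rho_eq]
      rw [Matrix.mulVec_mulVec, ← (M.repO_commute hpO I.galois hS g t).eq, ← Matrix.mulVec_mulVec,
        hx.1, Matrix.mulVec_smul],
    by
      rw [R.rho_eq]
      rw [Matrix.mulVec_mulVec, hPA, hcA, ← Matrix.mulVec_mulVec, ← hPA, hx.2.1,
        Matrix.mulVec_zero],
    by
      rw [R.rho_eq]
      rw [Matrix.mulVec_mulVec, hPB, hcB, ← Matrix.mulVec_mulVec, ← hPB, hx.2.2,
        Matrix.mulVec_zero]⟩
  let v₁ : facLattice M hS F := ⟨v₀, fun r hr => by
    rw [actO_mulVec_of_eigen M hS hveig r, ← F.toT_proj, hr, map_zero, zero_smul]⟩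
  have hv1E : v₁ ∈ E := ⟨hveig, hvA, hvB⟩
  obtain ⟨w, hwE, hw⟩ : ∃ w ∈ E, P.projD w ≠ 0 := by
    by_contra! hno
    have h1 : P.projA (P.rho R.g₀ (P.projD (P.rho R.h₀ (P.projA v₁)))) =
        P.offA R.g₀ R.h₀ • P.projA v₁ := LinearMap.congr_fun (P.midA R.g₀ R.h₀) v₁
    rw [hno _ (hEρ _ _ (projA_mem P hEρ hv1E)), map_zero, map_zero] at h1
    have h2 : P.projA v₁ = 0 := (R.offA_unit.smul_eq_zero).mp h1.symm
    have e : v₁ = P.projA v₁ + P.projD v₁ := (LinearMap.congr_fun P.projA_add_projD v₁).symm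
    rw [h2, hno v₁ hv1E, add_zero] at e
    exact hv0 (congrArg Subtype.val e)
  set e := P.entD (σ * σ) with he
  have hkey : ((e - 1) * (e - 1)) • P.projD w = 0 := eq_zero_of_levelMap F Φ hΦker _ fun n => by
    obtain ⟨k, hk'⟩ := exists_pow_kill (M := M) (hS := hS) F Φ hΦkill n
    obtain ⟨Cs, hC2, hmult, hfr⟩ := exists_toric_frobenius M₀ p hpM hA n
    refine projD_smul_eq_zero P hp2 (maximalIdeal L) (natCast_mem_factor F hpO) R.rootA_mem
      R.rootD_mem R.s_mem R.s_inv E hEρ (Φ := levelMap F Φ n)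
      (fun τ x => (hΦg n τ _).trans (congrArg (Φ n) (R.rho_eq τ x).symm))
      (fun x => hΦkill n _) hk'
      ((SquareLevel.pushAlpha M₀ p).compLeft (Fin dd)) ((SquareLevel.pushBeta M₀ p).compLeft
        (Fin dd))
      (fun x hx => funext fun i => hΦP _ _ _ _
        (push_pt M (torsionModel M₀ p) _ _ (pushAlpha_proj M₀ p p)) _ hx.2.2 n i)
      (fun x hx => funext fun i => hΦP _ _ _ _
        (push_pt M (torsionModel M₀ p) _ _ (pushBeta_proj M₀ p p)) _ hx.2.1 n i)
      (powerSubgroup (Fin dd) Cs)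
      (fun a ha b hb x hx => mem_powerSubgroup.mpr fun i => hC2 a ha b hb _ (congrFun hx i))
      (fun x hx h1 h2 h3 a ha m hm => funext fun i =>
        hmult _ (mem_powerSubgroup.mp hx i) (congrFun h1 i) (congrFun h2 i) (congrFun h3 i)
          a ha m hm)
      (fun v => P.lower_eq_zero R.offA_unit R.offD_unit (R.lower _ hττD) v)
      (fun x hx h1 h2 => mem_powerSubgroup.mpr fun i =>
        hfr σ hσ _ (congrFun hx i) (congrFun h1 i) (congrFun h2 i)) w hwE
  have hone : F.toT e = 1 := by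
    have hDw := coe_smul_of_eigen M hS F (projD_mem P hEρ hwE).1 ((e - 1) * (e - 1))
    rw [hkey] at hDw
    have hne : ((P.projD w : facLattice M hS F) : Fin M.rk → O) ≠ 0 := fun h => hw (Subtype.ext h)
    have h0 := (smul_eq_zero.mp hDw.symm).resolve_right hne
    rw [map_mul, map_sub, map_one, mul_self_eq_zero, sub_eq_zero] at h0
    exact h0
  have hsq : F.toT (P.entD σ) * F.toT (P.entD σ) = 1 :=
    (R.entD_mul σ hσD σ hσD).symm.trans hone
  exact ⟨_, mul_self_eq_one_iff.mp hsq, R.quotient σ hσD⟩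

end Fermat.Agent.Raising.AtResidualPrime
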