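import Fermat.Prelude.Def_GaloisRep_StrictOrdinary
import Fermat.Agent.Attach.Inputs
import Fermat.Agent.Flat.DatumFlat
import Fermat.Agent.Ihara.PairingMain
import Fermat.Agent.Ihara.RaiseAdjoint
import Fermat.Agent.LevelLowering.PointTools
import Fermat.Agent.LevelLowering.TWCore
import Fermat.Agent.Raising.AtResidualPrime.Strict
import Fermat.Agent.TW.BaseChange
import Fermat.Agent.TW.Local.Generate

/-!
# Strict ordinarity at a prime exactly dividing the level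

If the reduction of the representation of an eigen class at level `M p` is ordinary and not flat at
`p`, the class is killed by the two transfers to level `M` and the representation is strictly
ordinary at `p`.
-/

noncomputable section

namespace Fermat.Agent.Raising.AtResidualPrime

open IsLocalRing Polynomial Fermat.Agent.Ihara Fermat.Agent.LevelLowering Fermat.Agent.PT

local notation "Qbar" => AlgebraicClosure ℚ
local notation "GQ" => (AlgebraicClosure ℚ ≃ₐ[ℚ] AlgebraicClosure ℚ)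

/-- **Ordinary with `±1` at Frobenius is strictly ordinary.** -/
theorem isStrictOrdinaryAt_of_sign {T : Type} [CommRing T] [IsLocalRing T] [IsNoetherianRing T]
    {ρ : GaloisRepAdic T} {p : ℕ} (hp : p.Prime) (hdet : ρ.DetIsCyclotomic p)
    (h : ∀ A : ValuationSubring Qbar, A.LiesOverPrime p → ∃ b : Module.Basis (Fin 2) T ρ.V,
      (∀ σ ∈ A.decompositionSubgroup ℚ, ∀ v ∈ T ∙ b 0, ρ.ρ σ v ∈ T ∙ b 0) ∧
      (∀ σ ∈ A.inertiaSubgroupIn ℚ, ∀ v, ρ.ρ σ v - v ∈ T ∙ b 0) ∧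
      ∀ σ, A.IsFrobeniusAt σ p → ∃ α : T, α * α = 1 ∧ ∀ v, ρ.ρ σ v - α • v ∈ T ∙ b 0) :
    ρ.IsStrictOrdinaryAt p := by
  refine ⟨hdet.1, fun A hA => ?_⟩
  obtain ⟨b, hD, hI, hF⟩ := h A hA
  obtain ⟨φ, hφ⟩ := Gal.exists_isFrobeniusAt hp hA
  obtain ⟨α, hα, hφv⟩ := hF φ hφ
  have hb0 : ∀ v ∈ T ∙ b 0, b.repr v 1 = 0 := fun v hv => by
    obtain ⟨c, rfl⟩ := Submodule.mem_span_singleton.1 hv
    simp
  have hmem : ∀ v : ρ.V, b.repr v 1 = 0 → v ∈ T ∙ b 0 := fun v hv => by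
    refine Submodule.mem_span_singleton.2 ⟨b.repr v 0, ?_⟩
    conv_rhs => rw [← b.sum_repr v, Fin.sum_univ_two, hv, zero_smul, add_zero]
  have hcol : ∀ σ ∈ A.decompositionSubgroup ℚ, ρ.ρ σ (b 0) = b.repr (ρ.ρ σ (b 0)) 0 • b 0 :=
    fun σ hσ => by
      conv_lhs => rw [← b.sum_repr (ρ.ρ σ (b 0)), Fin.sum_univ_two,
        hb0 _ (hD σ hσ _ (Submodule.mem_span_singleton_self _)), zero_smul, add_zero]
  have hquot : ∀ σ ∈ A.decompositionSubgroup ℚ, ∀ v : ρ.V,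
      b.repr (ρ.ρ σ v) 1 = b.repr (ρ.ρ σ (b 1)) 1 * b.repr v 1 := fun σ hσ v => by
    conv_lhs => rw [← b.sum_repr v, Fin.sum_univ_two]
    simp only [map_add, map_smul, Finsupp.add_apply, Finsupp.smul_apply, smul_eq_mul,
      hb0 _ (hD σ hσ _ (Submodule.mem_span_singleton_self _)), mul_zero, zero_add]
    ring
  -- the scalar on the quotient is `±1` on the whole decomposition group
  have hφD : φ ∈ A.decompositionSubgroup ℚ := hφ.1
  have hφ1 : ∀ v, b.repr (ρ.ρ φ v) 1 = α * b.repr v 1 := fun v => by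
    have := hb0 _ (hφv v)
    rwa [map_sub, Finsupp.sub_apply, map_smul, Finsupp.smul_apply, smul_eq_mul, sub_eq_zero] at this
  have hI1 : ∀ ι ∈ A.inertiaSubgroupIn ℚ, ∀ v, b.repr (ρ.ρ ι v) 1 = b.repr v 1 := fun ι hι v => by
    have := hb0 _ (hI ι hι v)
    rwa [map_sub, Finsupp.sub_apply, sub_eq_zero] at this
  have hpow : ∀ (i : ℕ) (v : ρ.V), b.repr (ρ.ρ (φ ^ i) v) 1 = α ^ i * b.repr v 1 := by
    intro i
    induction i with
    | zero => intro v; simp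
    | succ i ih =>
      intro v
      rw [pow_succ', map_mul, Module.End.mul_apply, hφ1, ih]
      ring
  have hsq : ∀ σ ∈ A.decompositionSubgroup ℚ,
      b.repr (ρ.ρ σ (b 1)) 1 * b.repr (ρ.ρ σ (b 1)) 1 = 1 := fun σ hσ => by
    refine sub_eq_zero.mp (LevelLowering.eq_zero_of_forall_mem_pow _ fun k => ?_)
    obtain ⟨L, hL, hLk⟩ := ρ.isAdicContinuous k
    obtain ⟨i, ι, hι, hu⟩ := TW.exists_frob_pow_mul hp hA hφ
      (U := L.fixingSubgroup) ⟨L, hL, le_rfl⟩ hσ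
    set s := φ ^ i * ι with hs
    have e1 : ∀ v, b.repr (ρ.ρ s v) 1 = α ^ i * b.repr v 1 := fun v => by
      rw [hs, map_mul, Module.End.mul_apply, hpow, hI1 ι hι]
    have e2 : b.repr (ρ.ρ σ (b 1)) 1 - α ^ i ∈ maximalIdeal T ^ k := by
      have h1 := hLk (s⁻¹ * σ) ((IntermediateField.mem_fixingSubgroup_iff L _).mp hu) (b 1)
      have h2 : b.repr (ρ.ρ s (ρ.ρ (s⁻¹ * σ) (b 1) - b 1)) 1 ∈ maximalIdeal T ^ k := by
        rw [e1]
        exact Ideal.mul_mem_left _ _ (Gal.repr_mem_of_mem_smul_top b h1 1)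
      rwa [map_sub, ← Module.End.mul_apply, ← map_mul, mul_inv_cancel_left, map_sub,
        Finsupp.sub_apply, e1 (b 1), Module.Basis.repr_self, Finsupp.single_eq_same,
        mul_one] at h2
    have hαi : α ^ i * α ^ i = 1 := by rw [← mul_pow, hα, one_pow]
    rw [show b.repr (ρ.ρ σ (b 1)) 1 * b.repr (ρ.ρ σ (b 1)) 1 - 1 =
      (b.repr (ρ.ρ σ (b 1)) 1 - α ^ i) * (b.repr (ρ.ρ σ (b 1)) 1 + α ^ i) by
        linear_combination hαi]
    exact Ideal.mul_mem_right _ _ e2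
  refine ⟨T ∙ b 0, ⟨b, rfl⟩, hD, hI, fun σ hσ =>
    ⟨b.repr (ρ.ρ σ (b 0)) 0, b.repr (ρ.ρ σ (b 1)) 1, fun w hw => ?_, fun v => hmem _ ?_,
      fun n a ha => ?_⟩⟩
  · obtain ⟨c, rfl⟩ := Submodule.mem_span_singleton.1 hw
    rw [map_smul, smul_comm]
    exact congrArg (c • ·) (hcol σ hσ)
  · rw [map_sub, Finsupp.sub_apply, map_smul, Finsupp.smul_apply, smul_eq_mul, hquot σ hσ, sub_self]
  · have hd : LinearMap.det (ρ.ρ σ) = b.repr (ρ.ρ σ (b 0)) 0 * b.repr (ρ.ρ σ (b 1)) 1 := by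
      rw [← LinearMap.det_toMatrix b, Matrix.det_fin_two]
      simp only [LinearMap.toMatrix_apply,
        hb0 _ (hD σ hσ _ (Submodule.mem_span_singleton_self _)), mul_zero, sub_zero]
    have h1 := Ideal.mul_mem_right (b.repr (ρ.ρ σ (b 1)) 1) _ (hdet.2 n σ a ha)
    rwa [sub_mul, hd, mul_assoc, hsq σ hσ, mul_one] at h1

/-- **Eigen classes at level `M p` with reduction ordinary and not flat at `p`.** -/
theorem isStrictOrdinaryAt_of_eigenclass {M₀ : ℕ} [NeZero M₀] {p : ℕ} [Fact p.Prime] [NeZero p]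
    {S : Finset ℕ} {O : Type} [CommRing O] [IsDomain O] [IsDiscreteValuationRing O]
    [IsAdicComplete (maximalIdeal O) O] [CharZero O] [Finite (ResidueField O)]
    (hp2 : p ≠ 2) (hpO : (p : O) ∈ maximalIdeal O) (hpM : ¬ p ∣ M₀) (hpS : p ∈ S)
    (hS : ∀ r, r.Prime → r ∣ M₀ * p → r ∈ (↑S : Set ℕ))
    {K : Type} [Field K] (j : O →+* K) (hj : Function.Injective j)
    (π : CuspForm.heckeAlgebra (M₀ * p) 2 (↑S : Set ℕ) →+* O)
    (y : clH K (M₀ * p)) (hy0 : y ≠ 0)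
    (heig : ∀ (ℓ : ℕ) [NeZero ℓ] (hℓ : ℓ.Prime) (hℓN : ¬ ℓ ∣ M₀ * p) (hℓS : ℓ ∉ (↑S : Set ℕ)),
      clT K (M₀ * p) ℓ y = j (π (CuspForm.heckeAlgebra.T hℓ hℓN hℓS)) • y)
    (ρ : GaloisRepAdic O)
    (hfrob : ∀ (ℓ : ℕ) (hℓ : ℓ.Prime) (hℓN : ¬ ℓ ∣ M₀ * p) (hℓS : ℓ ∉ (↑S : Set ℕ)),
      ∀ A : ValuationSubring Qbar, A.LiesOverPrime ℓ → ∀ σ : GQ, A.IsFrobeniusAt σ ℓ →
        LinearMap.charpoly (ρ.ρ σ) =
          X ^ 2 - C (π (CuspForm.heckeAlgebra.T hℓ hℓN hℓS)) * X + C ((ℓ : O)))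
    (habs : ρ.residual.IsAbsolutelyIrreducible)
    (hres : (GaloisRepAdic.ofResidualGaloisRep ρ.residual).IsOrdinaryAt p)
    (hnflat : ¬ (GaloisRepAdic.ofResidualGaloisRep ρ.residual).IsFlatAt p) :
    clCorA K M₀ p y = 0 ∧ clCorB K M₀ p y = 0 ∧ ρ.IsStrictOrdinaryAt p := by
  classical
  have hp : p.Prime := Fact.out
  have hS₀ : ∀ r, r.Prime → r ∣ M₀ → r ∈ (↑S : Set ℕ) := fun r hr hd =>
    hS r hr (dvd_mul_of_dvd_left hd p)
  have hℓM : ∀ ℓ : ℕ, ℓ.Prime → ℓ ∉ (↑S : Set ℕ) → ¬ ℓ ∣ M₀ * p := fun ℓ hℓ hℓS hd =>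
    hℓS (hS ℓ hℓ hd)
  let a : ℕ → O := fun ℓ =>
    if h : ℓ.Prime ∧ ℓ ∉ (↑S : Set ℕ) then
      π (CuspForm.heckeAlgebra.T h.1 (hℓM ℓ h.1 h.2) h.2) else 0
  obtain ⟨P, hP⟩ := exists_poincarePairing K
  -- a non-zero transfer would give a flat representation
  have hkill : ∀ z : clH K M₀, (∀ (ℓ : ℕ) [NeZero ℓ], ℓ.Prime → ℓ ∉ (↑S : Set ℕ) →
      clT K M₀ ℓ z = j (a ℓ) • z) → z = 0 := by
    intro z hz
    by_contra hz0
    obtain ⟨θ, hθ⟩ := exists_heckeHom hS₀ j hj z.1 z.2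
      (fun h => hz0 (Subtype.ext h)) a fun ℓ _ hℓ hℓS => congrArg Subtype.val (hz ℓ hℓ hℓS)
    let H : Attach.HeckeRep M₀ (↑S : Set ℕ) O O :=
      { π := θ
        ρ := ρ
        charpoly_frob := fun ℓ hℓ hℓN hℓS A hA σ hσ => by
          rw [hfrob ℓ hℓ (hℓM ℓ hℓ hℓS) hℓS A hA σ hσ, hθ ℓ hℓ hℓN hℓS]
          simp only [a]
          rw [dif_pos ⟨hℓ, hℓS⟩]
        residue_surjective := residue_surjective
        residual_absIrr := habs }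
    have hflat : ρ.IsFlatAt p := Flat.Datum.isFlatAt_of_inputs H
      (Attach.nonempty_jacobianInputs M₀ p).some hpO hpS hpM hS₀
    exact hnflat (TW.isFlatAt_baseChange (φ := residue O) inferInstance residue_surjective hflat)
  have hj' : ∀ (ℓ : ℕ) [NeZero ℓ], ℓ.Prime → ℓ ∉ (↑S : Set ℕ) →
      (clT K M₀ ℓ (clJ K M₀ p y).1, clT K M₀ ℓ (clJ K M₀ p y).2) =
        j (a ℓ) • clJ K M₀ p y := fun ℓ _ hℓ hℓS => by
    rw [← clT_clJ hP hℓ (fun h => hℓM ℓ hℓ hℓS (dvd_mul_of_dvd_left h p))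
      (fun h => hℓM ℓ hℓ hℓS (dvd_mul_of_dvd_right h M₀)), heig ℓ hℓ (hℓM ℓ hℓ hℓS) hℓS]
    simp only [a]
    rw [dif_pos ⟨hℓ, hℓS⟩, map_smul]
  have hA0 : clCorA K M₀ p y = 0 := hkill _ fun ℓ _ hℓ hℓS => congrArg Prod.fst (hj' ℓ hℓ hℓS)
  have hB0 : clCorB K M₀ p y = 0 := hkill _ fun ℓ _ hℓ hℓS => congrArg Prod.snd (hj' ℓ hℓ hℓS)
  have hdet : ρ.DetIsCyclotomic p := detIsCyclotomic_of_frobenius ρ hp hpO S
    fun ℓ hℓ hℓS A hA σ hσ =>
      (trace_det_of_charpoly ρ.finrank_eq (hfrob ℓ hℓ (hℓM ℓ hℓ hℓS) hℓS A hA σ hσ)).2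
  refine ⟨hA0, hB0, isStrictOrdinaryAt_of_sign hp hdet fun A hA => ?_⟩
  obtain ⟨b, hD, hI, hF⟩ := exists_strict hp2 hpO hpM hpS hS j hj π y hy0 hA0 hB0
    (fun ℓ _ => heig ℓ) ρ hfrob habs hres A hA
  refine ⟨b, hD, hI, fun σ hσ => ?_⟩
  obtain ⟨α, hα, hv⟩ := hF σ hσ
  exact ⟨α, by rcases hα with rfl | rfl <;> simp, hv⟩

end Fermat.Agent.Raising.AtResidualPrime
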