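import Mathlib.FieldTheory.IsAlgClosed.Basic
import Mathlib.RingTheory.Algebraic.Integral
import Mathlib.RingTheory.IntegralClosure.IsIntegral.Basic

/-!
# Embedding the ring of a point into an algebraically closed field

A point `ev : A → R` with values in a domain finite over `O`, and a character `val : A → K` with
the same kernel, differ by an embedding of `R` into `K`.
-/

noncomputable section

namespace Fermat.Agent.Raising.AtResidualPrime

/-- **A point with the kernel of a character becomes that character in `K`.** -/
theorem exists_pointEmb {O A R K : Type} [CommRing O] [CommRing A] [Algebra O A] [CommRing R]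
    [IsDomain R] [Algebra O R] [Module.Finite O R] [Field K] [IsAlgClosed K] [Algebra O K]
    (ev : A →ₐ[O] R) (val : A →ₐ[O] K) (h : ∀ x, ev x = 0 ↔ val x = 0) :
    ∃ j : R →+* K, Function.Injective j ∧ ∀ x, j (ev x) = val x := by
  let B := A ⧸ RingHom.ker (ev : A →+* R)
  let fR : B →+* R := RingHom.kerLift (ev : A →+* R)
  let fK : B →+* K := Ideal.Quotient.lift _ (val : A →+* K) fun x hx => (h x).mp hx
  have hfR : Function.Injective fR := RingHom.kerLift_injective _
  have hfK : Function.Injective fK := RingHom.lift_injective_of_ker_le_ideal _ _ fun x hx =>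
    (h x).mpr hx
  let : Algebra B R := fR.toAlgebra
  let : Algebra B K := fK.toAlgebra
  have : IsDomain B := hfR.isDomain
  have : IsScalarTower O B R := IsScalarTower.of_algebraMap_eq fun c => (ev.commutes c).symm
  have : Module.Finite B R := Module.Finite.of_restrictScalars_finite O B R
  have : Algebra.IsAlgebraic B R :=
    have : Algebra.IsIntegral B R := Algebra.IsIntegral.of_finite B R
    inferInstance
  have : FaithfulSMul B R := (faithfulSMul_iff_algebraMap_injective B R).mpr hfR
  have : FaithfulSMul B K := (faithfulSMul_iff_algebraMap_injective B K).mpr hfK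
  let j₀ : R →ₐ[B] K := IsAlgClosed.lift
  refine ⟨j₀.toRingHom, ?_, fun x => ?_⟩
  · refine (injective_iff_map_eq_zero _).mpr fun r hr => ?_
    by_contra hr0
    obtain ⟨b, hb0, c, hc⟩ := (Algebra.IsAlgebraic.isAlgebraic (R := B) r).exists_nonzero_dvd
      (mem_nonZeroDivisors_of_ne_zero hr0)
    refine hb0 (hfK ?_)
    rw [map_zero]
    calc fK b = j₀ (algebraMap B R b) := (j₀.commutes b).symm
      _ = 0 := by rw [hc, map_mul, show j₀ r = 0 from hr, zero_mul]
  · show j₀ (algebraMap B R (Ideal.Quotient.mk _ x)) = val x
    rw [AlgHom.commutes]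
    rfl

end Fermat.Agent.Raising.AtResidualPrime
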