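import Fermat.Agent.Attach.DeformationToHecke
import Fermat.Agent.LevelLowering.TWPointTools
import Fermat.Agent.Raising.AtResidualPrime.PointEmb

/-!
# Points of a Taylor–Wiles level refined at the primes outside the level

A common eigenvector of all the operators away from the level has, besides its point for the
operators outside `S`, values for the operators outside a smaller set `S₁` (for instance without
`p`); both live in the integers of one finite extension, with the representation of the point.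
-/

noncomputable section

open scoped MatrixGroups TensorProduct
open Polynomial CongruenceSubgroup IsLocalRing Fermat.Agent.Grp Fermat.Agent.Ihara
  Fermat.Agent.LevelLowering

namespace Fermat.Agent.Raising.AtResidualPrime

local notation "Qbar" => AlgebraicClosure ℚ
local notation "GQ" => (AlgebraicClosure ℚ ≃ₐ[ℚ] AlgebraicClosure ℚ)

variable {O : Type} [CommRing O] [IsDomain O] [IsDiscreteValuationRing O]
  [IsAdicComplete (maximalIdeal O) O] [Finite (ResidueField O)] [CharZero O]
  {p r : ℕ} [Fact p.Prime] {lv : Fin r → ℕ} {qs : Fin r → ℕ} {N : ℕ} [NeZero N]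
  {Ψ : (ZMod N)ˣ →* DiaGroup p lv} {hΨ : Function.Surjective Ψ}
  {hneg : (-1 : SL(2, ℤ)) ∈ GammaPsi Ψ} {S : Finset ℕ}
  {hNS : ∀ l : ℕ, l.Prime → l ∣ N → l ∈ S} {a : Nat.Primes → ResidueField O}
  (S₁ : Finset ℕ) (hNS₁ : ∀ l : ℕ, l.Prime → l ∣ N → l ∈ S₁)

section EigenData

variable (hΨ hneg) (K : Type) [Field K] [Algebra O K]

omit [IsDomain O] [IsDiscreteValuationRing O] [IsAdicComplete (maximalIdeal O) O]
  [Finite (ResidueField O)] [CharZero O] in
/-- A twisted operator common to the two algebras has one value at an eigenvector. -/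
theorem val_twGood_eq (hS : S₁ ⊆ S) {φ : clHoms K (GammaPsi Ψ) K} (hφ0 : φ ≠ 0)
    (hspan : φ ∈ Submodule.span K (Set.range (psiCast Ψ O K).toAddMonoidHom))
    (val : levelAlg O Ψ hΨ hneg (goodSet S) →ₐ[O] K)
    (hval : ∀ x, HasExtEigen (psiCast Ψ O K).toAddMonoidHom φ x.1.1 (val x))
    (val₁ : levelAlg O Ψ hΨ hneg (goodSet S₁) →ₐ[O] K)
    (hval₁ : ∀ x, HasExtEigen (psiCast Ψ O K).toAddMonoidHom φ x.1.1 (val₁ x))
    (ℓ : Nat.Primes) (hℓS : (ℓ : ℕ) ∉ S) :
    val₁ (twGood Ψ hΨ hneg S₁ hNS₁ ℓ fun h => hℓS (hS h)) =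
      val (twGood Ψ hΨ hneg S hNS ℓ hℓS) := by
  have e : ∀ i : goodSet S ⊕ DiaGroup p lv,
      val₁ (levelElt O Ψ hΨ hneg (goodSet S₁)
        (i.map (fun m => ⟨m.1, fun h => m.2 (hS h)⟩) id)) =
      val (levelElt O Ψ hΨ hneg (goodSet S) i) := fun i => by
    have hgen : (levelGen O Ψ hΨ hneg (goodSet S₁)
        (i.map (fun m => ⟨m.1, fun h => m.2 (hS h)⟩) id)).1 =
        (levelGen O Ψ hΨ hneg (goodSet S) i).1 := by
      rcases i with m | δ <;> rfl
    have h1 := hval₁ (levelElt O Ψ hΨ hneg (goodSet S₁)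
      (i.map (fun m => ⟨m.1, fun h => m.2 (hS h)⟩) id))
    unfold levelElt at h1
    dsimp only at h1
    rw [hgen] at h1
    have h2 := hval (levelElt O Ψ hΨ hneg (goodSet S) i)
    unfold levelElt at h2
    dsimp only at h2
    exact h1.unique hφ0 hspan h2
  exact (map_mul val₁ _ _).trans
    ((congrArg₂ (· * ·) (e (.inl ⟨ℓ, hℓS⟩)) (e (.inr _))).trans (map_mul val _ _).symm)

end EigenData

/-- **A refined point**: a point `P` and, in a finite extension of its ring, values of the
operators away from `S₁`. -/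
structure RefinedPoint (P : TWPoint qs Ψ hΨ hneg S hNS a) (K : Type) [Field K] [Algebra O K] :
    Type 1 where
  /-- The finite extension of the ring of the point. -/
  F : Type
  [instCommRing : CommRing F]
  [instDomain : IsDomain F]
  [instDVR : IsDiscreteValuationRing F]
  [instComplete : IsAdicComplete (maximalIdeal F) F]
  [instResidue : Finite (ResidueField F)]
  [instChar : CharZero F]
  [instAlgebra : Algebra O F]
  [instFinite : Module.Finite O F]
  [instLocalHom : IsLocalHom (algebraMap O F)]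
  /-- The inclusion of the ring of the point. -/
  ext : P.R →ₐ[O] F
  ext_local : IsLocalHom ext.toRingHom
  ext_inj : Function.Injective ext
  /-- The values of the operators away from `S₁`. -/
  ev₁ : levelAlg O Ψ hΨ hneg (goodSet S₁) →ₐ[O] F
  /-- An embedding of the extension into `K`. -/
  j : F →+* K
  j_inj : Function.Injective j

attribute [instance] RefinedPoint.instCommRing RefinedPoint.instDomain RefinedPoint.instDVR
  RefinedPoint.instComplete RefinedPoint.instResidue RefinedPoint.instChar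
  RefinedPoint.instAlgebra RefinedPoint.instFinite RefinedPoint.instLocalHom

namespace RefinedPoint

variable {S₁} {P : TWPoint qs Ψ hΨ hneg S hNS a} {K : Type} [Field K] [Algebra O K]
  (Q : RefinedPoint S₁ P K)

/-- The representation over the ring of the refined point. -/
def ρ : GaloisRepAdic Q.F := P.H.ρ.baseChangeAlong Q.ext.toRingHom Q.ext_local

omit [Finite (ResidueField O)] [CharZero O] in
theorem charpoly_ρ (σ : GQ) :
    LinearMap.charpoly (Q.ρ.ρ σ) = (LinearMap.charpoly (P.H.ρ.ρ σ)).map Q.ext.toRingHom :=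
  Attach.charpoly_baseChangeAlong Q.ext.toRingHom Q.ext_local P.H.ρ σ

omit [Finite (ResidueField O)] [CharZero O] in
/-- Frobenius away from `S`. -/
theorem charpoly_frob (ℓ : ℕ) (hℓ : ℓ.Prime) (hℓS : ℓ ∉ S) (A : ValuationSubring Qbar)
    (hA : A.LiesOverPrime ℓ) (σ : GQ) (hσ : A.IsFrobeniusAt σ ℓ) :
    LinearMap.charpoly (Q.ρ.ρ σ) =
      X ^ 2 - C (Q.ext (P.ev (twGood Ψ hΨ hneg S hNS ⟨ℓ, hℓ⟩ hℓS))) * X + C ((ℓ : Q.F)) := by
  rw [charpoly_ρ, P.charpoly_frob ℓ hℓ hℓS A hA σ hσ]
  simp

variable {ρbar : ResidualGaloisRep (ResidueField O)}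

omit [Finite (ResidueField O)] [CharZero O] in
theorem residual_absIrr (habs : ρbar.IsAbsolutelyIrreducible)
    (hbar : ∀ (ℓ : ℕ) (hℓ : ℓ.Prime), ℓ ∉ S → ∀ A : ValuationSubring Qbar, A.LiesOverPrime ℓ →
      ∀ σ : GQ, A.IsFrobeniusAt σ ℓ → LinearMap.charpoly (ρbar.ρ σ) =
        X ^ 2 - C (a ⟨ℓ, hℓ⟩) * X + C ((ℓ : ResidueField O))) :
    Q.ρ.residual.IsAbsolutelyIrreducible :=
  residual_irr_of_point Ψ hΨ hneg S hNS a habs hbar (Q.ext.comp P.ev)
    (by rw [AlgHom.comp_apply, P.ev_idem, map_one]) Q.ρ Q.charpoly_frob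

end RefinedPoint

/-- **Refined points exist**, with the embedding carrying both families of values to the
eigenvector's. -/
theorem exists_refinedPoint (K : Type) [Field K] [IsAlgClosed K] [Algebra O K]
    [Algebra (FractionRing O) K] [IsScalarTower O (FractionRing O) K]
    (P : TWPoint qs Ψ hΨ hneg S hNS a) (val : levelAlg O Ψ hΨ hneg (goodSet S) →ₐ[O] K)
    (hker : ∀ x, P.ev x = 0 ↔ val x = 0)
    (val₁ : levelAlg O Ψ hΨ hneg (goodSet S₁) →ₐ[O] K) :
    ∃ Q : RefinedPoint S₁ P K,
      (∀ x, Q.j (Q.ext (P.ev x)) = val x) ∧ ∀ x, Q.j (Q.ev₁ x) = val₁ x := by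
  classical
  obtain ⟨jP, hjP, hjev⟩ := exists_pointEmb P.ev val hker
  have := finite_levelAlg O Ψ hΨ hneg (goodSet S₁)
  let jA : P.R →ₐ[O] K :=
    { jP with
      commutes' := fun c => by
        show jP (algebraMap O P.R c) = _
        rw [← P.ev.commutes, hjev, val.commutes] }
  let w : P.R ⊗[O] levelAlg O Ψ hΨ hneg (goodSet S₁) →ₐ[O] K :=
    Algebra.TensorProduct.lift jA val₁ fun _ _ => Commute.all _ _
  obtain ⟨C, _, _, _, _, _, _, _, _, _, _, j, ev, hj, hjw⟩ := exists_integerValued K w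
  let e : P.R →ₐ[O] C := ev.comp Algebra.TensorProduct.includeLeft
  have hje : ∀ x, j (e x) = jP x := fun x => by
    show j (ev (x ⊗ₜ 1)) = jP x
    refine (hjw _).trans ((show w (x ⊗ₜ 1) = jA x * val₁ 1 from
      Algebra.TensorProduct.lift_tmul _ _ _ _ _).trans ?_)
    rw [map_one, mul_one]
    rfl
  have he : Function.Injective e := fun x y hxy => hjP (by rw [← hje, ← hje, hxy])
  let : Algebra P.R C := e.toRingHom.toAlgebra
  have : IsScalarTower O P.R C := IsScalarTower.of_algebraMap_eq fun c => (e.commutes c).symm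
  have : Module.Finite P.R C := Module.Finite.of_restrictScalars_finite O P.R C
  have hloc : IsLocalHom e.toRingHom :=
    RingHom.IsIntegral.isLocalHom (f := algebraMap P.R C)
      (Algebra.IsIntegral.of_finite P.R C).isIntegral he
  refine ⟨{ F := C, ext := e, ext_local := hloc, ext_inj := he,
            ev₁ := ev.comp Algebra.TensorProduct.includeRight, j := j, j_inj := hj },
    fun x => ?_, fun x => ?_⟩
  · show j (e (P.ev x)) = _
    rw [hje, hjev]
  · show j (ev (1 ⊗ₜ x)) = _
    refine (hjw _).trans ((show w (1 ⊗ₜ x) = jA 1 * val₁ x from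
      Algebra.TensorProduct.lift_tmul _ _ _ _ _).trans ?_)
    rw [map_one, one_mul]

end Fermat.Agent.Raising.AtResidualPrime
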