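import Fermat.Agent.LevelLowering.TWPointsExist
import Fermat.Agent.Raising.AtResidualPrime.RefinedPoint

/-!
# The refined points of a Taylor–Wiles level

Finitely many refined points, each with its eigenvector, detect the elements of the larger algebra
(away from `S₁`) on the part at the residual system of the operators away from `S`.
-/

noncomputable section

open scoped MatrixGroups
open Polynomial CongruenceSubgroup IsLocalRing Fermat.Agent.Grp Fermat.Agent.Ihara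
  Fermat.Agent.LevelLowering

namespace Fermat.Agent.Raising.AtResidualPrime

local notation "Qbar" => AlgebraicClosure ℚ
local notation "GQ" => (AlgebraicClosure ℚ ≃ₐ[ℚ] AlgebraicClosure ℚ)

variable {O : Type} [CommRing O] [IsDomain O] [IsDiscreteValuationRing O]
  [IsAdicComplete (maximalIdeal O) O] [Finite (ResidueField O)] [CharZero O]
  {p r : ℕ} [Fact p.Prime] {lv : Fin r → ℕ} {qs : Fin r → ℕ} {N : ℕ} [NeZero N]
  {hN : ∀ i, qs i ∣ N} {π : ∀ i, (ZMod (qs i))ˣ →* Multiplicative (ZMod (p ^ lv i))}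
  (Ψ : (ZMod N)ˣ →* DiaGroup p lv) (hΨ : Function.Surjective Ψ)
  (hneg : (-1 : SL(2, ℤ)) ∈ GammaPsi Ψ) (S : Finset ℕ)
  (hNS : ∀ l : ℕ, l.Prime → l ∣ N → l ∈ S) (a : Nat.Primes → ResidueField O)
  (S₁ : Finset ℕ) (hNS₁ : ∀ l : ℕ, l.Prime → l ∣ N → l ∈ S₁)

/-- A point together with the eigenvector it comes from and the values at it of the two algebras. -/
structure EigenPoint (K : Type) [Field K] [Algebra O K] : Type 1 where
  /-- The common eigenvector. -/
  φ : clHoms K (GammaPsi Ψ) K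
  mem : φ ∈ idemSpan O Ψ hΨ hneg S a K
  ne_zero : φ ≠ 0
  eigen : ∀ i, ∃ c : K, goodOps hΨ hneg i φ = c • φ
  /-- The eigencharacter of the operators away from `S` on it. -/
  val : levelAlg O Ψ hΨ hneg (goodSet S) →ₐ[O] K
  hasEigen : ∀ x, HasExtEigen (psiCast Ψ O K).toAddMonoidHom φ x.1.1 (val x)
  /-- The eigencharacter of the operators away from `S₁` on it. -/
  val₁ : levelAlg O Ψ hΨ hneg (goodSet S₁) →ₐ[O] K
  /-- The character of the diamonds on it. -/
  χ : DiaGroup p lv →* K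
  hasEigen₁ : ∀ x, HasExtEigen (psiCast Ψ O K).toAddMonoidHom φ x.1.1 (val₁ x)
  val₁_dia : ∀ δ, val₁ (levelElt O Ψ hΨ hneg (goodSet S₁) (.inr δ)) = χ δ
  diaOp_eq : ∀ δ, diaOp K Ψ hΨ δ φ = χ δ • φ
  kerOp_eq : ∀ ℓ : goodSet S₁, haveI : NeZero (ℓ.1 : ℕ) := ⟨ℓ.1.2.ne_zero⟩
    kerOp K Ψ hΨ hneg ℓ.1 φ = val₁ (levelElt O Ψ hΨ hneg (goodSet S₁) (.inl ℓ)) • φ
  /-- The point of the level with these values away from `S`. -/
  P : TWPoint qs Ψ hΨ hneg S hNS a
  /-- The refinement of the point with these values away from `S₁`. -/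
  Q : RefinedPoint S₁ P K
  j_ext : ∀ x, Q.j (Q.ext (P.ev x)) = val x
  j_ev₁ : ∀ x, Q.j (Q.ev₁ x) = val₁ x

omit [Finite (ResidueField O)] [CharZero O] in
/-- The eigenvector of an eigen point lies in the span of the part. -/
theorem EigenPoint.span {K : Type} [Field K] [Algebra O K]
    (E : EigenPoint (qs := qs) Ψ hΨ hneg S hNS a S₁ K) :
    E.φ ∈ Submodule.span K (Set.range (psiCast Ψ O K).toAddMonoidHom) :=
  Submodule.span_mono (Set.image_subset_range _ _) E.mem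

variable {ρbar : ResidualGaloisRep (ResidueField O)}

include hNS₁ in
/-- An eigenvector in the part gives an eigen point. -/
theorem exists_eigenPoint (h : IsTWLevel hN π Ψ) (hpS : p ∈ S) (hqp : ∀ i, qs i ≠ p)
    (hp : (p : O) ∈ maximalIdeal O) (habs : ρbar.IsAbsolutelyIrreducible)
    (hbar : ∀ (ℓ : ℕ) (hℓ : ℓ.Prime), ℓ ∉ S → ∀ A : ValuationSubring Qbar, A.LiesOverPrime ℓ →
      ∀ σ : GQ, A.IsFrobeniusAt σ ℓ → LinearMap.charpoly (ρbar.ρ σ) =
        X ^ 2 - C (a ⟨ℓ, hℓ⟩) * X + C ((ℓ : ResidueField O)))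
    (K : Type) [Field K] [CharZero K] [IsAlgClosed K] [Algebra O K] [Algebra (FractionRing O) K]
    [IsScalarTower O (FractionRing O) K] (φ : clHoms K (GammaPsi Ψ) K)
    (hφ : φ ∈ idemSpan O Ψ hΨ hneg S a K) (hφ0 : φ ≠ 0)
    (heig : ∀ i, ∃ c : K, goodOps hΨ hneg i φ = c • φ) :
    ∃ E : EigenPoint (qs := qs) Ψ hΨ hneg S hNS a S₁ K, E.φ = φ := by
  have hspan : φ ∈ Submodule.span K (Set.range (psiCast Ψ O K).toAddMonoidHom) :=
    Submodule.span_mono (Set.image_subset_range _ _) hφ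
  obtain ⟨P, hP⟩ := exists_twPoint_of_eigen Ψ h hΨ hneg S hpS hqp hNS a hp habs hbar K φ hφ hφ0 heig
  obtain ⟨val, -, hval, -, -, -, -⟩ := exists_eigVal Ψ hΨ hneg S hNS a K φ hφ hφ0 heig
  obtain ⟨val₁, χ, hval₁, hχ, hD, hT⟩ := exists_eigData Ψ hΨ hneg S₁ hNS₁ K φ hφ0 hspan heig
  have hker : ∀ x, P.ev x = 0 ↔ val x = 0 := fun x =>
    (hP x).trans ⟨fun h0 => (hval x).unique hφ0 hspan h0, fun h0 => by simpa only [h0] using hval x⟩
  obtain ⟨Q, hQ, hQ₁⟩ := exists_refinedPoint S₁ K P val hker val₁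
  exact ⟨{ φ := φ, mem := hφ, ne_zero := hφ0, eigen := heig, val := val, hasEigen := hval,
           val₁ := val₁, χ := χ, hasEigen₁ := hval₁, val₁_dia := hχ, diaOp_eq := hD,
           kerOp_eq := hT, P := P, Q := Q, j_ext := hQ, j_ev₁ := hQ₁ }, rfl⟩

end Fermat.Agent.Raising.AtResidualPrime
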