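import Fermat.Agent.Raising.AtResidualPrime.RedKernel
import Fermat.Agent.TwoComponent.Ordinary.Core

/-!
# The quadratic relation of the lower diagonal entry at Frobenius

On a lattice mapped to torsion points, whose lower off-diagonal block vanishes on the decomposition
group and whose lower diagonal entry is one on inertia: if `φ² - t φ + p` maps the lattice into
subgroups without unramified quotient, then the lower diagonal entry at `φ` is a root of
`X² - t X + p`.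
-/

noncomputable section

namespace Fermat.Agent.Raising.AtResidualPrime

open Fermat.Agent.TwoComponent.Ordinary

local notation "Qbar" => AlgebraicClosure ℚ
local notation "GQ" => (AlgebraicClosure ℚ ≃ₐ[ℚ] AlgebraicClosure ℚ)

variable {R : Type*} [CommRing R] {V : Type*} [AddCommGroup V] [Module R V]
  {J : Type*} [AddCommGroup J] [DistribMulAction GQ J] {A : ValuationSubring Qbar} {p : ℕ}
  [Fact p.Prime] (P : SplitData R V GQ) {g₀ h₀ : GQ}

/-- Images of the two eigenspaces meet trivially. -/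
theorem map_projD_eq_zero (hp2 : p ≠ 2) (I : Ideal R) (hpI : (p : R) ∈ I)
    (ha : P.rootA + 1 ∈ I) (hd : P.rootD - 1 ∈ I) {Φ : V →+ J}
    (hΦ : ∀ (σ : GQ) x, σ • Φ x = Φ (P.rho σ x)) {n k : ℕ} (hkill : ∀ x, p ^ n • Φ x = 0)
    (hk : ∀ r ∈ I ^ k, ∀ v, Φ (r • v) = 0) {u w : V} (h : Φ (P.projD w) = Φ (P.projA u)) :
    Φ (P.projD w) = 0 := by
  have h1 := pow_smul_projA P I Φ hp2 hpI ha hΦ hk u
  have h2 := pow_smul_projD P I Φ hpI hd hΦ hk w
  refine eq_zero_of_two_nsmul hp2 (hkill _) ?_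
  rw [two_nsmul, ← eq_neg_iff_add_eq_zero]
  rw [h] at h2 ⊢
  exact h2.symm.trans h1

/-- **The quadratic relation.** -/
theorem entD_quadratic (hp2 : p ≠ 2) (I : Ideal R) (hpI : (p : R) ∈ I)
    (ha : P.rootA + 1 ∈ I) (hd : P.rootD - 1 ∈ I)
    (hfaith : ∀ r : R, r • (1 : Module.End R V) = 0 → r = 0)
    (hA : IsUnit (P.offA g₀ h₀)) (hD : IsUnit (P.offD h₀ g₀))
    (hC : ∀ σ ∈ A.decompositionSubgroup ℚ, P.offD σ g₀ = 0)
    (hI1 : ∀ σ ∈ A.inertiaSubgroupIn ℚ, P.entD σ = 1)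
    (Ψ : ℕ → V →+ J) (hΨ : ∀ n (σ : GQ) x, σ • Ψ n x = Ψ n (P.rho σ x))
    (hkill : ∀ n x, p ^ n • Ψ n x = 0) (hk : ∀ n, ∃ k, ∀ r ∈ I ^ k, ∀ v, Ψ n (r • v) = 0)
    (hsep : ∀ x, (∀ n, Ψ n x = 0) → x = 0) (C : ℕ → AddSubgroup J)
    (hCnu : ∀ n, NoUnramQuot A p (C n))
    (hCst : ∀ n, ∀ σ ∈ A.inertiaSubgroupIn ℚ, ∀ x ∈ C n, σ • x ∈ C n)
    (hCkill : ∀ n, ∀ x ∈ C n, p ^ n • x = 0) {φ : GQ} (hφ : φ ∈ A.decompositionSubgroup ℚ)
    {t : R} (hrel : ∀ n v, Ψ n (P.rho φ (P.rho φ v) - t • P.rho φ v + (p : R) • v) ∈ C n) :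
    P.entD φ * P.entD φ - t * P.entD φ + (p : R) = 0 := by
  set r := P.entD φ * P.entD φ - t * P.entD φ + (p : R) with hr
  have hlow : ∀ σ ∈ A.decompositionSubgroup ℚ, ∀ v, P.projD (P.rho σ (P.projA v)) = 0 :=
    fun σ hσ v => P.lower_eq_zero hA hD (hC σ hσ) v
  refine P.eq_zero_of_smul_projD hfaith hA (LinearMap.ext fun w => hsep _ fun n => ?_)
  rw [LinearMap.smul_apply, ← map_smul]
  obtain ⟨k, hk⟩ := hk n
  set v := P.projD w
  set v' := P.rho φ (P.rho φ v) - t • P.rho φ v + (p : R) • v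
  have hfix : ∀ σ ∈ A.inertiaSubgroupIn ℚ, ∀ x, P.projD (P.rho σ x - x) = 0 := fun σ hσ x => by
    rw [map_sub, P.projD_rho (hlow σ (inertia_le_decomposition A hσ)), hI1 σ hσ, one_smul, sub_self]
  have hsplit : ∀ x, x = P.projA x + P.projD x :=
    fun x => (LinearMap.congr_fun P.projA_add_projD x).symm
  have hQ : ∀ σ ∈ A.inertiaSubgroupIn ℚ,
      ∀ y ∈ ((Ψ n).comp P.projA.toAddMonoidHom).range,
        σ • y ∈ ((Ψ n).comp P.projA.toAddMonoidHom).range := by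
    rintro σ hσ _ ⟨x, rfl⟩
    refine ⟨P.rho σ (P.projA x), ?_⟩
    show Ψ n (P.projA (P.rho σ (P.projA x))) = σ • Ψ n (P.projA x)
    conv_rhs => rw [hΨ, hsplit (P.rho σ (P.projA x)), hlow σ (inertia_le_decomposition A hσ),
      add_zero]
  have hW : ∀ σ ∈ A.inertiaSubgroupIn ℚ, ∀ y ∈ (Ψ n).range,
      σ • y - y ∈ ((Ψ n).comp P.projA.toAddMonoidHom).range := by
    rintro σ hσ _ ⟨x, rfl⟩
    refine ⟨P.rho σ x - x, ?_⟩
    show Ψ n (P.projA (P.rho σ x - x)) = σ • Ψ n x - Ψ n x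
    conv_rhs => rw [hΨ, ← map_sub, hsplit (P.rho σ x - x), hfix σ hσ, add_zero]
  obtain ⟨u, hu⟩ := (hCnu n).inter_le (hCst n) (hCkill n) hQ hW _ (hrel n v) ⟨v', rfl⟩
  have hu' : Ψ n (P.projA u) = Ψ n v' := hu
  have hv : P.projD v = v := LinearMap.congr_fun P.projD_sq w
  have hDv' : P.projD v' = r • v := by
    simp only [v', map_add, map_sub, map_smul, P.projD_rho (hlow φ hφ), hv, smul_smul, hr,
      add_smul, sub_smul]
  have e : Ψ n (P.projD (r • w)) = Ψ n (P.projA (u - v')) := by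
    rw [map_smul, show r • P.projD w = P.projD v' from hDv'.symm, map_sub, map_sub, hu']
    conv_rhs => rw [hsplit v', map_add]
    rw [← hsplit v']
    abel
  exact map_projD_eq_zero P hp2 I hpI ha hd (hΨ n) (hkill n) hk e

end Fermat.Agent.Raising.AtResidualPrime
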