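import Fermat.Agent.Attach.Inputs
import Fermat.Agent.Raising.AtResidualPrime.Levels
import Fermat.Agent.Raising.AtResidualPrime.Quadratic
import Fermat.Agent.TwoComponent.Ordinary.Frame
import Fermat.Agent.TwoComponent.Ordinary.Geo

/-!
# The unit root at `p ∤ N`

A residually ordinary Galois representation attached to a point of the Hecke algebra of level `N`,
`p ∤ N`, is ordinary at `p`, and the scalar by which a Frobenius element acts on the unramified
quotient is a unit root of `X² - T_p X + p`.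
-/

noncomputable section

namespace Fermat.Agent.Raising.AtResidualPrime

open ModularCurve IsLocalRing Polynomial Fermat.Agent.Attach Fermat.Agent.TwoComponent
  Fermat.Agent.TwoComponent.Ordinary
open scoped TensorProduct

local notation "Qbar" => AlgebraicClosure ℚ
local notation "GQ" => (AlgebraicClosure ℚ ≃ₐ[ℚ] AlgebraicClosure ℚ)

/-- For two identity maps the toric part is all of the torsion. -/
theorem hasToricPart_id (A : ValuationSubring Qbar) (p : ℕ) (J : Type*) [AddCommGroup J]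
    [DistribMulAction GQ J] : HasToricPart A p (AddMonoidHom.id J) (AddMonoidHom.id J) := by
  have hfix : ∀ (σ : GQ) (m : ℕ) (x : J), m • x = 0 → m • (σ • x) = 0 := fun σ m x hx => by
    show m • DistribSMul.toAddMonoidHom J σ x = 0
    rw [← map_nsmul, hx, map_zero]
  intro n
  refine ⟨(DistribSMul.toAddMonoidHom J (p ^ n)).ker, fun x hx => hx,
    fun σ _ x hx => hfix σ _ x hx, fun σ _ τ _ x hx => ?_, fun x _ _ h _ σ _ a _ => ?_⟩
  · show p ^ n • (σ • (τ • x - x) - (τ • x - x)) = 0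
    have h1 : p ^ n • (τ • x - x) = 0 := by rw [nsmul_sub, hfix τ _ x hx, hx, sub_zero]
    rw [nsmul_sub, hfix σ _ _ h1, h1, sub_zero]
  · rw [show x = 0 from h, smul_zero, smul_zero]

section

variable {N : ℕ} [NeZero N] {p : ℕ} [Fact p.Prime] (M : TorsionModel N p)
  {O T : Type} [CommRing O] [IsDomain O] [CharZero O] [IsLocalRing O] [IsNoetherianRing O]
  [IsAdicComplete (maximalIdeal O) O]
  [CommRing T] [IsLocalRing T] [IsNoetherianRing T] [IsAdicComplete (maximalIdeal T) T]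
  [Algebra O T] [IsLocalHom (algebraMap O T)] [Module.Free O T] [Module.Finite O T]

omit [Module.Finite O T] in
/-- The trace elements, with coefficients in an algebra which contains the operator at `p`. -/
theorem exists_trace_sub (hpO : (p : O) ∈ maximalIdeal O) (hG : TorsionGalois N p) {S : Finset ℕ}
    (hS : ∀ q, q.Prime → q ∣ N → q ∈ (↑S : Set ℕ))
    (π : CuspForm.heckeAlgebra N 2 (↑S : Set ℕ) →+* T) (ρ : GaloisRepAdic T)
    (hρ : ∀ (ℓ : ℕ) (hℓ : ℓ.Prime) (hℓN : ¬ ℓ ∣ N) (hℓS : ℓ ∉ (↑S : Set ℕ)), ℓ ≠ p →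
      ∀ A : ValuationSubring Qbar, A.LiesOverPrime ℓ → ∀ σ : GQ, A.IsFrobeniusAt σ ℓ →
        LinearMap.charpoly (ρ.ρ σ) =
          X ^ 2 - C (π (CuspForm.heckeAlgebra.T hℓ hℓN hℓS)) * X + C ((ℓ : T)))
    (g : GQ) :
    ∃ z : HeckeO N (↑S : Set ℕ) O,
      actO M hS O z = M.repO hpO g + TorsionModel.cycO hpO g • M.repO hpO g⁻¹ ∧
      piExt O π z = ρ.trace g ∧
      (repMat ρ g).det = algebraMap O T (TorsionModel.cycO hpO g) := by
  classical
  have hsub : (↑S : Set ℕ) ⊆ ↑(insert p S) := by simp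
  let ι : CuspForm.heckeAlgebra N 2 (↑(insert p S) : Set ℕ) →+*
      CuspForm.heckeAlgebra N 2 (↑S : Set ℕ) :=
    (Subalgebra.inclusion (CuspForm.heckeAlgebra_mono hsub)).toRingHom
  obtain ⟨z, hz, htr, hdet⟩ := exists_trace M (T := T) hpO hG (Finset.mem_insert_self p S)
    (fun q hq h => hsub (hS q hq h)) (π.comp ι) ρ
    (fun ℓ hℓ hℓN hℓS A hA σ hσ => hρ ℓ hℓ hℓN (fun h => hℓS (hsub h))
      (fun h => hℓS (by simp [h])) A hA σ hσ) g
  refine ⟨Algebra.TensorProduct.map (AlgHom.id O O) ι.toIntAlgHom z, ?_, ?_, hdet⟩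
  · rw [← hz]
    clear hz htr
    induction z using TensorProduct.induction_on with
    | zero => simp only [map_zero]
    | tmul a t => rw [Algebra.TensorProduct.map_tmul, actO_tmul, actO_tmul]; rfl
    | add x y hx hy => rw [map_add, map_add, map_add, hx, hy]
  · rw [← htr]
    clear hz htr
    induction z using TensorProduct.induction_on with
    | zero => simp only [map_zero]
    | tmul a t => rw [Algebra.TensorProduct.map_tmul, piExt_tmul, piExt_tmul]; rfl
    | add x y hx hy => rw [map_add, map_add, map_add, hx, hy]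

end

/-- **Ordinarity and the unit root at `p ∤ N`.** -/
theorem exists_unitRoot {N : ℕ} [NeZero N] {p : ℕ} [Fact p.Prime] {S : Finset ℕ}
    {O : Type} [CommRing O] [IsDomain O] [IsDiscreteValuationRing O]
    [IsAdicComplete (maximalIdeal O) O] [CharZero O] [Finite (ResidueField O)]
    {T : Type} [CommRing T] [IsLocalRing T] [IsNoetherianRing T]
    [IsAdicComplete (maximalIdeal T) T] [Algebra O T] [IsLocalHom (algebraMap O T)]
    [Module.Finite O T] [Module.Free O T]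
    (hp2 : p ≠ 2) (hpO : (p : O) ∈ maximalIdeal O) (hpN : ¬ p ∣ N) (hpS : p ∉ (↑S : Set ℕ))
    (hS : ∀ r, r.Prime → r ∣ N → r ∈ (↑S : Set ℕ))
    (π : CuspForm.heckeAlgebra N 2 (↑S : Set ℕ) →+* T)
    (hgen : Algebra.adjoin O (Set.range π) = ⊤) (ρ : GaloisRepAdic T)
    (hfrob : ∀ (ℓ : ℕ) (hℓ : ℓ.Prime) (hℓN : ¬ ℓ ∣ N) (hℓS : ℓ ∉ (↑S : Set ℕ)), ℓ ≠ p →
      ∀ A : ValuationSubring Qbar, A.LiesOverPrime ℓ → ∀ σ : GQ, A.IsFrobeniusAt σ ℓ →
        LinearMap.charpoly (ρ.ρ σ) =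
          X ^ 2 - C (π (CuspForm.heckeAlgebra.T hℓ hℓN hℓS)) * X + C ((ℓ : T)))
    (habs : ρ.residual.IsAbsolutelyIrreducible)
    (hres : (GaloisRepAdic.ofResidualGaloisRep ρ.residual).IsOrdinaryAt p) :
    ∀ A : ValuationSubring Qbar, A.LiesOverPrime p → ∃ b : Module.Basis (Fin 2) T ρ.V,
      (∀ σ ∈ A.decompositionSubgroup ℚ, ∀ v ∈ T ∙ b 0, ρ.ρ σ v ∈ T ∙ b 0) ∧
      (∀ σ ∈ A.inertiaSubgroupIn ℚ, ∀ v, ρ.ρ σ v - v ∈ T ∙ b 0) ∧
      ∀ σ, A.IsFrobeniusAt σ p → ∃ α : T, IsUnit α ∧ (∀ v, ρ.ρ σ v - α • v ∈ T ∙ b 0) ∧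
        α * α - π (CuspForm.heckeAlgebra.T (Fact.out : p.Prime) hpN hpS) * α + (p : T) = 0 := by
  intro A hA
  have hpT : (p : T) ∈ maximalIdeal T := natCast_mem_maximalIdeal hpO
  let I := (nonempty_jacobianInputs N p).some
  let M := I.model
  choose z hz htr hdet using fun g => exists_trace_sub M hpO I.galois hS π ρ hfrob g
  have hdetρ : ∀ σ, LinearMap.det (ρ.ρ σ) = TorsionModel.cycO hpT σ := fun σ => by
    rw [← det_repMat, hdet, map_cycO]
  let q := piExt O π
  have hq : Function.Surjective q := by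
    have h : (⊤ : Subalgebra O T) ≤ q.range := by
      rw [← hgen]
      refine Algebra.adjoin_le ?_
      rintro _ ⟨t, rfl⟩
      exact ⟨1 ⊗ₜ t, (piExt_tmul π 1 t).trans (by rw [map_one, one_mul])⟩
    exact fun x => h Algebra.mem_top
  have := module_finite_hecke M hS
  obtain ⟨L, _, _, _, F, hLc, hLfin, hloc⟩ := exists_factor q hq
  have := isReduced_heckeO M hS O
  have := F.isReduced (q := q)
  obtain ⟨dd, Φ, hΦg, hΦker, hΦkill, hΦT, -⟩ := exists_level_maps_hecke hpO M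
  obtain ⟨R⟩ := exists_ordinaryFrame (M := M) (hS := hS) F Φ hloc I.galois hp2 hpO hA ρ z hz htr
    hdetρ habs hres (f := (AddMonoidHom.id (JZero N)).compLeft (Fin dd))
    (g := (AddMonoidHom.id (JZero N)).compLeft (Fin dd)) (fun σ x => rfl) (fun σ x => rfl)
    ((hasToricPart_id A p (JZero N)).pi _) ((hasConnectedPart N p hp2 hpN hA).pi _)
    hΦg hΦker hΦkill
  refine ⟨R.B, R.stable, R.unramified, fun σ hσ => ?_⟩
  let P := R.P
  let Ψ := levelMap (M := M) (hS := hS) F Φ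
  have hΨg : ∀ n (τ : GQ) x, τ • Ψ n x = Ψ n (P.rho τ x) := fun n τ x =>
    (hΦg n τ _).trans (congrArg (Φ n) (R.rho_eq τ x).symm)
  have hσD : σ ∈ A.decompositionSubgroup ℚ := hσ.mem_decompositionSubgroup
  let Tp : CuspForm.heckeAlgebra N 2 (↑S : Set ℕ) :=
    CuspForm.heckeAlgebra.T (Fact.out : p.Prime) hpN hpS
  have hquad := entD_quadratic P hp2 (maximalIdeal L) (natCast_mem_factor F hpO) R.rootA_mem
    R.rootD_mem (eq_zero_of_smul_lattice F) R.offA_unit R.offD_unit R.lower R.entD_inertia Ψ hΨg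
    (fun n x => hΦkill n _) (exists_pow_kill F Φ hΦkill) (eq_zero_of_levelMap F Φ hΦker)
    (fun n => powerSubgroup (Fin dd) (redKer A N p n))
    (fun n => (noUnramQuot_redKer hp2 hpN hA n).pi _)
    (fun n τ hτ x hx => mem_powerSubgroup.mpr fun i =>
      inertia_mem_redKer hpN hA hτ (mem_powerSubgroup.mp hx i))
    (fun n x hx => funext fun i => (mem_redKer.mp (mem_powerSubgroup.mp hx i)).1)
    hσD (t := F.proj (1 ⊗ₜ Tp)) fun n v => mem_powerSubgroup.mpr fun i => by
      have e : Ψ n (F.proj (1 ⊗ₜ Tp) • P.rho σ v) i =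
          heckeOperatorBar N ⟨p, Fact.out⟩ ((σ • Ψ n v) i) := by
        rw [fac_smul_def, actFac_proj, hΨg n σ v]
        refine Eq.trans ?_ (hΦT ⟨p, Fact.out⟩ hpN n _ i).symm
        show Φ n ((actO M hS O (1 ⊗ₜ Tp)).mulVec _) i = _
        rw [actO_tmul, one_smul]
        rfl
      rw [map_add, map_sub, Pi.add_apply, Pi.sub_apply, e, Nat.cast_smul_eq_nsmul, map_nsmul,
        Pi.smul_apply, show Ψ n (P.rho σ (P.rho σ v)) = σ • σ • Ψ n v by
          rw [hΨg n σ v, hΨg n σ]]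
      exact frobenius_mem_redKer hpN hA hσ (congrFun (hΦkill n _) i)
  have hq2 := congrArg F.toT hquad
  simp only [map_add, map_sub, map_mul, map_natCast, map_zero] at hq2
  rw [show F.toT (F.proj (1 ⊗ₜ Tp)) = π Tp from
    (F.toT_proj _).trans ((piExt_tmul π 1 Tp).trans (by rw [map_one, one_mul]))] at hq2
  refine ⟨_, IsUnit.of_mul_eq_one (F.toT (P.entD σ⁻¹)) ?_, R.quotient σ hσD, hq2⟩
  rw [← R.entD_mul σ hσD σ⁻¹ (inv_mem hσD), mul_inv_cancel, R.entD_inertia 1 (one_mem _), map_one]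

end Fermat.Agent.Raising.AtResidualPrime
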