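import Fermat.Agent.LevelLowering.TWPointsExist
import Fermat.Agent.Raising.AtResidualPrime.UnitRoot

/-!
# The unit root at `p` of a Taylor–Wiles point

At a Taylor–Wiles level prime to `p`, an eigenvector of the operators away from a set `S` not
containing `p` comes, after twisting, from an eigenclass of `Γ₀` of level prime to `p`; so a
residually ordinary representation of it is ordinary and the unit root is a root of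
`X² - a_p X + p`, where `a_p` is the normalised operator at `p`.
-/

noncomputable section

open scoped MatrixGroups
open Polynomial CongruenceSubgroup IsLocalRing Fermat.Agent.Grp Fermat.Agent.Ihara
  Fermat.Agent.LevelLowering

namespace Fermat.Agent.Raising.AtResidualPrime

local notation "Qbar" => AlgebraicClosure ℚ
local notation "GQ" => (AlgebraicClosure ℚ ≃ₐ[ℚ] AlgebraicClosure ℚ)

variable {O : Type} [CommRing O] [IsDomain O] [IsDiscreteValuationRing O]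
  [IsAdicComplete (maximalIdeal O) O] [Finite (ResidueField O)]
  [CharZero O] {p r : ℕ} [Fact p.Prime] [NeZero p] {lv : Fin r → ℕ} {qs : Fin r → ℕ}
  {N : ℕ} [NeZero N] {hN : ∀ i, qs i ∣ N}
  {π : ∀ i, (ZMod (qs i))ˣ →* Multiplicative (ZMod (p ^ lv i))}
  (Ψ : (ZMod N)ˣ →* DiaGroup p lv) (h : IsTWLevel hN π Ψ)
  (hΨ : Function.Surjective Ψ) (hneg : (-1 : SL(2, ℤ)) ∈ GammaPsi Ψ) (S : Finset ℕ)
  (hNS : ∀ l : ℕ, l.Prime → l ∣ N → l ∈ S)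

omit [NeZero p] [IsDomain O] [IsDiscreteValuationRing O] [IsAdicComplete (maximalIdeal O) O]
    [Finite (ResidueField O)] [CharZero O] in
include h in
/-- **An eigenvector at a Taylor–Wiles level comes from an eigenclass of `Γ₀`** of a level with the
same prime divisors. -/
theorem exists_gamma0_of_eigen (K : Type) [Field K] [CharZero K] [Algebra O K]
    (φ : clHoms K (GammaPsi Ψ) K) (hφ0 : φ ≠ 0)
    (val : levelAlg O Ψ hΨ hneg (goodSet S) →ₐ[O] K) (χ : DiaGroup p lv →* K)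
    (hχ : ∀ δ, val (levelElt O Ψ hΨ hneg (goodSet S) (.inr δ)) = χ δ)
    (hD : ∀ δ, diaOp K Ψ hΨ δ φ = χ δ • φ)
    (hT : ∀ ℓ : goodSet S, haveI : NeZero (ℓ.1 : ℕ) := ⟨ℓ.1.2.ne_zero⟩
      kerOp K Ψ hΨ hneg ℓ.1 φ = val (levelElt O Ψ hΨ hneg (goodSet S) (.inl ℓ)) • φ)
    {R : Type} [CommRing R] [Algebra O R] (j : R →+* K) (hj : Function.Injective j)
    (ev : levelAlg O Ψ hΨ hneg (goodSet S) →ₐ[O] R) (hjev : ∀ z, j (ev z) = val z) :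
    ∃ (L : ℕ) (_ : NeZero L), (∀ l : ℕ, l.Prime → (l ∣ L ↔ l ∣ N)) ∧
      ∃ θ : CuspForm.heckeAlgebra L 2 (↑S : Set ℕ) →+* R,
        ∀ (ℓ : ℕ) (hℓ : ℓ.Prime) (hℓL : ¬ ℓ ∣ L) (hℓS : ℓ ∉ (↑S : Set ℕ)),
          θ (CuspForm.heckeAlgebra.T hℓ hℓL hℓS) = ev (twGood Ψ hΨ hneg S hNS ⟨ℓ, hℓ⟩ hℓS) := by
  classical
  obtain ⟨ψ, s, L0, x, hs, hL0, hsp, hsn, hψ2, heven, -, -, hneb, hxcl, hx0, hop⟩ :=
    exists_twistData Ψ h hΨ hneg S hNS K φ hφ0 val χ hχ hD hT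
  have hPr0 : ∏ l ∈ s, l ≠ 0 := Finset.prod_ne_zero_iff.mpr fun l hl => (hsp l hl).ne_zero
  have hL00 : L0 ≠ 0 := fun h0 => NeZero.ne N (by rw [← hL0, h0, zero_mul])
  obtain ⟨L, hL⟩ : ∃ L, L = L0 * (∏ l ∈ s, l) ^ 2 := ⟨_, rfl⟩
  have : NeZero L := ⟨by rw [hL]; exact mul_ne_zero hL00 (pow_ne_zero 2 hPr0)⟩
  subst hL
  have hdvdN : ∀ l : ℕ, l.Prime → (l ∣ (L0 * (∏ l ∈ s, l) ^ 2) ↔ l ∣ N) := fun l hl => by
    rw [← hL0, hl.dvd_mul, hl.dvd_mul]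
    exact or_congr Iff.rfl ⟨hl.dvd_of_dvd_pow, fun hh => dvd_pow hh two_ne_zero⟩
  have hLS : ∀ l : ℕ, l.Prime → l ∣ (L0 * (∏ l ∈ s, l) ^ 2) → l ∈ S := fun l hl hd =>
    hNS l hl ((hdvdN l hl).mp hd)
  let a : ℕ → R := fun ℓ =>
    if hℓ : ℓ.Prime ∧ ℓ ∉ S then ev (twGood Ψ hΨ hneg S hNS ⟨ℓ, hℓ.1⟩ hℓ.2) else 0
  have ha : ∀ (ℓ : ℕ) (hℓ : ℓ.Prime) (hℓS : ℓ ∉ S),
      a ℓ = ev (twGood Ψ hΨ hneg S hNS ⟨ℓ, hℓ⟩ hℓS) := fun ℓ hℓ hℓS => dif_pos ⟨hℓ, hℓS⟩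
  obtain ⟨y, hy, hy0, hyT⟩ := EigenTwist.exists_twist ψ s N L0 x hsp hsn hL0.dvd hψ2 heven hneb
    hxcl hx0
  obtain ⟨θ, hθ⟩ := exists_heckeHom (S := (↑S : Set ℕ)) hLS j hj y hy hy0 a
    fun ℓ _ hℓ hℓS => by
      have hℓN : Nat.Coprime ℓ N := hℓ.coprime_iff_not_dvd.mpr fun hd => hℓS (hNS ℓ hℓ hd)
      rw [ha ℓ hℓ hℓS, hjev]
      exact hyT ℓ hℓN hℓ (fun hls => hℓS (by
        obtain ⟨i, rfl⟩ := hs ℓ hls; exact hNS _ hℓ (hN i))) _ _ (hop ℓ hℓ hℓS hℓN) rfl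
  exact ⟨_, inferInstance, hdvdN, θ, fun ℓ hℓ hℓL hℓS => by rw [hθ ℓ hℓ hℓL hℓS, ha ℓ hℓ hℓS]⟩

omit [NeZero p] [IsAdicComplete (maximalIdeal O) O] [Finite (ResidueField O)] [CharZero O] in
include h in
/-- **The unit root at `p` of a Taylor–Wiles point of level prime to `p`.** -/
theorem exists_unitRoot_of_eigen (hp2 : p ≠ 2) (hpN : ¬ p ∣ N) (hpS : p ∉ S)
    (hp : (p : O) ∈ maximalIdeal O) (K : Type) [Field K] [CharZero K] [Algebra O K]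
    (φ : clHoms K (GammaPsi Ψ) K) (hφ0 : φ ≠ 0)
    (val : levelAlg O Ψ hΨ hneg (goodSet S) →ₐ[O] K) (χ : DiaGroup p lv →* K)
    (hχ : ∀ δ, val (levelElt O Ψ hΨ hneg (goodSet S) (.inr δ)) = χ δ)
    (hD : ∀ δ, diaOp K Ψ hΨ δ φ = χ δ • φ)
    (hT : ∀ ℓ : goodSet S, haveI : NeZero (ℓ.1 : ℕ) := ⟨ℓ.1.2.ne_zero⟩
      kerOp K Ψ hΨ hneg ℓ.1 φ = val (levelElt O Ψ hΨ hneg (goodSet S) (.inl ℓ)) • φ)
    {R : Type} [CommRing R] [IsDomain R] [IsDiscreteValuationRing R]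
    [IsAdicComplete (maximalIdeal R) R] [CharZero R] [Finite (ResidueField R)] [Algebra O R]
    [IsLocalHom (algebraMap O R)] (j : R →+* K) (hj : Function.Injective j)
    (ev : levelAlg O Ψ hΨ hneg (goodSet S) →ₐ[O] R) (hjev : ∀ z, j (ev z) = val z)
    (ρ : GaloisRepAdic R)
    (hρ : ∀ (ℓ : ℕ) (hℓ : ℓ.Prime) (hℓS : ℓ ∉ S), ℓ ≠ p → ∀ A : ValuationSubring Qbar,
      A.LiesOverPrime ℓ → ∀ σ : GQ, A.IsFrobeniusAt σ ℓ → LinearMap.charpoly (ρ.ρ σ) =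
        X ^ 2 - C (ev (twGood Ψ hΨ hneg S hNS ⟨ℓ, hℓ⟩ hℓS)) * X + C ((ℓ : R)))
    (habs : ρ.residual.IsAbsolutelyIrreducible)
    (hres : (GaloisRepAdic.ofResidualGaloisRep ρ.residual).IsOrdinaryAt p) :
    ∀ A : ValuationSubring Qbar, A.LiesOverPrime p → ∃ b : Module.Basis (Fin 2) R ρ.V,
      (∀ σ ∈ A.decompositionSubgroup ℚ, ∀ v ∈ R ∙ b 0, ρ.ρ σ v ∈ R ∙ b 0) ∧
      (∀ σ ∈ A.inertiaSubgroupIn ℚ, ∀ v, ρ.ρ σ v - v ∈ R ∙ b 0) ∧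
      ∀ σ, A.IsFrobeniusAt σ p → ∃ α : R, IsUnit α ∧ (∀ v, ρ.ρ σ v - α • v ∈ R ∙ b 0) ∧
        α * α - ev (twGood Ψ hΨ hneg S hNS ⟨p, Fact.out⟩ hpS) * α + (p : R) = 0 := by
  obtain ⟨L, _, hdvd, θ, hθ⟩ :=
    exists_gamma0_of_eigen Ψ h hΨ hneg S hNS K φ hφ0 val χ hχ hD hT j hj ev hjev
  have hpR : (p : R) ∈ maximalIdeal R := by
    rw [← map_natCast (algebraMap O R)]
    exact map_nonunit (algebraMap O R) _ hp
  have hpL : ¬ p ∣ L := fun hd => hpN ((hdvd p Fact.out).mp hd)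
  have hgen : Algebra.adjoin R (Set.range θ) = ⊤ := Subsingleton.elim _ _
  intro A hA
  obtain ⟨b, hb, hI, hF⟩ := exists_unitRoot hp2 hpR hpL hpS
    (fun l hl hd => hNS l hl ((hdvd l hl).mp hd)) θ hgen ρ
    (fun ℓ hℓ hℓL hℓS hℓp B hB τ hτ => by
      rw [hθ ℓ hℓ hℓL hℓS]
      exact hρ ℓ hℓ hℓS hℓp B hB τ hτ) habs hres A hA
  refine ⟨b, hb, hI, fun σ hσ => ?_⟩
  obtain ⟨α, hα, hv, heq⟩ := hF σ hσ
  exact ⟨α, hα, hv, by rw [hθ p Fact.out hpL hpS] at heq; exact heq⟩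

end Fermat.Agent.Raising.AtResidualPrime
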