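import Fermat.Agent.Mazur.EisensteinComponent.EigenPoly
import Fermat.Agent.Raising.AtResidualPrime.UnitRootPoint
import Fermat.Agent.Raising.Degen.Saturation
import Fermat.Agent.TwoComponent.NewPart.Bound

/-!
# No eigenvalue `±(q + 1)` of the normalised operator at a good prime

At a Taylor–Wiles level prime to `q`, the operator `T_q ⟨q⟩^{1/2}` has no eigenvalue of absolute
value `q + 1`: an eigenvector twists to an eigenclass of `Γ₀`, whose eigenvalue at `q` is the root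
of an integral polynomial all of whose complex roots are eigenvalues of cusp forms.
-/

noncomputable section

open scoped MatrixGroups
open Polynomial CongruenceSubgroup IsLocalRing Fermat.Agent.Grp Fermat.Agent.Ihara
  Fermat.Agent.LevelLowering

namespace Fermat.Agent.Raising.AtResidualPrime

/-- A character of the Hecke algebra does not take the value `±(ℓ + 1)` at `T_ℓ`. -/
theorem heckeHom_T_ne {L : ℕ} [NeZero L] {S : Set ℕ} (hLS : ∀ l : ℕ, l.Prime → l ∣ L → l ∈ S)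
    {K : Type*} [Field K] [CharZero K] (θ : CuspForm.heckeAlgebra L 2 S →+* K)
    {ℓ : ℕ} (hℓ : ℓ.Prime) (hℓL : ¬ ℓ ∣ L) (hℓS : ℓ ∉ S) (c : ℤ) (hc : |c| = (ℓ : ℤ) + 1) :
    θ (CuspForm.heckeAlgebra.T hℓ hℓL hℓS) ≠ (c : K) := by
  intro e
  have hle : CuspForm.heckeAlgebra L 2 S ≤ Mazur.TGood L := by
    refine Algebra.adjoin_le ?_
    rintro T (⟨l, hl, hlL, hlS, rfl⟩ | ⟨l, hlL, hl, hlS, rfl⟩)
    · exact CuspForm.heckeTLin_mem_heckeAlgebra hl hlL hlL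
    · exact absurd (hLS l hl hlL) hlS
  obtain ⟨m, -, hm0, hroot⟩ :=
    Mazur.exists_int_poly (CuspForm.heckeAlgebra.T hℓ hℓL hℓL : Mazur.TGood L)
  have hm1 : aeval (CuspForm.heckeAlgebra.T hℓ hℓL hℓS : CuspForm.heckeAlgebra L 2 S) m = 0 := by
    apply (Subalgebra.inclusion_injective hle)
    rw [map_zero, ← aeval_algHom_apply]
    exact hm0
  have h2 := aeval_algHom_apply θ.toIntAlgHom (CuspForm.heckeAlgebra.T hℓ hℓL hℓS) m
  rw [hm1, map_zero] at h2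
  rw [show θ.toIntAlgHom (CuspForm.heckeAlgebra.T hℓ hℓL hℓS) = algebraMap ℤ K c by simpa using e,
    aeval_algebraMap_apply_eq_algebraMap_eval] at h2
  have h3 : m.eval c = 0 := (map_eq_zero_iff (algebraMap ℤ K) (algebraMap ℤ K).injective_int).mp h2
  obtain ⟨f, hf, hTf⟩ := hroot (algebraMap ℤ ℂ c)
    (by rw [aeval_algebraMap_apply_eq_algebraMap_eval, h3, map_zero])
  refine hf (TwoComponent.eq_zero_of_heckeTLin_eq hℓ hℓL f (c := algebraMap ℤ ℂ c) ?_ hTf)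
  rw [eq_intCast, Complex.norm_intCast, ← Int.cast_abs, hc]
  push_cast
  rfl

variable {O : Type} [CommRing O] [IsDomain O] [IsDiscreteValuationRing O]
  [IsAdicComplete (maximalIdeal O) O] [Finite (ResidueField O)] [CharZero O]
  {p r : ℕ} [Fact p.Prime] [NeZero p] [CharP (ResidueField O) p] {lv : Fin r → ℕ} {qs : Fin r → ℕ}
  {N : ℕ} [NeZero N] {hN : ∀ i, qs i ∣ N}
  {π : ∀ i, (ZMod (qs i))ˣ →* Multiplicative (ZMod (p ^ lv i))}
  (Ψ : (ZMod N)ˣ →* DiaGroup p lv) (h : IsTWLevel hN π Ψ)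
  (hΨ : Function.Surjective Ψ) (hneg : (-1 : SL(2, ℤ)) ∈ GammaPsi Ψ)
  {q : ℕ} [NeZero q] (hq : q.Prime) (hqN : ¬ q ∣ N)
  (K : Type) [Field K] [CharZero K] [IsAlgClosed K] [Algebra O K]

omit [NeZero p] [CharP (ResidueField O) p] [IsAlgClosed K] [IsDomain O] [IsDiscreteValuationRing O]
    [IsAdicComplete (maximalIdeal O) O] [Finite (ResidueField O)] [CharZero O] in
include h in
/-- **No eigenvalue `±(q + 1)`**, at a common eigenvector. -/
theorem kerOp_halfQ_ne (c : ℤ) (hc : |c| = (q : ℤ) + 1) (φ : clHoms K (GammaPsi Ψ) K)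
    (hφ0 : φ ≠ 0) (hspan : φ ∈ Submodule.span K (Set.range (psiCast Ψ O K).toAddMonoidHom))
    (heig : ∀ i, ∃ c : K, goodOps hΨ hneg i φ = c • φ) :
    kerOp K Ψ hΨ hneg q (diaOp K Ψ hΨ (Degen.halfQ hq hqN Ψ) φ) ≠ (c : K) • φ := by
  intro hcφ
  obtain ⟨S₁, hS₁⟩ : ∃ S₁ : Finset ℕ, S₁ = N.primeFactors := ⟨_, rfl⟩
  have hNS₁ : ∀ l : ℕ, l.Prime → l ∣ N → l ∈ S₁ := fun l hl hd =>
    hS₁ ▸ Nat.mem_primeFactors.mpr ⟨hl, hd, NeZero.ne N⟩
  have hqS₁ : q ∉ S₁ := fun hm => hqN (Nat.dvd_of_mem_primeFactors (hS₁ ▸ hm))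
  obtain ⟨val, χ, -, hχ, hD, hT⟩ := exists_eigData Ψ hΨ hneg S₁ hNS₁ K φ hφ0 hspan heig
  obtain ⟨L, _, hdvd, θ, hθ⟩ := exists_gamma0_of_eigen Ψ h hΨ hneg S₁ hNS₁ K φ hφ0 val χ hχ hD hT
    (RingHom.id K) Function.injective_id val (fun _ => rfl)
  have hqL : ¬ q ∣ L := fun hd => hqN ((hdvd q hq).mp hd)
  refine heckeHom_T_ne (fun l hl hd => hNS₁ l hl ((hdvd l hl).mp hd)) θ hq hqL hqS₁ c hc ?_
  rw [hθ q hq hqL hqS₁]
  refine smul_left_injective K hφ0 (?_ : _ • φ = (c : K) • φ)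
  have hT' : kerOp K Ψ hΨ hneg q φ =
      val (levelElt O Ψ hΨ hneg (goodSet S₁) (.inl ⟨⟨q, hq⟩, hqS₁⟩)) • φ := hT ⟨⟨q, hq⟩, hqS₁⟩
  have e := ((congrArg (kerOp K Ψ hΨ hneg q) (hD (Degen.halfQ hq hqN Ψ))).trans
    ((map_smul _ _ _).trans (congrArg _ hT'))).trans (smul_smul _ _ _)
  refine Eq.trans ?_ (e.symm.trans hcφ)
  refine congrArg (· • φ) ((Eq.trans ?_ (map_mul val _ _)).trans
    ((congrArg₂ (· * ·) rfl (hχ _)).trans (mul_comm _ _)))
  rfl

omit [CharP (ResidueField O) p] [NeZero p] [Finite (ResidueField O)] in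
include h in
/-- **No fixed vector with value `±(q + 1)`**. -/
theorem tEnd_ne (hinj : Function.Injective (algebraMap O K)) (S : Finset ℕ)
    (a : Nat.Primes → ResidueField O) (c : O) (hc : c = (q : O) + 1 ∨ c = -((q : O) + 1))
    (w : clHoms O (GammaPsi Ψ) O) (hw : Degen.partIdem Ψ hΨ hneg (goodSet S) a w = w)
    (hcw : Degen.tEnd O hΨ hneg hq hqN w = c • w) : w = 0 := by
  refine Degen.tEnd_ne_of_eigen hΨ hneg S a hq hqN K hinj h c (fun φ hφ hφ0 heig => ?_) w hw hcw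
  have hspan : φ ∈ Submodule.span K (Set.range (psiCast Ψ O K).toAddMonoidHom) :=
    Submodule.span_mono (Set.image_subset_range _ _) hφ
  have hcast : ∀ z : ℤ, algebraMap O K (z : O) = (z : K) := fun z => map_intCast _ z
  rcases hc with rfl | rfl
  · rw [show (q : O) + 1 = (((q : ℤ) + 1 : ℤ) : O) by push_cast; rfl, hcast]
    exact kerOp_halfQ_ne Ψ h hΨ hneg hq hqN K _ (abs_of_nonneg (by positivity)) φ hφ0 hspan heig
  · rw [show -((q : O) + 1) = ((-((q : ℤ) + 1) : ℤ) : O) by push_cast; rfl, hcast]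
    exact kerOp_halfQ_ne Ψ h hΨ hneg hq hqN K _ (by rw [abs_neg, abs_of_nonneg]; positivity) φ hφ0
      hspan heig

end Fermat.Agent.Raising.AtResidualPrime
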