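import Fermat.Agent.Raising.AtResidualPrime.LastInputs
import Fermat.Agent.Raising.OrdClosure

/-!
# The ordinary line and the unit root are unique

For `p` odd and cyclotomic determinant an ordinary line at `p` is the image of `ρ σ₀ - 1` for an
element `σ₀` of inertia with `det - 1` a unit; so it does not depend on the basis, and neither does
the scalar on the quotient.
-/

noncomputable section

open IsLocalRing Module Fermat.Agent.Raising.OrdPoints

namespace Fermat.Agent.Raising.AtResidualPrime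

local notation "Qbar" => AlgebraicClosure ℚ
local notation "GQ" => (AlgebraicClosure ℚ ≃ₐ[ℚ] AlgebraicClosure ℚ)

variable {R : Type} [CommRing R] [IsLocalRing R] {p : ℕ} [Fact p.Prime] {ρ : GaloisRepAdic R}
  {A : ValuationSubring Qbar}

/-- An ordinary line is the image of `ρ σ₀ - 1`. -/
theorem ordLine_eq_range {b : Basis (Fin 2) R ρ.V} (hb : IsOrdBasisAt ρ A b) {σ₀ : GQ}
    (hσ₀ : σ₀ ∈ A.inertiaSubgroupIn ℚ) (hu : IsUnit (LinearMap.det (ρ.ρ σ₀) - 1)) :
    R ∙ b 0 = LinearMap.range (ρ.ρ σ₀ - 1) := by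
  refine le_antisymm ?_ fun w hw => ?_
  · have h10 : LinearMap.toMatrix b b (ρ.ρ σ₀) 1 0 = 0 :=
      (toMatrix_one_zero_iff b _).2 (hb.1 σ₀ (TwoComponent.Ordinary.inertia_le_decomposition A hσ₀))
    have h11 : LinearMap.toMatrix b b (ρ.ρ σ₀) 1 1 = 1 :=
      toMatrix_one_one_eq b fun v => by rw [one_smul]; exact hb.2 σ₀ hσ₀ v
    have hdet : LinearMap.det (ρ.ρ σ₀) = LinearMap.toMatrix b b (ρ.ρ σ₀) 0 0 := by
      rw [← LinearMap.det_toMatrix b, Matrix.det_fin_two, h11, h10, mul_one, mul_zero, sub_zero]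
    have e : ρ.ρ σ₀ (b 0) = LinearMap.det (ρ.ρ σ₀) • b 0 := by
      obtain ⟨c, hc⟩ := Submodule.mem_span_singleton.1
        (hb.1 σ₀ (TwoComponent.Ordinary.inertia_le_decomposition A hσ₀) _
          (Submodule.mem_span_singleton_self _))
      rw [hdet, LinearMap.toMatrix_apply, ← hc]
      simp
    rw [Submodule.span_singleton_le_iff_mem]
    refine ⟨(↑hu.unit⁻¹ : R) • b 0, ?_⟩
    rw [map_smul, LinearMap.sub_apply, Module.End.one_apply, e]
    conv_lhs => rw [show LinearMap.det (ρ.ρ σ₀) • b 0 - b 0 =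
      (LinearMap.det (ρ.ρ σ₀) - 1) • b 0 by rw [sub_smul, one_smul], smul_smul,
      IsUnit.val_inv_mul, one_smul]
  · obtain ⟨v, rfl⟩ := hw
    exact hb.2 σ₀ hσ₀ v

variable [IsNoetherianRing R] (hdet : ρ.DetIsCyclotomic p) (hp2 : p ≠ 2) (hA : A.LiesOverPrime p)
include hdet hp2 hA

omit [IsNoetherianRing R] in
/-- **The ordinary line is unique.** -/
theorem ordLine_unique {b b' : Basis (Fin 2) R ρ.V} (hb : IsOrdBasisAt ρ A b)
    (hb' : IsOrdBasisAt ρ A b') : R ∙ b 0 = R ∙ b' 0 := by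
  obtain ⟨σ₀, hσ₀, hu⟩ := exists_inertia_det_sub_one (ρ := ρ) Fact.out hp2 hdet hA
  rw [ordLine_eq_range hb hσ₀ hu, ordLine_eq_range hb' hσ₀ hu]

omit [IsNoetherianRing R] in
/-- **The unit root does not depend on the basis.** -/
theorem unitRoot_unique {b b' : Basis (Fin 2) R ρ.V} (hb : IsOrdBasisAt ρ A b)
    (hb' : IsOrdBasisAt ρ A b') {σ : GQ} {α α' : R} (hα : ∀ v, ρ.ρ σ v - α • v ∈ R ∙ b 0)
    (hα' : ∀ v, ρ.ρ σ v - α' • v ∈ R ∙ b' 0) : α = α' := by
  rw [← ordLine_unique hdet hp2 hA hb hb'] at hα'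
  rw [← toMatrix_one_one_eq b hα, ← toMatrix_one_one_eq b hα']

end Fermat.Agent.Raising.AtResidualPrime
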