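import Fermat.Agent.LevelLowering.TWCore
import Fermat.Agent.Raising.AtResidualPrime.CurveAtP
import Fermat.Agent.Raising.AtResidualPrime.RefinedPoints
import Fermat.Agent.Raising.Coeff.BaseChange

/-!
# The residual representation at a point

The reduction of a Taylor–Wiles point, and of a refined point, is the residual representation of the
system; so it is ordinary at `p` when that one is.  The determinant is cyclotomic.
-/

noncomputable section

open scoped MatrixGroups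
open Polynomial CongruenceSubgroup IsLocalRing Fermat.Agent.Grp Fermat.Agent.Ihara
  Fermat.Agent.LevelLowering

namespace Fermat.Agent.Raising.AtResidualPrime

local notation "Qbar" => AlgebraicClosure ℚ
local notation "GQ" => (AlgebraicClosure ℚ ≃ₐ[ℚ] AlgebraicClosure ℚ)

section Generic

variable {O : Type} [CommRing O] [IsLocalRing O] {ρbar : ResidualGaloisRep (ResidueField O)}
  {R : Type} [CommRing R] [IsLocalRing R] [IsNoetherianRing R] [Algebra O R]
  [IsLocalHom (algebraMap O R)] {p : ℕ}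

omit [IsNoetherianRing R] in
/-- A representation with the residual system of `ρbar` has ordinary reduction if `ρbar` is
ordinary. -/
theorem isOrdinaryAt_residual_of_congr (ρ : GaloisRepAdic R)
    (habs : ρ.residual.IsAbsolutelyIrreducible) (S : Finset ℕ) (c : ℕ → R) (a : ℕ → ResidueField O)
    (hfrob : ∀ ℓ : ℕ, ℓ.Prime → ℓ ∉ S → ∀ A : ValuationSubring Qbar, A.LiesOverPrime ℓ →
      ∀ σ : GQ, A.IsFrobeniusAt σ ℓ →
        LinearMap.charpoly (ρ.ρ σ) = X ^ 2 - C (c ℓ) * X + C (ℓ : R))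
    (hbar : ∀ ℓ : ℕ, ℓ.Prime → ℓ ∉ S → ∀ A : ValuationSubring Qbar, A.LiesOverPrime ℓ →
      ∀ σ : GQ, A.IsFrobeniusAt σ ℓ →
        LinearMap.charpoly (ρbar.ρ σ) = X ^ 2 - C (a ℓ) * X + C ((ℓ : ResidueField O)))
    (hcong : ∀ ℓ : ℕ, ℓ.Prime → ℓ ∉ S →
      residue R (c ℓ) = ResidueField.map (algebraMap O R) (a ℓ))
    (h : (GaloisRepAdic.ofResidualGaloisRep ρbar).IsOrdinaryAt p) :
    (GaloisRepAdic.ofResidualGaloisRep ρ.residual).IsOrdinaryAt p := by
  let f := ResidueField.map (algebraMap O R)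
  let r := ρbar.baseChangeAlong f
  have hchar : ∀ g, LinearMap.charpoly (ρ.residual.ρ g) = LinearMap.charpoly (r.ρ g) :=
    Gal.residual_charpoly_eq_of_frobenius ρ.residual r S fun ℓ hℓ hℓS A hA σ hσ => by
      let : Algebra (ResidueField O) (ResidueField R) := f.toAlgebra
      refine (LinearMap.charpoly_baseChange (ρ.ρ σ) (ResidueField R)).trans (Eq.trans ?_
        (LinearMap.charpoly_baseChange (ρbar.ρ σ) (ResidueField R)).symm)
      rw [hfrob ℓ hℓ hℓS A hA σ hσ, hbar ℓ hℓ hℓS A hA σ hσ]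
      simp [Polynomial.map_sub, Polynomial.map_add, RingHom.algebraMap_toAlgebra, hcong ℓ hℓ hℓS, f]
  obtain ⟨e, he⟩ := Gal.exists_conj_of_trace_eq ρ.residual.finrank_eq r.finrank_eq ρ.residual.ρ r.ρ
    (Gal.hasTraceBasis_of_isAbsolutelyIrreducible _ habs) fun g =>
      ((Gal.charpoly_eq_iff ρ.residual.finrank_eq r.finrank_eq _ _).mp (hchar g)).1
  have hequiv : ρ.residual.IsEquiv r := ⟨⟨e, he⟩⟩
  exact isOrdinaryAt_residual_congr (r := r) (hequiv.map fun e => e.symm)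
    (Coeff.isOrdinaryAt_baseChange (φ := f) inferInstance h)

end Generic

variable {O : Type} [CommRing O] [IsDomain O] [IsDiscreteValuationRing O]
  [IsAdicComplete (maximalIdeal O) O] [Finite (ResidueField O)] [CharZero O]
  {p r : ℕ} [Fact p.Prime] {lv : Fin r → ℕ} {qs : Fin r → ℕ} {N : ℕ} [NeZero N]
  {Ψ : (ZMod N)ˣ →* DiaGroup p lv} {hΨ : Function.Surjective Ψ}
  {hneg : (-1 : SL(2, ℤ)) ∈ GammaPsi Ψ} {S : Finset ℕ}
  {hNS : ∀ l : ℕ, l.Prime → l ∣ N → l ∈ S} {a : Nat.Primes → ResidueField O}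
  {ρbar : ResidualGaloisRep (ResidueField O)}

omit [Finite (ResidueField O)] [CharZero O] in
/-- A representation whose Frobenius traces outside `S` are values of the part of the residual
system has ordinary reduction when `ρbar` is ordinary. -/
theorem isOrdinaryAt_residual_of_system {R : Type} [CommRing R] [IsLocalRing R] [Algebra O R]
    [IsLocalHom (algebraMap O R)] (ev : levelAlg O Ψ hΨ hneg (goodSet S) →ₐ[O] R)
    (he : ev (levelIdem O Ψ hΨ hneg (goodSet S) a) = 1) (ρ : GaloisRepAdic R)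
    (habs : ρ.residual.IsAbsolutelyIrreducible)
    (hfrob : ∀ (ℓ : ℕ) (hℓ : ℓ.Prime) (hℓS : ℓ ∉ S), ∀ A : ValuationSubring Qbar,
      A.LiesOverPrime ℓ → ∀ σ : GQ, A.IsFrobeniusAt σ ℓ → LinearMap.charpoly (ρ.ρ σ) =
        X ^ 2 - C (ev (twGood Ψ hΨ hneg S hNS ⟨ℓ, hℓ⟩ hℓS)) * X + C ((ℓ : R)))
    (hbar : ∀ (ℓ : ℕ) (hℓ : ℓ.Prime), ℓ ∉ S → ∀ A : ValuationSubring Qbar, A.LiesOverPrime ℓ →
      ∀ σ : GQ, A.IsFrobeniusAt σ ℓ → LinearMap.charpoly (ρbar.ρ σ) =
        X ^ 2 - C (a ⟨ℓ, hℓ⟩) * X + C ((ℓ : ResidueField O)))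
    (h : (GaloisRepAdic.ofResidualGaloisRep ρbar).IsOrdinaryAt p) :
    (GaloisRepAdic.ofResidualGaloisRep ρ.residual).IsOrdinaryAt p := by
  classical
  let c : ℕ → R := fun ℓ => if hℓ : ℓ.Prime ∧ ℓ ∉ S then
    ev (twGood Ψ hΨ hneg S hNS ⟨ℓ, hℓ.1⟩ hℓ.2) else 0
  let a' : ℕ → ResidueField O := fun ℓ => if hℓ : ℓ.Prime then a ⟨ℓ, hℓ⟩ else 0
  refine isOrdinaryAt_residual_of_congr ρ habs S c a'
    (fun ℓ hℓ hℓS A hA σ hσ => ?_) (fun ℓ hℓ hℓS A hA σ hσ => ?_) (fun ℓ hℓ hℓS => ?_) h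
  · rw [show c ℓ = _ from dif_pos ⟨hℓ, hℓS⟩]
    exact hfrob ℓ hℓ hℓS A hA σ hσ
  · rw [show a' ℓ = _ from dif_pos hℓ]
    exact hbar ℓ hℓ hℓS A hA σ hσ
  · rw [show c ℓ = _ from dif_pos ⟨hℓ, hℓS⟩, show a' ℓ = _ from dif_pos hℓ]
    exact residue_ev_twGood Ψ hΨ hneg S hNS a ev he ⟨ℓ, hℓ⟩ hℓS

omit [Finite (ResidueField O)] [CharZero O] in
/-- The residual representation of a point is ordinary. -/
theorem isOrdinaryAt_residual_point (P : TWPoint qs Ψ hΨ hneg S hNS a)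
    (hbar : ∀ (ℓ : ℕ) (hℓ : ℓ.Prime), ℓ ∉ S → ∀ A : ValuationSubring Qbar, A.LiesOverPrime ℓ →
      ∀ σ : GQ, A.IsFrobeniusAt σ ℓ → LinearMap.charpoly (ρbar.ρ σ) =
        X ^ 2 - C (a ⟨ℓ, hℓ⟩) * X + C ((ℓ : ResidueField O)))
    (h : (GaloisRepAdic.ofResidualGaloisRep ρbar).IsOrdinaryAt p) :
    (GaloisRepAdic.ofResidualGaloisRep P.H.ρ.residual).IsOrdinaryAt p :=
  isOrdinaryAt_residual_of_system P.ev P.ev_idem P.H.ρ P.H.residual_absIrr P.charpoly_frob hbar h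

variable {S₁ : Finset ℕ} {K : Type} [Field K] [Algebra O K]
  {P : TWPoint qs Ψ hΨ hneg S hNS a} (Q : RefinedPoint S₁ P K)

omit [Finite (ResidueField O)] [CharZero O] in
/-- The residual representation of a refined point is ordinary. -/
theorem isOrdinaryAt_residual_refined (habs : ρbar.IsAbsolutelyIrreducible)
    (hbar : ∀ (ℓ : ℕ) (hℓ : ℓ.Prime), ℓ ∉ S → ∀ A : ValuationSubring Qbar, A.LiesOverPrime ℓ →
      ∀ σ : GQ, A.IsFrobeniusAt σ ℓ → LinearMap.charpoly (ρbar.ρ σ) =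
        X ^ 2 - C (a ⟨ℓ, hℓ⟩) * X + C ((ℓ : ResidueField O)))
    (h : (GaloisRepAdic.ofResidualGaloisRep ρbar).IsOrdinaryAt p) :
    (GaloisRepAdic.ofResidualGaloisRep Q.ρ.residual).IsOrdinaryAt p :=
  isOrdinaryAt_residual_of_system (Q.ext.comp P.ev)
    (by rw [AlgHom.comp_apply, P.ev_idem, map_one]) Q.ρ (Q.residual_absIrr habs hbar)
    Q.charpoly_frob hbar h

omit [Finite (ResidueField O)] [CharZero O] in
/-- The determinant at a refined point is cyclotomic. -/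
theorem detIsCyclotomic_refined (hp : (p : O) ∈ maximalIdeal O) : Q.ρ.DetIsCyclotomic p := by
  refine detIsCyclotomic_of_frobenius Q.ρ Fact.out ?_ S fun ℓ hℓ hℓS A hA σ hσ =>
    (trace_det_of_charpoly Q.ρ.finrank_eq (Q.charpoly_frob ℓ hℓ hℓS A hA σ hσ)).2
  rw [← map_natCast (algebraMap O Q.F)]
  exact map_nonunit (algebraMap O Q.F) _ hp

end Fermat.Agent.Raising.AtResidualPrime
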