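import Fermat.Agent.Raising.AtResidualPrime.OrdTop
import Fermat.Agent.Raising.AtResidualPrime.OrdUnique
import Fermat.Agent.Raising.AtResidualPrime.RefinedResidual
import Fermat.Agent.Raising.AtResidualPrime.UnitRootPoint
import Fermat.Agent.Raising.Modular.RefinedFrob

/-!
# The operator at `p` at an eigen point

For any set `S₁` without `p` containing the primes of the level, a residually ordinary eigen point
of a level prime to `p` is ordinary at `p` and its unit root `α` satisfies `α² - t α + p = 0`, `t`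
being the value of the twisted operator at `p`; at a level exactly divisible by `p` it is ordinary.
-/

noncomputable section

open scoped MatrixGroups
open Polynomial CongruenceSubgroup IsLocalRing Fermat.Agent.Grp Fermat.Agent.Ihara
  Fermat.Agent.LevelLowering

namespace Fermat.Agent.Raising.AtResidualPrime

local notation "Qbar" => AlgebraicClosure ℚ
local notation "GQ" => (AlgebraicClosure ℚ ≃ₐ[ℚ] AlgebraicClosure ℚ)

section Ext

variable {A B : Type} [CommRing A] [IsLocalRing A] [CommRing B] [IsLocalRing B] {φ : A →+* B}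
  (hφ : IsLocalHom φ) {ρ : GaloisRepAdic A} {p : ℕ}

/-- Ordinary bases survive extension of coefficients. -/
theorem hasOrdBases_baseChange (h : HasOrdBases ρ p) :
    HasOrdBases (ρ.baseChangeAlong φ hφ) p :=
  hasOrdBases_of_isOrdinaryAt (Coeff.isOrdinaryAt_baseChange hφ fun P hP => by
    obtain ⟨b, hb⟩ := h P hP
    exact ⟨A ∙ b 0, ⟨b, rfl⟩, hb.1, hb.2⟩)

end Ext

variable {O : Type} [CommRing O] [IsDomain O] [IsDiscreteValuationRing O]
  [IsAdicComplete (maximalIdeal O) O] [Finite (ResidueField O)] [CharZero O]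
  {p r : ℕ} [Fact p.Prime] [NeZero p] {lv : Fin r → ℕ} {qs : Fin r → ℕ} {N : ℕ} [NeZero N]
  {hN : ∀ i, qs i ∣ N} {π : ∀ i, (ZMod (qs i))ˣ →* Multiplicative (ZMod (p ^ lv i))}
  {Ψ : (ZMod N)ˣ →* DiaGroup p lv} {hΨ : Function.Surjective Ψ}
  {hneg : (-1 : SL(2, ℤ)) ∈ GammaPsi Ψ} {S : Finset ℕ}
  {hNS : ∀ l : ℕ, l.Prime → l ∣ N → l ∈ S} {a : Nat.Primes → ResidueField O}
  {S₁ : Finset ℕ} {K : Type} [Field K] [CharZero K] [Algebra O K]
  {ρbar : ResidualGaloisRep (ResidueField O)}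
  (E : EigenPoint (qs := qs) Ψ hΨ hneg S hNS a S₁ K)
  (habs : ρbar.IsAbsolutelyIrreducible)
  (hbar : ∀ (ℓ : ℕ) (hℓ : ℓ.Prime), ℓ ∉ S → ∀ A : ValuationSubring Qbar, A.LiesOverPrime ℓ →
    ∀ σ : GQ, A.IsFrobeniusAt σ ℓ → LinearMap.charpoly (ρbar.ρ σ) =
      X ^ 2 - C (a ⟨ℓ, hℓ⟩) * X + C ((ℓ : ResidueField O)))
  (hord : (GaloisRepAdic.ofResidualGaloisRep ρbar).IsOrdinaryAt p)

omit [NeZero p] [Finite (ResidueField O)] [CharZero O] in
include habs hbar hord in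
/-- **The operator at `p` at an eigen point.** -/
theorem exists_ordBases_eigen (hNS₁ : ∀ l : ℕ, l.Prime → l ∣ N → l ∈ S₁) (h : IsTWLevel hN π Ψ)
    (hp2 : p ≠ 2) (hpN : ¬ p ∣ N) (hp : (p : O) ∈ maximalIdeal O) (hS : S₁ ⊆ S) (hpS : p ∈ S)
    (hpS₁ : p ∉ S₁) :
    HasOrdBases E.Q.ρ p ∧
      ∀ A : ValuationSubring Qbar, A.LiesOverPrime p → ∀ b : Module.Basis (Fin 2) E.Q.F E.Q.ρ.V,
        IsOrdBasisAt E.Q.ρ A b → ∀ σ : GQ, A.IsFrobeniusAt σ p → ∀ α : E.Q.F,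
          (∀ v, E.Q.ρ.ρ σ v - α • v ∈ E.Q.F ∙ b 0) →
            α * α - E.Q.ev₁ (twGood Ψ hΨ hneg S₁ hNS₁ ⟨p, Fact.out⟩ hpS₁) * α + (p : E.Q.F) =
              0 := by
  have hdet := detIsCyclotomic_refined E.Q hp
  have key := exists_unitRoot_of_eigen Ψ h hΨ hneg S₁ hNS₁ hp2 hpN hpS₁ hp K E.φ E.ne_zero E.val₁
    E.χ E.val₁_dia E.diaOp_eq E.kerOp_eq E.Q.j E.Q.j_inj E.Q.ev₁ E.j_ev₁ E.Q.ρ
    (fun ℓ hℓ hℓS₁ hℓp A hA σ hσ => ?_) (E.Q.residual_absIrr habs hbar)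
    (isOrdinaryAt_residual_refined E.Q habs hbar hord)
  · refine ⟨fun A hA => ?_, fun A hA b hb σ hσ α hα => ?_⟩
    · obtain ⟨b, hD', hI', -⟩ := key A hA
      exact ⟨b, hD', hI'⟩
    · obtain ⟨b', hD', hI', hF⟩ := key A hA
      obtain ⟨α', -, hα', heq⟩ := hF σ hσ
      rw [unitRoot_unique hdet hp2 hA hb ⟨hD', hI'⟩ hα hα']
      exact heq
  · obtain ⟨b⟩ : Nonempty (Module.Basis (Fin 2) E.Q.F E.Q.ρ.V) :=
      ⟨Module.finBasisOfFinrankEq _ _ E.Q.ρ.finrank_eq⟩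
    have htr := Modular.trace_ev₁ E hNS₁ h hp hS hpS ℓ hℓ hℓS₁ hℓp A hA σ hσ
    have hd : LinearMap.det (E.Q.ρ.ρ σ) = (ℓ : E.Q.F) := by
      rw [← LinearMap.det_toMatrix b]
      exact Scalar.det_frobenius_eq E.Q.ρ b Fact.out hdet hℓ hℓp hA hσ
    rw [Gal.charpoly_fin_two' E.Q.ρ.finrank_eq, htr, hd]

omit [NeZero p] [CharZero K] [Finite (ResidueField O)] [CharZero O] in
include hbar hord in
/-- **An eigen point of a level exactly divisible by `p` is ordinary.** -/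
theorem hasOrdBases_eigen_top (hp2 : p ≠ 2) (hp : (p : O) ∈ maximalIdeal O)
    (hqs : ∀ i, qs i ≠ p) (hpN : p ∣ N) (hp2N : ¬ p ^ 2 ∣ N) : HasOrdBases E.Q.ρ p :=
  hasOrdBases_baseChange E.Q.ext_local
    (hasOrdBases_of_point E.P hp2 hp hqs hpN hp2N
      (isOrdinaryAt_residual_point E.P hbar hord))

end Fermat.Agent.Raising.AtResidualPrime
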