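import Fermat.Agent.Raising.AtResidualPrime.LastInputs
import Fermat.Agent.TW.BaseChange

/-!
# Ordinary bases and extension of coefficients

Ordinary bases, and ordinary bases with a sign for Frobenius on the quotient, survive extension of
the coefficient ring.
-/

noncomputable section

open IsLocalRing TensorProduct Module

namespace Fermat.Agent.Raising.AtResidualPrime

variable {A B : Type} [CommRing A] [IsLocalRing A] [CommRing B] [IsLocalRing B] {φ : A →+* B}
  (hφ : IsLocalHom φ) {ρ : GaloisRepAdic A} {p : ℕ}

/-- **Being new at `p` survives extension of coefficients.** -/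
theorem isNewAtP_baseChange (h : IsNewAtP ρ p) : IsNewAtP (ρ.baseChangeAlong φ hφ) p := by
  let : Algebra A B := φ.toAlgebra
  intro P hP
  obtain ⟨b, ⟨hD, hI⟩, hF⟩ := h P hP
  refine ⟨Algebra.TensorProduct.basis B b, ⟨fun σ hσ => TW.baseChange_line_stable b (hD σ hσ),
    fun σ hσ => TW.baseChange_sub_mem b (hI σ hσ)⟩, fun σ hσ => ?_⟩
  obtain ⟨α, hα, hv⟩ := hF σ hσ
  exact ⟨algebraMap A B α,
    hα.imp (fun e => by rw [e, map_one]) (fun e => by rw [e, map_neg, map_one]),
    TW.baseChange_sub_smul_mem b hv⟩

end Fermat.Agent.Raising.AtResidualPrime
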