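import Fermat.Agent.Raising.AtResidualPrime.Strict
import Fermat.Agent.Raising.NewPoints.Point

/-!
# New points at `p` of a Taylor–Wiles level

An eigenvector at a Taylor–Wiles level `M p` killed by the two transfers to level `M` comes, after
twisting, from a new eigenclass of `Γ₀`, so its representation is strictly ordinary at `p` with
Frobenius acting on the unramified quotient by `± 1`.
-/

noncomputable section

open scoped MatrixGroups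
open Polynomial CongruenceSubgroup IsLocalRing Fermat.Agent.Grp Fermat.Agent.Ihara
  Fermat.Agent.LevelLowering

namespace Fermat.Agent.Raising.AtResidualPrime

local notation "Qbar" => AlgebraicClosure ℚ
local notation "GQ" => (AlgebraicClosure ℚ ≃ₐ[ℚ] AlgebraicClosure ℚ)

variable {O : Type} [CommRing O] [IsDomain O] [IsDiscreteValuationRing O]
  [IsAdicComplete (maximalIdeal O) O] [Finite (ResidueField O)]
  [CharZero O] {p r : ℕ} [Fact p.Prime] [NeZero p] {lv : Fin r → ℕ} {qs : Fin r → ℕ}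
  {M : ℕ} [NeZero M] {hN : ∀ i, qs i ∣ M * p}
  {π : ∀ i, (ZMod (qs i))ˣ →* Multiplicative (ZMod (p ^ lv i))}
  (Φ : (ZMod M)ˣ →* DiaGroup p lv) (Φ' : (ZMod (M * p))ˣ →* DiaGroup p lv)
  (hΦcomp : Φ' = Φ.comp (ZMod.unitsMap (dvd_mul_right M p))) (h : IsTWLevel hN π Φ')
  (hΦ : Function.Surjective Φ') (hneg : (-1 : SL(2, ℤ)) ∈ GammaPsi Φ') (S : Finset ℕ)
  (hMS : ∀ l : ℕ, l.Prime → l ∣ M * p → l ∈ S)

include hΦcomp h in
omit [IsAdicComplete (maximalIdeal O) O] [Finite (ResidueField O)] [CharZero O] in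
/-- **New points at `p`**: strictly ordinary, with unit root `± 1`. -/
theorem exists_strict_of_new (hp2 : p ≠ 2) (hpM : ¬ p ∣ M) (hqs : ∀ i, qs i ≠ p)
    (hp : (p : O) ∈ maximalIdeal O)
    (K : Type) [Field K] [CharZero K] [Algebra O K]
    (φ : clHoms K (GammaPsi Φ') K) (hφ0 : φ ≠ 0)
    (val : levelAlg O Φ' hΦ hneg (goodSet S) →ₐ[O] K) (χ : DiaGroup p lv →* K)
    (hχ : ∀ δ, val (levelElt O Φ' hΦ hneg (goodSet S) (.inr δ)) = χ δ)
    (hD : ∀ δ, diaOp K Φ' hΦ δ φ = χ δ • φ)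
    (hT : ∀ ℓ : goodSet S, haveI : NeZero (ℓ.1 : ℕ) := ⟨ℓ.1.2.ne_zero⟩
      kerOp K Φ' hΦ hneg ℓ.1 φ = val (levelElt O Φ' hΦ hneg (goodSet S) (.inl ℓ)) • φ)
    (hA : coresHom (GammaPsi_comp_le Φ Φ' hΦcomp) φ.1 = 0)
    (hB : coresHom (upperPsi_le p (GammaPsi Φ) M)
      (φ.1.comp (MonoidHom.toAdditive (alphaPsi Φ Φ' hΦcomp))) = 0)
    {R : Type} [CommRing R] [IsDomain R] [IsDiscreteValuationRing R]
    [IsAdicComplete (maximalIdeal R) R] [CharZero R] [Finite (ResidueField R)] [Algebra O R]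
    [IsLocalHom (algebraMap O R)] (j : R →+* K) (hj : Function.Injective j)
    (ev : levelAlg O Φ' hΦ hneg (goodSet S) →ₐ[O] R) (hjev : ∀ z, j (ev z) = val z)
    (ρ : GaloisRepAdic R)
    (hρ : ∀ (ℓ : ℕ) (hℓ : ℓ.Prime) (hℓS : ℓ ∉ S), ∀ A : ValuationSubring Qbar,
      A.LiesOverPrime ℓ → ∀ σ : GQ, A.IsFrobeniusAt σ ℓ → LinearMap.charpoly (ρ.ρ σ) =
        X ^ 2 - C (ev (twGood Φ' hΦ hneg S hMS ⟨ℓ, hℓ⟩ hℓS)) * X + C ((ℓ : R)))
    (habs : ρ.residual.IsAbsolutelyIrreducible)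
    (hres : (GaloisRepAdic.ofResidualGaloisRep ρ.residual).IsOrdinaryAt p) :
    ∀ A : ValuationSubring Qbar, A.LiesOverPrime p → ∃ b : Module.Basis (Fin 2) R ρ.V,
      (∀ σ ∈ A.decompositionSubgroup ℚ, ∀ v ∈ R ∙ b 0, ρ.ρ σ v ∈ R ∙ b 0) ∧
      (∀ σ ∈ A.inertiaSubgroupIn ℚ, ∀ v, ρ.ρ σ v - v ∈ R ∙ b 0) ∧
      ∀ σ, A.IsFrobeniusAt σ p → ∃ α : R, (α = 1 ∨ α = -1) ∧
        ∀ v, ρ.ρ σ v - α • v ∈ R ∙ b 0 := by
  obtain ⟨L', _, _, hpL', hS, θ, y, hy0, hA0, hB0, hy⟩ :=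
    exists_gamma0_of_new Φ Φ' hΦcomp h hΦ hneg S hMS hpM hqs K φ hφ0 val χ hχ hD hT hA hB j hj ev
      hjev
  have hpR : (p : R) ∈ maximalIdeal R := by
    rw [← map_natCast (algebraMap O R)]
    exact map_nonunit (algebraMap O R) _ hp
  have hpS : p ∈ S := hMS p Fact.out (dvd_mul_left p M)
  refine exists_strict hp2 hpR hpL' hpS hS j hj θ y hy0 hA0 hB0
    (fun ℓ _ hℓ hℓN hℓS => (hy ℓ hℓ hℓN hℓS).2) ρ (fun ℓ hℓ hℓN hℓS B hB' τ hτ => ?_) habs hres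
  have : NeZero ℓ := ⟨hℓ.ne_zero⟩
  rw [(hy ℓ hℓ hℓN hℓS).1]
  exact hρ ℓ hℓ hℓS B hB' τ hτ

end Fermat.Agent.Raising.AtResidualPrime
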