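import Fermat.Agent.Raising.AtResidualPrime.PointEmb
import Fermat.Agent.Raising.AtResidualPrime.StrictPoint
import Fermat.Agent.Raising.NewPoints.Bridge

/-!
# Points of the top level new at `p`

A point of a Taylor–Wiles level `M p` with the kernel of an eigenvector killed by the two transfers
to level `M` is strictly ordinary at `p`, Frobenius acting by `± 1` on the unramified quotient.
-/

noncomputable section

open scoped MatrixGroups
open Polynomial CongruenceSubgroup IsLocalRing Fermat.Agent.Grp Fermat.Agent.Ihara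
  Fermat.Agent.LevelLowering

namespace Fermat.Agent.Raising.AtResidualPrime

variable {O : Type} [CommRing O] [IsDomain O] [IsDiscreteValuationRing O]
  [IsAdicComplete (maximalIdeal O) O] [Finite (ResidueField O)]
  [CharZero O] {p r : ℕ} [Fact p.Prime] [NeZero p] {lv : Fin r → ℕ} {qs : Fin r → ℕ}
  {M : ℕ} [NeZero M] {hN : ∀ i, qs i ∣ M * p}
  {π : ∀ i, (ZMod (qs i))ˣ →* Multiplicative (ZMod (p ^ lv i))}
  (Φ : (ZMod M)ˣ →* DiaGroup p lv) (h : IsTWLevel hN π (Degen.liftPsi Φ p))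
  (hΦ : Function.Surjective (Degen.liftPsi Φ p))
  (hneg : (-1 : SL(2, ℤ)) ∈ GammaPsi (Degen.liftPsi Φ p)) (S : Finset ℕ)
  (hMS : ∀ l : ℕ, l.Prime → l ∣ M * p → l ∈ S) (a : Nat.Primes → ResidueField O)

include h in
omit [Finite (ResidueField O)] [CharZero O] in
/-- **A new point of the top level is strict with unit root `± 1`.** -/
theorem exists_strict_of_topPoint (hp2 : p ≠ 2) (hpM : ¬ p ∣ M) (hqs : ∀ i, qs i ≠ p)
    (hp : (p : O) ∈ maximalIdeal O) (K : Type) [Field K] [CharZero K] [IsAlgClosed K] [Algebra O K]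
    (P : TWPoint qs (Degen.liftPsi Φ p) hΦ hneg S hMS a)
    (φ : clHoms K (GammaPsi (Degen.liftPsi Φ p)) K) (hφ0 : φ ≠ 0)
    (val : levelAlg O (Degen.liftPsi Φ p) hΦ hneg (goodSet S) →ₐ[O] K) (χ : DiaGroup p lv →* K)
    (hχ : ∀ δ, val (levelElt O (Degen.liftPsi Φ p) hΦ hneg (goodSet S) (.inr δ)) = χ δ)
    (hD : ∀ δ, diaOp K (Degen.liftPsi Φ p) hΦ δ φ = χ δ • φ)
    (hT : ∀ ℓ : goodSet S, haveI : NeZero (ℓ.1 : ℕ) := ⟨ℓ.1.2.ne_zero⟩
      kerOp K (Degen.liftPsi Φ p) hΦ hneg ℓ.1 φ =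
        val (levelElt O (Degen.liftPsi Φ p) hΦ hneg (goodSet S) (.inl ℓ)) • φ)
    (hker : ∀ x, P.ev x = 0 ↔ val x = 0)
    (hA : Degen.psiCorA Φ p K φ = 0) (hB : Degen.psiCorB Φ p K φ = 0)
    (habs : P.H.ρ.residual.IsAbsolutelyIrreducible)
    (hres : (GaloisRepAdic.ofResidualGaloisRep P.H.ρ.residual).IsOrdinaryAt p) :
    ∀ A : ValuationSubring (AlgebraicClosure ℚ), A.LiesOverPrime p →
      ∃ b : Module.Basis (Fin 2) P.R P.H.ρ.V,
        (∀ σ ∈ A.decompositionSubgroup ℚ, ∀ v ∈ P.R ∙ b 0, P.H.ρ.ρ σ v ∈ P.R ∙ b 0) ∧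
        (∀ σ ∈ A.inertiaSubgroupIn ℚ, ∀ v, P.H.ρ.ρ σ v - v ∈ P.R ∙ b 0) ∧
        ∀ σ, A.IsFrobeniusAt σ p → ∃ α : P.R, (α = 1 ∨ α = -1) ∧
          ∀ v, P.H.ρ.ρ σ v - α • v ∈ P.R ∙ b 0 := by
  obtain ⟨j, hj, hjev⟩ := exists_pointEmb P.ev val hker
  have hcop : Nat.Coprime M p := ((Fact.out : p.Prime).coprime_iff_not_dvd.mpr hpM).symm
  obtain ⟨hA', hB'⟩ := (psiCor_eq_zero_iff Φ hcop φ).mp ⟨hA, hB⟩
  exact exists_strict_of_new Φ (Degen.liftPsi Φ p) rfl h hΦ hneg S hMS hp2 hpM hqs hp K φ hφ0 val χ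
    hχ hD hT hA' hB' j hj P.ev hjev P.H.ρ P.charpoly_frob habs hres

end Fermat.Agent.Raising.AtResidualPrime
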