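import Fermat.Agent.Raising.AtResidualPrime.LastInputs
import Fermat.Agent.Raising.AtResidualPrime.NewBaseChange
import Fermat.Agent.Raising.AtResidualPrime.NoExtremeRoot
import Fermat.Agent.Raising.AtResidualPrime.RefinedPoints
import Fermat.Agent.Raising.AtResidualPrime.TopPoint
import Fermat.Agent.Raising.Modular.System

/-!
# Saturation at `p` on the refined points

The algebra of the top level is that of the operators away from a set `S₁`, detected on the part by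
refined points; an element vanishing at the refined points new at `p` factors through the degeneracy
maps.
-/

noncomputable section

open scoped MatrixGroups
open Polynomial CongruenceSubgroup IsLocalRing Fermat.Agent.Grp Fermat.Agent.Ihara
  Fermat.Agent.LevelLowering

namespace Fermat.Agent.Raising.AtResidualPrime

variable {O : Type} [CommRing O] [IsDomain O] [IsDiscreteValuationRing O]
  [IsAdicComplete (maximalIdeal O) O] [Finite (ResidueField O)]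
  [CharZero O] {p r : ℕ} [Fact p.Prime] [NeZero p] [CharP (ResidueField O) p]
  {lv : Fin r → ℕ} {qs : Fin r → ℕ} {N : ℕ} [NeZero N] {hN : ∀ i, qs i ∣ N}
  {π : ∀ i, (ZMod (qs i))ˣ →* Multiplicative (ZMod (p ^ lv i))}
  {hN' : ∀ i, qs i ∣ N * p}
  {π' : ∀ i, (ZMod (qs i))ˣ →* Multiplicative (ZMod (p ^ lv i))}
  (Ψ : (ZMod N)ˣ →* DiaGroup p lv) (h : IsTWLevel hN π Ψ) (hΨ : Function.Surjective Ψ)
  (hneg : (-1 : SL(2, ℤ)) ∈ GammaPsi Ψ) (hpN : ¬ p ∣ N)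
  (h' : IsTWLevel hN' π' (Degen.liftPsi Ψ p))
  (hΨ' : Function.Surjective (Degen.liftPsi Ψ p))
  (hneg' : (-1 : SL(2, ℤ)) ∈ GammaPsi (Degen.liftPsi Ψ p))
  (S₀ : Finset ℕ) (a₀ : Nat.Primes → ResidueField O)
  (S : Finset ℕ) (hNS : ∀ l : ℕ, l.Prime → l ∣ N * p → l ∈ S) (a : Nat.Primes → ResidueField O)
  (S₁ : Finset ℕ) (hNS₁ : ∀ l : ℕ, l.Prime → l ∣ N * p → l ∈ S₁)
  {d d' : ℕ} {v : Fin d → clHoms O (GammaPsi Ψ) O}
  {v' : Fin d' → clHoms O (GammaPsi (Degen.liftPsi Ψ p)) O}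
  (hv : Degen.IsFreePart (diaOp O Ψ hΨ) (Degen.partIdem Ψ hΨ hneg (goodSet S₀) a₀) v)
  (hv' : Degen.IsFreePart (diaOp O (Degen.liftPsi Ψ p) hΨ')
    (Degen.partIdem (Degen.liftPsi Ψ p) hΨ' hneg' (goodSet S₀) a₀) v')

local notation "Sd" => MvPowerSeries (Fin r) O ⧸ diamondIdeal (𝒪 := O) p lv

omit [CharP (ResidueField O) p] [Finite (ResidueField O)] [CharZero O] in
include h' hNS hNS₁ in
/-- An operator vanishing at the new refined points kills the new eigenvectors. -/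
theorem hasExtEigen_zero_refined (hS : S₁ ⊆ S) (hp2 : p ≠ 2) (hqs : ∀ i, qs i ≠ p) (hpN' : ¬ p ∣ N)
    (hp : (p : O) ∈ maximalIdeal O)
    (K : Type) [Field K] [CharZero K] [IsAlgClosed K] [Algebra O K]
    (hinj : Function.Injective (algebraMap O K))
    {κ : Type} [Fintype κ]
    (E : κ → EigenPoint (qs := qs) (Degen.liftPsi Ψ p) hΨ' hneg' S hNS a S₁ K)
    (hdetect : ∀ x : levelAlg O (Degen.liftPsi Ψ p) hΨ' hneg' (goodSet S₁),
      (∀ i, (E i).Q.ev₁ x = 0) →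
      ∀ w, Degen.partIdem (Degen.liftPsi Ψ p) hΨ' hneg' (goodSet S₀) a₀ w = w → x.1.1 w = 0)
    (hres : ∀ i, (GaloisRepAdic.ofResidualGaloisRep (E i).P.H.ρ.residual).IsOrdinaryAt p)
    (z : levelAlg O (Degen.liftPsi Ψ p) hΨ' hneg' (goodSet S₁))
    (hz : ∀ i, IsNewAtP (E i).Q.ρ p → (E i).Q.ev₁ z = 0)
    (φ : clHoms K (GammaPsi (Degen.liftPsi Ψ p)) K)
    (hφ : φ ∈ idemSpan O (Degen.liftPsi Ψ p) hΨ' hneg' S₀ a₀ K) (hφ0 : φ ≠ 0)
    (heig : ∀ i, ∃ c : K, goodOps hΨ' hneg' i φ = c • φ)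
    (hA : Degen.psiCorA Ψ p K φ = 0) (hB : Degen.psiCorB Ψ p K φ = 0) :
    HasExtEigen (psiCast (Degen.liftPsi Ψ p) O K).toAddMonoidHom φ z.1.1 (0 : K) := by
  have hspan : φ ∈ Submodule.span K (Set.range (psiCast (Degen.liftPsi Ψ p) O K).toAddMonoidHom) :=
    Submodule.span_mono (Set.image_subset_range _ _) hφ
  obtain ⟨val, χ, hval, hχ, hD, hT⟩ := exists_eigData _ hΨ' hneg' S hNS K φ hφ0 hspan heig
  obtain ⟨val₁, -, hval₁, -, -, -⟩ := exists_eigData _ hΨ' hneg' S₁ hNS₁ K φ hφ0 hspan heig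
  have : Algebra.IsIntegral O (levelAlg O (Degen.liftPsi Ψ p) hΨ' hneg' (goodSet S₁)) :=
    haveI := finite_levelAlg O (Degen.liftPsi Ψ p) hΨ' hneg' (goodSet S₁)
    Algebra.IsIntegral.of_finite O _
  have hinjF : ∀ i, Function.Injective (algebraMap O (E i).Q.F) := fun i => by
    rw [← (E i).Q.ext.comp_algebraMap]
    exact (E i).Q.ext_inj.comp (E i).P.inj
  obtain ⟨i, hi⟩ := exists_ker_eq hinj hinjF (fun i => (E i).Q.ev₁) val₁ fun x hx => by
    obtain ⟨X, hX, hXφ⟩ := hval₁ x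
    have h0 : X φ = 0 :=
      LinearMap.eqOn_span (R := K) (f := X) (g := 0)
        (s := (psiCast (Degen.liftPsi Ψ p) O K).toAddMonoidHom ''
          {w | Degen.partIdem (Degen.liftPsi Ψ p) hΨ' hneg' (goodSet S₀) a₀ w = w})
        (by
          rintro _ ⟨w, hw, rfl⟩
          rw [← hX w, hdetect x hx w hw, map_zero, LinearMap.zero_apply]) hφ
    rw [hXφ] at h0
    exact (smul_eq_zero.mp h0).resolve_right hφ0
  have hker : ∀ x, (E i).P.ev x = 0 ↔ val x = 0 := fun x => by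
    obtain ⟨X, hX, hXφ⟩ := hval₁ (Modular.inclAlg _ hΨ' hneg' hS x)
    have e1 : val x = val₁ (Modular.inclAlg _ hΨ' hneg' hS x) :=
      (hval x).unique hφ0 hspan ⟨X, hX, hXφ⟩
    obtain ⟨X', hX', hX'φ⟩ := (E i).hasEigen₁ (Modular.inclAlg _ hΨ' hneg' hS x)
    have e2 : (E i).val x = (E i).val₁ (Modular.inclAlg _ hΨ' hneg' hS x) :=
      ((E i).hasEigen x).unique (E i).ne_zero (E i).span ⟨X', hX', hX'φ⟩
    have key : (E i).Q.ev₁ (Modular.inclAlg _ hΨ' hneg' hS x) = (E i).Q.ext ((E i).P.ev x) :=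
      (E i).Q.j_inj (by rw [(E i).j_ev₁, (E i).j_ext, e2])
    rw [e1, hi, key]
    exact (map_eq_zero_iff _ (E i).Q.ext_inj).symm
  have hnew : IsNewAtP (E i).P.H.ρ p := fun A hA' => by
    obtain ⟨b, h1, h2, h3⟩ := exists_strict_of_topPoint Ψ h' hΨ' hneg' S hNS a hp2 hpN' hqs hp K
      (E i).P φ hφ0 val χ hχ hD hT hker hA hB (E i).P.H.residual_absIrr (hres i) A hA'
    exact ⟨b, ⟨h1, h2⟩, h3⟩
  have e : val₁ z = 0 := (hi z).mpr (hz i (isNewAtP_baseChange _ hnew))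
  obtain ⟨X, hX, hXφ⟩ := hval₁ z
  exact ⟨X, hX, hXφ.trans (congrArg (· • φ) e)⟩

omit [CharP (ResidueField O) p] in
include h h' hv hv' hNS hNS₁ in
/-- **Saturation at `p` on the refined points.** -/
theorem exists_saturated_refined (hS : S₁ ⊆ S) (hp2 : p ≠ 2) (hqs : ∀ i, qs i ≠ p)
    (hp : (p : O) ∈ maximalIdeal O)
    (K : Type) [Field K] [CharZero K] [IsAlgClosed K] [Algebra O K]
    (hinj : Function.Injective (algebraMap O K))
    {κ : Type} [Fintype κ]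
    (E : κ → EigenPoint (qs := qs) (Degen.liftPsi Ψ p) hΨ' hneg' S hNS a S₁ K)
    (hdetect : ∀ x : levelAlg O (Degen.liftPsi Ψ p) hΨ' hneg' (goodSet S₁),
      (∀ i, (E i).Q.ev₁ x = 0) →
      ∀ w, Degen.partIdem (Degen.liftPsi Ψ p) hΨ' hneg' (goodSet S₀) a₀ w = w → x.1.1 w = 0)
    (hres : ∀ i, (GaloisRepAdic.ofResidualGaloisRep (E i).P.H.ρ.residual).IsOrdinaryAt p)
    (z : levelAlg O (Degen.liftPsi Ψ p) hΨ' hneg' (goodSet S₁))
    (hz : ∀ i, IsNewAtP (E i).Q.ρ p → (E i).Q.ev₁ z = 0)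
    {Mz : Matrix (Fin d') (Fin d') Sd}
    (hMz : Degen.IsPartMat (diaOp O (Degen.liftPsi Ψ p) hΨ') v' v' z.1.1 Mz)
    {MA MB : Matrix (Fin d') (Fin d) Sd} {DA DB : Matrix (Fin d) (Fin d') Sd}
    {t : Matrix (Fin d) (Fin d) Sd}
    (hDA : Degen.IsPartMat (diaOp O Ψ hΨ) v' v (Degen.downA O p Ψ) DA)
    (hDB : Degen.IsPartMat (diaOp O Ψ hΨ) v' v (Degen.downB O hΨ (Fact.out : p.Prime) hpN) DB)
    (ht : Degen.IsPartMat (diaOp O Ψ hΨ) v v
      (Degen.tEnd O hΨ hneg (Fact.out : p.Prime) hpN) t)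
    (hDU : Matrix.fromRows DA DB * Matrix.fromCols MA MB =
      Matrix.fromBlocks (Matrix.scalar (Fin d) ((p : Sd) + 1)) t t
        (Matrix.scalar (Fin d) ((p : Sd) + 1)))
    (hL : ∃ L : Matrix (Fin d ⊕ Fin d) (Fin d') Sd, L * Matrix.fromCols MA MB = 1)
    {Bz : Matrix (Fin d) (Fin d) Sd}
    (hcomm : Matrix.fromCols MA MB * Matrix.fromBlocks Bz 0 0 Bz = Mz * Matrix.fromCols MA MB) :
    ∃ XA XB : Matrix (Fin d) (Fin d') Sd, Mz = MA * XA + MB * XB := by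
  have hpp : p.Prime := Fact.out
  obtain ⟨L, hL⟩ := hL
  obtain ⟨X, hX⟩ :=
    Degen.exists_up_factor_on hΨ hneg (goodSet S₀) a₀ hpp hpN hΨ' hneg' hv hv' hp hDA
    hDB ht hDU hL
    (fun w hw hc => tEnd_ne Ψ h hΨ hneg hpp hpN K hinj S₀ a₀ _ (.inl rfl) w hw hc)
    (fun w hw hc => tEnd_ne Ψ h hΨ hneg hpp hpN K hinj S₀ a₀ _ (.inr rfl) w hw hc)
    z.1.1 (Degen.levelAlg_diaOp (Degen.liftPsi Ψ p) hΨ' hneg' (goodSet S₁) z) hMz hcomm
    (fun w hw hA hB => Degen.kills_of_eigen_on hΨ hneg S₀ a₀ hpp hpN K hinj hΨ' hneg' h' S₁ z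
      (fun φ hφ hφ0 heig hA' hB' => hasExtEigen_zero_refined Ψ h' hΨ' hneg' S₀ a₀ S hNS a S₁ hNS₁ hS
        hp2 hqs hpN hp K hinj E hdetect hres z hz φ hφ hφ0 heig hA' hB') w hw hA hB)
  refine ⟨X.toRows₁, X.toRows₂, ?_⟩
  rw [hX, ← Matrix.fromCols_mul_fromRows, Matrix.fromRows_toRows]

end Fermat.Agent.Raising.AtResidualPrime
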