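import Fermat.Agent.Raising.AtResidualPrime.Tangents
import Fermat.Agent.Raising.Selmer
import Fermat.Agent.Raising.TWPrimes

/-!
# Taylor–Wiles primes for the last step at `p`

One choice of auxiliary primes serves the flat deformations with constant unit root, with defect
one at `p`, and the ordinary ones with constant unit root.
-/

noncomputable section

namespace Fermat.Agent.Raising.AtResidualPrime

open IsLocalRing Matrix Module Fermat.Agent.LevelLowering Fermat.Agent.Gal Fermat.Agent.TW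
  Fermat.Agent.PT Fermat.Agent.PT.Lv

variable {𝒪 : Type} [CommRing 𝒪] [IsDomain 𝒪] [IsDiscreteValuationRing 𝒪]
  [IsAdicComplete (maximalIdeal 𝒪) 𝒪] {p : ℕ} [Fact p.Prime]
  {ρbar : ResidualGaloisRep (ResidueField 𝒪)} {bbar : Basis (Fin 2) (ResidueField 𝒪) ρbar.V}
  {m : ℕ} [Finite (ResidueField 𝒪)] [CharP (ResidueField 𝒪) p]

/-- **Taylor–Wiles primes for the last step at `p`.** -/
theorem exists_lastTWPrimes (hp2 : p ≠ 2) (habs : ρbar.IsAbsolutelyIrreducible)
    (hdet : DetCyc p (rbar bbar))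
    (hsplit : ∀ σ : AG, ∃ α β : ResidueField 𝒪, LinearMap.charpoly (ρbar.ρ σ) =
      (Polynomial.X - Polynomial.C α) * (Polynomial.X - Polynomial.C β))
    (hTW : ∀ (K : Type) [Field K] [Algebra (ResidueField 𝒪) K] (G : Subgroup AG), G.index = 2 →
      ∀ V : Submodule K (ρbar.baseChange K).V,
        (∀ σ ∈ G, ∀ x ∈ V, (ρbar.baseChange K).ρ σ x ∈ V) → V = ⊥ ∨ V = ⊤)
    (P : Fin m → RaisedPrime p ρbar bbar) (hP : Function.Injective fun i => (P i).q)
    (K : ∀ i, LocalKind (P i)) {F F' : M2 (ResidueField 𝒪)}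
    (hF : IsOrdFrame p (padicPlace ((pP p : Nat.Primes) : ℕ)) (rbar bbar) F F')
    (S : Finset ℕ) :
    ∃ (g g' D : ℕ)
      (L₀₀ L₀₁ : Submodule (ResidueField 𝒪)
        ((decQ ((pP p : Nat.Primes) : ℕ) → sl2 (ResidueField 𝒪)) ⧸
          B1 (resRep (adRep (rbar bbar)) (decQ ((pP p : Nat.Primes) : ℕ))))),
      (∑ i, (K i).B.w) + (1 + g) ≤ D ∧ (∑ i, (K i).B.w) + g' ≤ D ∧
      (∀ n : ℕ, ∃ qv : Fin D → ℕ,
        Function.Injective qv ∧
        (∀ i, (qv i).Prime ∧ qv i ∉ S ∧ p ^ (n + 1) ∣ qv i - 1) ∧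
        (∀ i, ∀ A : ValuationSubring (AlgebraicClosure ℚ), A.LiesOverPrime (qv i) →
          ∀ φ : AG, A.IsFrobeniusAt φ (qv i) →
            (∃ α β : ResidueField 𝒪, α ≠ β ∧ LinearMap.charpoly (ρbar.ρ φ) =
              (Polynomial.X - Polynomial.C α) * (Polynomial.X - Polynomial.C β)) ∧
            det (rbar bbar φ) = 1) ∧
        (FiniteDimensional (ResidueField 𝒪) (classes (adRep (rbar bbar))
          (strictSpace p (rbar bbar) (raisedSet P) (condAt (adRep (rbar bbar)) L₀₀) qv)) ∧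
        finrank (ResidueField 𝒪) (classes (adRep (rbar bbar))
          (strictSpace p (rbar bbar) (raisedSet P) (condAt (adRep (rbar bbar)) L₀₀) qv)) ≤ g) ∧
        (FiniteDimensional (ResidueField 𝒪) (classes (adRep (rbar bbar))
          (strictSpace p (rbar bbar) (raisedSet P) (condAt (adRep (rbar bbar)) L₀₁) qv)) ∧
        finrank (ResidueField 𝒪) (classes (adRep (rbar bbar))
          (strictSpace p (rbar bbar) (raisedSet P) (condAt (adRep (rbar bbar)) L₀₁) qv)) ≤ g')) ∧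
      (∀ {R : Type} [CommRing R] [IsLocalRing R] [Algebra 𝒪 R] [IsLocalHom (algebraMap 𝒪 R)]
        {hres : Function.Surjective (residue R ∘ algebraMap 𝒪 R)} {ρ : GaloisRepAdic R}
        {b : Basis (Fin 2) R ρ.V} (hb : Adapted bbar hres ρ b) (hdet : ρ.DetIsCyclotomic p)
        (δ : tangent hres), ρ.IsFlatAt p →
        UnitRootFixed (padicPlace ((pP p : Nat.Primes) : ℕ)) ρ b (δ : R → ResidueField 𝒪) →
          tanCocycle hb hdet δ ∈ condAt (adRep (rbar bbar)) L₀₀) ∧
      ∀ {R : Type} [CommRing R] [IsLocalRing R] [Algebra 𝒪 R] [IsLocalHom (algebraMap 𝒪 R)]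
        {hres : Function.Surjective (residue R ∘ algebraMap 𝒪 R)} {ρ : GaloisRepAdic R}
        {b : Basis (Fin 2) R ρ.V} (hb : Adapted bbar hres ρ b) (hdet : ρ.DetIsCyclotomic p)
        (δ : tangent hres), ρ.IsStrictOrdinaryAt p ∨
          UnitRootFixed (padicPlace ((pP p : Nat.Primes) : ℕ)) ρ b (δ : R → ResidueField 𝒪) →
          tanCocycle hb hdet δ ∈ condAt (adRep (rbar bbar)) L₀₁ := by
  have hA : (padicPlace ((pP p : Nat.Primes) : ℕ)).LiesOverPrime p := padicPlace_liesOverPrime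
  obtain ⟨La, hLafin, hLa, hLaloc⟩ := exists_flatUnitRootLocal bbar hA hp2 hdet hF
  obtain ⟨Lb, hLbfin, hLb, hLbloc⟩ := exists_ordUnitRootLocal bbar hA hp2 hF
  set inv₀ := finrank (ResidueField 𝒪) (Representation.invariants
    (resRep (adRep (rbar bbar)) (decQ ((pP p : Nat.Primes) : ℕ))))
  set L₀ : Submodule _ _ := La ⊓ Lb with hL₀
  have hfin : FiniteDimensional (ResidueField 𝒪) L₀ :=
    Submodule.finiteDimensional_of_le inf_le_left
  have hle : finrank (ResidueField 𝒪) L₀ ≤ inv₀ :=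
    (Submodule.finrank_mono inf_le_left).trans hLa
  obtain ⟨g, D, hgD, hD⟩ := exists_raiseTWPrimes hp2 habs hdet hsplit hTW P hP K (L₀) hfin
    (inv₀ + 1 - finrank (ResidueField 𝒪) L₀)
    (le_of_eq (Nat.add_sub_cancel' (Nat.le_succ_of_le hle))) S
  have hpos : 1 ≤ inv₀ + 1 - finrank (ResidueField 𝒪) L₀ :=
    Nat.le_sub_of_add_le (by rw [add_comm 1]; exact Nat.add_le_add_right hle 1)
  refine ⟨g, g + (inv₀ + 1 - finrank (ResidueField 𝒪) L₀), D, L₀, Lb,
    ?_, by omega, fun n => ?_, fun hb hdet' δ hflat hδ => ?_,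
    fun hb hdet' δ hδ => hLbloc hb hdet' δ hδ⟩
  · exact le_trans (Nat.add_le_add_left (Nat.add_le_add_right hpos g) _) hgD
  · obtain ⟨qv, hinj, hq, hfrob, hfinc, hbound⟩ := hD n
    refine ⟨qv, hinj, hq, hfrob, ⟨hfinc, hbound⟩, ?_⟩
    have e : ∀ L : Submodule (ResidueField 𝒪)
        ((decQ ((pP p : Nat.Primes) : ℕ) → sl2 (ResidueField 𝒪)) ⧸
          B1 (resRep (adRep (rbar bbar)) (decQ ((pP p : Nat.Primes) : ℕ)))),
      strictSpace p (rbar bbar) (raisedSet P) (condAt (adRep (rbar bbar)) L) qv =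
        (selCocycles (adRep (rbar bbar)) (insert p (natSet (raisedSet P) ∪ Finset.univ.image qv)) ⊓
          ⨅ r ∈ raisedSet P, locB1 (adRep (rbar bbar)) (decQ (r : ℕ))) ⊓
            condAt (adRep (rbar bbar)) L := fun L => by
      rw [strictSpace, inf_comm (condAt _ L), inf_assoc]
    rw [e] at hfinc hbound ⊢
    obtain ⟨h1, h2⟩ := finrank_classes_condAt_le (adRep (rbar bbar))
      (L₁ := L₀) (L₂ := Lb) inf_le_right
      (selCocycles (adRep (rbar bbar)) (insert p (natSet (raisedSet P) ∪ Finset.univ.image qv)) ⊓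
        ⨅ r ∈ raisedSet P, locB1 (adRep (rbar bbar)) (decQ (r : ℕ)))
      (e := inv₀ + 1 - finrank (ResidueField 𝒪) L₀)
      (hLb.trans (Nat.add_sub_cancel' (Nat.le_succ_of_le hle)).ge)
    exact ⟨h1, h2.trans (Nat.add_le_add_right hbound _)⟩
  · exact ⟨hLaloc hb hdet' hflat δ hδ, hLbloc hb hdet' δ (Or.inr hδ)⟩

end Fermat.Agent.Raising.AtResidualPrime

end
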