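import Fermat.Agent.Raising.AtResidualPrime.LastBuilderLevel
import Fermat.Agent.Raising.AtResidualPrime.LastPrimes

/-!
# The last step at `p`

From the levels at every choice of Taylor–Wiles primes, the lift with unit root `ε` at `p`, on the
component of the curve at every raised prime, is a point of the top finite level
(`exists_lastPoint`).
-/

noncomputable section

namespace Fermat.Agent.Raising

open IsLocalRing Polynomial Module Matrix Fermat.Agent.LevelLowering Fermat.Agent.Gal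
  Fermat.Agent.TW Fermat.Agent.PT Fermat.Agent.PT.Lv

local notation "Qbar" => AlgebraicClosure ℚ
local notation "GQ" => (AlgebraicClosure ℚ ≃ₐ[ℚ] AlgebraicClosure ℚ)

variable {O : Type} [CommRing O] [IsDomain O] [IsDiscreteValuationRing O]
  [IsAdicComplete (maximalIdeal O) O] [Finite (ResidueField O)]
  {p : ℕ} {ρbar : ResidualGaloisRep (ResidueField O)}
  {bbar : Basis (Fin 2) (ResidueField O) ρbar.V} {m D : ℕ}
  {K : Type} [Field K] [Algebra O K]
  {P : Fin m → RaisedPrime p ρbar bbar} {Smin : Finset ℕ} {c₀ : ℕ → O} {d : ℕ → ℕ}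
  {Tm : ∀ j, ℕ → Matrix (Fin (d j)) (Fin (d j)) O} {S₀ : Finset ℕ} {qv lv : Fin D → ℕ}
  {dp : ℕ} {Tp : ℕ → Matrix (Fin dp) (Fin dp) O}

/-- A level seen with more excluded primes. -/
@[reducible] def OpLevel.excludeMore {S S' : Finset ℕ} {B : Type} [CommRing B] [Algebra O B] {n : ℕ}
    (L : OpLevel O S c₀ B n) (h : S ⊆ S') : OpLevel O S' c₀ B n :=
  { L with
    residual := fun a ℓ hℓ hS => L.residual a ℓ hℓ fun h' => hS (h h')
    frob := fun a ℓ hℓ hS => L.frob a ℓ hℓ fun h' => hS (h h') }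

/-- The levels seen with more excluded primes. -/
@[reducible] def RaiseInputs.excludeMore (R : RaiseInputs K P Smin c₀ d Tm S₀ qv lv)
    (S' : Finset ℕ) :
    RaiseInputs K P Smin c₀ d Tm S₀ qv lv :=
  { R with
    S := R.S ∪ S'
    subset := R.subset.trans Finset.subset_union_left
    L := fun j => (R.L j).excludeMore Finset.subset_union_left
    aug_x := fun j ℓ hℓ h => R.aug_x j ℓ hℓ fun h' => h (Finset.mem_union_left _ h')
    up_comm := fun j ℓ hℓ h => R.up_comm j ℓ hℓ fun h' => h (Finset.mem_union_left _ h')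
    down_comm := fun j ℓ hℓ h => R.down_comm j ℓ hℓ fun h' => h (Finset.mem_union_left _ h')
    tq := R.tq
    tq_ev := R.tq_ev
    saturated := R.saturated
    unramified := R.unramified
    unipotent := R.unipotent
    tw_point := R.tw_point }

/-- The level with `p` seen with more excluded primes. -/
@[reducible] def LastInputs.excludeMore {R : RaiseInputs K P Smin c₀ d Tm S₀ qv lv}
    (T : LastInputs R dp Tp) (S' : Finset ℕ) : LastInputs (R.excludeMore S') dp Tp where
  top := T.top.excludeMore Finset.subset_union_left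
  aug_x ℓ hℓ h := T.aug_x ℓ hℓ fun h' => h (Finset.mem_union_left _ h')
  upA := T.upA
  upB := T.upB
  downA := T.downA
  downB := T.downB
  up_comm ℓ hℓ h := T.up_comm ℓ hℓ fun h' => h (Finset.mem_union_left _ h')
  down_comm ℓ hℓ h := T.down_comm ℓ hℓ fun h' => h (Finset.mem_union_left _ h')
  up_inv := T.up_inv
  down_inv := T.down_inv
  tp := T.tp
  down_up := T.down_up
  flat := T.flat
  ordinary := T.ordinary
  ordinary_top := T.ordinary_top
  tp_ev := T.tp_ev
  saturated := T.saturated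
  unramified := T.unramified
  unipotent := T.unipotent
  tw_point := T.tw_point

variable [Fact p.Prime]

omit [Finite (ResidueField O)] in
/-- A lift with the trace of the curve at a raised prime, unipotent there, reaches its component. -/
theorem RaisedPrime.reaches_st {T : Type} [CommRing T] [IsLocalRing T] [IsNoetherianRing T]
    [IsAdicComplete (maximalIdeal T) T] [Algebra O T] [IsLocalHom (algebraMap O T)]
    {ρ : GaloisRepAdic T} {b : Basis (Fin 2) T ρ.V}
    {hres : Function.Surjective (residue T ∘ algebraMap O T)} (hb : Adapted bbar hres ρ b)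
    (hdet : ρ.DetIsCyclotomic p) {P : RaisedPrime p ρbar bbar} (Kd : LocalKind P) [CharZero O]
    (f : T →ₐ[O] O) [hf : IsLocalHom f.toRingHom] {ρE : GaloisRepAdic O}
    (heq : (ρ.baseChangeAlong f.toRingHom hf).IsEquiv ρE) (hpO : (p : O) ∈ maximalIdeal O)
    (huni : ρE.IsUnipotentOnInertiaAt P.q)
    (htr : LinearMap.trace O ρE.V (ρE.ρ P.φ) = P.ε * ((P.q : O) + 1)) :
    (Kd.B.comp Kd.B.st).Reaches fun x => f (RaisedPrime.coordOf b Kd x) := by
  rw [funext (RaisedPrime.map_coordOf hb hdet Kd f)]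
  obtain ⟨hL, hN, -⟩ := lift_at_point hb hdet P f heq hpO
  obtain ⟨h0, h1⟩ := hN huni
  refine (Kd.reach O hL h0 h1).2.2.1 ?_
  refine (Eq.trans ?_ htr).trans (by rw [Algebra.algebraMap_self, RingHom.id_apply])
  rw [trace_point (b := b) f heq P.φ, ← trace_matrixRep b]
  exact (AddMonoidHom.map_trace f.toRingHom.toAddMonoidHom _).symm

variable [CharZero O] [IsAlgClosed K] [CharZero K] [CharP (ResidueField O) p]

/-- **The last step at `p`**: the lift is a point of the top finite level. -/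
theorem exists_lastPoint (H : StepHyps P Smin c₀ S₀) (hdet : DetCyc p (rbar bbar))
    (hsplit : ∀ σ : AG, ∃ α β : ResidueField O, LinearMap.charpoly (ρbar.ρ σ) =
      (Polynomial.X - Polynomial.C α) * (Polynomial.X - Polynomial.C β))
    (hTW : ∀ (k : Type) [Field k] [Algebra (ResidueField O) k] (G : Subgroup AG), G.index = 2 →
      ∀ V : Submodule k (ρbar.baseChange k).V,
        (∀ σ ∈ G, ∀ x ∈ V, (ρbar.baseChange k).ρ σ x ∈ V) → V = ⊥ ∨ V = ⊤)
    {F F' : M2 (ResidueField O)}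
    (hF : IsOrdFrame p (padicPlace ((pP p : Nat.Primes) : ℕ)) (rbar bbar) F F')
    (hinjK : Function.Injective (algebraMap O K)) (Kf : ∀ i, LocalKind (P i))
    (hd : ∀ j, m < j → d j = d m) (hd0 : 0 < d 0)
    {cw : ℕ → O} {ρw : GaloisRepAdic O} {Φ : GQ}
    (hΦ : (padicPlace ((pP p : Nat.Primes) : ℕ)).IsFrobeniusAt Φ p) {ε : O} (hε : ε * ε = 1)
    (W : LastLift P Smin c₀ S₀ cw ρw (padicPlace ((pP p : Nat.Primes) : ℕ)) Φ ε)
    (hsup : ∀ (D n : ℕ) (qv : Fin D → ℕ), Function.Injective qv →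
      (∀ i, (qv i).Prime ∧ qv i ∉ S₀ ∧ p ^ (n + 1) ∣ qv i - 1) →
      (∀ i, ∀ A : ValuationSubring Qbar, A.LiesOverPrime (qv i) →
        ∀ φ : GQ, A.IsFrobeniusAt φ (qv i) → ∃ α β : ResidueField O, α ≠ β ∧
          LinearMap.charpoly (ρbar.ρ φ) =
            (Polynomial.X - Polynomial.C α) * (Polynomial.X - Polynomial.C β)) →
      ∃ lv : Fin D → ℕ, (∀ i, n < lv i ∧ p ^ lv i ∣ qv i - 1 ∧ ¬ p ^ (lv i + 1) ∣ qv i - 1) ∧
        ∃ R : RaiseInputs K P Smin c₀ d Tm S₀ qv lv, Nonempty (LastInputs R dp Tp)) :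
    ∃ (S : Finset ℕ) (T : Type) (_ : CommRing T) (_ : Algebra O T)
      (A : T →ₐ[O] Matrix (Fin dp) (Fin dp) O) (x : ℕ → T) (w : T →ₐ[O] O),
      (∀ z, A z = 0 → w z = 0) ∧
        ∀ ℓ : ℕ, ℓ.Prime → ℓ ∉ S → A (x ℓ) = Tp ℓ ∧ w (x ℓ) = cw ℓ := by
  classical
  have hA : (padicPlace ((pP p : Nat.Primes) : ℕ)).LiesOverPrime p := padicPlace_liesOverPrime
  obtain ⟨g, g', D, L₀₀, L₀₁, hgD, hg'D, hprimes, hC₀, hC₁⟩ :=
    AtResidualPrime.exists_lastTWPrimes H.odd_p
    H.absIrr hdet hsplit hTW P H.inj Kf hF (S₀ ∪ insert p (Smin ∪ natSet (raisedSet P)))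
  obtain ⟨lv₀, -, R₀, ⟨T₀⟩⟩ := hsup 0 0 Fin.elim0 (fun i => i.elim0) (fun i => i.elim0)
    fun i => i.elim0
  obtain ⟨Fr⟩ := exists_lastFrame T₀ H hd0 hA hΦ hε W
  have key : ∀ n : ℕ, ∃ Y : RaiseLevel (Fr.raiseBase hd Kf) g D,
      (∃ lv : Fin D → ℕ, (∀ i, n ≤ lv i) ∧ Y.J = diamondIdeal (𝒪 := O) p lv) ∧
        Nonempty (LastLevel Y (Fr.lastBase hd Kf hε) g') := fun n => by
    obtain ⟨qv, hinj, hq, hfrob, ⟨hfin₀, hg₀⟩, hfin₁, hg₁⟩ := hprimes n
    have hqS : ∀ i, qv i ∉ S₀ := fun i h => (hq i).2.1 (Finset.mem_union_left _ h)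
    have hfresh : FreshPrimes P Smin qv := fun i h => (hq i).2.1 (Finset.mem_union_right _ h)
    have hroots : ∀ i, ∀ A : ValuationSubring Qbar, A.LiesOverPrime (qv i) →
        ∀ φ : GQ, A.IsFrobeniusAt φ (qv i) → ∃ α β : ResidueField O, α ≠ β ∧
          LinearMap.charpoly (ρbar.ρ φ) =
            (Polynomial.X - Polynomial.C α) * (Polynomial.X - Polynomial.C β) :=
      fun i A hA φ hφ => (hfrob i A hA φ hφ).1
    obtain ⟨lv, hlv, R, ⟨T⟩⟩ :=
      hsup D n qv hinj (fun i => ⟨(hq i).1, hqS i, (hq i).2.2⟩) hroots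
    have haux : AuxPrimes p ρbar qv lv :=
      { prime := fun i => (hq i).1
        ne := fun i h => hfresh i (by rw [h]; exact Finset.mem_insert_self _ _)
        pos := fun i => Nat.one_le_of_lt (hlv i).1
        dvd := fun i => (hlv i).2.1
        max := fun i => (hlv i).2.2
        unramified := fun i => H.unramified _ (hq i).1 (hqS i)
        roots := hroots }
    obtain ⟨X⟩ := exists_lastData Fr H hd0 hinjK hA hΦ hε W (T.excludeMore R₀.S)
      Finset.subset_union_right haux hfresh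
    obtain ⟨gens, hgens, hle⟩ := X.exists_flatGens Kf H hA hΦ _
      (fun δ => hC₀ X.bf_adapted X.rings.Rf.det δ) hfin₀ hg₀
    obtain ⟨gens', hgens', hle'⟩ := X.exists_topGens Kf H hA hΦ W _
      (fun δ h => hC₁ X.bt_adapted X.rings.Rt.det δ (Or.inr h)) hfin₁ hg₁
    exact ⟨X.raiseLevel hd Kf H hfresh gens hgens hle, ⟨lv, fun i => (hlv i).1.le, rfl⟩,
      X.exists_lastLevel hd Kf H hfresh hε gens hgens hle gens' hgens' hle'⟩
  choose Y hJ hZ using key
  choose lv hlv hYJ using hJ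
  let YS : RaiseSys (Fr.raiseBase hd Kf) g D :=
    { L := Y
      trunc_le := fun k => by
        filter_upwards [diamondIdeal_trunc (𝒪 := O) (Fact.out : p.Prime) H.p_mem D k] with n hn
        rw [hYJ n]
        exact hn (lv n) (hlv n)
      d_pos := hd0
      params := hgD }
  let Z : LastSys YS (Fr.lastBase hd Kf hε) g' :=
    { L := fun n => (hZ n).some
      params := hg'D }
  have := Fr.rings.Rt.pt_local none
  let w : Fr.rings.Rt.T →ₐ[O] O := Fr.rings.Rt.pt none
  refine ⟨R₀.S, Fr.rings.Rt.T, inferInstance, inferInstance, Fr.actt, Fr.rings.Rt.τ, w,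
    fun z hz => Z.ker_le_point w (fun x hx => map_nonunit (Fr.rings.Rt.pt none).toRingHom x hx)
      (fun i => RaisedPrime.reaches_st (ρE := ρw) (hf := Fr.rings.Rt.pt_local none) Fr.bt_adapted
        Fr.rings.Rt.det (Kf i) w
        (Fr.rings.Rt.pt_equiv none) H.p_mem
        (W.unipotent _ (q_mem_ramSet i.2) (P i).prime (P i).ne_p) (W.steinberg i))
      ((map_sub _ _ _).trans (sub_eq_zero.mpr
        (Fr.rings.pt_w.trans ((Fr.rings.Rt.pt none).commutes ε).symm))) hz,
    fun ℓ hℓ hℓS => ⟨Fr.actt_τ ℓ hℓ hℓS, Fr.rings.Rt.pt_τ ℓ hℓ hℓS none⟩⟩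

end Fermat.Agent.Raising

end
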