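import Fermat.Agent.Raising.AtResidualPrime.LastStep

/-!
# `α + p / α` as a series in `α - ε`

With `a = α - ε` the coordinate of the last step, `rootTrace ε p` is the series with value
`α + p α⁻¹` at `a`, and `rootMat ε p` the matrix `[[p + 1, t], [t, p + 1]]` at it, of determinant
zero at `a = 0`.
-/

noncomputable section

namespace Fermat.Agent.Raising

open IsLocalRing Fermat.Agent.LevelLowering

local notation "PS" => MvPowerSeries

variable {𝒪 : Type} [CommRing 𝒪] [IsDomain 𝒪] [IsDiscreteValuationRing 𝒪]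
  [IsAdicComplete (maximalIdeal 𝒪) 𝒪] (ε : 𝒪) (p : ℕ)

/-- The unit root as a series. -/
def rootSeries : PS (Fin 1) 𝒪 := MvPowerSeries.X 0 + MvPowerSeries.C ε

omit [IsDomain 𝒪] [IsDiscreteValuationRing 𝒪] [IsAdicComplete (maximalIdeal 𝒪) 𝒪] in
theorem isUnit_rootSeries {ε : 𝒪} (hε : IsUnit ε) : IsUnit (rootSeries ε) := by
  rw [MvPowerSeries.isUnit_iff_constantCoeff, rootSeries, map_add, MvPowerSeries.constantCoeff_X,
    MvPowerSeries.constantCoeff_C, zero_add]
  exact hε

/-- The series of `α + p / α`. -/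
def rootTrace : PS (Fin 1) 𝒪 := rootSeries ε + (p : PS (Fin 1) 𝒪) * Ring.inverse (rootSeries ε)

/-- The matrix of the two degeneracy maps at `p`. -/
def rootMat : Fin 2 → Fin 2 → PS (Fin 1) 𝒪 :=
  fun i j => !![(p : PS (Fin 1) 𝒪) + 1, rootTrace ε p; rootTrace ε p, (p : PS (Fin 1) 𝒪) + 1] i j

omit [IsDomain 𝒪] [IsDiscreteValuationRing 𝒪] [IsAdicComplete (maximalIdeal 𝒪) 𝒪] in
/-- The determinant vanishes at `a = 0` when `ε = ± 1`. -/
theorem rootMat_det {ε : 𝒪} (hε : ε * ε = 1) :
    MvPowerSeries.constantCoeff (rootMat ε p 0 0 * rootMat ε p 1 1 -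
      rootMat ε p 0 1 * rootMat ε p 1 0) = 0 := by
  have hu : IsUnit ε := IsUnit.of_mul_eq_one _ hε
  have h1 : MvPowerSeries.constantCoeff (Ring.inverse (rootSeries ε)) = ε := by
    have h := congrArg MvPowerSeries.constantCoeff
      (Ring.mul_inverse_cancel _ (isUnit_rootSeries hu))
    rw [map_mul, map_one, rootSeries, map_add, MvPowerSeries.constantCoeff_X,
      MvPowerSeries.constantCoeff_C, zero_add] at h
    exact hu.mul_left_cancel (h.trans hε.symm)
  simp only [rootMat, rootTrace, Matrix.of_apply, Matrix.cons_val_zero, Matrix.cons_val_one,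
    map_sub, map_mul, map_add, map_natCast, map_one, h1]
  rw [rootSeries, map_add, MvPowerSeries.constantCoeff_X, MvPowerSeries.constantCoeff_C, zero_add]
  linear_combination -((p : 𝒪) + 1) ^ 2 * hε

variable {T : Type} [CommRing T] [IsLocalRing T] [Algebra 𝒪 T]
  [IsAdicComplete (maximalIdeal T) T]

omit [IsDomain 𝒪] [IsDiscreteValuationRing 𝒪] [IsAdicComplete (maximalIdeal 𝒪) 𝒪] in
/-- The value of the matrix at `a = α - ε`, where `t` is the operator with `α² - t α + p = 0`. -/
theorem evalSeries_rootMat {ε : 𝒪} (hε : ε * ε = 1) {α t : T}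
    (ha : ∀ _ : Fin 1, α - algebraMap 𝒪 T ε ∈ maximalIdeal T)
    (ht : α * α - t * α + (p : T) = 0) (i j : Fin 2) :
    evalSeries (fun _ : Fin 1 => α - algebraMap 𝒪 T ε) ha (rootMat ε p i j) =
      !![(p : T) + 1, t; t, (p : T) + 1] i j := by
  have hroot : evalSeries (fun _ : Fin 1 => α - algebraMap 𝒪 T ε) ha (rootSeries ε) = α := by
    rw [rootSeries, map_add, evalSeries_X,
      show (MvPowerSeries.C ε : PS (Fin 1) 𝒪) = algebraMap 𝒪 _ ε by
        rw [MvPowerSeries.algebraMap_apply]; rfl, AlgHom.commutes, sub_add_cancel]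
  have hinv := congrArg (evalSeries (fun _ : Fin 1 => α - algebraMap 𝒪 T ε) ha)
    (Ring.mul_inverse_cancel _ (isUnit_rootSeries (IsUnit.of_mul_eq_one _ hε)))
  rw [map_mul, map_one, hroot] at hinv
  have htr : evalSeries (fun _ : Fin 1 => α - algebraMap 𝒪 T ε) ha (rootTrace ε p) = t := by
    rw [rootTrace, map_add, map_mul, map_natCast, hroot]
    linear_combination (evalSeries (fun _ : Fin 1 => α - algebraMap 𝒪 T ε) ha
      (Ring.inverse (rootSeries ε))) * ht + (t - α) * hinv
  fin_cases i <;> fin_cases j <;> simp [rootMat, htr, map_natCast]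

end Fermat.Agent.Raising
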