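import Fermat.Agent.Raising.AtResidualPrime.LastBuilderPoints
import Fermat.Agent.Raising.AtResidualPrime.RootSeries
import Fermat.Agent.Raising.Build.Base

/-!
# The bases of the last step at `p`

`LastFrame` is the pair of rings of the last step without auxiliary primes, with compatible adapted
bases and the actions on the levels; it gives the `RaiseBase` of the flat levels, with prescribed
coordinate `α - ε`, and the `LastBase` of the top one.
-/

noncomputable section

namespace Fermat.Agent.Raising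

open IsLocalRing Polynomial Module Matrix Fermat.Agent.LevelLowering Fermat.Agent.Gal
  Fermat.Agent.TW

local notation "Qbar" => AlgebraicClosure ℚ
local notation "GQ" => (AlgebraicClosure ℚ ≃ₐ[ℚ] AlgebraicClosure ℚ)

variable {O : Type} [CommRing O] [IsDomain O] [IsDiscreteValuationRing O]
  [IsAdicComplete (maximalIdeal O) O] [Finite (ResidueField O)]

instance nontrivial_diaCoords (p : ℕ) {D : ℕ} (lv : Fin D → ℕ) : Nontrivial (DiaCoords O p lv) :=
  (Build.augDia O p lv).toRingHom.domain_nontrivial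

section Family

variable {S : Finset ℕ} {c₀ : ℕ → O} {B : Type} [CommRing B] [Algebra O B] {d : ℕ → ℕ} {dp m : ℕ}

variable (d dp m) in
/-- The ranks of the flat levels and the top one (`none`). -/
def lastDim : Option (Fin (m + 1)) → ℕ
  | none => dp
  | some j => d j

variable (m) in
/-- The flat levels and the top one (`none`). -/
def lastFam (L : ∀ j : ℕ, OpLevel O S c₀ B (d j)) (Top : OpLevel O S c₀ B dp) :
    ∀ j : Option (Fin (m + 1)), OpLevel O S c₀ B (lastDim d dp m j)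
  | none => Top
  | some j => L j

variable {L : ∀ j : ℕ, OpLevel O S c₀ B (d j)} {Top : OpLevel O S c₀ B dp} {p : ℕ} [Fact p.Prime]
  {ρbar : ResidualGaloisRep (ResidueField O)} {cw : ℕ → O} {ρw : GaloisRepAdic O}
  {A : ValuationSubring Qbar} {Φ : GQ} {ε : O}

/-- All levels as points of the top ring. -/
def LastRings.lastPts (R : LastRings L Top p ρbar m cw ρw A Φ ε) :
    LevelPts R.Rt (lastFam m L Top) where
  pt := fun j => match j with
    | none => fun a => R.Rt.pt (some (.inr a))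
    | some j => fun a => R.Rt.pt (some (.inl ⟨j, a⟩))
  pt_local := fun j => match j with
    | none => fun a => R.Rt.pt_local (some (.inr a))
    | some j => fun a => R.Rt.pt_local (some (.inl ⟨j, a⟩))
  pt_τ := fun j => match j with
    | none => fun a ℓ hℓ hℓS => R.Rt.pt_τ ℓ hℓ hℓS (some (.inr a))
    | some j => fun a ℓ hℓ hℓS => R.Rt.pt_τ ℓ hℓ hℓS (some (.inl ⟨j, a⟩))
  pt_equiv := fun j => match j with
    | none => fun a => R.Rt.pt_equiv (some (.inr a))
    | some j => fun a => R.Rt.pt_equiv (some (.inl ⟨j, a⟩))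

/-- The flat levels as points of the flat ring. -/
def LastRings.flatPts (R : LastRings L Top p ρbar m cw ρw A Φ ε) :
    LevelPts R.Rf (d := fun j : Fin (m + 1) => d j) fun j => L j where
  pt j a := R.Rf.pt ⟨j, a⟩
  pt_local j a := R.Rf.pt_local ⟨j, a⟩
  pt_τ j a ℓ hℓ hℓS := R.Rf.pt_τ ℓ hℓ hℓS ⟨j, a⟩
  pt_equiv j a := R.Rf.pt_equiv ⟨j, a⟩

end Family

variable {p : ℕ} [Fact p.Prime] {ρbar : ResidualGaloisRep (ResidueField O)}
  {bbar : Basis (Fin 2) (ResidueField O) ρbar.V} {m : ℕ} {K : Type} [Field K] [Algebra O K]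
  {P : Fin m → RaisedPrime p ρbar bbar} {Smin : Finset ℕ} {c₀ : ℕ → O} {d : ℕ → ℕ}
  {Tm : ∀ j, ℕ → Matrix (Fin (d j)) (Fin (d j)) O} {S₀ : Finset ℕ} {qv₀ lv₀ : Fin 0 → ℕ}
  {R₀ : RaiseInputs K P Smin c₀ d Tm S₀ qv₀ lv₀} {dp : ℕ} {Tp : ℕ → Matrix (Fin dp) (Fin dp) O}

/-- The rings of the last step without auxiliary primes, with bases and actions. -/
structure LastFrame (T₀ : LastInputs R₀ dp Tp) (cw : ℕ → O) (ρw : GaloisRepAdic O)
    (A : ValuationSubring Qbar) (Φ : GQ) (ε : O) : Type 1 where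
  /-- The flat ring and the top ring. -/
  rings : LastRings R₀.L T₀.top p ρbar m cw ρw A Φ ε
  /-- An adapted basis over the top ring. -/
  bt : Basis (Fin 2) rings.Rt.T rings.Rt.ρ.V
  bt_adapted : Adapted bbar rings.Rt.residue_surjective rings.Rt.ρ bt
  /-- Its image, an adapted basis over the flat ring. -/
  bf : Basis (Fin 2) rings.Rf.T rings.Rf.ρ.V
  bf_adapted : Adapted bbar rings.Rf.residue_surjective rings.Rf.ρ bf
  bf_comp : ∀ g, matrixRep bf rings.Rf.ρ.ρ g = (matrixRep bt rings.Rt.ρ.ρ g).map rings.q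
  /-- The actions of the flat ring on the flat levels. -/
  actf : ∀ j : Fin (m + 1), rings.Rf.T →ₐ[O] Matrix (Fin (d j)) (Fin (d j)) O
  actf_τ : ∀ (j : Fin (m + 1)) (ℓ : ℕ), ℓ.Prime → ℓ ∉ R₀.S → actf j (rings.Rf.τ ℓ) = Tm j ℓ
  /-- The action of the top ring on the top level. -/
  actt : rings.Rt.T →ₐ[O] Matrix (Fin dp) (Fin dp) O
  actt_τ : ∀ ℓ : ℕ, ℓ.Prime → ℓ ∉ R₀.S → actt (rings.Rt.τ ℓ) = Tp ℓ

/-- **The rings without auxiliary primes exist.** -/
theorem exists_lastFrame (T₀ : LastInputs R₀ dp Tp) (H : StepHyps P Smin c₀ S₀) (hd : 0 < d 0)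
    {cw : ℕ → O} {ρw : GaloisRepAdic O} {A : ValuationSubring Qbar} (hA : A.LiesOverPrime p)
    {Φ : GQ} (hΦ : A.IsFrobeniusAt Φ p) {ε : O} (hε : ε * ε = 1)
    (W : LastLift P Smin c₀ S₀ cw ρw A Φ ε) :
    Nonempty (LastFrame T₀ cw ρw A Φ ε) := by
  obtain ⟨bw, hbw, hwΦ⟩ := W.unitRoot
  obtain ⟨rings⟩ := exists_lastRings (L := R₀.L) (Top := T₀.top) (m := m) H.odd_p H.p_mem H.absIrr
    H.odd (fun ℓ hℓ h => H.frob ℓ hℓ fun h' => h (R₀.subset h')) hd T₀.flat T₀.ordinary
    T₀.ordinary_top cw ρw (fun ℓ hℓ h => W.congr ℓ hℓ fun h' => h (R₀.subset h'))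
    (fun ℓ hℓ h => W.frob ℓ hℓ fun h' => h (R₀.subset h')) W.ord hA hΦ hε bw hbw hwΦ
  obtain ⟨bt, hbt⟩ := exists_adapted (bbar := bbar) rings.Rt.residue_surjective rings.Rt.ρ
    rings.Rt.residual
  obtain ⟨bf, hbf, hcomp⟩ := Build.exists_adapted_push H.absIrr rings.Rt rings.Rf rings.q
    rings.q_surjective rings.q_trace hbt
  choose actf hactf _ _ _ using fun j : Fin (m + 1) => rings.flatPts.exists_action j
  obtain ⟨actt, hactt, -, -, -⟩ := rings.lastPts.exists_action none
  exact ⟨{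
    rings := rings
    bt := bt
    bt_adapted := hbt
    bf := bf
    bf_adapted := hbf
    bf_comp := hcomp
    actf := fun j => (Build.augDia O p lv₀).mapMatrix.comp (actf j)
    actf_τ := fun j ℓ hℓ h =>
      (congrArg (Build.augDia O p lv₀).mapMatrix (hactf j ℓ hℓ h)).trans (R₀.aug_x j ℓ hℓ h)
    actt := (Build.augDia O p lv₀).mapMatrix.comp actt
    actt_τ := fun ℓ hℓ h =>
      (congrArg (Build.augDia O p lv₀).mapMatrix (hactt ℓ hℓ h)).trans (T₀.aug_x ℓ hℓ h) }⟩

namespace LastFrame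

variable {T₀ : LastInputs R₀ dp Tp} {cw : ℕ → O} {ρw : GaloisRepAdic O}
  {A : ValuationSubring Qbar} {Φ : GQ} {ε : O} (Fr : LastFrame T₀ cw ρw A Φ ε)
  (hd : ∀ j, m < j → d j = d m) (Kf : ∀ i, LocalKind (P i))

/-- The finite flat levels, with prescribed coordinate `α - ε`. -/
def raiseBase : RaiseBase (fun i => (Kf i).B) 1 Fr.rings.Rf.T where
  d := d
  A := Build.extAct hd fun j => (Fr.actf j).toRingHom
  coord i := RaisedPrime.coordOf Fr.bf (Kf i)
  extra _ := Fr.rings.rootf.α - algebraMap O Fr.rings.Rf.T ε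
  G j := (Kf j).G
  G_det j := (Kf j).G_det

omit [Finite (ResidueField O)] in
/-- The coordinates of the flat ring are those of the top one. -/
theorem q_coord (i : Fin m) (c : Fin (Kf i).e) :
    Fr.rings.q (RaisedPrime.coordOf Fr.bt (Kf i) c) = RaisedPrime.coordOf Fr.bf (Kf i) c :=
  Build.coord_compat (Kf i) Fr.bt_adapted Fr.rings.Rt.det Fr.rings.q
    (fun _ hx => Build.proj_mem Fr.rings.Rt Fr.rings.Rf Fr.rings.q hx) Fr.bf_comp c

/-- The finite top level. -/
def lastBase (hε : ε * ε = 1) : LastBase (Fr.raiseBase hd Kf) Fr.rings.Rt.T where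
  d := dp
  A := Fr.actt.toRingHom
  π := Fr.rings.q
  coord i := RaisedPrime.coordOf Fr.bt (Kf i)
  a := Fr.rings.roott.α - algebraMap O Fr.rings.Rt.T ε
  π_coord := Fr.q_coord Kf
  π_a := by
    rw [map_sub, Fr.rings.q_root, AlgHom.commutes]
    rfl
  G := rootMat ε p
  G_det := rootMat_det p hε

end LastFrame

end Fermat.Agent.Raising

end
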