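import Fermat.Agent.Raising.AtResidualPrime.LastBuilderProj
import Fermat.Agent.Raising.Build.Degen

/-!
# The data at one choice of auxiliary primes

`LastData` holds the two rings of the last step at auxiliary primes, compatible adapted bases over
those without, one diamond action on all levels through the top ring, its factors on the flat ring
and a preimage of the operator at `p`.
-/

noncomputable section

namespace Fermat.Agent.Raising

open IsLocalRing Polynomial Module Matrix Fermat.Agent.LevelLowering Fermat.Agent.Gal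
  Fermat.Agent.TW

local notation "Qbar" => AlgebraicClosure ℚ
local notation "GQ" => (AlgebraicClosure ℚ ≃ₐ[ℚ] AlgebraicClosure ℚ)

variable {O : Type} [CommRing O] [IsDomain O] [IsDiscreteValuationRing O]
  [IsAdicComplete (maximalIdeal O) O] [Finite (ResidueField O)]
  {p : ℕ} [Fact p.Prime] {ρbar : ResidualGaloisRep (ResidueField O)}
  {bbar : Basis (Fin 2) (ResidueField O) ρbar.V} {m : ℕ} {K : Type} [Field K] [Algebra O K]
  {P : Fin m → RaisedPrime p ρbar bbar} {Smin : Finset ℕ} {c₀ : ℕ → O} {d : ℕ → ℕ}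
  {Tm : ∀ j, ℕ → Matrix (Fin (d j)) (Fin (d j)) O} {S₀ : Finset ℕ} {qv₀ lv₀ : Fin 0 → ℕ}
  {R₀ : RaiseInputs K P Smin c₀ d Tm S₀ qv₀ lv₀} {dp : ℕ} {Tp : ℕ → Matrix (Fin dp) (Fin dp) O}
  {T₀ : LastInputs R₀ dp Tp} {cw : ℕ → O} {ρw : GaloisRepAdic O}
  {A : ValuationSubring Qbar} {Φ : GQ} {ε : O} {D : ℕ} {qv lv : Fin D → ℕ}

/-- The rings and actions of the last step at one choice of auxiliary primes. -/
structure LastData (Fr : LastFrame T₀ cw ρw A Φ ε) {R : RaiseInputs K P Smin c₀ d Tm S₀ qv lv}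
    (T : LastInputs R dp Tp) : Type 1 where
  /-- The flat ring and the top ring at the auxiliary primes. -/
  rings : LastRings R.L T.top p ρbar m cw ρw A Φ ε
  /-- The map onto the top ring without auxiliary primes. -/
  πt : rings.Rt.T →ₐ[O] Fr.rings.Rt.T
  /-- The map onto the flat ring without auxiliary primes. -/
  πf : rings.Rf.T →ₐ[O] Fr.rings.Rf.T
  πt_surjective : Function.Surjective πt
  πf_surjective : Function.Surjective πf
  sq : ∀ x, Fr.rings.q (πt x) = πf (rings.q x)
  πt_root : πt rings.roott.α = Fr.rings.roott.α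
  πf_root : πf rings.rootf.α = Fr.rings.rootf.α
  /-- An adapted basis over the top ring, lifting that of the frame. -/
  bt : Basis (Fin 2) rings.Rt.T rings.Rt.ρ.V
  bt_adapted : Adapted bbar rings.Rt.residue_surjective rings.Rt.ρ bt
  bt_comp : ∀ g, matrixRep Fr.bt Fr.rings.Rt.ρ.ρ g = (matrixRep bt rings.Rt.ρ.ρ g).map πt
  /-- An adapted basis over the flat ring, lifting that of the frame. -/
  bf : Basis (Fin 2) rings.Rf.T rings.Rf.ρ.V
  bf_adapted : Adapted bbar rings.Rf.residue_surjective rings.Rf.ρ bf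
  bf_comp : ∀ g, matrixRep Fr.bf Fr.rings.Rf.ρ.ρ g = (matrixRep bf rings.Rf.ρ.ρ g).map πf
  q_comp : ∀ g, matrixRep bf rings.Rf.ρ.ρ g = (matrixRep bt rings.Rt.ρ.ρ g).map rings.q
  /-- The diamond action of the top ring: `none` the top level, `some j` the flat level `j`. -/
  W : DiamondAction rings.lastPts bt qv
  /-- The actions on the flat levels, through the flat ring. -/
  actF : ∀ j : Fin (m + 1),
    rings.Rf.T →+* Matrix (Fin (d j)) (Fin (d j)) (DiaCoords O p lv)
  actF_q : ∀ (j : Fin (m + 1)) x, actF j (rings.q x) = W.act (some j) x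
  actF_aug : ∀ (j : Fin (m + 1)) x,
    (actF j x).map (Build.augDia O p lv) = Fr.actf j (πf x)
  actT_aug : ∀ x, (W.act none x).map (Build.augDia O p lv) = Fr.actt (πt x)
  proj_dia : ∀ i, πt (W.dia i) = 0
  /-- A preimage in the top ring of the operator at `p`. -/
  t : rings.Rt.T
  t_root : rings.rootf.α * rings.rootf.α - rings.q t * rings.rootf.α + (p : rings.Rf.T) = 0
  t_ev : ∀ a, (R.L m).ev a T.tp = rings.Rt.pt (some (.inl ⟨Fin.last m, a⟩)) t

/-- A map killing the kernel of a surjection factors through it. -/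
theorem exists_factor_surjective {R₁ R₂ R₃ : Type} [CommRing R₁] [CommRing R₂] [Ring R₃]
    (f : R₁ →+* R₂) (hf : Function.Surjective f) (g : R₁ →+* R₃)
    (h : ∀ x, f x = 0 → g x = 0) : ∃ g' : R₂ →+* R₃, ∀ x, g' (f x) = g x :=
  ⟨f.liftOfSurjective hf ⟨g, fun x hx => h x hx⟩, fun x =>
    RingHom.liftOfSurjective_comp_apply f hf _ x⟩

/-- A choice of auxiliary primes away from `p` and the primes that may ramify. -/
def FreshPrimes (P : Fin m → RaisedPrime p ρbar bbar) (Smin : Finset ℕ) {D : ℕ}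
    (qv : Fin D → ℕ) : Prop :=
  ∀ i, qv i ∉ insert p (Smin ∪ natSet (raisedSet P))

omit [IsAdicComplete (maximalIdeal O) O] [Finite (ResidueField O)]
  [Fact (Nat.Prime p)] in
theorem FreshPrimes.notMem {qv : Fin D → ℕ} (h : FreshPrimes P Smin qv) (i : Fin D) (j : ℕ)
    (qv' : Fin 0 → ℕ) : qv i ∉ insert p (ramSet P Smin j ∪ Finset.univ.image qv') := fun hm => by
  refine h i ?_
  rw [Finset.univ_eq_empty, Finset.image_empty, Finset.union_empty, Finset.mem_insert] at hm
  rw [Finset.mem_insert]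
  exact hm.imp id fun hm => ramSet_subset hm

omit [IsAdicComplete (maximalIdeal O) O] [Finite (ResidueField O)]
  [Fact (Nat.Prime p)] in
theorem FreshPrimes.ne (h : FreshPrimes P Smin qv) (i : Fin m) (l : Fin D) :
    (P i).q ≠ qv l := fun e => h l (Finset.mem_insert_of_mem (Finset.mem_union_right _
  (mem_natSet_raisedSet.2 ⟨i, e⟩)))

variable [CharZero O] [IsAlgClosed K] [CharZero K]

omit [CharZero O] in
/-- **The data at a choice of auxiliary primes exist.** -/
theorem exists_lastData (Fr : LastFrame T₀ cw ρw A Φ ε) (H : StepHyps P Smin c₀ S₀) (hd : 0 < d 0)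
    (hinjK : Function.Injective (algebraMap O K)) (hA : A.LiesOverPrime p)
    (hΦ : A.IsFrobeniusAt Φ p) (hε : ε * ε = 1) (W : LastLift P Smin c₀ S₀ cw ρw A Φ ε)
    {R : RaiseInputs K P Smin c₀ d Tm S₀ qv lv} (T : LastInputs R dp Tp) (hsub : R₀.S ⊆ R.S)
    (haux : AuxPrimes p ρbar qv lv) (hfresh : FreshPrimes P Smin qv) :
    Nonempty (LastData Fr T) := by
  obtain ⟨bw, hbw, hwΦ⟩ := W.unitRoot
  obtain ⟨F⟩ := exists_lastRings (L := R.L) (Top := T.top) (m := m) H.odd_p H.p_mem H.absIrr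
    H.odd (fun ℓ hℓ h => H.frob ℓ hℓ fun h' => h (R.subset h')) hd T.flat T.ordinary
    T.ordinary_top cw ρw (fun ℓ hℓ h => W.congr ℓ hℓ fun h' => h (R.subset h'))
    (fun ℓ hℓ h => W.frob ℓ hℓ fun h' => h (R.subset h')) W.ord hA hΦ hε bw hbw hwΦ
  obtain ⟨πt, πf, hπt, hπf, hπttr, hτt, hτf, hqτ, hsq, hrt, hrf⟩ :=
    Fr.exists_proj H.odd_p H.absIrr hA hΦ hsub F
  obtain ⟨bt, hbt, hbtc⟩ := Build.exists_adapted_lift H.absIrr F.Rt Fr.rings.Rt πt hπt hπttr
    Fr.bt_adapted
  obtain ⟨bf, hbf, hbfc⟩ := Build.exists_adapted_push H.absIrr F.Rt F.Rf F.q F.q_surjective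
    F.q_trace hbt
  have hbfc₀ : ∀ g, matrixRep Fr.bf Fr.rings.Rf.ρ.ρ g = (matrixRep bf F.Rf.ρ.ρ g).map πf :=
    fun g => by
      rw [Fr.bf_comp, hbtc, hbfc, Matrix.map_map, Matrix.map_map]
      exact congrArg (matrixRep bt F.Rt.ρ.ρ g).map (funext hsq)
  obtain ⟨Wd⟩ := F.lastPts.exists_diamondAction hinjK H.p_mem haux hbt fun j => match j with
    | none => T.tw_point
    | some j => R.tw_point j
  choose act₀ hact₀ _ _ hlift using fun j : Option (Fin (m + 1)) => F.lastPts.exists_action j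
  have haug : ∀ j x, (Wd.act j x).map (Build.augDia O p lv) =
      (Build.augDia O p lv).mapMatrix (act₀ j x) := fun j x => by
    obtain ⟨z, hz, hev⟩ := hlift j x
    rw [← hz]
    exact Wd.act_aug j x z hev
  have hf : ∀ (j : Fin (m + 1)) x, (Wd.act (some j) x).map (Build.augDia O p lv) =
      Fr.actf j (πf (F.q x)) := fun j x => by
    have e : (Build.augDia O p lv).mapMatrix.comp (act₀ (some j)) =
        (Fr.actf j).comp (πf.comp F.q) := F.Rt.hom_ext fun ℓ hℓ h =>
      ((congrArg (Build.augDia O p lv).mapMatrix (hact₀ (some j) ℓ hℓ h)).trans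
        (R.aug_x j ℓ hℓ h)).trans ((congrArg (Fr.actf j) ((congrArg πf (hqτ ℓ hℓ h)).trans
          (hτf ℓ hℓ h))).trans (Fr.actf_τ j ℓ hℓ fun h' => h (hsub h'))).symm
    exact (haug (some j) x).trans (AlgHom.congr_fun e x)
  have ht : ∀ x, (Wd.act none x).map (Build.augDia O p lv) = Fr.actt (πt x) := fun x => by
    have e : (Build.augDia O p lv).mapMatrix.comp (act₀ none) = Fr.actt.comp πt :=
      F.Rt.hom_ext fun ℓ hℓ h =>
      ((congrArg (Build.augDia O p lv).mapMatrix (hact₀ none ℓ hℓ h)).trans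
        (T.aug_x ℓ hℓ h)).trans ((congrArg Fr.actt (hτt ℓ hℓ h)).trans
          (Fr.actt_τ ℓ hℓ fun h' => h (hsub h'))).symm
    exact (haug none x).trans (AlgHom.congr_fun e x)
  choose actF hactF using fun j : Fin (m + 1) =>
    exists_factor_surjective F.q.toRingHom F.q_surjective (Wd.act (some j)) fun x hx =>
      (Wd.act_eq_zero (some j) x).2 fun a => by
        rw [show F.lastPts.pt (some j) a x = F.Rf.pt ⟨j, a⟩ (F.q x) from (F.q_pt ⟨j, a⟩ x).symm,
          show F.q x = 0 from hx, map_zero]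
        rfl
  have hdia : ∀ i, πt (Wd.dia i) = 0 := fun i =>
    Wd.proj_dia Fr.rings.Rt πt hbtc i fun a => match a with
      | none => W.unramified _ (haux.prime i) fun h => hfresh.notMem i m Fin.elim0 (by
          simpa [Finset.univ_eq_empty] using h)
      | some (.inl a) => R₀.unramified a.1 a.2 _ (haux.prime i) (hfresh.notMem i a.1 qv₀)
      | some (.inr a) => T₀.unramified a _ (haux.prime i) (hfresh.notMem i m qv₀)
  obtain ⟨actm, -, -, -, hliftm⟩ := F.flatPts.exists_action (Fin.last m)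
  obtain ⟨tf, htf, htfe⟩ := F.exists_tp hA hΦ hε (fun a => T.ordinary m a le_rfl) T.tp
    (fun a b hb α hα => T.tp_ev a A hA b hb Φ hΦ α hα) actm hliftm
  obtain ⟨tt, htt⟩ := F.q_surjective tf
  have hev : ∀ a, (R.L m).ev a T.tp = F.Rt.pt (some (.inl ⟨Fin.last m, a⟩)) tt := fun a => by
    obtain ⟨z, hz, hze⟩ : ∃ z : (R.L m).A, (R.L m).Φ z = actm tf ∧
        ∀ a : (R.L m).κ, (R.L m).ev a z = F.Rf.pt ⟨Fin.last m, a⟩ tf := hliftm tf
    have h0 : (R.L m).Φ (z - T.tp) = 0 :=
      (map_sub _ _ _).trans (sub_eq_zero.mpr (hz.trans htfe))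
    have h1 : (R.L m).ev a (z - T.tp) = 0 := ((R.L m).ker_iff _).mp h0 a
    rw [map_sub, sub_eq_zero] at h1
    exact (h1.symm.trans (hze a)).trans ((congrArg _ htt.symm).trans (F.q_pt ⟨Fin.last m, a⟩ tt))
  exact ⟨{
    rings := F
    πt := πt
    πf := πf
    πt_surjective := hπt
    πf_surjective := hπf
    sq := hsq
    πt_root := hrt
    πf_root := hrf
    bt := bt
    bt_adapted := hbt
    bt_comp := hbtc
    bf := bf
    bf_adapted := hbf
    bf_comp := hbfc₀
    q_comp := hbfc
    W := Wd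
    actF := actF
    actF_q := hactF
    actF_aug := fun j x => by
      obtain ⟨y, rfl⟩ := F.q_surjective x
      exact (congrArg (fun M => Matrix.map M (Build.augDia O p lv)) (hactF j y)).trans (hf j y)
    actT_aug := ht
    proj_dia := hdia
    t := tt
    t_root := by rw [htt]; exact htf
    t_ev := hev }⟩

end Fermat.Agent.Raising

end
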