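import Fermat.Agent.Raising.AtResidualPrime.Tangents
import Fermat.Agent.Raising.TWPrimes

/-!
# Generators modulo the coordinates and the unit root

A ring generated by traces, ordinary at `p` with the scalar `α` at a Frobenius element, is generated
by the coordinates at the raised primes, `α - ε` and as many elements as the local condition allows.
-/

noncomputable section

namespace Fermat.Agent.Raising.AtResidualPrime

open IsLocalRing Matrix Module Fermat.Agent.LevelLowering Fermat.Agent.Gal Fermat.Agent.TW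
  Fermat.Agent.PT Fermat.Agent.PT.Lv

variable {𝒪 : Type} [CommRing 𝒪] [IsDomain 𝒪] [IsDiscreteValuationRing 𝒪]
  [IsAdicComplete (maximalIdeal 𝒪) 𝒪] {p : ℕ} [Fact p.Prime]
  {ρbar : ResidualGaloisRep (ResidueField 𝒪)} {bbar : Basis (Fin 2) (ResidueField 𝒪) ρbar.V}
  {m : ℕ} [Finite (ResidueField 𝒪)] [CharP (ResidueField 𝒪) p]
  {T : Type} [CommRing T] [IsLocalRing T] [IsNoetherianRing T] [Algebra 𝒪 T]
  [IsAdicComplete (maximalIdeal T) T] [IsLocalHom (algebraMap 𝒪 T)]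
  {hres : Function.Surjective (residue T ∘ algebraMap 𝒪 T)} {ρ : GaloisRepAdic T}
  {b : Basis (Fin 2) T ρ.V} {A : ValuationSubring (AlgebraicClosure ℚ)}

omit [IsAdicComplete (maximalIdeal 𝒪) 𝒪] [Finite (ResidueField 𝒪)] [IsNoetherianRing T]
    [IsAdicComplete (maximalIdeal T) T] [CharP (ResidueField 𝒪) p] in
/-- A tangent vector killing `α - ε` fixes the unit root. -/
theorem unitRootFixed_of_sub_const (hb : Adapted bbar hres ρ b) (hA : A.LiesOverPrime p)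
    (bL : Basis (Fin 2) T ρ.V)
    (hD : ∀ σ ∈ A.decompositionSubgroup ℚ, ∀ v ∈ T ∙ bL 0, ρ.ρ σ v ∈ T ∙ bL 0)
    (hI : ∀ σ ∈ A.inertiaSubgroupIn ℚ, ∀ v, ρ.ρ σ v - v ∈ T ∙ bL 0)
    {Φ : AG} (hΦ : A.IsFrobeniusAt Φ p) {α : T} (hα : ∀ v, ρ.ρ Φ v - α • v ∈ T ∙ bL 0) {ε : 𝒪}
    (δ : tangent hres) (hδ : (δ : T → ResidueField 𝒪) (α - algebraMap 𝒪 T ε) = 0) :
    UnitRootFixed A ρ b (δ : T → ResidueField 𝒪) := by
  refine unitRootFixed_of_basis hb hA bL hD hI hΦ hα δ ?_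
  have h := δ.2.1 (α - algebraMap 𝒪 T ε) (algebraMap 𝒪 T ε)
  rw [sub_add_cancel, hδ, δ.2.2.1, add_zero] at h
  exact h

variable (hb : Adapted bbar hres ρ b) (hdet : ρ.DetIsCyclotomic p) (hp2 : p ≠ 2)
  (P : Fin m → RaisedPrime p ρbar bbar) (K : ∀ i, LocalKind (P i))
  (hA : A.LiesOverPrime p) (bL : Basis (Fin 2) T ρ.V)
  (hD : ∀ σ ∈ A.decompositionSubgroup ℚ, ∀ v ∈ T ∙ bL 0, ρ.ρ σ v ∈ T ∙ bL 0)
  (hI : ∀ σ ∈ A.inertiaSubgroupIn ℚ, ∀ v, ρ.ρ σ v - v ∈ T ∙ bL 0)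
  {Φ : AG} (hΦ : A.IsFrobeniusAt Φ p) {α : T} (hα : ∀ v, ρ.ρ Φ v - α • v ∈ T ∙ bL 0) (ε : 𝒪)

omit [Finite (ResidueField 𝒪)] in
include hb hdet hp2 hA hD hI hΦ hα in
/-- **Generators modulo the coordinates and `α - ε`.** -/
theorem exists_lastGens (hαε : α - algebraMap 𝒪 T ε ∈ maximalIdeal T)
    (Cp : Submodule (ResidueField 𝒪) (AG → sl2 (ResidueField 𝒪)))
    (hCp : ∀ δ : tangent hres, UnitRootFixed A ρ b (δ : T → ResidueField 𝒪) →
      tanCocycle hb hdet δ ∈ Cp)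
    (hcoord : ∀ i c, (K i).coord T (matrixRep b ρ.ρ (P i).φ) (matrixRep b ρ.ρ (P i).σ - 1) c ∈
      maximalIdeal T)
    {D : ℕ} (qv : Fin D → ℕ)
    (hU : ∀ q : ℕ, q.Prime → q ∉ insert p (natSet (raisedSet P) ∪ Finset.univ.image qv) →
      ρ.IsUnramifiedAt q ∨ (ρ.IsUnipotentOnInertiaAt q ∧ ¬ ρbar.IsUnramifiedAt q))
    {S : Set T} (hS : ∀ s ∈ S, ∃ g, s = trace (matrixRep b ρ.ρ g))
    (hgen : Algebra.adjoin 𝒪 S = ⊤)
    (hfin : FiniteDimensional (ResidueField 𝒪) (classes (adRep (rbar bbar))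
      (strictSpace p (rbar bbar) (raisedSet P) Cp qv)))
    {g : ℕ} (hg : finrank (ResidueField 𝒪) (classes (adRep (rbar bbar))
      (strictSpace p (rbar bbar) (raisedSet P) Cp qv)) ≤ g) :
    ∃ y : Fin g → T, (∀ j, y j ∈ maximalIdeal T) ∧
      maximalIdeal T ≤ relIdeal (𝒪 := 𝒪) (blockTuple
        (fun i => (K i).coord T (matrixRep b ρ.ρ (P i).φ) (matrixRep b ρ.ρ (P i).σ - 1))
        ![α - algebraMap 𝒪 T ε]) ⊔ Ideal.span (Set.range y) :=
  exists_raiseGens hb hdet hp2 P K Cp ![α - algebraMap 𝒪 T ε]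
    (fun j => by fin_cases j; exact hαε) hcoord qv hU
    (fun δ hδ => hCp δ (unitRootFixed_of_sub_const hb hA bL hD hI hΦ hα δ (hδ 0))) hS hgen hfin hg

omit [Finite (ResidueField 𝒪)] in
include hb hdet hp2 hA hD hI hΦ hα in
/-- **Generators over a ring flat at `p`**, for a condition holding the flat classes with fixed
unit root. -/
theorem exists_lastGens_flat (hflat : ρ.IsFlatAt p) (hαε : α - algebraMap 𝒪 T ε ∈ maximalIdeal T)
    (Cp : Submodule (ResidueField 𝒪) (AG → sl2 (ResidueField 𝒪)))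
    (hCp : ∀ δ : tangent hres, ρ.IsFlatAt p → UnitRootFixed A ρ b (δ : T → ResidueField 𝒪) →
      tanCocycle hb hdet δ ∈ Cp)
    (hcoord : ∀ i c, (K i).coord T (matrixRep b ρ.ρ (P i).φ) (matrixRep b ρ.ρ (P i).σ - 1) c ∈
      maximalIdeal T)
    {D : ℕ} (qv : Fin D → ℕ)
    (hU : ∀ q : ℕ, q.Prime → q ∉ insert p (natSet (raisedSet P) ∪ Finset.univ.image qv) →
      ρ.IsUnramifiedAt q ∨ (ρ.IsUnipotentOnInertiaAt q ∧ ¬ ρbar.IsUnramifiedAt q))
    {S : Set T} (hS : ∀ s ∈ S, ∃ g, s = trace (matrixRep b ρ.ρ g))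
    (hgen : Algebra.adjoin 𝒪 S = ⊤)
    (hfin : FiniteDimensional (ResidueField 𝒪) (classes (adRep (rbar bbar))
      (strictSpace p (rbar bbar) (raisedSet P) Cp qv)))
    {g : ℕ} (hg : finrank (ResidueField 𝒪) (classes (adRep (rbar bbar))
      (strictSpace p (rbar bbar) (raisedSet P) Cp qv)) ≤ g) :
    ∃ y : Fin g → T, (∀ j, y j ∈ maximalIdeal T) ∧
      maximalIdeal T ≤ relIdeal (𝒪 := 𝒪) (blockTuple
        (fun i => (K i).coord T (matrixRep b ρ.ρ (P i).φ) (matrixRep b ρ.ρ (P i).σ - 1))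
        ![α - algebraMap 𝒪 T ε]) ⊔ Ideal.span (Set.range y) :=
  exists_lastGens hb hdet hp2 P K hA bL hD hI hΦ hα ε hαε Cp (fun δ h => hCp δ hflat h)
    hcoord qv hU hS hgen hfin hg

end Fermat.Agent.Raising.AtResidualPrime

end
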