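import Fermat.Agent.Raising.AtResidualPrime.LastBuilderData
import Fermat.Agent.Raising.AtResidualPrime.LastGens

/-!
# The levels at one choice of auxiliary primes

The data at auxiliary primes give a `RaiseLevel` over the finite flat levels and a `LastLevel` over
the finite top level (`LastData.raiseLevel`, `LastData.exists_lastLevel`), with generators as many
as the dual Selmer conditions allow (`LastData.exists_flatGens`, `LastData.exists_topGens`).
-/

noncomputable section

namespace Fermat.Agent.Raising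

open IsLocalRing Polynomial Module Matrix Fermat.Agent.LevelLowering Fermat.Agent.Gal
  Fermat.Agent.TW Fermat.Agent.PT Fermat.Agent.PT.Lv

local notation "Qbar" => AlgebraicClosure ℚ
local notation "GQ" => (AlgebraicClosure ℚ ≃ₐ[ℚ] AlgebraicClosure ℚ)

variable {O : Type} [CommRing O] [IsDomain O] [IsDiscreteValuationRing O]
  [IsAdicComplete (maximalIdeal O) O] [Finite (ResidueField O)]
  {p : ℕ} [Fact p.Prime] {ρbar : ResidualGaloisRep (ResidueField O)}
  {bbar : Basis (Fin 2) (ResidueField O) ρbar.V} {m : ℕ} {K : Type} [Field K] [Algebra O K]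
  {P : Fin m → RaisedPrime p ρbar bbar} {Smin : Finset ℕ} {c₀ : ℕ → O} {d : ℕ → ℕ}
  {Tm : ∀ j, ℕ → Matrix (Fin (d j)) (Fin (d j)) O} {S₀ : Finset ℕ} {qv₀ lv₀ : Fin 0 → ℕ}
  {R₀ : RaiseInputs K P Smin c₀ d Tm S₀ qv₀ lv₀} {dp : ℕ} {Tp : ℕ → Matrix (Fin dp) (Fin dp) O}
  {T₀ : LastInputs R₀ dp Tp} {cw : ℕ → O} {ρw : GaloisRepAdic O}
  {A : ValuationSubring Qbar} {Φ : GQ} {ε : O} {Fr : LastFrame T₀ cw ρw A Φ ε}
  {D : ℕ} {qv lv : Fin D → ℕ} {R : RaiseInputs K P Smin c₀ d Tm S₀ qv lv}
  {T : LastInputs R dp Tp}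

omit [IsDomain O] [IsDiscreteValuationRing O] [IsAdicComplete (maximalIdeal O) O]
  [Finite (ResidueField O)] [Fact (Nat.Prime p)] in
/-- The constants of the diamond ring. -/
theorem algebraMap_diaCoords_eq (c : O) :
    algebraMap O (DiaCoords O p lv) c =
      Ideal.Quotient.mk (diamondIdeal (𝒪 := O) p lv) (MvPowerSeries.C c) := by
  rw [IsScalarTower.algebraMap_apply O (MvPowerSeries (Fin D) O) (DiaCoords O p lv),
    ← MvPowerSeries.c_eq_algebraMap]
  rfl

/-- The scalar matrix `q + 1`. -/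
theorem natCast_add_one_smul_one {n : ℕ} {T₁ : Type} [CommRing T₁] (q : ℕ) :
    (q + 1 : T₁) • (1 : Matrix (Fin n) (Fin n) T₁) = (q : Matrix (Fin n) (Fin n) T₁) + 1 := by
  rw [add_smul, one_smul, Nat.cast_smul_eq_nsmul, nsmul_one]

namespace LastData

variable (X : LastData Fr T) (hd : ∀ j, m < j → d j = d m) (Kf : ∀ i, LocalKind (P i))

/-- The actions on all flat levels. -/
def actR (j : ℕ) : X.rings.Rf.T →+* Matrix (Fin (d j)) (Fin (d j)) (DiaCoords O p lv) :=
  Build.extAct hd X.actF j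

omit [Fact (Nat.Prime p)] [IsAdicComplete (maximalIdeal O) O] [Finite (ResidueField O)] in
theorem actR_fin (j : Fin (m + 1)) : X.actR hd j = X.actF j :=
  Build.extAct_of_le hd X.actF (Nat.le_of_lt_succ j.2)

omit [Finite (ResidueField O)] in
theorem coordf_mem (i : Fin m) (c : Fin (Kf i).e) :
    RaisedPrime.coordOf X.bf (Kf i) c ∈ maximalIdeal X.rings.Rf.T :=
  RaisedPrime.coordOf_mem X.bf_adapted X.rings.Rf.det (Kf i) c

omit [Finite (ResidueField O)] in
theorem coordt_mem (i : Fin m) (c : Fin (Kf i).e) :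
    RaisedPrime.coordOf X.bt (Kf i) c ∈ maximalIdeal X.rings.Rt.T :=
  RaisedPrime.coordOf_mem X.bt_adapted X.rings.Rt.det (Kf i) c

omit [Finite (ResidueField O)] in
/-- **The degeneracy maps between the flat levels.** -/
theorem exists_flatUpDown (j : Fin m) :
    ∃ (up : Matrix (Fin (d (j + 1))) (Fin (d j) ⊕ Fin (d j)) (DiaCoords O p lv))
      (down : Matrix (Fin (d j) ⊕ Fin (d j)) (Fin (d (j + 1))) (DiaCoords O p lv)),
      (∀ x, up * twoCopies (X.actR hd j x) = X.actR hd (j + 1) x * up) ∧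
      (∀ x, down * X.actR hd (j + 1) x = twoCopies (X.actR hd j x) * down) ∧
      (∃ Y : Matrix (Fin (d j) ⊕ Fin (d j)) (Fin (d (j + 1))) (DiaCoords O p lv), Y * up = 1) ∧
      (∃ Y : Matrix (Fin (d (j + 1))) (Fin (d j) ⊕ Fin (d j)) (DiaCoords O p lv), down * Y = 1) ∧
      down * up = Matrix.fromBlocks
        (X.actR hd j (evalSeries (RaisedPrime.coordOf X.bf (Kf j)) (X.coordf_mem Kf j)
          ((Kf j).G 0 0)))
        (X.actR hd j (evalSeries (RaisedPrime.coordOf X.bf (Kf j)) (X.coordf_mem Kf j)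
          ((Kf j).G 0 1)))
        (X.actR hd j (evalSeries (RaisedPrime.coordOf X.bf (Kf j)) (X.coordf_mem Kf j)
          ((Kf j).G 1 0)))
        (X.actR hd j (evalSeries (RaisedPrime.coordOf X.bf (Kf j)) (X.coordf_mem Kf j)
          ((Kf j).G 1 1))) ∧
      ∀ x, (∀ a : (R.L (j + 1)).κ, R.IsNewAt j a → X.rings.Rf.pt ⟨j.succ, a⟩ x = 0) →
        ∃ Y, X.actR hd (j + 1) x = up * Y := by
  obtain ⟨up, down, h1, h2, h3, h4, h5, h6⟩ :=
    X.W.exists_degeneracy_raised (some j.castSucc) (some j.succ) (P j).q (P j).φ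
      (R.upA j) (R.upB j) (R.downA j) (R.downB j) (R.up_comm j) (R.down_comm j) (R.up_inv j)
      (R.down_inv j) (R.tq j) (R.tq_ev j) (R.down_up j)
  have hj : X.actR hd (j : ℕ) = X.actF j.castSucc := X.actR_fin hd j.castSucc
  have hj' : X.actR hd ((j : ℕ) + 1) = X.actF j.succ := X.actR_fin hd j.succ
  have hG : ∀ a b, evalSeries (RaisedPrime.coordOf X.bf (Kf j)) (X.coordf_mem Kf j) ((Kf j).G a b) =
      X.rings.q (!![((P j).q : X.rings.Rt.T) + 1,
        LinearMap.trace _ _ (X.rings.Rt.ρ.ρ (P j).φ);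
        LinearMap.trace _ _ (X.rings.Rt.ρ.ρ (P j).φ), ((P j).q : X.rings.Rt.T) + 1] a b) :=
    fun a b => by
      rw [RaisedPrime.evalSeries_G X.bf_adapted X.rings.Rf.det (Kf j) a b]
      fin_cases a <;> fin_cases b <;> simp [X.rings.q_trace]
  refine ⟨up, down, fun x => ?_, fun x => ?_, h3, h4, ?_, fun x hx => ?_⟩
  · obtain ⟨y, rfl⟩ := X.rings.q_surjective x
    rw [hj, hj', X.actF_q, X.actF_q]
    exact h1 y
  · obtain ⟨y, rfl⟩ := X.rings.q_surjective x
    rw [hj, hj', X.actF_q, X.actF_q]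
    exact h2 y
  · rw [hj, hG, hG, hG, hG, X.actF_q, X.actF_q, X.actF_q, X.actF_q]
    exact h5
  · obtain ⟨y, rfl⟩ := X.rings.q_surjective x
    rw [hj', X.actF_q]
    exact h6 (fun a => R.IsNewAt j a) (fun z hz => R.saturated j z hz) y fun a ha =>
      (X.rings.q_pt ⟨j.succ, a⟩ y).symm.trans (hx a ha)

variable (H : StepHyps P Smin c₀ S₀) (hfresh : FreshPrimes P Smin qv)

/-- **The level of the raising steps.** -/
def raiseLevel {g : ℕ} (gens : Fin g → X.rings.Rf.T)
    (hgens : ∀ i, gens i ∈ maximalIdeal X.rings.Rf.T)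
    (hle : maximalIdeal X.rings.Rf.T ≤ relIdeal (𝒪 := O)
      (blockTuple (fun i => RaisedPrime.coordOf X.bf (Kf i))
        fun _ : Fin 1 => X.rings.rootf.α - algebraMap O X.rings.Rf.T ε) ⊔
      Ideal.span (Set.range gens)) :
    RaiseLevel (Fr.raiseBase hd Kf) g D where
  R := X.rings.Rf.T
  residue_surjective := X.rings.Rf.residue_surjective
  proj := X.πf
  proj_surjective := X.πf_surjective
  coord i := RaisedPrime.coordOf X.bf (Kf i)
  coord_mem := X.coordf_mem Kf
  proj_coord i c := Build.coord_compat (Kf i) X.bf_adapted X.rings.Rf.det X.πf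
    (fun _ hx => Build.proj_mem X.rings.Rf Fr.rings.Rf X.πf hx) X.bf_comp c
  extra _ := X.rings.rootf.α - algebraMap O X.rings.Rf.T ε
  extra_mem _ := X.rings.rootf_mem
  proj_extra _ := by
    rw [map_sub, X.πf_root, AlgHom.commutes]
    rfl
  gens := gens
  gens_mem := hgens
  gens_le := hle
  J := diamondIdeal (𝒪 := O) p lv
  J_aug := diamondIdeal_aug p lv
  act := X.actR hd
  act_algebraMap j c := Build.extAct_scalar hd X.actF _ _ (fun j => by
    rw [← X.rings.q.commutes, X.actF_q, X.W.act_algebraMap, algebraMap_diaCoords_eq]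
    rfl) j
  act_aug j x := Build.extAct_map hd (fun j => (Fr.actf j).toRingHom) X.πf.toRingHom X.actF
    (Build.augDia O p lv) X.actF_aug j x
  dia i := X.rings.q (X.W.dia i)
  dia_mem i := Build.proj_mem X.rings.Rt X.rings.Rf X.rings.q (X.W.dia_mem i)
  proj_dia i := by rw [← X.sq, X.proj_dia, map_zero]
  act_dia j hj i := (DFunLike.congr_fun (X.actR_fin hd ⟨j, Nat.lt_succ_of_le hj⟩) _).trans
    ((X.actF_q _ _).trans (X.W.act_dia _ i))
  up j := (X.exists_flatUpDown hd Kf j).choose
  down j := (X.exists_flatUpDown hd Kf j).choose_spec.choose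
  up_comm j := (X.exists_flatUpDown hd Kf j).choose_spec.choose_spec.1
  down_comm j := (X.exists_flatUpDown hd Kf j).choose_spec.choose_spec.2.1
  up_inv j := (X.exists_flatUpDown hd Kf j).choose_spec.choose_spec.2.2.1
  down_inv j := (X.exists_flatUpDown hd Kf j).choose_spec.choose_spec.2.2.2.1
  down_up j := (X.exists_flatUpDown hd Kf j).choose_spec.choose_spec.2.2.2.2.1
  ι j := { a : (R.L j).κ // j ≤ m }
  F j a := (R.L j).F a.1
  pt j a := X.rings.Rf.pt ⟨⟨j, Nat.lt_succ_of_le a.2⟩, a.1⟩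
  pt_mem j a x hx :=
    haveI := X.rings.Rf.pt_local ⟨⟨j, Nat.lt_succ_of_le a.2⟩, a.1⟩
    map_nonunit (X.rings.Rf.pt ⟨⟨j, Nat.lt_succ_of_le a.2⟩, a.1⟩).toRingHom x hx
  kills x hx := by
    obtain ⟨y, rfl⟩ := X.rings.q_surjective x
    exact (DFunLike.congr_fun (X.actR_fin hd ⟨0, m.succ_pos⟩) _).trans ((X.actF_q _ y).trans
      ((X.W.act_eq_zero _ y).2 fun a =>
        (X.rings.q_pt ⟨⟨0, m.succ_pos⟩, a⟩ y).symm.trans (hx ⟨a, m.zero_le⟩)))
  base_reach a i :=
    haveI := X.rings.Rf.pt_local ⟨⟨0, m.succ_pos⟩, a.1⟩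
    R.base_reaches X.bf_adapted X.rings.Rf.det Kf H.p_mem H.inj H.notMem hfresh.ne a.1 _
      (X.rings.Rf.pt_equiv ⟨⟨0, m.succ_pos⟩, a.1⟩) i
  IsNew j a := R.IsNewAt j a.1
  new_reach j a ha :=
    haveI := X.rings.Rf.pt_local ⟨⟨j + 1, Nat.succ_lt_succ j.2⟩, a.1⟩
    R.new_reaches X.bf_adapted X.rings.Rf.det Kf H.p_mem H.inj H.notMem hfresh.ne j a.1 _
      (X.rings.Rf.pt_equiv ⟨⟨j + 1, Nat.succ_lt_succ j.2⟩, a.1⟩) ha
  kill_new j x hx := (X.exists_flatUpDown hd Kf j).choose_spec.choose_spec.2.2.2.2.2 x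
    fun a ha => hx ⟨a, j.2⟩ ha

variable [CharP (ResidueField O) p]

include H

omit [Finite (ResidueField O)] in
/-- **Generators of the flat ring.** -/
theorem exists_flatGens (hA : A.LiesOverPrime p) (hΦ : A.IsFrobeniusAt Φ p)
    (Cp : Submodule (ResidueField O) (AG → sl2 (ResidueField O)))
    (hCp : ∀ δ : tangent X.rings.Rf.residue_surjective, X.rings.Rf.ρ.IsFlatAt p →
      AtResidualPrime.UnitRootFixed A X.rings.Rf.ρ X.bf (δ : X.rings.Rf.T → ResidueField O) →
        tanCocycle X.bf_adapted X.rings.Rf.det δ ∈ Cp)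
    (hfin : FiniteDimensional (ResidueField O) (classes (adRep (rbar bbar))
      (strictSpace p (rbar bbar) (raisedSet P) Cp qv)))
    {g : ℕ} (hg : finrank (ResidueField O) (classes (adRep (rbar bbar))
      (strictSpace p (rbar bbar) (raisedSet P) Cp qv)) ≤ g) :
    ∃ gens : Fin g → X.rings.Rf.T, (∀ i, gens i ∈ maximalIdeal X.rings.Rf.T) ∧
      maximalIdeal X.rings.Rf.T ≤ relIdeal (𝒪 := O)
        (blockTuple (fun i => RaisedPrime.coordOf X.bf (Kf i))
          fun _ : Fin 1 => X.rings.rootf.α - algebraMap O X.rings.Rf.T ε) ⊔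
        Ideal.span (Set.range gens) := by
  obtain ⟨y, hy, hle⟩ := AtResidualPrime.exists_lastGens_flat X.bf_adapted X.rings.Rf.det
    H.odd_p P Kf hA
    X.rings.rootf.basis X.rings.rootf.ord.1 X.rings.rootf.ord.2 hΦ X.rings.rootf.frob ε
    X.rings.flat X.rings.rootf_mem Cp hCp (X.coordf_mem Kf) qv
    (fun q hq hq' => H.unramified_or X.rings.Rf qv
      (fun a l hl h => R.unramified a.1 a.2 l hl fun h' => h (Finset.insert_subset_insert _
        (Finset.union_subset_union (ramSet_mono (Nat.le_of_lt_succ a.1.2)) subset_rfl) h'))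
      (fun a l hl => R.unipotent a.1 a.2 l (Finset.mem_union_left _ hl)) q hq hq')
    (S := Set.range fun g : GQ => LinearMap.trace X.rings.Rf.T X.rings.Rf.ρ.V (X.rings.Rf.ρ.ρ g))
    (by rintro _ ⟨g, rfl⟩; exact ⟨g, (trace_matrixRep X.bf _ g).symm⟩)
    X.rings.Rf.adjoin_traces hfin hg
  rw [show (![X.rings.rootf.α - algebraMap O X.rings.Rf.T ε] : Fin 1 → X.rings.Rf.T) =
    fun _ => X.rings.rootf.α - algebraMap O X.rings.Rf.T ε from
      funext fun i => by fin_cases i; rfl] at hle
  exact ⟨y, hy, hle⟩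

variable [CharZero O]

omit [Finite (ResidueField O)] in
/-- **Generators of the top ring.** -/
theorem exists_topGens (hA : A.LiesOverPrime p) (hΦ : A.IsFrobeniusAt Φ p)
    (W : LastLift P Smin c₀ S₀ cw ρw A Φ ε)
    (Cp : Submodule (ResidueField O) (AG → sl2 (ResidueField O)))
    (hCp : ∀ δ : tangent X.rings.Rt.residue_surjective,
      AtResidualPrime.UnitRootFixed A X.rings.Rt.ρ X.bt (δ : X.rings.Rt.T → ResidueField O) →
        tanCocycle X.bt_adapted X.rings.Rt.det δ ∈ Cp)
    (hfin : FiniteDimensional (ResidueField O) (classes (adRep (rbar bbar))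
      (strictSpace p (rbar bbar) (raisedSet P) Cp qv)))
    {g : ℕ} (hg : finrank (ResidueField O) (classes (adRep (rbar bbar))
      (strictSpace p (rbar bbar) (raisedSet P) Cp qv)) ≤ g) :
    ∃ gens : Fin g → X.rings.Rt.T, (∀ i, gens i ∈ maximalIdeal X.rings.Rt.T) ∧
      maximalIdeal X.rings.Rt.T ≤ relIdeal (𝒪 := O)
        (blockTuple (fun i => RaisedPrime.coordOf X.bt (Kf i))
          fun _ : Fin 1 => X.rings.roott.α - algebraMap O X.rings.Rt.T ε) ⊔
        Ideal.span (Set.range gens) := by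
  obtain ⟨y, hy, hle⟩ := AtResidualPrime.exists_lastGens X.bt_adapted X.rings.Rt.det H.odd_p P Kf hA
    X.rings.roott.basis X.rings.roott.ord.1 X.rings.roott.ord.2 hΦ X.rings.roott.frob ε
    X.rings.roott_mem Cp hCp (X.coordt_mem Kf) qv
    (fun q hq hq' => H.unramified_or X.rings.Rt qv
      (fun a l hl h => match a with
        | none => W.unramified l hl fun h' => h (Finset.insert_subset_insert _
            Finset.subset_union_left h')
        | some (.inl a) => R.unramified a.1 a.2 l hl fun h' => h (Finset.insert_subset_insert _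
            (Finset.union_subset_union (ramSet_mono (Nat.le_of_lt_succ a.1.2)) subset_rfl) h')
        | some (.inr a) => T.unramified a l hl h)
      (fun a l hl => match a with
        | none => W.unipotent l (Finset.mem_union_left _ hl)
        | some (.inl a) => R.unipotent a.1 a.2 l (Finset.mem_union_left _ hl)
        | some (.inr a) => T.unipotent a l (Finset.mem_union_left _ hl)) q hq hq')
    (S := Set.range fun g : GQ => LinearMap.trace X.rings.Rt.T X.rings.Rt.ρ.V (X.rings.Rt.ρ.ρ g))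
    (by rintro _ ⟨g, rfl⟩; exact ⟨g, (trace_matrixRep X.bt _ g).symm⟩)
    X.rings.Rt.adjoin_traces hfin hg
  rw [show (![X.rings.roott.α - algebraMap O X.rings.Rt.T ε] : Fin 1 → X.rings.Rt.T) =
    fun _ => X.rings.roott.α - algebraMap O X.rings.Rt.T ε from
      funext fun i => by fin_cases i; rfl] at hle
  exact ⟨y, hy, hle⟩

omit [CharP (ResidueField O) p] [Finite (ResidueField O)] in
/-- **The top level.** -/
theorem exists_lastLevel (hε : ε * ε = 1) {g : ℕ} (gens : Fin g → X.rings.Rf.T)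
    (hgens : ∀ i, gens i ∈ maximalIdeal X.rings.Rf.T)
    (hle : maximalIdeal X.rings.Rf.T ≤ relIdeal (𝒪 := O)
      (blockTuple (fun i => RaisedPrime.coordOf X.bf (Kf i))
        fun _ : Fin 1 => X.rings.rootf.α - algebraMap O X.rings.Rf.T ε) ⊔
      Ideal.span (Set.range gens))
    {g' : ℕ} (gens' : Fin g' → X.rings.Rt.T)
    (hgens' : ∀ i, gens' i ∈ maximalIdeal X.rings.Rt.T)
    (hle' : maximalIdeal X.rings.Rt.T ≤ relIdeal (𝒪 := O)
      (blockTuple (fun i => RaisedPrime.coordOf X.bt (Kf i))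
        fun _ : Fin 1 => X.rings.roott.α - algebraMap O X.rings.Rt.T ε) ⊔
      Ideal.span (Set.range gens')) :
    Nonempty
      (LastLevel (X.raiseLevel hd Kf H hfresh gens hgens hle) (Fr.lastBase hd Kf hε) g') := by
  have hscal : ((p : ℕ) + 1 : DiaCoords O p lv) • (1 : Matrix (Fin (d m)) (Fin (d m)) _) =
      (R.L m).Φ ((p : (R.L m).A) + 1) := by
    rw [map_add, map_natCast, map_one, natCast_add_one_smul_one]
  have hev : ∀ a : (R.L m).κ, (R.L m).ev a ((p : (R.L m).A) + 1) =
      X.rings.Rt.pt (some (.inl ⟨Fin.last m, a⟩)) ((p : X.rings.Rt.T) + 1) := fun a => by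
    rw [map_add, map_natCast, map_one, map_add, map_natCast, map_one]
    rfl
  obtain ⟨up, down, h1, h2, h3, h4, h5, h6⟩ := X.W.exists_degeneracy (some (Fin.last m)) none
    T.upA T.upB T.downA T.downB T.up_comm T.down_comm T.up_inv T.down_inv
    !![(p : X.rings.Rt.T) + 1, X.t; X.t, (p : X.rings.Rt.T) + 1]
    ⟨_, T.down_up.1.trans hscal, hev⟩
    ⟨T.tp, T.down_up.2.1, fun a => X.t_ev a⟩
    ⟨T.tp, T.down_up.2.2.1, fun a => X.t_ev a⟩
    ⟨_, T.down_up.2.2.2.trans hscal, hev⟩
  have hm : X.actR hd m = X.actF (Fin.last m) := X.actR_fin hd (Fin.last m)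
  let up' : Matrix (Fin dp) (Fin (d m) ⊕ Fin (d m)) (DiaCoords O p lv) := up
  let down' : Matrix (Fin (d m) ⊕ Fin (d m)) (Fin dp) (DiaCoords O p lv) := down
  have hG : ∀ a b, evalSeries (fun _ : Fin 1 => X.rings.rootf.α - algebraMap O X.rings.Rf.T ε)
      (fun _ => X.rings.rootf_mem) (rootMat ε p a b) =
      X.rings.q (!![(p : X.rings.Rt.T) + 1, X.t; X.t, (p : X.rings.Rt.T) + 1] a b) := fun a b => by
    rw [evalSeries_rootMat p hε (fun _ => X.rings.rootf_mem) X.t_root a b]
    fin_cases a <;> fin_cases b <;> simp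
  exact ⟨{
    R := X.rings.Rt.T
    residue_surjective := X.rings.Rt.residue_surjective
    proj := X.πt
    proj_surjective := X.πt_surjective
    q := X.rings.q
    q_surjective := X.rings.q_surjective
    proj_q := X.sq
    coord := fun i => RaisedPrime.coordOf X.bt (Kf i)
    coord_mem := X.coordt_mem Kf
    proj_coord := fun i c => Build.coord_compat (Kf i) X.bt_adapted X.rings.Rt.det X.πt
      (fun _ hx => Build.proj_mem X.rings.Rt Fr.rings.Rt X.πt hx) X.bt_comp c
    q_coord := fun i c => Build.coord_compat (Kf i) X.bt_adapted X.rings.Rt.det X.rings.q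
      (fun _ hx => Build.proj_mem X.rings.Rt X.rings.Rf X.rings.q hx) X.q_comp c
    a := X.rings.roott.α - algebraMap O X.rings.Rt.T ε
    a_mem := X.rings.roott_mem
    proj_a := by
      rw [map_sub, X.πt_root, AlgHom.commutes]
      rfl
    q_a := (map_sub _ _ _).trans (congrArg₂ (· - ·) X.rings.q_root (X.rings.q.commutes ε))
    gens := gens'
    gens_mem := hgens'
    gens_le := hle'
    act := X.W.act none
    act_algebraMap := fun c => (X.W.act_algebraMap none c).trans
      (congrArg (Matrix.scalar (Fin dp)) (algebraMap_diaCoords_eq c))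
    act_aug := X.actT_aug
    dia := X.W.dia
    dia_mem := X.W.dia_mem
    proj_dia := X.proj_dia
    act_dia := X.W.act_dia none
    up := up'
    down := down'
    up_comm := fun x => by
      show up' * twoCopies (X.actR hd m (X.rings.q x)) = _
      rw [hm, X.actF_q]
      exact h1 x
    down_comm := fun x => by
      show _ = twoCopies (X.actR hd m (X.rings.q x)) * down'
      rw [hm, X.actF_q]
      exact h2 x
    up_inv := h3
    down_inv := h4
    down_up := by
      show down' * up' = Matrix.fromBlocks (X.actR hd m _) (X.actR hd m _) (X.actR hd m _)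
        (X.actR hd m _)
      refine h5.trans ?_
      show _ = Matrix.fromBlocks
        (X.actR hd m (evalSeries (fun _ : Fin 1 => X.rings.rootf.α - algebraMap O X.rings.Rf.T ε)
          (fun _ => X.rings.rootf_mem) (rootMat ε p 0 0)))
        (X.actR hd m (evalSeries (fun _ : Fin 1 => X.rings.rootf.α - algebraMap O X.rings.Rf.T ε)
          (fun _ => X.rings.rootf_mem) (rootMat ε p 0 1)))
        (X.actR hd m (evalSeries (fun _ : Fin 1 => X.rings.rootf.α - algebraMap O X.rings.Rf.T ε)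
          (fun _ => X.rings.rootf_mem) (rootMat ε p 1 0)))
        (X.actR hd m (evalSeries (fun _ : Fin 1 => X.rings.rootf.α - algebraMap O X.rings.Rf.T ε)
          (fun _ => X.rings.rootf_mem) (rootMat ε p 1 1)))
      rw [hm, hG, hG, hG, hG, X.actF_q, X.actF_q, X.actF_q, X.actF_q]
      rfl
    ι := T.top.κ
    F := T.top.F
    pt := fun a => X.rings.Rt.pt (some (.inr a))
    pt_mem := fun a x hx =>
      haveI := X.rings.Rt.pt_local (some (.inr a))
      map_nonunit (X.rings.Rt.pt (some (.inr a))).toRingHom x hx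
    IsNew := fun a => IsNewAtP (T.top.ρ a) p
    new_reach := fun a ha => ⟨(map_sub _ _ _).trans (sub_eq_zero.mpr
        ((X.rings.pt_new a ha).trans ((X.rings.Rt.pt (some (.inr a))).commutes ε).symm)), fun i =>
      haveI := X.rings.Rt.pt_local (some (.inr a))
      (RaisedPrime.exists_reaches X.bt_adapted X.rings.Rt.det (Kf i)
        (X.rings.Rt.pt (some (.inr a))) (X.rings.Rt.pt_equiv (some (.inr a)))
        (by rw [← map_natCast (algebraMap O _)]; exact map_nonunit _ _ H.p_mem)
        (T.unipotent a _ (q_mem_ramSet i.2) (P i).prime (P i).ne_p)).1⟩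
    kill_new := fun x hx => h6 (fun a => IsNewAtP (T.top.ρ a) p) T.saturated x hx }⟩

end LastData

end Fermat.Agent.Raising

end
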