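import Fermat.Agent.Raising.AtResidualPrime.LastRings
import Fermat.Agent.Raising.AuxChoice
import Fermat.Agent.Raising.Build.Act
import Fermat.Agent.Raising.Build.Points
import Fermat.Agent.Raising.TWPrimes

/-!
# The points of the last step at `p`

`StepHyps` collects the residual hypotheses of the last step, `LastLift` those on the lift to be
reached.  A joint ring whose points are unramified outside the ramification set and unipotent on it
satisfies the hypothesis of the generators (`StepHyps.unramified_or`); a diamond vanishes at a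
point unramified at its prime.
-/

noncomputable section

namespace Fermat.Agent.Raising

open IsLocalRing Polynomial Module Matrix Fermat.Agent.LevelLowering Fermat.Agent.Gal
  Fermat.Agent.TW

local notation "Qbar" => AlgebraicClosure ℚ
local notation "GQ" => (AlgebraicClosure ℚ ≃ₐ[ℚ] AlgebraicClosure ℚ)

variable {O : Type} [CommRing O] [IsDomain O] [IsDiscreteValuationRing O]
  {p : ℕ} {ρbar : ResidualGaloisRep (ResidueField O)}
  {bbar : Basis (Fin 2) (ResidueField O) ρbar.V} {m : ℕ}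

/-- The residual hypotheses of the last step. -/
structure StepHyps (P : Fin m → RaisedPrime p ρbar bbar) (Smin : Finset ℕ) (c₀ : ℕ → O)
    (S₀ : Finset ℕ) : Prop where
  odd_p : p ≠ 2
  p_mem : (p : O) ∈ maximalIdeal O
  absIrr : ρbar.IsAbsolutelyIrreducible
  odd : ∃ g : GQ, g * g = 1 ∧ LinearMap.det (ρbar.ρ g) = -1
  frob : ∀ ℓ : ℕ, ℓ.Prime → ℓ ∉ S₀ → ∀ Q : ValuationSubring Qbar, Q.LiesOverPrime ℓ →
    ∀ σ : GQ, Q.IsFrobeniusAt σ ℓ → LinearMap.charpoly (ρbar.ρ σ) =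
      X ^ 2 - C (residue O (c₀ ℓ)) * X + C (ℓ : ResidueField O)
  unramified : ∀ ℓ : ℕ, ℓ.Prime → ℓ ∉ S₀ → ρbar.IsUnramifiedAt ℓ
  inj : Function.Injective fun i => (P i).q
  notMem : ∀ i, (P i).q ∉ Smin
  aux_or : ∀ l ∈ Smin, l.Prime → l ≠ p → IsAuxPrime ρbar p l ∨ ¬ ρbar.IsUnramifiedAt l

/-- The lift to be reached: unramified outside the ramification set, unipotent on it, with the
trace of the curve at the raised primes, ordinary at `p` with unit root `ε`. -/
structure LastLift (P : Fin m → RaisedPrime p ρbar bbar) (Smin : Finset ℕ) (c₀ : ℕ → O)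
    (S₀ : Finset ℕ) (cw : ℕ → O) (ρw : GaloisRepAdic O) (A : ValuationSubring Qbar) (Φ : GQ)
    (ε : O) : Prop where
  congr : ∀ ℓ : ℕ, ℓ.Prime → ℓ ∉ S₀ → cw ℓ - c₀ ℓ ∈ maximalIdeal O
  frob : ∀ ℓ : ℕ, ℓ.Prime → ℓ ∉ S₀ → ∀ Q : ValuationSubring Qbar, Q.LiesOverPrime ℓ →
    ∀ σ : GQ, Q.IsFrobeniusAt σ ℓ →
      LinearMap.charpoly (ρw.ρ σ) = X ^ 2 - C (cw ℓ) * X + C (ℓ : O)
  unramified : ∀ l : ℕ, l.Prime → l ∉ insert p (ramSet P Smin m) → ρw.IsUnramifiedAt l
  unipotent : ∀ l ∈ ramSet P Smin m, l.Prime → l ≠ p → ρw.IsUnipotentOnInertiaAt l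
  steinberg : ∀ i, LinearMap.trace O ρw.V (ρw.ρ (P i).φ) = (P i).ε * ((((P i).q : ℕ) : O) + 1)
  ord : HasOrdBases ρw p
  unitRoot : ∃ bw : Basis (Fin 2) O ρw.V, IsOrdBasisAt ρw A bw ∧
    ∀ v, ρw.ρ Φ v - ε • v ∈ O ∙ bw 0

variable {P : Fin m → RaisedPrime p ρbar bbar} {Smin : Finset ℕ} {c₀ : ℕ → O} {S₀ : Finset ℕ}

theorem mem_natSet_raisedSet {l : ℕ} :
    l ∈ natSet (raisedSet P) ↔ ∃ i, (P i).q = l := by
  refine ⟨fun h => ?_, fun ⟨i, hi⟩ => ?_⟩
  · obtain ⟨x, hx, hxl⟩ := Finset.mem_map.1 h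
    obtain ⟨i, -, rfl⟩ := Finset.mem_image.1 hx
    exact ⟨i, hxl⟩
  · exact Finset.mem_map.2 ⟨_, Finset.mem_image.2 ⟨i, Finset.mem_univ _, rfl⟩, hi⟩

theorem q_mem_ramSet {i : Fin m} {j : ℕ} (h : (i : ℕ) < j) : (P i).q ∈ ramSet P Smin j :=
  Finset.mem_union_right _ (Finset.mem_image.2 ⟨i, Finset.mem_filter.2 ⟨Finset.mem_univ _, h⟩, rfl⟩)

theorem ramSet_mono {j k : ℕ} (h : j ≤ k) : ramSet P Smin j ⊆ ramSet P Smin k :=
  Finset.union_subset_union subset_rfl (Finset.image_subset_image fun i hi => by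
    rw [Finset.mem_filter] at hi ⊢
    exact ⟨hi.1, hi.2.trans_le h⟩)

theorem ramSet_subset {j : ℕ} : ramSet P Smin j ⊆ Smin ∪ natSet (raisedSet P) := fun l hl => by
  rcases Finset.mem_union.1 hl with h | h
  · exact Finset.mem_union_left _ h
  · obtain ⟨i, -, rfl⟩ := Finset.mem_image.1 h
    exact Finset.mem_union_right _ (mem_natSet_raisedSet.2 ⟨i, rfl⟩)

/-- On inertia at an unramified prime the characteristic polynomial is `(X - 1) ^ 2`. -/
theorem charpoly_of_unramified {E : Type} [CommRing E] [IsLocalRing E] {ρ : GaloisRepAdic E}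
    {q : ℕ} (h : ρ.IsUnramifiedAt q) {Q : ValuationSubring Qbar} (hQ : Q.LiesOverPrime q) {σ : GQ}
    (hσ : σ ∈ Q.inertiaSubgroupIn ℚ) : LinearMap.charpoly (ρ.ρ σ) = (X - 1) ^ 2 := by
  rw [h Q hQ σ hσ, ← LinearMap.charpoly_toMatrix _ (basisTwo ρ.finrank_eq),
    LinearMap.toMatrix_one, Matrix.charpoly_one, Fintype.card_fin]

/-- An unramified representation is unipotent on inertia. -/
theorem isUnipotentOnInertiaAt_of_unramified {E : Type} [CommRing E] [IsLocalRing E]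
    {ρ : GaloisRepAdic E} {q : ℕ} (h : ρ.IsUnramifiedAt q) : ρ.IsUnipotentOnInertiaAt q :=
  fun _ hQ _ hσ => charpoly_of_unramified h hQ hσ

section Joint

variable [IsAdicComplete (maximalIdeal O) O] [Finite (ResidueField O)] [Fact p.Prime]

variable {S : Finset ℕ} {ι : Type} [Fintype ι] {F : ι → Type} [∀ a, CommRing (F a)]
  [∀ a, IsDomain (F a)] [∀ a, IsLocalRing (F a)] [∀ a, IsNoetherianRing (F a)]
  [∀ a, CharZero (F a)] [∀ a, Algebra O (F a)] [∀ a, Module.Finite O (F a)]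
  [∀ a, IsLocalHom (algebraMap O (F a))] {c : ∀ a, ℕ → F a} {ρpt : ∀ a, GaloisRepAdic (F a)}

omit [IsAdicComplete (maximalIdeal O) O] [Finite (ResidueField O)] [Fintype ι]
    [∀ (a : ι), Module.Finite O (F a)] [∀ (a : ι), IsLocalHom (algebraMap O (F a))] in
/-- Outside `p`, the raised and the auxiliary primes a joint ring is unramified, or unipotent
where `ρbar` ramifies. -/
theorem StepHyps.unramified_or (H : StepHyps P Smin c₀ S₀) (R : JointRing p ρbar S F c ρpt)
    {D : ℕ} (qv : Fin D → ℕ)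
    (hunr : ∀ a, ∀ l : ℕ, l.Prime →
      l ∉ insert p (ramSet P Smin m ∪ Finset.univ.image qv) → (ρpt a).IsUnramifiedAt l)
    (huni : ∀ a, ∀ l ∈ Smin, l.Prime → l ≠ p → (ρpt a).IsUnipotentOnInertiaAt l)
    (q : ℕ) (hq : q.Prime)
    (hq' : q ∉ insert p (natSet (raisedSet P) ∪ Finset.univ.image qv)) :
    R.ρ.IsUnramifiedAt q ∨ (R.ρ.IsUnipotentOnInertiaAt q ∧ ¬ ρbar.IsUnramifiedAt q) := by
  by_cases hmin : q ∈ Smin
  · have hqp : q ≠ p := fun h => hq' (by rw [h]; exact Finset.mem_insert_self _ _)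
    rcases H.aux_or q hmin hq hqp with h | h
    · exact Or.inl (h.isUnramifiedAt_joint R fun a => huni a q hmin hq hqp)
    · exact Or.inr ⟨Scalar.isUnipotentOnInertiaAt_of_points (hψ := R.pt_local) R.pt_injective
        fun a => Scalar.isUnipotentOnInertiaAt_congr (R.pt_equiv a) (huni a q hmin hq hqp), h⟩
  · refine Or.inl (Scalar.isUnramifiedAt_of_points (hψ := R.pt_local) R.pt_injective fun a =>
      Scalar.isUnramifiedAt_congr (R.pt_equiv a) (hunr a q hq fun h => hq' ?_))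
    simp only [Finset.mem_insert, Finset.mem_union] at h ⊢
    rcases h with h | h | h
    · exact Or.inl h
    · rcases Finset.mem_union.1 (ramSet_subset h) with h | h
      · exact absurd h hmin
      · exact Or.inr (Or.inl h)
    · exact Or.inr (Or.inr h)

variable {D : ℕ} {lv : Fin D → ℕ} {M : Type} {d : M → ℕ}
  {L : ∀ j : M, OpLevel O S c₀ (DiaCoords O p lv) (d j)} {R : JointRing p ρbar S F c ρpt}
  {Q : LevelPts R L} {b : Basis (Fin 2) R.T R.ρ.V} {qv : Fin D → ℕ}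

omit [Fact (Nat.Prime p)] [Fintype ι] [∀ a, IsDomain (F a)] [∀ a, IsNoetherianRing (F a)]
    [∀ a, CharZero (F a)] [∀ a, Module.Finite O (F a)] [∀ a, IsLocalHom (algebraMap O (F a))]
    [IsAdicComplete (maximalIdeal O) O] [Finite (ResidueField O)] in
/-- **The diamonds go to zero in a ring of points unramified at the auxiliary primes.** -/
theorem DiamondAction.proj_dia (W : DiamondAction Q b qv) {S' : Finset ℕ} {ι' : Type}
    {F' : ι' → Type} [∀ a, CommRing (F' a)] [∀ a, IsDomain (F' a)] [∀ a, IsLocalRing (F' a)]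
    [∀ a, Algebra O (F' a)] {c' : ∀ a, ℕ → F' a}
    {ρpt' : ∀ a, GaloisRepAdic (F' a)} (R' : JointRing p ρbar S' F' c' ρpt') (π : R.T →ₐ[O] R'.T)
    {b' : Basis (Fin 2) R'.T R'.ρ.V}
    (hcomp : ∀ g, matrixRep b' R'.ρ.ρ g = (matrixRep b R.ρ.ρ g).map π) (i : Fin D)
    (hunr : ∀ a, (ρpt' a).IsUnramifiedAt (qv i)) : π (W.dia i) = 0 := by
  refine R'.pt_injective _ fun a => ?_
  refine W.dia_zero i (F' a) ((R'.pt a).toRingHom.comp π.toRingHom) fun Q' hQ σ hσ => ?_
  rw [← Polynomial.map_map, ← Matrix.charpoly_map]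
  show (((matrixRep b R.ρ.ρ σ).map π).charpoly).map _ = _
  rw [← hcomp, ← Matrix.charpoly_map]
  exact (charpoly_point (b := b') (R'.pt a) (hf := R'.pt_local a) (R'.pt_equiv a) σ).symm.trans
    (charpoly_of_unramified (hunr a) hQ hσ)

end Joint

end Fermat.Agent.Raising

end
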