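import Fermat.Agent.Raising.AtResidualPrime.LastBuilderBase
import Fermat.Agent.Raising.AtResidualPrime.OrdUnique

/-!
# The maps to the finite level

The two rings of the last step at a choice of auxiliary primes map onto those without, compatibly
with each other, with the Frobenius traces and with the unit roots.
-/

noncomputable section

namespace Fermat.Agent.Raising

open IsLocalRing Polynomial Module Matrix Fermat.Agent.LevelLowering Fermat.Agent.Gal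
  Fermat.Agent.TW

local notation "Qbar" => AlgebraicClosure ℚ
local notation "GQ" => (AlgebraicClosure ℚ ≃ₐ[ℚ] AlgebraicClosure ℚ)

variable {O : Type} [CommRing O] [IsDomain O] [IsDiscreteValuationRing O]
  [IsAdicComplete (maximalIdeal O) O] [Finite (ResidueField O)]
  {p : ℕ} [Fact p.Prime] {ρbar : ResidualGaloisRep (ResidueField O)}

omit [IsAdicComplete (maximalIdeal O) O] [Finite (ResidueField O)] in
/-- **Unit roots go along maps of joint rings respecting the traces.** -/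
theorem _root_.Fermat.Agent.LevelLowering.JointRing.OrdRoot.map_α_of_surjective (hp2 : p ≠ 2)
    (habs : ρbar.IsAbsolutelyIrreducible)
    {S : Finset ℕ} {ι : Type} {F : ι → Type} [∀ a, CommRing (F a)] [∀ a, IsLocalRing (F a)]
    [∀ a, Algebra O (F a)] {c : ∀ a, ℕ → F a} {ρpt : ∀ a, GaloisRepAdic (F a)}
    {J : JointRing p ρbar S F c ρpt} {S₀ : Finset ℕ} {ι₀ : Type} {F₀ : ι₀ → Type}
    [∀ a, CommRing (F₀ a)] [∀ a, IsLocalRing (F₀ a)] [∀ a, Algebra O (F₀ a)] {c' : ∀ a, ℕ → F₀ a}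
    {ρpt' : ∀ a, GaloisRepAdic (F₀ a)} {J₀ : JointRing p ρbar S₀ F₀ c' ρpt'}
    {A : ValuationSubring Qbar} {Φ : GQ} (hA : A.LiesOverPrime p) (hΦ : A.IsFrobeniusAt Φ p)
    (r : J.OrdRoot A Φ) (r₀ : J₀.OrdRoot A Φ) (π : J.T →ₐ[O] J₀.T) (hπ : Function.Surjective π)
    (htr : ∀ g, π (LinearMap.trace J.T J.ρ.V (J.ρ.ρ g)) =
      LinearMap.trace J₀.T J₀.ρ.V (J₀.ρ.ρ g)) :
    π r.α = r₀.α := by
  obtain ⟨b₀, hb₀⟩ := (JointRing.exists_compatibleBasis J.ρ J₀.ρ (J₀.residual_absIrr habs)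
    (π : J.T →+* J₀.T) hπ htr).2 r.basis
  have e : ∀ g a c, LinearMap.toMatrix b₀ b₀ (J₀.ρ.ρ g) a c =
      π (LinearMap.toMatrix r.basis r.basis (J.ρ.ρ g) a c) := fun g a c =>
    congrFun (congrFun (hb₀ g) a) c
  have h10 : ∀ σ ∈ A.decompositionSubgroup ℚ,
      LinearMap.toMatrix b₀ b₀ (J₀.ρ.ρ σ) 1 0 = 0 := fun σ hσ => by
    rw [e, (OrdPoints.toMatrix_one_zero_iff r.basis _).2 (r.ord.1 σ hσ), map_zero]
  have hord : IsOrdBasisAt J₀.ρ A b₀ :=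
    ⟨fun σ hσ => (OrdPoints.toMatrix_one_zero_iff b₀ _).1 (h10 σ hσ), fun σ hσ v => by
      have h := OrdPoints.sub_smul_mem b₀
        (h10 σ (TwoComponent.Ordinary.inertia_le_decomposition A hσ)) v
      rwa [e, OrdPoints.toMatrix_one_one_eq r.basis
        (z := 1) fun v => by rw [one_smul]; exact r.ord.2 σ hσ v, map_one, one_smul] at h⟩
  refine AtResidualPrime.unitRoot_unique J₀.det hp2 hA hord r₀.ord (fun v => ?_) r₀.frob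
  have h := OrdPoints.sub_smul_mem b₀ (h10 Φ hΦ.1) v
  rwa [e, OrdPoints.toMatrix_one_one_eq r.basis r.frob] at h

variable {bbar : Basis (Fin 2) (ResidueField O) ρbar.V} {m : ℕ} {K : Type} [Field K] [Algebra O K]
  {P : Fin m → RaisedPrime p ρbar bbar} {Smin : Finset ℕ} {c₀ : ℕ → O} {d : ℕ → ℕ}
  {Tm : ∀ j, ℕ → Matrix (Fin (d j)) (Fin (d j)) O} {S₀ : Finset ℕ} {qv₀ lv₀ : Fin 0 → ℕ}
  {R₀ : RaiseInputs K P Smin c₀ d Tm S₀ qv₀ lv₀} {dp : ℕ} {Tp : ℕ → Matrix (Fin dp) (Fin dp) O}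
  {T₀ : LastInputs R₀ dp Tp} {cw : ℕ → O} {ρw : GaloisRepAdic O}
  {A : ValuationSubring Qbar} {Φ : GQ} {ε : O}

omit [IsAdicComplete (maximalIdeal O) O] [Finite (ResidueField O)] in
/-- **The maps onto the rings without auxiliary primes.** -/
theorem LastFrame.exists_proj (Fr : LastFrame T₀ cw ρw A Φ ε) (hp2 : p ≠ 2)
    (habs : ρbar.IsAbsolutelyIrreducible) (hA : A.LiesOverPrime p) (hΦ : A.IsFrobeniusAt Φ p)
    {D : ℕ} {qv lv : Fin D → ℕ} {R : RaiseInputs K P Smin c₀ d Tm S₀ qv lv}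
    {T : LastInputs R dp Tp} (hsub : R₀.S ⊆ R.S)
    (F : LastRings R.L T.top p ρbar m cw ρw A Φ ε) :
    ∃ (πt : F.Rt.T →ₐ[O] Fr.rings.Rt.T) (πf : F.Rf.T →ₐ[O] Fr.rings.Rf.T),
      Function.Surjective πt ∧ Function.Surjective πf ∧
      (∀ g, πt (LinearMap.trace F.Rt.T F.Rt.ρ.V (F.Rt.ρ.ρ g)) =
        LinearMap.trace Fr.rings.Rt.T Fr.rings.Rt.ρ.V (Fr.rings.Rt.ρ.ρ g)) ∧
      (∀ ℓ : ℕ, ℓ.Prime → ℓ ∉ R.S → πt (F.Rt.τ ℓ) = Fr.rings.Rt.τ ℓ) ∧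
      (∀ ℓ : ℕ, ℓ.Prime → ℓ ∉ R.S → πf (F.Rf.τ ℓ) = Fr.rings.Rf.τ ℓ) ∧
      (∀ ℓ : ℕ, ℓ.Prime → ℓ ∉ R.S → F.q (F.Rt.τ ℓ) = F.Rf.τ ℓ) ∧
      (∀ x, Fr.rings.q (πt x) = πf (F.q x)) ∧
      πt F.roott.α = Fr.rings.roott.α ∧ πf F.rootf.α = Fr.rings.rootf.α := by
  let f₀ := Build.augDia O p lv₀
  choose actf hactf _ _ _ using fun j : Fin (m + 1) => F.flatPts.exists_action j
  choose actt hactt _ _ _ using fun j : Option (Fin (m + 1)) => F.lastPts.exists_action j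
  have hdescf : ∀ a : FlatIdx R₀.L m, ∃ χ : F.Rf.T →ₐ[O] FlatF R₀.L a,
      ∀ ℓ : ℕ, ℓ.Prime → ℓ ∉ R.S → χ (F.Rf.τ ℓ) = flatC R₀.L a ℓ := fun a =>
    Build.exists_descend F.Rf (R₀.L a.1) f₀ (Build.augDia_injective O p lv₀)
      ((Build.augDia O p lv).mapMatrix.comp (actf a.1))
      (fun ℓ hℓ h => ((congrArg (Build.augDia O p lv).mapMatrix (hactf a.1 ℓ hℓ h)).trans
        (R.aug_x a.1 ℓ hℓ h)).trans (R₀.aug_x a.1 ℓ hℓ fun h' => h (hsub h')).symm) a.2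
  choose χf hχf using hdescf
  have hdesct : ∀ a : LastIdx R₀.L T₀.top m, ∃ χ : F.Rt.T →ₐ[O] LastF R₀.L T₀.top a,
      ∀ ℓ : ℕ, ℓ.Prime → ℓ ∉ R.S → χ (F.Rt.τ ℓ) = lastC R₀.L T₀.top cw a ℓ := fun a =>
    match a with
    | none => ⟨F.Rt.pt none, fun ℓ hℓ h => F.Rt.pt_τ ℓ hℓ h none⟩
    | some (.inl a) =>
      Build.exists_descend F.Rt (R₀.L a.1) f₀ (Build.augDia_injective O p lv₀)
        ((Build.augDia O p lv).mapMatrix.comp (actt (some a.1)))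
        (fun ℓ hℓ h => ((congrArg (Build.augDia O p lv).mapMatrix (hactt (some a.1) ℓ hℓ h)).trans
          (R.aug_x a.1 ℓ hℓ h)).trans (R₀.aug_x a.1 ℓ hℓ fun h' => h (hsub h')).symm) a.2
    | some (.inr a) =>
      Build.exists_descend F.Rt T₀.top f₀ (Build.augDia_injective O p lv₀)
        ((Build.augDia O p lv).mapMatrix.comp (actt none))
        (fun ℓ hℓ h => ((congrArg (Build.augDia O p lv).mapMatrix (hactt none ℓ hℓ h)).trans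
          (T.aug_x ℓ hℓ h)).trans (T₀.aug_x ℓ hℓ fun h' => h (hsub h')).symm) a
  choose χt hχt using hdesct
  obtain ⟨πf, hπf, hπfpt, hπftr⟩ := F.Rf.exists_proj hsub Fr.rings.Rf χf hχf
  obtain ⟨πt, hπt, hπtpt, hπttr⟩ := F.Rt.exists_proj hsub Fr.rings.Rt χt hχt
  have hτf : ∀ ℓ : ℕ, ℓ.Prime → ℓ ∉ R.S → πf (F.Rf.τ ℓ) = Fr.rings.Rf.τ ℓ := fun ℓ hℓ h =>
    Build.proj_τ F.Rf Fr.rings.Rf hsub πf χf hπfpt hχf hℓ h
  have hτt : ∀ ℓ : ℕ, ℓ.Prime → ℓ ∉ R.S → πt (F.Rt.τ ℓ) = Fr.rings.Rt.τ ℓ := fun ℓ hℓ h =>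
    Build.proj_τ F.Rt Fr.rings.Rt hsub πt χt hπtpt hχt hℓ h
  have hq : ∀ ℓ : ℕ, ℓ.Prime → ℓ ∉ R.S → F.q (F.Rt.τ ℓ) = F.Rf.τ ℓ := fun ℓ hℓ h =>
    Build.proj_τ F.Rt F.Rf subset_rfl F.q (fun a => F.Rt.pt (some (.inl a))) F.q_pt
      (fun a ℓ hℓ h => F.Rt.pt_τ ℓ hℓ h (some (.inl a))) hℓ h
  have hq₀ : ∀ ℓ : ℕ, ℓ.Prime → ℓ ∉ R₀.S → Fr.rings.q (Fr.rings.Rt.τ ℓ) = Fr.rings.Rf.τ ℓ :=
    fun ℓ hℓ h =>
      Build.proj_τ Fr.rings.Rt Fr.rings.Rf subset_rfl Fr.rings.q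
        (fun a => Fr.rings.Rt.pt (some (.inl a))) Fr.rings.q_pt
        (fun a ℓ hℓ h => Fr.rings.Rt.pt_τ ℓ hℓ h (some (.inl a))) hℓ h
  have hsq : Fr.rings.q.comp πt = πf.comp F.q := F.Rt.hom_ext fun ℓ hℓ h => by
    rw [AlgHom.comp_apply, AlgHom.comp_apply, hτt ℓ hℓ h, hq ℓ hℓ h, hτf ℓ hℓ h,
      hq₀ ℓ hℓ fun h' => h (hsub h')]
  exact ⟨πt, πf, hπt, hπf, hπttr, hτt, hτf, hq, fun x => AlgHom.congr_fun hsq x,
    F.roott.map_α_of_surjective hp2 habs hA hΦ Fr.rings.roott πt hπt hπttr,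
    F.rootf.map_α_of_surjective hp2 habs hA hΦ Fr.rings.rootf πf hπf hπftr⟩

end Fermat.Agent.Raising

end
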