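import Fermat.Agent.LevelLowering.Scalar.Rebase
import Fermat.Agent.Raising.AtResidualPrime.LastInputs
import Fermat.Agent.Raising.PointSet
import Fermat.Agent.Raising.StrictPoints

/-!
# The rings of the last step at `p`

The flat ring is the joint ring of the eigensystems of the levels `0, …, m`; the top ring that of
these, of the eigensystems of the level with `p` and of the lift `ρw`.  Both are ordinary at `p`, so
have a unit root; the map from the top ring to the flat one respects it, and the operator at `p`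
acts as `α + p / α`.
-/

noncomputable section

open IsLocalRing Polynomial Module Matrix Fermat.Agent Fermat.Agent.LevelLowering
  Fermat.Agent.Raising Fermat.Agent.Gal Fermat.Agent.TW

local notation "Qbar" => AlgebraicClosure ℚ
local notation "GQ" => (AlgebraicClosure ℚ ≃ₐ[ℚ] AlgebraicClosure ℚ)

variable {O : Type} [CommRing O] [IsDomain O] [IsDiscreteValuationRing O]
  [Finite (ResidueField O)]

omit [Finite (ResidueField O)] in
/-- `2` is a unit when an odd prime is in the maximal ideal. -/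
theorem Fermat.Agent.Raising.isUnit_two_of_prime_mem {p : ℕ} (hp : p.Prime) (hp2 : p ≠ 2)
    (h : (p : O) ∈ maximalIdeal O) : IsUnit (2 : O) := by
  obtain ⟨k, hk⟩ := hp.eq_two_or_odd'.resolve_left hp2
  by_contra hn
  have h2m : (2 : O) ∈ maximalIdeal O := hn
  have h1 : (1 : O) = (p : O) - 2 * (k : O) := by rw [hk]; push_cast; ring
  exact (IsLocalRing.maximalIdeal.isMaximal O).ne_top ((Ideal.eq_top_iff_one _).mpr
    (h1 ▸ sub_mem h (Ideal.mul_mem_right _ _ h2m)))

namespace Fermat.Agent.LevelLowering.JointRing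

variable {p : ℕ} [Fact p.Prime] {ρbar : ResidualGaloisRep (ResidueField O)} {S : Finset ℕ}
  {ι : Type} [Fintype ι] {F : ι → Type} [∀ a, CommRing (F a)] [∀ a, IsLocalRing (F a)]
  [∀ a, IsNoetherianRing (F a)] [∀ a, Algebra O (F a)]
  {c : ∀ a, ℕ → F a} {ρpt : ∀ a, GaloisRepAdic (F a)} (J : JointRing p ρbar S F c ρpt)

omit [Fact (Nat.Prime p)] [Fintype ι] [∀ a, IsNoetherianRing (F a)] in
theorem finite_residueField : Finite (ResidueField J.T) := by
  refine Finite.of_surjective (ResidueField.map (algebraMap O J.T)) fun y => ?_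
  obtain ⟨o, rfl⟩ := J.residue_surjective y
  exact ⟨residue O o, ResidueField.map_residue _ o⟩

/-- The joint ring is flat at `p` when all the points are. -/
theorem isFlatAt (h : ∀ a, (ρpt a).IsFlatAt p) : J.ρ.IsFlatAt p :=
  have := J.finite_residueField
  Scalar.isFlatAt_of_points (hψ := J.pt_local) J.pt_injective fun a =>
    Scalar.isFlatAt_congr (J.pt_equiv a) (h a)

omit [Finite (ResidueField O)] [Fact (Nat.Prime p)] [Fintype ι] [∀ a, IsNoetherianRing (F a)] in
/-- An element with a point in the maximal ideal is in the maximal ideal. -/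
theorem mem_maximalIdeal_of_pt {t : J.T} (a : ι) (h : J.pt a t ∈ maximalIdeal (F a)) :
    t ∈ maximalIdeal J.T := fun hu =>
  (mem_maximalIdeal _).mp h (hu.map (J.pt a))

/-- The unit root of a joint ring at a place over `p` and a Frobenius element. -/
structure OrdRoot (J : JointRing p ρbar S F c ρpt) (A : ValuationSubring Qbar) (Φ : GQ) : Type where
  /-- An ordinary basis, its first vector spanning the ordinary line. -/
  basis : Basis (Fin 2) J.T J.ρ.V
  ord : IsOrdBasisAt J.ρ A basis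
  /-- The unit root: the eigenvalue of `Φ` on the quotient by the ordinary line. -/
  α : J.T
  frob : ∀ v, J.ρ.ρ Φ v - α • v ∈ J.T ∙ basis 0
  /-- At every point it is the unit root of the point. -/
  spec : ∀ (a : ι) (b : Basis (Fin 2) (F a) (ρpt a).V), IsOrdBasisAt (ρpt a) A b →
    ∀ α' : F a, (∀ v, (ρpt a).ρ Φ v - α' • v ∈ F a ∙ b 0) → J.pt a α = α'

omit [Fintype ι] in
/-- A joint ring of ordinary points has a unit root. -/
theorem exists_ordRoot (hp2 : p ≠ 2) {A : ValuationSubring Qbar} (hA : A.LiesOverPrime p) {Φ : GQ}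
    (hΦ : A.IsFrobeniusAt Φ p) (h : ∀ a, HasOrdBases (ρpt a) p) : Nonempty (OrdRoot J A Φ) := by
  have := J.finite_residueField
  obtain ⟨b, hD, hI, hα⟩ := exists_ordinaryBasis_of_points (ψ := fun a => (J.pt a).toRingHom)
    J.pt_injective J.pt_equiv hp2 J.det hA fun a => h a A hA
  obtain ⟨α, hfrob, hspec⟩ := hα Φ hΦ.1
  exact ⟨{ basis := b
           ord := ⟨hD, hI⟩
           α := α
           frob := hfrob
           spec := fun a b' hb' => hspec a b' hb'.1 hb'.2 }⟩

/-- The scalar on the quotient by an ordinary line exists. -/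
theorem exists_scalar_of_isOrdBasisAt {R : Type} [CommRing R] [IsLocalRing R] {ρ : GaloisRepAdic R}
    {A : ValuationSubring Qbar} {b : Basis (Fin 2) R ρ.V} (hb : IsOrdBasisAt ρ A b) {σ : GQ}
    (hσ : σ ∈ A.decompositionSubgroup ℚ) : ∃ α : R, ∀ v, ρ.ρ σ v - α • v ∈ R ∙ b 0 :=
  ⟨_, OrdPoints.sub_smul_mem b ((OrdPoints.toMatrix_one_zero_iff b _).2 (hb.1 σ hσ))⟩

omit [Finite (ResidueField O)] [Fact (Nat.Prime p)] [Fintype ι] [∀ a, IsNoetherianRing (F a)] in
/-- Unit roots correspond under maps respecting the points. -/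
theorem OrdRoot.map_α {A : ValuationSubring Qbar} {Φ : GQ} (r : OrdRoot J A Φ)
    (hA : A.LiesOverPrime p) (hΦ : A.IsFrobeniusAt Φ p) {S₀ : Finset ℕ} {ι₀ : Type}
    {F₀ : ι₀ → Type} [∀ a, CommRing (F₀ a)] [∀ a, IsLocalRing (F₀ a)] [∀ a, Algebra O (F₀ a)]
    {c' : ∀ a, ℕ → F₀ a} {ρpt' : ∀ a, GaloisRepAdic (F₀ a)}
    {J₀ : JointRing p ρbar S₀ F₀ c' ρpt'} (r₀ : OrdRoot J₀ A Φ) (π : J.T →+* J₀.T)
    (h : ∀ a₀, HasOrdBases (ρpt' a₀) p)
    (hπ : ∀ (a₀ : ι₀) (b : Basis (Fin 2) (F₀ a₀) (ρpt' a₀).V), IsOrdBasisAt (ρpt' a₀) A b →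
      ∀ α' : F₀ a₀, (∀ v, (ρpt' a₀).ρ Φ v - α' • v ∈ F₀ a₀ ∙ b 0) →
        J₀.pt a₀ (π r.α) = α') :
    π r.α = r₀.α := by
  refine sub_eq_zero.mp (J₀.pt_injective _ fun a₀ => ?_)
  obtain ⟨b, hb⟩ := h a₀ A hA
  obtain ⟨α', hα'⟩ := exists_scalar_of_isOrdBasisAt hb hΦ.1
  rw [map_sub, hπ a₀ b hb α' hα', r₀.spec a₀ b hb α' hα', sub_self]

omit [Finite (ResidueField O)] [Fintype ι] [∀ a, IsNoetherianRing (F a)] in
/-- At a point with unit root `± 1` the unit root is the sign it reduces to. -/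
theorem OrdRoot.pt_eq_of_isNewAtP {A : ValuationSubring Qbar} {Φ : GQ} (r : OrdRoot J A Φ)
    (hA : A.LiesOverPrime p) (hΦ : A.IsFrobeniusAt Φ p) {a : ι} (hp2 : p ≠ 2)
    (hpO : (p : O) ∈ maximalIdeal O) {ε : O}
    (hε : ε * ε = 1) (hrε : r.α - algebraMap O J.T ε ∈ maximalIdeal J.T)
    (hnew : IsNewAtP (ρpt a) p) (hdom : IsDomain (F a)) :
    J.pt a r.α = algebraMap O (F a) ε := by
  obtain ⟨b, hb, hfr⟩ := hnew A hA
  obtain ⟨α', hα', hv⟩ := hfr Φ hΦ
  rw [r.spec a b hb α' hv]
  have hm : α' - algebraMap O (F a) ε ∈ maximalIdeal (F a) := by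
    have := J.pt_local a
    have h1 := map_nonunit (J.pt a).toRingHom _ hrε
    rwa [AlgHom.toRingHom_eq_coe, RingHom.coe_coe, map_sub, AlgHom.commutes,
      r.spec a b hb α' hv] at h1
  have he : algebraMap O (F a) ε * algebraMap O (F a) ε = 1 := by rw [← map_mul, hε, map_one]
  have ha : α' * α' = 1 := by rcases hα' with rfl | rfl <;> simp
  have hprod : (α' - algebraMap O (F a) ε) * (α' + algebraMap O (F a) ε) = 0 := by
    linear_combination ha - he
  rcases mul_eq_zero.mp hprod with h | h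
  · exact sub_eq_zero.mp h
  · exfalso
    have h2 : IsUnit (2 : O) := isUnit_two_of_prime_mem Fact.out hp2 hpO
    refine (mem_maximalIdeal _).mp ?_
      ((h2.mul (IsUnit.of_mul_eq_one _ hε)).map (algebraMap O (F a)))
    rw [show algebraMap O (F a) (2 * ε) = (α' + algebraMap O (F a) ε) - (α' - algebraMap O (F a) ε)
      by rw [map_mul, map_ofNat]; ring, h, zero_sub]
    exact neg_mem hm

/-- Along a surjection respecting the traces every basis of the target lifts to one of the source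
with compatible matrices, and every basis of the source has an image. -/
theorem exists_compatibleBasis {T T₀ : Type} [CommRing T] [IsLocalRing T] [CommRing T₀]
    [IsLocalRing T₀] (ρ : GaloisRepAdic T) (ρ₀ : GaloisRepAdic T₀)
    (hirr : ρ₀.residual.IsAbsolutelyIrreducible) (π : T →+* T₀) (hπ : Function.Surjective π)
    (htr : ∀ g, π (LinearMap.trace T ρ.V (ρ.ρ g)) = LinearMap.trace T₀ ρ₀.V (ρ₀.ρ g)) :
    (∀ b₀ : Basis (Fin 2) T₀ ρ₀.V, ∃ b : Basis (Fin 2) T ρ.V,
      ∀ g, (matrixRep b ρ.ρ g).map π = matrixRep b₀ ρ₀.ρ g) ∧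
    ∀ b : Basis (Fin 2) T ρ.V, ∃ b₀ : Basis (Fin 2) T₀ ρ₀.V,
      ∀ g, matrixRep b₀ ρ₀.ρ g = (matrixRep b ρ.ρ g).map π := by
  obtain ⟨g, hg⟩ := hasTraceBasis_of_residual ρ₀ hirr
  have hgram : ∀ (M : GQ →* Matrix (Fin 2) (Fin 2) T₀),
      (∀ x, (M x).trace = LinearMap.trace T₀ ρ₀.V (ρ₀.ρ x)) →
      IsUnit (Matrix.of fun i j => Matrix.trace (M (g i) * M (g j))).det := fun M hM => by
    refine (congrArg IsUnit (congrArg Matrix.det (Matrix.ext fun i j => ?_))).mpr hg
    show Matrix.trace (M (g i) * M (g j)) = _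
    rw [← map_mul, hM, map_mul]
    rfl
  refine ⟨fun b₀ => Scalar.exists_basis_map_eq ρ.ρ (basisTwo ρ.finrank_eq) π hπ (matrixRep b₀ ρ₀.ρ)
    g (hgram _ fun x => trace_matrixRep b₀ ρ₀.ρ x)
    (fun x => (htr x).trans (trace_matrixRep b₀ ρ₀.ρ x).symm), fun b => ?_⟩
  let M₀ : GQ →* Matrix (Fin 2) (Fin 2) T₀ := π.mapMatrix.toMonoidHom.comp (matrixRep b ρ.ρ)
  have hM₀ : ∀ x, (M₀ x).trace = LinearMap.trace T₀ ρ₀.V (ρ₀.ρ x) := fun x => by
    rw [← htr, ← trace_matrixRep b]
    exact (AddMonoidHom.map_trace π.toAddMonoidHom _).symm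
  obtain ⟨b₀, hb₀⟩ := Scalar.exists_basis_map_eq ρ₀.ρ (basisTwo ρ₀.finrank_eq) (RingHom.id T₀)
    Function.surjective_id M₀ g (hgram _ hM₀) fun x => (hM₀ x).symm
  exact ⟨b₀, fun x => by simpa [M₀] using hb₀ x⟩

omit [Finite (ResidueField O)] in
/-- Of two compatible bases one is adapted when the other is. -/
theorem adapted_iff_of_compatible {T T₀ : Type} [CommRing T] [IsLocalRing T] [Algebra O T]
    [IsLocalHom (algebraMap O T)] [CommRing T₀] [IsLocalRing T₀] [Algebra O T₀]
    [IsLocalHom (algebraMap O T₀)] {bbar : Basis (Fin 2) (ResidueField O) ρbar.V}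
    (hres : Function.Surjective (residue T ∘ algebraMap O T))
    (hres₀ : Function.Surjective (residue T₀ ∘ algebraMap O T₀)) {ρ : GaloisRepAdic T}
    {ρ₀ : GaloisRepAdic T₀} {b : Basis (Fin 2) T ρ.V} {b₀ : Basis (Fin 2) T₀ ρ₀.V} (π : T →ₐ[O] T₀)
    (hb : ∀ g, matrixRep b₀ ρ₀.ρ g = (matrixRep b ρ.ρ g).map π) :
    Adapted bbar hres ρ b ↔ Adapted bbar hres₀ ρ₀ b₀ := by
  have h : ∀ g, (matrixRep b₀ ρ₀.ρ g).map (toRes hres₀) =
      (matrixRep b ρ.ρ g).map (toRes hres) := fun g => by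
    rw [hb, Matrix.map_map]
    refine Matrix.ext fun i j => ?_
    exact Scalar.toRes_map hres hres₀ π (fun x hx => Scalar.map_mem_maximalIdeal hres₀ π hx) _
  exact ⟨fun ha g => (h g).trans (ha g), fun ha g => (h g).symm.trans (ha g)⟩

end Fermat.Agent.LevelLowering.JointRing

namespace Fermat.Agent.Raising

omit [Finite (ResidueField O)] in
/-- The absolute irreducibility of the reduction of a joint ring. -/
theorem _root_.Fermat.Agent.LevelLowering.JointRing.residual_absIrr {p : ℕ}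
    {ρbar : ResidualGaloisRep (ResidueField O)} {S : Finset ℕ} {ι : Type} {F : ι → Type}
    [∀ a, CommRing (F a)] [∀ a, IsLocalRing (F a)]
    [∀ a, Algebra O (F a)] {c : ∀ a, ℕ → F a} {ρpt : ∀ a, GaloisRepAdic (F a)}
    (J : JointRing p ρbar S F c ρpt) (habs : ρbar.IsAbsolutelyIrreducible) :
    J.ρ.residual.IsAbsolutelyIrreducible := by
  obtain ⟨e⟩ := J.residual
  let : Algebra (ResidueField O) (ResidueField J.T) :=
    (ResidueField.map (algebraMap O J.T)).toAlgebra
  refine isAbsolutelyIrreducible_of_frobenius (ResidueField.map (algebraMap O J.T)) ρbar habs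
    J.ρ.residual ∅ fun ℓ _ _ A _ σ _ => ?_
  rw [show J.ρ.residual.ρ σ = e.toLinearEquiv.symm.conj ((ρbar.baseChangeAlong
      (ResidueField.map (algebraMap O J.T))).ρ σ) from LinearMap.ext fun v => by
    rw [LinearEquiv.conj_apply_apply, LinearEquiv.symm_symm, ← e.map_apply,
      LinearEquiv.symm_apply_apply], LinearEquiv.charpoly_conj]
  exact LinearMap.charpoly_baseChange (ρbar.ρ σ) (ResidueField J.T)

section LastPoints

variable {S : Finset ℕ} {c₀ : ℕ → O} {B : Type} [CommRing B] [Algebra O B] {d : ℕ → ℕ} {dp : ℕ}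
  {m : ℕ} (L : ∀ j : ℕ, OpLevel O S c₀ B (d j)) (Top : OpLevel O S c₀ B dp)

/-- The eigensystems of the levels `0, …, m`. -/
abbrev FlatIdx (m : ℕ) : Type := Σ j : Fin (m + 1), (L j).κ

/-- Their rings. -/
abbrev FlatF (a : FlatIdx L m) : Type := (L a.1).F a.2

/-- The eigensystems of all levels with the lift to be reached. -/
abbrev LastIdx (m : ℕ) : Type := Option (FlatIdx L m ⊕ Top.κ)

/-- Their rings. -/
def LastF : LastIdx L Top m → Type
  | none => O
  | some (.inl a) => FlatF L a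
  | some (.inr a) => Top.F a

variable {L Top}

instance instCommRingLastF : ∀ a : LastIdx L Top m, CommRing (LastF L Top a)
  | none => inferInstanceAs (CommRing O)
  | some (.inl a) => inferInstanceAs (CommRing (FlatF L a))
  | some (.inr a) => inferInstanceAs (CommRing (Top.F a))

instance instAlgebraLastF : ∀ a : LastIdx L Top m, Algebra O (LastF L Top a)
  | none => inferInstanceAs (Algebra O O)
  | some (.inl a) => inferInstanceAs (Algebra O (FlatF L a))
  | some (.inr a) => inferInstanceAs (Algebra O (Top.F a))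

instance instDomainLastF : ∀ a : LastIdx L Top m, IsDomain (LastF L Top a)
  | none => inferInstanceAs (IsDomain O)
  | some (.inl a) => inferInstanceAs (IsDomain (FlatF L a))
  | some (.inr a) => inferInstanceAs (IsDomain (Top.F a))

instance instLocalLastF : ∀ a : LastIdx L Top m, IsLocalRing (LastF L Top a)
  | none => inferInstanceAs (IsLocalRing O)
  | some (.inl a) => inferInstanceAs (IsLocalRing (FlatF L a))
  | some (.inr a) => inferInstanceAs (IsLocalRing (Top.F a))

instance instValuationLastF : ∀ a : LastIdx L Top m, ValuationRing (LastF L Top a)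
  | none => inferInstanceAs (ValuationRing O)
  | some (.inl a) => inferInstanceAs (ValuationRing (FlatF L a))
  | some (.inr a) => inferInstanceAs (ValuationRing (Top.F a))

instance instNoetherianLastF : ∀ a : LastIdx L Top m, IsNoetherianRing (LastF L Top a)
  | none => inferInstanceAs (IsNoetherianRing O)
  | some (.inl a) => inferInstanceAs (IsNoetherianRing (FlatF L a))
  | some (.inr a) => inferInstanceAs (IsNoetherianRing (Top.F a))

instance instFiniteLastF : ∀ a : LastIdx L Top m, Module.Finite O (LastF L Top a)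
  | none => inferInstanceAs (Module.Finite O O)
  | some (.inl a) => inferInstanceAs (Module.Finite O (FlatF L a))
  | some (.inr a) => inferInstanceAs (Module.Finite O (Top.F a))

instance instLocalHomLastF : ∀ a : LastIdx L Top m, IsLocalHom (algebraMap O (LastF L Top a))
  | none => ⟨fun _ h => h⟩
  | some (.inl a) => inferInstanceAs (IsLocalHom (algebraMap O (FlatF L a)))
  | some (.inr a) => inferInstanceAs (IsLocalHom (algebraMap O (Top.F a)))

instance instCompleteLastF [IsAdicComplete (maximalIdeal O) O] :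
    ∀ a : LastIdx L Top m, IsAdicComplete (maximalIdeal (LastF L Top a)) (LastF L Top a)
  | none => inferInstanceAs (IsAdicComplete (maximalIdeal O) O)
  | some (.inl a) => inferInstanceAs (IsAdicComplete (maximalIdeal (FlatF L a)) (FlatF L a))
  | some (.inr a) => inferInstanceAs (IsAdicComplete (maximalIdeal (Top.F a)) (Top.F a))

instance instCharLastF [CharZero O] : ∀ a : LastIdx L Top m, CharZero (LastF L Top a)
  | none => inferInstanceAs (CharZero O)
  | some (.inl a) => inferInstanceAs (CharZero (FlatF L a))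
  | some (.inr a) => inferInstanceAs (CharZero (Top.F a))

variable (L Top)

/-- The Frobenius traces at the flat points. -/
def flatC (a : FlatIdx L m) (ℓ : ℕ) : FlatF L a := (L a.1).ev a.2 ((L a.1).x ℓ)

/-- The representations at the flat points. -/
def flatRep (a : FlatIdx L m) : GaloisRepAdic (FlatF L a) := (L a.1).ρ a.2

/-- The Frobenius traces at all points. -/
def lastC (cw : ℕ → O) : ∀ a : LastIdx L Top m, ℕ → LastF L Top a
  | none => cw
  | some (.inl a) => flatC L a
  | some (.inr a) => fun ℓ => Top.ev a (Top.x ℓ)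

/-- The representations at all points. -/
def lastRep (ρw : GaloisRepAdic O) : ∀ a : LastIdx L Top m, GaloisRepAdic (LastF L Top a)
  | none => ρw
  | some (.inl a) => flatRep L a
  | some (.inr a) => Top.ρ a

omit [IsDomain O] [IsDiscreteValuationRing O] [Finite (ResidueField O)] in
/-- A level with a coordinate has an eigensystem. -/
theorem nonempty_kappa [Nontrivial B] {n : ℕ} (hn : 0 < n) (M : OpLevel O S c₀ B n) :
    Nonempty M.κ := by
  by_contra h
  rw [not_nonempty_iff] at h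
  have h1 := (M.ker_iff 1).2 fun a => h.elim a
  rw [map_one] at h1
  have h2 := congrFun (congrFun h1 ⟨0, hn⟩) ⟨0, hn⟩
  rw [Matrix.one_apply_eq] at h2
  exact one_ne_zero h2

variable (p : ℕ) [Fact p.Prime] (ρbar : ResidualGaloisRep (ResidueField O))

/-- The rings of the last step at `p`, at a place `A` over `p` and a Frobenius element `Φ`. -/
structure LastRings (m : ℕ) (cw : ℕ → O) (ρw : GaloisRepAdic O) (A : ValuationSubring Qbar)
    (Φ : GQ) (ε : O) : Type 1 where
  /-- The flat ring: the joint ring of the levels `0, …, m`. -/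
  Rf : JointRing p ρbar S (FlatF (m := m) L) (flatC L) (flatRep L)
  /-- The top ring: that of these levels, of the level with `p` and of the lift `ρw`. -/
  Rt : JointRing p ρbar S (LastF (m := m) L Top) (lastC L Top cw) (lastRep L Top ρw)
  flat : Rf.ρ.IsFlatAt p
  /-- The unit root of the flat ring. -/
  rootf : Rf.OrdRoot A Φ
  /-- The unit root of the top ring. -/
  roott : Rt.OrdRoot A Φ
  /-- The map from the top ring onto the flat one. -/
  q : Rt.T →ₐ[O] Rf.T
  q_surjective : Function.Surjective q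
  q_pt : ∀ a t, Rf.pt a (q t) = Rt.pt (some (.inl a)) t
  q_trace : ∀ g : GQ, q (LinearMap.trace Rt.T Rt.ρ.V (Rt.ρ.ρ g)) =
    LinearMap.trace Rf.T Rf.ρ.V (Rf.ρ.ρ g)
  q_root : q roott.α = rootf.α
  roott_mem : roott.α - algebraMap O Rt.T ε ∈ maximalIdeal Rt.T
  rootf_mem : rootf.α - algebraMap O Rf.T ε ∈ maximalIdeal Rf.T
  /-- The lift to be reached is on `α = ε`. -/
  pt_w : Rt.pt none roott.α = ε
  /-- So are the eigensystems with unit root `± 1`. -/
  pt_new : ∀ a : Top.κ, IsNewAtP (Top.ρ a) p →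
    Rt.pt (some (.inr a)) roott.α = algebraMap O (Top.F a) ε

variable {p ρbar}

/-- **The rings of the last step exist.** -/
theorem exists_lastRings [IsAdicComplete (maximalIdeal O) O] [Nontrivial B] (hp2 : p ≠ 2)
    (hp : (p : O) ∈ maximalIdeal O)
    (habs : ρbar.IsAbsolutelyIrreducible)
    (hodd : ∃ g : GQ, g * g = 1 ∧ LinearMap.det (ρbar.ρ g) = -1)
    (hbar : ∀ ℓ : ℕ, ℓ.Prime → ℓ ∉ S → ∀ P : ValuationSubring Qbar, P.LiesOverPrime ℓ →
      ∀ σ : GQ, P.IsFrobeniusAt σ ℓ → LinearMap.charpoly (ρbar.ρ σ) =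
        X ^ 2 - C (residue O (c₀ ℓ)) * X + C (ℓ : ResidueField O))
    (hd : 0 < d 0)
    (hflat : ∀ (j : ℕ) (a : (L j).κ), j ≤ m → ((L j).ρ a).IsFlatAt p)
    (hord : ∀ (j : ℕ) (a : (L j).κ), j ≤ m → HasOrdBases ((L j).ρ a) p)
    (hordTop : ∀ a : Top.κ, HasOrdBases (Top.ρ a) p)
    (cw : ℕ → O) (ρw : GaloisRepAdic O)
    (hcw : ∀ ℓ : ℕ, ℓ.Prime → ℓ ∉ S → cw ℓ - c₀ ℓ ∈ maximalIdeal O)
    (hw : ∀ ℓ : ℕ, ℓ.Prime → ℓ ∉ S → ∀ P : ValuationSubring Qbar, P.LiesOverPrime ℓ →
      ∀ σ : GQ, P.IsFrobeniusAt σ ℓ →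
        LinearMap.charpoly (ρw.ρ σ) = X ^ 2 - C (cw ℓ) * X + C (ℓ : O))
    (hwOrd : HasOrdBases ρw p)
    {A : ValuationSubring Qbar} (hA : A.LiesOverPrime p) {Φ : GQ} (hΦ : A.IsFrobeniusAt Φ p)
    {ε : O} (hε : ε * ε = 1) (bw : Basis (Fin 2) O ρw.V) (hbw : IsOrdBasisAt ρw A bw)
    (hwΦ : ∀ v, ρw.ρ Φ v - ε • v ∈ O ∙ bw 0) :
    Nonempty (LastRings L Top p ρbar m cw ρw A Φ ε) := by
  classical
  have h2 : IsUnit (2 : O) := isUnit_two_of_prime_mem Fact.out hp2 hp
  have hne : Nonempty (FlatIdx L m) := ⟨⟨0, (nonempty_kappa hd (L 0)).some⟩⟩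
  obtain ⟨Rf⟩ := exists_jointRing (F := FlatF (m := m) L) (c := flatC L) (ρpt := flatRep L) h2
    hp habs
    hodd c₀ hbar (fun a => (L a.1).residual a.2) fun a => (L a.1).frob a.2
  obtain ⟨Rt⟩ := exists_jointRing (F := LastF (m := m) L Top) (c := lastC L Top cw)
    (ρpt := lastRep L Top ρw) h2 hp habs hodd c₀ hbar
    (fun a => match a with
      | none => hcw
      | some (.inl a) => (L a.1).residual a.2
      | some (.inr a) => Top.residual a)
    (fun a => match a with
      | none => hw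
      | some (.inl a) => (L a.1).frob a.2
      | some (.inr a) => Top.frob a)
  have hordf : ∀ a : FlatIdx L m, HasOrdBases (flatRep L a) p := fun a =>
    hord a.1 a.2 (Nat.le_of_lt_succ a.1.2)
  have hordt : ∀ a : LastIdx L Top m, HasOrdBases (lastRep L Top ρw a) p := fun a => match a with
    | none => hwOrd
    | some (.inl a) => hordf a
    | some (.inr a) => hordTop a
  obtain ⟨rf⟩ := Rf.exists_ordRoot hp2 hA hΦ hordf
  obtain ⟨rt⟩ := Rt.exists_ordRoot hp2 hA hΦ hordt
  obtain ⟨q, hq, hqpt, hqtr⟩ := Rt.exists_proj subset_rfl Rf (fun a => Rt.pt (some (.inl a)))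
    fun a ℓ hℓ hℓS => Rt.pt_τ ℓ hℓ hℓS (some (.inl a))
  have hqroot : q rt.α = rf.α := rt.map_α Rt hA hΦ rf q.toRingHom hordf fun a b hb α' hv =>
    (hqpt a rt.α).trans (rt.spec (some (.inl a)) b hb α' hv)
  have hw' : Rt.pt none rt.α = ε := rt.spec none bw hbw ε hwΦ
  have hmt : rt.α - algebraMap O Rt.T ε ∈ maximalIdeal Rt.T := by
    refine Rt.mem_maximalIdeal_of_pt none ?_
    rw [map_sub, AlgHom.commutes, hw']
    show ε - algebraMap O O ε ∈ maximalIdeal O
    rw [Algebra.algebraMap_self, RingHom.id_apply, sub_self]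
    exact zero_mem _
  have hmf : rf.α - algebraMap O Rf.T ε ∈ maximalIdeal Rf.T := by
    rw [← hqroot, ← q.commutes, ← map_sub]
    exact map_maximalIdeal_of_surjective q.toRingHom hq ▸ Ideal.mem_map_of_mem q.toRingHom hmt
  exact ⟨{
    Rf := Rf
    Rt := Rt
    flat := Rf.isFlatAt fun a => hflat a.1 a.2 (Nat.le_of_lt_succ a.1.2)
    rootf := rf
    roott := rt
    q := q
    q_surjective := hq
    q_pt := hqpt
    q_trace := hqtr
    q_root := hqroot
    roott_mem := hmt
    rootf_mem := hmf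
    pt_w := hw'
    pt_new := fun a ha => rt.pt_eq_of_isNewAtP Rt (a := some (.inr a)) hA hΦ hp2 hp hε hmt ha
      (instDomainLastF (L := L) (Top := Top) (m := m) (some (.inr a))) }⟩

variable {L Top}

omit [Finite (ResidueField O)] [Fact (Nat.Prime p)] in
/-- **The operator at `p` acts as `α + p / α`.** -/
theorem LastRings.exists_tp {cw : ℕ → O} {ρw : GaloisRepAdic O} {A : ValuationSubring Qbar}
    {Φ : GQ} {ε : O} (R : LastRings L Top p ρbar m cw ρw A Φ ε) (hA : A.LiesOverPrime p)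
    (hΦ : A.IsFrobeniusAt Φ p) (hε : ε * ε = 1)
    (hord : ∀ a : (L m).κ, HasOrdBases ((L m).ρ a) p) (tp : (L m).A)
    (htp : ∀ (a : (L m).κ) (b : Basis (Fin 2) ((L m).F a) ((L m).ρ a).V),
      IsOrdBasisAt ((L m).ρ a) A b → ∀ α : (L m).F a,
        (∀ v, ((L m).ρ a).ρ Φ v - α • v ∈ (L m).F a ∙ b 0) →
          α * α - (L m).ev a tp * α + (p : (L m).F a) = 0)
    (act : R.Rf.T →ₐ[O] Matrix (Fin (d m)) (Fin (d m)) B)
    (hact : ∀ t, ∃ z, (L m).Φ z = act t ∧
      ∀ a : (L m).κ, (L m).ev a z = R.Rf.pt ⟨⟨m, m.lt_succ_self⟩, a⟩ t) :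
    ∃ t : R.Rf.T, R.rootf.α * R.rootf.α - t * R.rootf.α + (p : R.Rf.T) = 0 ∧
      act t = (L m).Φ tp := by
  have hu : IsUnit R.rootf.α := by
    by_contra hn
    have h1 : algebraMap O R.Rf.T ε ∈ maximalIdeal R.Rf.T := by
      simpa using sub_mem ((mem_maximalIdeal _).mpr hn) R.rootf_mem
    exact (mem_maximalIdeal _).mp h1 ((IsUnit.of_mul_eq_one _ hε).map _)
  obtain ⟨w, hw⟩ := hu.exists_right_inv
  refine ⟨R.rootf.α + (p : R.Rf.T) * w, by linear_combination -(p : R.Rf.T) * hw, ?_⟩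
  obtain ⟨z, hz, hev⟩ := hact (R.rootf.α + (p : R.Rf.T) * w)
  rw [← hz, ← sub_eq_zero, ← map_sub, (L m).ker_iff]
  intro a
  obtain ⟨b, hb⟩ := hord a A hA
  obtain ⟨α', hα'⟩ := JointRing.exists_scalar_of_isOrdBasisAt hb hΦ.1
  have hspec := R.rootf.spec ⟨⟨m, m.lt_succ_self⟩, a⟩ b hb α' hα'
  have h1 := htp a b hb α' hα'
  have hw' :
      R.Rf.pt ⟨⟨m, m.lt_succ_self⟩, a⟩ R.rootf.α * R.Rf.pt ⟨⟨m, m.lt_succ_self⟩, a⟩ w = 1 := by
    rw [← map_mul, hw, map_one]
  rw [hspec] at hw'
  rw [map_sub, hev a, map_add, map_mul, map_natCast, hspec, sub_eq_zero]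
  linear_combination (R.Rf.pt ⟨⟨m, m.lt_succ_self⟩, a⟩ w) * h1 +
    ((L m).ev a tp - α') * hw'

end LastPoints

end Fermat.Agent.Raising
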