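import Fermat.Agent.Raising.Levels

/-!
# The last step, at `p`

The flat levels `0, …, m` form a `RaiseSys` whose prescribed coordinate `a` is the unit root at `p`
less its residual sign.  The top level has `p` in its level; its ring maps onto the rings of the
flat levels and has coordinates at the raised primes, `a` and `g'` free ones.  The new eigensystems
of the top level lie on `a = 0`; `LastSys.ker_le_point` says that a point on `a = 0` and on the
component raised everywhere is a point of the top finite level.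
-/

noncomputable section

namespace Fermat.Agent.Raising

open IsLocalRing Fermat.Agent.LevelLowering Filter

local notation "PS" => MvPowerSeries

variable {𝒪 : Type} [CommRing 𝒪] [IsDomain 𝒪] [IsDiscreteValuationRing 𝒪]
  [IsAdicComplete (maximalIdeal 𝒪) 𝒪]

section Extra

variable {m : ℕ} {e : Fin m → ℕ} (g : ℕ)

/-- The prescribed coordinate. -/
def extraVar : PS (Fin (nVars e (1 + g))) 𝒪 :=
  MvPowerSeries.X (varIdx (.inr (Fin.castAdd g 0)))

/-- Setting the prescribed coordinate to zero. -/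
def zeroExtra : PS (Fin (nVars e (1 + g))) 𝒪 →ₐ[𝒪] PS (Fin (nVars e g)) 𝒪 :=
  evalSeries (blockTuple (fun i c => MvPowerSeries.X (varIdx (.inl ⟨i, c⟩)))
      (Fin.append (fun _ : Fin 1 => 0) fun j => MvPowerSeries.X (varIdx (e := e) (.inr j))))
    (blockTuple_mem (fun _ _ => X_mem_maximalIdeal_series _) fun j => by
      induction j using Fin.addCases with
      | left j => rw [Fin.append_left]; exact zero_mem _
      | right j => rw [Fin.append_right]; exact X_mem_maximalIdeal_series _)

theorem zeroExtra_extraVar : zeroExtra (𝒪 := 𝒪) (e := e) g (extraVar g) = 0 := by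
  rw [zeroExtra, extraVar, evalSeries_X, blockTuple_inr, Fin.append_left]

theorem zeroExtra_X_inl (i : Fin m) (c : Fin (e i)) :
    zeroExtra (𝒪 := 𝒪) g (MvPowerSeries.X (varIdx (g := 1 + g) (.inl ⟨i, c⟩))) =
      MvPowerSeries.X (varIdx (.inl ⟨i, c⟩)) := by
  rw [zeroExtra, evalSeries_X, blockTuple_inl]

theorem zeroExtra_X_mem (k : Fin (nVars e (1 + g))) :
    zeroExtra (𝒪 := 𝒪) g (MvPowerSeries.X k) ∈ maximalIdeal _ := by
  rw [zeroExtra, evalSeries_X]
  refine blockTuple_mem (fun _ _ => X_mem_maximalIdeal_series _) (fun j => ?_) k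
  induction j using Fin.addCases with
  | left j => rw [Fin.append_left]; exact zero_mem _
  | right j => rw [Fin.append_right]; exact X_mem_maximalIdeal_series _

theorem zeroExtra_surjective : Function.Surjective (zeroExtra (𝒪 := 𝒪) (e := e) g) := fun s => by
  let v : Fin (nVars e g) → PS (Fin (nVars e (1 + g))) 𝒪 :=
    blockTuple (fun i c => MvPowerSeries.X (varIdx (.inl ⟨i, c⟩)))
      fun j => MvPowerSeries.X (varIdx (.inr (Fin.natAdd 1 j)))
  have hv : ∀ k, v k ∈ maximalIdeal _ :=
    blockTuple_mem (fun _ _ => X_mem_maximalIdeal_series _) fun _ => X_mem_maximalIdeal_series _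
  have h : (zeroExtra (𝒪 := 𝒪) (e := e) g).comp (evalSeries v hv) = AlgHom.id 𝒪 _ := by
    refine algHom_ext_series (fun k => ?_) fun k => ?_
    · rw [AlgHom.comp_apply, evalSeries_X]
      exact map_mem_maximalIdeal_series algebraMap_series_mem _ (zeroExtra_X_mem g) (hv k)
    · rw [AlgHom.comp_apply, evalSeries_X, AlgHom.id_apply]
      obtain ⟨⟨i, c⟩ | j, rfl⟩ := varIdx_cases k
      · simp [v, zeroExtra_X_inl]
      · simp [v, zeroExtra]
  exact ⟨evalSeries v hv s, AlgHom.congr_fun h s⟩

theorem zeroExtra_blockEmb (i : Fin m) (s : PS (Fin (e i)) 𝒪) :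
    zeroExtra g (blockEmb (1 + g) i s) = blockEmb g i s := by
  have h : (zeroExtra (𝒪 := 𝒪) (e := e) g).comp (blockEmb (1 + g) i) = blockEmb g i := by
    refine algHom_ext_series (fun c => ?_) fun c => ?_
    · rw [AlgHom.comp_apply, blockEmb, evalSeries_X, zeroExtra_X_inl]
      exact X_mem_maximalIdeal_series _
    · simp [blockEmb, zeroExtra_X_inl]
  exact AlgHom.congr_fun h s

omit [IsAdicComplete (maximalIdeal 𝒪) 𝒪] in
theorem extraVar_mem : extraVar (𝒪 := 𝒪) (e := e) g ∈ maximalIdeal _ :=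
  X_mem_maximalIdeal_series _

/-- Series in the prescribed coordinate. -/
def extraEmb : PS (Fin 1) 𝒪 →ₐ[𝒪] PS (Fin (nVars e (1 + g))) 𝒪 :=
  evalSeries (fun _ => extraVar g) fun _ => extraVar_mem g

theorem zeroExtra_extraEmb (s : PS (Fin 1) 𝒪) :
    zeroExtra (𝒪 := 𝒪) (e := e) g (extraEmb g s) =
      algebraMap 𝒪 _ (MvPowerSeries.constantCoeff s) := by
  let cc : PS (Fin 1) 𝒪 →ₐ[𝒪] 𝒪 :=
    { MvPowerSeries.constantCoeff (σ := Fin 1) (R := 𝒪) with
      commutes' := fun c => MvPowerSeries.constantCoeff_C c }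
  have h : (zeroExtra (𝒪 := 𝒪) (e := e) g).comp (extraEmb g) = (Algebra.ofId 𝒪 _).comp cc := by
    refine algHom_ext_series (fun k => ?_) fun k => ?_
    · rw [AlgHom.comp_apply, extraEmb, evalSeries_X, zeroExtra_extraVar]
      exact zero_mem _
    · rw [AlgHom.comp_apply, extraEmb, evalSeries_X, zeroExtra_extraVar, AlgHom.comp_apply,
        show cc (MvPowerSeries.X k) = MvPowerSeries.constantCoeff (MvPowerSeries.X k) from rfl,
        MvPowerSeries.constantCoeff_X, map_zero]
  exact AlgHom.congr_fun h s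

/-- The prime of a choice of local maps on the locus where the prescribed coordinate vanishes. -/
def extraIdeal (l : ∀ i, LocalMap 𝒪 (e i)) : Ideal (PS (Fin (nVars e (1 + g))) 𝒪) :=
  (compIdeal g l).comap (zeroExtra g)

instance extraIdeal_isPrime (l : ∀ i, LocalMap 𝒪 (e i)) : (extraIdeal g l).IsPrime :=
  Ideal.IsPrime.comap _

theorem mem_extraIdeal {l : ∀ i, LocalMap 𝒪 (e i)} {x : PS (Fin (nVars e (1 + g))) 𝒪} :
    x ∈ extraIdeal g l ↔ zeroExtra g x ∈ compIdeal g l := Iff.rfl

/-- The locus `a = 0` of a choice of local maps lies in that choice's component. -/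
theorem compIdeal_le_extraIdeal (l : ∀ i, LocalMap 𝒪 (e i)) :
    compIdeal (1 + g) l ≤ extraIdeal g l := by
  intro x hx
  rw [mem_extraIdeal, compIdeal, RingHom.mem_ker]
  refine map_eq_zero_of_block_params (1 + g) l algebraMap_series_mem
    ((compMap g l).comp (zeroExtra g)) (fun k => ?_) (fun i k => freshVar g l i k)
    (fun _ _ => X_mem_maximalIdeal_series _) (fun i c => ?_) hx
  · rw [AlgHom.comp_apply]
    exact map_mem_maximalIdeal_series algebraMap_series_mem _
      (fun a => by rw [compMap, evalSeries_X]; exact compVals_mem g l a) (zeroExtra_X_mem g k)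
  · rw [AlgHom.comp_apply, zeroExtra_X_inl, compMap, evalSeries_X, compVals, blockTuple_inl]
    rfl

/-- The locus `a = 0` of a choice of local maps has dimension at most `∑ f + g + 1`. -/
theorem ringKrullDim_quotient_extraIdeal_le (l : ∀ i, LocalMap 𝒪 (e i))
    (hp : ∀ i, (l i).HasParams) :
    ringKrullDim (PS (Fin (nVars e (1 + g))) 𝒪 ⧸ extraIdeal g l) ≤
      ((∑ i, (l i).f + g + 1 : ℕ) : WithBot ℕ∞) := by
  refine le_trans (le_of_eq (ringKrullDim_eq_of_ringEquiv (RingEquiv.ofBijective
    (Ideal.quotientMap (compIdeal g l)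
      (zeroExtra (𝒪 := 𝒪) (e := e) g : PS (Fin (nVars e (1 + g))) 𝒪 →+* PS (Fin (nVars e g)) 𝒪)
      le_rfl)
    ⟨Ideal.quotientMap_injective, Ideal.quotientMap_surjective (zeroExtra_surjective g)⟩))) ?_
  exact ringKrullDim_quotient_compIdeal_le g l hp

end Extra

section Transfer

variable [Finite (ResidueField 𝒪)]

/-- Two patched systems whose images agree at every index have the same image in the limit. -/
theorem exists_eq_limit {D d : ℕ} {R R' : Type} [CommRing R] [CommRing R'] [IsLocalRing R']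
    [IsNoetherianRing R'] [IsAdicComplete (maximalIdeal R') R'] [Finite (ResidueField R')]
    {J : ℕ → Ideal (PS (Fin D) 𝒪)} {haug : ∀ n, ∀ s ∈ J n, MvPowerSeries.constantCoeff s = 0}
    {hJ : ∀ k, ∀ᶠ n in Filter.atTop, J n ≤ trunc 𝒪 D k}
    {A : R →+* Matrix (Fin d) (Fin d) 𝒪} {A' : R' →+* Matrix (Fin d) (Fin d) 𝒪}
    {act : ∀ n, R →+* Matrix (Fin d) (Fin d) (PS (Fin D) 𝒪 ⧸ J n)}
    {act' : ∀ n, R' →+* Matrix (Fin d) (Fin d) (PS (Fin D) 𝒪 ⧸ J n)}
    (h : ∀ n f,
      (act n f).map (Ideal.Quotient.lift (J n) MvPowerSeries.constantCoeff (haug n)) = A f)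
    (h' : ∀ n f,
      (act' n f).map (Ideal.Quotient.lift (J n) MvPowerSeries.constantCoeff (haug n)) = A' f)
    (hsurj : ∀ n x, ∃ y, act' n y = act n x) (x : R) :
    ∃ y : R', (PatchBase.mk J haug hJ act' h' : PatchBase 𝒪 D d R' A').limit y =
      (PatchBase.mk J haug hJ act h : PatchBase 𝒪 D d R A).limit x := by
  let L : PatchBase 𝒪 D d R A := PatchBase.mk J haug hJ act h
  let L' : PatchBase 𝒪 D d R' A' := PatchBase.mk J haug hJ act' h'
  choose f hf using fun n => hsurj n x
  obtain ⟨y, -, hy⟩ := L'.exists_limit_of_seq f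
  refine ⟨y, PatchBase.matrix_ext fun k => ?_⟩
  obtain ⟨n, ⟨_, hn⟩, _, hn'⟩ := ((hy k).and (L.eventually_limk k x)).exists
  rw [show (L.limit x).map (Ideal.Quotient.mk (trunc 𝒪 D k)) = L.limk k x from L.map_limitFun k x,
    hn', hn]
  show (act' n (f n)).map _ = _
  rw [hf]

end Transfer

variable {m : ℕ} {e : Fin m → ℕ} {B : ∀ i, Block 𝒪 (e i)} {g D : ℕ}
  {R₀ : Type} [CommRing R₀] [Algebra 𝒪 R₀] {R₁ : Type} [CommRing R₁] [Algebra 𝒪 R₁]

/-- The finite top level, over the finite flat levels. -/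
structure LastBase (S₀ : RaiseBase B 1 R₀) (R₁ : Type) [CommRing R₁] [Algebra 𝒪 R₁] : Type where
  /-- The rank of the top level. -/
  d : ℕ
  /-- The action of its ring. -/
  A : R₁ →+* Matrix (Fin d) (Fin d) 𝒪
  /-- The map to the ring of the flat levels. -/
  π : R₁ →ₐ[𝒪] R₀
  /-- The coordinates at the raised primes. -/
  coord : ∀ i, Fin (e i) → R₁
  /-- The prescribed coordinate, over the one of the flat levels. -/
  a : R₁
  π_coord : ∀ i c, π (coord i c) = S₀.coord i c
  π_a : π a = S₀.extra 0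
  /-- The product of the two degeneracy maps, in the prescribed coordinate. -/
  G : Fin 2 → Fin 2 → PS (Fin 1) 𝒪
  G_det : MvPowerSeries.constantCoeff (G 0 0 * G 1 1 - G 0 1 * G 1 0) = 0

/-- The top level at one Taylor–Wiles index. -/
structure LastLevel {S₀ : RaiseBase B 1 R₀} (L : RaiseLevel S₀ g D) (T : LastBase S₀ R₁)
    (g' : ℕ) : Type 1 where
  /-- The local ring of the top level at this index. -/
  R : Type
  [instCommRing : CommRing R]
  [instLocal : IsLocalRing R]
  [instNoetherian : IsNoetherianRing R]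
  [instComplete : IsAdicComplete (maximalIdeal R) R]
  [instAlgebra : Algebra 𝒪 R]
  [instLocalHom : IsLocalHom (algebraMap 𝒪 R)]
  residue_surjective : Function.Surjective (residue R ∘ algebraMap 𝒪 R)
  /-- The map onto the ring of the finite top level. -/
  proj : R →ₐ[𝒪] R₁
  proj_surjective : Function.Surjective proj
  /-- The map onto the ring of the flat levels. -/
  q : R →ₐ[𝒪] L.R
  q_surjective : Function.Surjective q
  proj_q : ∀ x, T.π (proj x) = L.proj (q x)
  /-- The coordinates at the raised primes. -/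
  coord : ∀ i, Fin (e i) → R
  coord_mem : ∀ i c, coord i c ∈ maximalIdeal R
  proj_coord : ∀ i c, proj (coord i c) = T.coord i c
  q_coord : ∀ i c, q (coord i c) = L.coord i c
  /-- The prescribed coordinate at `p`. -/
  a : R
  a_mem : a ∈ maximalIdeal R
  proj_a : proj a = T.a
  q_a : q a = L.extra 0
  /-- `g'` elements generating the maximal ideal with the `relIdeal` of coordinates and `a`. -/
  gens : Fin g' → R
  gens_mem : ∀ j, gens j ∈ maximalIdeal R
  gens_le : maximalIdeal R ≤
    relIdeal (𝒪 := 𝒪) (blockTuple coord fun _ : Fin 1 => a) ⊔ Ideal.span (Set.range gens)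
  /-- The action on the top level over the diamond ring. -/
  act : R →+* Matrix (Fin T.d) (Fin T.d) (PS (Fin D) 𝒪 ⧸ L.J)
  act_algebraMap : ∀ c, act (algebraMap 𝒪 R c) =
    Matrix.scalar (Fin T.d) (Ideal.Quotient.mk L.J (MvPowerSeries.C c))
  act_aug : ∀ x, (act x).map (Ideal.Quotient.lift L.J MvPowerSeries.constantCoeff L.J_aug) =
    T.A (proj x)
  /-- Elements of the ring acting as the diamond variables. -/
  dia : Fin D → R
  dia_mem : ∀ i, dia i ∈ maximalIdeal R
  proj_dia : ∀ i, proj (dia i) = 0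
  act_dia : ∀ i, act (dia i) =
    Matrix.scalar (Fin T.d) (Ideal.Quotient.mk L.J (MvPowerSeries.X i))
  /-- The two degeneracy maps, from two copies of the flat level `m` to the top one. -/
  up : Matrix (Fin T.d) (Fin (S₀.d m) ⊕ Fin (S₀.d m)) (PS (Fin D) 𝒪 ⧸ L.J)
  /-- Their transfers, from the top level to two copies of the flat level `m`. -/
  down : Matrix (Fin (S₀.d m) ⊕ Fin (S₀.d m)) (Fin T.d) (PS (Fin D) 𝒪 ⧸ L.J)
  up_comm : ∀ x, up * twoCopies (L.act m (q x)) = act x * up
  down_comm : ∀ x, down * act x = twoCopies (L.act m (q x)) * down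
  up_inv : ∃ X : Matrix (Fin (S₀.d m) ⊕ Fin (S₀.d m)) (Fin T.d) (PS (Fin D) 𝒪 ⧸ L.J), X * up = 1
  down_inv : ∃ X : Matrix (Fin T.d) (Fin (S₀.d m) ⊕ Fin (S₀.d m)) (PS (Fin D) 𝒪 ⧸ L.J),
    down * X = 1
  down_up : down * up = Matrix.fromBlocks
    (L.act m (evalSeries (fun _ : Fin 1 => L.extra 0) (fun _ => L.extra_mem 0) (T.G 0 0)))
    (L.act m (evalSeries (fun _ : Fin 1 => L.extra 0) (fun _ => L.extra_mem 0) (T.G 0 1)))
    (L.act m (evalSeries (fun _ : Fin 1 => L.extra 0) (fun _ => L.extra_mem 0) (T.G 1 0)))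
    (L.act m (evalSeries (fun _ : Fin 1 => L.extra 0) (fun _ => L.extra_mem 0) (T.G 1 1)))
  /-- The index type of the points. -/
  ι : Type
  /-- The ring of each point. -/
  F : ι → Type
  [instCommRingF : ∀ b, CommRing (F b)]
  [instLocalF : ∀ b, IsLocalRing (F b)]
  [instAlgebraF : ∀ b, Algebra 𝒪 (F b)]
  [instCompleteF : ∀ b, IsAdicComplete (maximalIdeal (F b)) (F b)]
  /-- The points, maps out of the ring of the top level. -/
  pt : ∀ b, R →ₐ[𝒪] F b
  pt_mem : ∀ b, ∀ x ∈ maximalIdeal R, pt b x ∈ maximalIdeal (F b)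
  /-- The points new at `p`. -/
  IsNew : ι → Prop
  /-- A new eigensystem lies on some component and on `a = 0`. -/
  new_reach : ∀ b, IsNew b → pt b a = 0 ∧
    ∀ i, ∃ k, ((B i).comp k).Reaches fun c => pt b (coord i c)
  kill_new : ∀ x, (∀ b, IsNew b → pt b x = 0) →
    ∃ X : Matrix (Fin (S₀.d m) ⊕ Fin (S₀.d m)) (Fin T.d) (PS (Fin D) 𝒪 ⧸ L.J), act x = up * X

attribute [instance] LastLevel.instCommRing LastLevel.instLocal LastLevel.instNoetherian
  LastLevel.instComplete LastLevel.instAlgebra LastLevel.instLocalHom LastLevel.instCommRingF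
  LastLevel.instLocalF LastLevel.instAlgebraF LastLevel.instCompleteF

/-- A family of top levels over a family of flat levels. -/
structure LastSys {S₀ : RaiseBase B 1 R₀} (Y : RaiseSys S₀ g D) (T : LastBase S₀ R₁) (g' : ℕ) :
    Type 1 where
  /-- The top level at each index. -/
  L : ∀ n, LastLevel (Y.L n) T g'
  params : (∑ i, (B i).w) + g' ≤ D

namespace LastSys

variable {S₀ : RaiseBase B 1 R₀} {Y : RaiseSys S₀ g D} {T : LastBase S₀ R₁} {g' : ℕ}
  (Z : LastSys Y T g')

theorem q_mem_maximalIdeal (n : ℕ) {x : (Z.L n).R} (hx : x ∈ maximalIdeal (Z.L n).R) :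
    (Z.L n).q x ∈ maximalIdeal (Y.L n).R :=
  map_maximalIdeal_of_surjective ((Z.L n).q : (Z.L n).R →+* (Y.L n).R) (Z.L n).q_surjective ▸
    Ideal.mem_map_of_mem _ hx

/-- The action of a series in the diamonds is scalar. -/
theorem act_evalSeries_dia (n : ℕ) (s : PS (Fin D) 𝒪) :
    (Z.L n).act (evalSeries (Z.L n).dia (Z.L n).dia_mem s) =
      Matrix.scalar (Fin T.d) (Ideal.Quotient.mk (Y.L n).J s) := by
  have hJ : (Y.L n).J ≤ maximalIdeal (PS (Fin D) 𝒪) := fun x hx => by
    rw [mem_maximalIdeal, mem_nonunits_iff, MvPowerSeries.isUnit_iff_constantCoeff,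
      (Y.L n).J_aug x hx]
    exact not_isUnit_zero
  have : Nontrivial (PS (Fin D) 𝒪 ⧸ (Y.L n).J) :=
    Ideal.Quotient.nontrivial_iff.mpr fun htop => (maximalIdeal.isMaximal _).ne_top
      (top_le_iff.mp (htop ▸ hJ))
  have : IsLocalRing (PS (Fin D) 𝒪 ⧸ (Y.L n).J) :=
    .of_surjective' (Ideal.Quotient.mk _) Ideal.Quotient.mk_surjective
  have H : (Z.L n).act.comp (evalSeries (Z.L n).dia (Z.L n).dia_mem).toRingHom =
      (Matrix.scalar (Fin T.d)).comp (Ideal.Quotient.mk (Y.L n).J) := by
    refine matrixHom_ext _ _ (fun c => ?_) (fun i => ?_) fun i a b => ?_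
    · simp [MvPowerSeries.c_eq_algebraMap, (Z.L n).act_algebraMap]
    · simp [(Z.L n).act_dia i]
    · show (Z.L n).act (evalSeries _ _ (MvPowerSeries.X i)) a b ∈ _
      rw [evalSeries_X, (Z.L n).act_dia i, Matrix.scalar_apply, Matrix.diagonal_apply]
      split_ifs
      · have : IsLocalHom (Ideal.Quotient.mk (Y.L n).J) :=
          IsLocalHom.of_surjective _ Ideal.Quotient.mk_surjective
        exact map_nonunit _ _ (X_mem_maximalIdeal_series i)
      · exact zero_mem _
  exact RingHom.congr_fun H s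

variable [IsLocalRing R₁]

theorem map_mem_maximalIdeal_proj (n : ℕ) {x : (Z.L n).R} (hx : x ∈ maximalIdeal (Z.L n).R) :
    (Z.L n).proj x ∈ maximalIdeal R₁ :=
  map_maximalIdeal_of_surjective ((Z.L n).proj : (Z.L n).R →+* R₁) (Z.L n).proj_surjective ▸
    Ideal.mem_map_of_mem _ hx

variable [IsNoetherianRing R₁] [IsLocalHom (algebraMap 𝒪 R₁)]

include Z in
omit [IsNoetherianRing R₁] in
/-- Free coordinates on the finite top level lift compatibly to all top levels. -/
theorem exists_coordinates : ∃ (x₀ : Fin g' → R₁) (x : ∀ n, Fin g' → (Z.L n).R),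
    ∀ n, (∀ j, x n j ∈ maximalIdeal (Z.L n).R) ∧ (∀ j, (Z.L n).proj (x n j) = x₀ j) ∧
      maximalIdeal (Z.L n).R ≤ relIdeal (𝒪 := 𝒪)
          (blockTuple (Z.L n).coord fun _ : Fin 1 => (Z.L n).a) ⊔
        Ideal.span (Set.range (x n)) := by
  have hc₀ : ∀ k, blockTuple T.coord (fun _ : Fin 1 => T.a) k ∈ maximalIdeal R₁ :=
    blockTuple_mem
      (fun i c => (Z.L 0).proj_coord i c ▸ Z.map_mem_maximalIdeal_proj 0 ((Z.L 0).coord_mem i c))
      fun _ => (Z.L 0).proj_a ▸ Z.map_mem_maximalIdeal_proj 0 (Z.L 0).a_mem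
  obtain ⟨x₀, hx₀⟩ := exists_universal_lift (𝒪 := 𝒪) (g := g') _ hc₀
  choose x hx using fun n => hx₀ (Z.L n).R (Z.L n).residue_surjective (Z.L n).proj
    (Z.L n).proj_surjective (blockTuple (Z.L n).coord fun _ : Fin 1 => (Z.L n).a)
    (fun k => by
      obtain ⟨⟨i, c⟩ | j, rfl⟩ := varIdx_cases k
      · simp [(Z.L n).proj_coord]
      · simp [(Z.L n).proj_a])
    (blockTuple_mem (Z.L n).coord_mem fun _ => (Z.L n).a_mem)
    (Z.L n).gens (Z.L n).gens_mem (Z.L n).gens_le
  exact ⟨x₀, x, hx⟩

/-- The lifts of the fixed free coordinates. -/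
def free (n : ℕ) : Fin g' → (Z.L n).R := Z.exists_coordinates.choose_spec.choose n

omit [IsNoetherianRing R₁] in
theorem free_mem (n : ℕ) (j : Fin g') : Z.free n j ∈ maximalIdeal (Z.L n).R :=
  (Z.exists_coordinates.choose_spec.choose_spec n).1 j

/-- The images of the variables. -/
def vals (n : ℕ) : Fin (nVars e (1 + g')) → (Z.L n).R :=
  blockTuple (Z.L n).coord (Fin.append (fun _ : Fin 1 => (Z.L n).a) (Z.free n))

omit [IsNoetherianRing R₁] in
theorem vals_mem (n : ℕ) (k : Fin (nVars e (1 + g'))) : Z.vals n k ∈ maximalIdeal (Z.L n).R :=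
  blockTuple_mem (Z.L n).coord_mem (fun j => by
    induction j using Fin.addCases with
    | left j => rw [Fin.append_left]; exact (Z.L n).a_mem
    | right j => rw [Fin.append_right]; exact Z.free_mem n j) k

/-- The coordinates on the `n`-th ring. -/
def coords (n : ℕ) : PS (Fin (nVars e (1 + g'))) 𝒪 →ₐ[𝒪] (Z.L n).R :=
  evalSeries (Z.vals n) (Z.vals_mem n)

omit [IsNoetherianRing R₁] in
@[simp]
theorem coords_X (n : ℕ) (k : Fin (nVars e (1 + g'))) :
    Z.coords n (MvPowerSeries.X k) = Z.vals n k :=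
  evalSeries_X _ _ k

omit [IsNoetherianRing R₁] in
theorem coords_surjective (n : ℕ) : Function.Surjective (Z.coords n) := by
  refine surjective_of_maximalIdeal_le (Z.L n).residue_surjective _
    (fun k => by rw [coords_X]; exact Z.vals_mem n k)
    ((Z.exists_coordinates.choose_spec.choose_spec n).2.2.trans ?_)
  simp only [coords_X, relIdeal]
  refine sup_le (sup_le (sup_le ?_ (le_sup_right.trans le_sup_left)) le_sup_right) ?_
  · refine le_trans (Ideal.span_mono ?_) (le_sup_left.trans le_sup_left)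
    rintro _ ⟨k, rfl⟩
    obtain ⟨⟨i, c⟩ | j, rfl⟩ := varIdx_cases k
    · exact ⟨varIdx (.inl ⟨i, c⟩), by simp [vals]⟩
    · exact ⟨varIdx (.inr (Fin.castAdd g' j)), by simp [vals]⟩
  · refine le_trans (Ideal.span_mono ?_) (le_sup_left.trans le_sup_left)
    rintro _ ⟨j, rfl⟩
    exact ⟨varIdx (.inr (Fin.natAdd 1 j)), by simp [vals]; rfl⟩

omit [IsNoetherianRing R₁] in
/-- A series in the prescribed coordinate of the top rings, on the flat ones. -/
theorem q_coords_extraEmb (n : ℕ) (s : PS (Fin 1) 𝒪) :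
    (Z.L n).q (Z.coords n (extraEmb g' s)) =
      evalSeries (fun _ : Fin 1 => (Y.L n).extra 0) (fun _ => (Y.L n).extra_mem 0) s := by
  have h : ((Z.L n).q.comp (Z.coords n)).comp (extraEmb g') =
      evalSeries (fun _ : Fin 1 => (Y.L n).extra 0) (fun _ => (Y.L n).extra_mem 0) := by
    refine algHom_ext_series (fun k => ?_) fun k => ?_
    · rw [AlgHom.comp_apply, extraEmb, evalSeries_X, AlgHom.comp_apply, extraVar, coords_X]
      exact Z.q_mem_maximalIdeal n (Z.vals_mem n _)
    · simp [extraEmb, extraVar, vals, (Z.L n).q_a]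
  exact AlgHom.congr_fun h s

/-- The coordinates on the finite top level. -/
def aug : PS (Fin (nVars e (1 + g'))) 𝒪 →ₐ[𝒪] R₁ := (Z.L 0).proj.comp (Z.coords 0)

omit [IsNoetherianRing R₁] in
theorem aug_surjective : Function.Surjective Z.aug :=
  (Z.L 0).proj_surjective.comp (Z.coords_surjective 0)

variable [IsAdicComplete (maximalIdeal R₁) R₁]

omit [IsNoetherianRing R₁] in
/-- The coordinates are compatible with the maps to the finite top level. -/
theorem proj_coords (n : ℕ) (f : PS (Fin (nVars e (1 + g'))) 𝒪) :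
    (Z.L n).proj (Z.coords n f) = Z.aug f := by
  have H : (Z.L n).proj.comp (Z.coords n) = Z.aug := by
    refine algHom_ext_series (fun k => ?_) fun k => ?_
    · rw [AlgHom.comp_apply, coords_X]
      exact Z.map_mem_maximalIdeal_proj n (Z.vals_mem n k)
    · simp only [aug, AlgHom.comp_apply, coords_X, vals]
      obtain ⟨⟨i, c⟩ | j, rfl⟩ := varIdx_cases k
      · rw [blockTuple_inl, blockTuple_inl, (Z.L n).proj_coord, (Z.L 0).proj_coord]
      · rw [blockTuple_inr, blockTuple_inr]
        induction j using Fin.addCases with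
        | left j => rw [Fin.append_left, Fin.append_left, (Z.L n).proj_a, (Z.L 0).proj_a]
        | right j =>
          rw [Fin.append_right, Fin.append_right]
          exact ((Z.exists_coordinates.choose_spec.choose_spec n).2.1 j).trans
            ((Z.exists_coordinates.choose_spec.choose_spec 0).2.1 j).symm
  exact AlgHom.congr_fun H f

/-- The patched top level. -/
def top : PatchBase 𝒪 D T.d (PS (Fin (nVars e (1 + g'))) 𝒪) (T.A.comp Z.aug.toRingHom) where
  J n := (Y.L n).J
  J_aug n := (Y.L n).J_aug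
  J_trunc := Y.trunc_le
  act n := (Z.L n).act.comp (Z.coords n).toRingHom
  act_aug n f := by
    show ((Z.L n).act (Z.coords n f)).map _ = T.A (Z.aug f)
    rw [(Z.L n).act_aug, proj_coords]

/-- The last flat level, acted on by the coordinates of the top. -/
def mid : PatchBase 𝒪 D (S₀.d m) (PS (Fin (nVars e (1 + g'))) 𝒪)
    ((S₀.A m).comp (T.π.comp Z.aug).toRingHom) where
  J n := (Y.L n).J
  J_aug n := (Y.L n).J_aug
  J_trunc := Y.trunc_le
  act n := ((Y.L n).act m).comp ((Z.L n).q.comp (Z.coords n)).toRingHom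
  act_aug n f := by
    show ((Y.L n).act m ((Z.L n).q (Z.coords n f))).map _ = S₀.A m (T.π (Z.aug f))
    rw [(Y.L n).act_aug, ← (Z.L n).proj_q, proj_coords]

variable [Finite (ResidueField 𝒪)]

/-- A series in the diamonds is a scalar of the patched top level, by an element killed by the
augmentation when the series has no constant term. -/
theorem exists_scalar (s : PS (Fin D) 𝒪) : ∃ r,
    Z.top.limit r = Matrix.scalar (Fin T.d) s ∧
      (MvPowerSeries.constantCoeff s = 0 → Z.aug r = 0) := by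
  classical
  have : Finite (ResidueField (PS (Fin (nVars e (1 + g'))) 𝒪)) := finite_residueField_series _
  choose f hf using fun n => Z.coords_surjective n (evalSeries (Z.L n).dia (Z.L n).dia_mem s)
  obtain ⟨r, hclose, hr⟩ := Z.top.exists_limit_of_seq f
  refine ⟨r, PatchBase.matrix_ext fun k => ?_, fun hs => ?_⟩
  · obtain ⟨n, hle, hn⟩ := (hr k).exists
    rw [hn, show Z.top.act n (f n) = (Z.L n).act (Z.coords n (f n)) from rfl, hf,
      act_evalSeries_dia Z n]
    ext a b
    show Ideal.Quotient.factor hle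
        (Matrix.scalar (Fin T.d) (Ideal.Quotient.mk (Z.top.J n) s) a b) =
      Ideal.Quotient.mk _ (Matrix.scalar (Fin T.d) s a b)
    by_cases hab : a = b
    · subst hab
      simp only [Matrix.scalar_apply, Matrix.diagonal_apply_eq]
      exact Ideal.Quotient.factor_mk hle s
    · simp only [Matrix.scalar_apply, Matrix.diagonal_apply_ne _ hab]
      exact (map_zero (Ideal.Quotient.factor hle)).trans (map_zero _).symm
  · have h0 : ∀ n, Z.aug (f n) = 0 := fun n => by
      rw [← proj_coords Z n, hf]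
      have H : (Z.L n).proj.comp (evalSeries (Z.L n).dia (Z.L n).dia_mem) =
          (Algebra.ofId 𝒪 R₁).comp (evalSeries (fun _ : Fin D => (0 : 𝒪)) fun _ => zero_mem _) := by
        refine algHom_ext_series (fun i => ?_) fun i => ?_
        · rw [AlgHom.comp_apply, evalSeries_X, (Z.L n).proj_dia]
          exact zero_mem _
        · simp [(Z.L n).proj_dia]
      rw [← AlgHom.comp_apply, H, AlgHom.comp_apply]
      have hev : evalSeries (fun _ : Fin D => (0 : 𝒪)) (fun _ => zero_mem _) s =
          MvPowerSeries.constantCoeff s := by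
        let cc : PS (Fin D) 𝒪 →ₐ[𝒪] 𝒪 :=
          { MvPowerSeries.constantCoeff (σ := Fin D) (R := 𝒪) with
            commutes' := fun c => MvPowerSeries.constantCoeff_C c }
        have hcc : evalSeries (fun _ : Fin D => (0 : 𝒪)) (fun _ => zero_mem _) = cc :=
          algHom_ext_series (fun i => by rw [evalSeries_X]; exact zero_mem _)
            fun i => by rw [evalSeries_X]; exact (MvPowerSeries.constantCoeff_X i).symm
        exact AlgHom.congr_fun hcc s
      rw [hev, hs, map_zero]
    refine IsHausdorff.haus' (I := maximalIdeal R₁) _ fun k => ?_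
    rw [SModEq.zero, smul_eq_mul, Ideal.mul_top]
    obtain ⟨n, hn⟩ := (hclose k).exists
    have hm := Ideal.mem_map_of_mem (Z.aug : PS (Fin (nVars e (1 + g'))) 𝒪 →+* R₁) hn
    rw [Ideal.map_pow, map_maximalIdeal_of_surjective (Z.aug : PS (Fin (nVars e (1 + g'))) 𝒪 →+* R₁)
      Z.aug_surjective] at hm
    have : Z.aug (f n - r) ∈ maximalIdeal R₁ ^ k := hm
    rwa [map_sub, h0, zero_sub, neg_mem_iff] at this

variable [IsLocalRing R₀] [IsNoetherianRing R₀] [IsAdicComplete (maximalIdeal R₀) R₀]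
  [IsLocalHom (algebraMap 𝒪 R₀)]

omit [Finite (ResidueField 𝒪)] [IsNoetherianRing R₀] [IsAdicComplete (maximalIdeal R₀) R₀] in
/-- A series in the prescribed coordinate on the flat rings. -/
theorem coords_flat_extraEmb (n : ℕ) (s : PS (Fin 1) 𝒪) :
    Y.coords n (extraEmb g s) =
      evalSeries (fun _ : Fin 1 => (Y.L n).extra 0) (fun _ => (Y.L n).extra_mem 0) s := by
  have h : (Y.coords n).comp (extraEmb g) =
      evalSeries (fun _ : Fin 1 => (Y.L n).extra 0) (fun _ => (Y.L n).extra_mem 0) := by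
    refine algHom_ext_series (fun k => ?_) fun k => ?_
    · rw [AlgHom.comp_apply, extraEmb, evalSeries_X, extraVar, RaiseSys.coords_X]
      exact Y.vals_mem n _
    · simp [extraEmb, extraVar, RaiseSys.vals]
  exact AlgHom.congr_fun h s

omit [IsAdicComplete (maximalIdeal R₁) R₁] [IsNoetherianRing R₁] [Finite (ResidueField 𝒪)]
    [IsNoetherianRing R₀] [IsAdicComplete (maximalIdeal R₀) R₀] in
/-- A series in the coordinates at a raised prime of the top rings, on the flat ones. -/
theorem q_coords_blockEmb (n : ℕ) (i : Fin m) (s : PS (Fin (e i)) 𝒪) :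
    (Z.L n).q (Z.coords n (blockEmb (1 + g') i s)) = Y.coords n (blockEmb (1 + g) i s) := by
  have h : ((Z.L n).q.comp (Z.coords n)).comp (blockEmb (1 + g') i) =
      (Y.coords n).comp (blockEmb (1 + g) i) := by
    refine algHom_ext_series (fun k => ?_) fun k => ?_
    · rw [AlgHom.comp_apply, blockEmb, evalSeries_X, AlgHom.comp_apply, coords_X]
      exact Z.q_mem_maximalIdeal n (Z.vals_mem n _)
    · simp [blockEmb, vals, RaiseSys.vals, (Z.L n).q_coord]
  exact AlgHom.congr_fun h s

/-- The component raised everywhere, with the prescribed coordinate zero, on the top level. -/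
theorem ker_le_top :
    RingHom.ker Z.top.limit ≤ extraIdeal g' (pick B fun i => (B i).st) := by
  classical
  have : IsDomain (PS (Fin D) 𝒪) := NoZeroDivisors.to_isDomain _
  have : Finite (ResidueField (PS (Fin (nVars e (1 + g'))) 𝒪)) := finite_residueField_series _
  have : Finite (ResidueField (PS (Fin (nVars e (1 + g))) 𝒪)) := finite_residueField_series _
  have hfwd : ∀ x, ∃ y, (Y.sys m).limit y = Z.mid.limit x := fun x =>
    exists_eq_limit Z.mid.act_aug (Y.sys m).act_aug
      (fun n z => (Y.coords_surjective n ((Z.L n).q (Z.coords n z))).imp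
        fun _ => congrArg ((Y.L n).act m)) x
  have hbwd : ∀ y, ∃ x, Z.mid.limit x = (Y.sys m).limit y := fun y =>
    exists_eq_limit (Y.sys m).act_aug Z.mid.act_aug
      (fun n z => (((Z.L n).q_surjective.comp (Z.coords_surjective n)) (Y.coords n z)).imp
        fun _ => congrArg ((Y.L n).act m)) y
  have hker : RingHom.ker (Y.sys m).limit ≤ extraIdeal g (pick B fun i => (B i).st) :=
    Y.tower.ker_le_top.trans (compIdeal_le_extraIdeal g _)
  set Qf := extraIdeal g (pick B fun i => (B i).st)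
  choose σ hσ using hfwd
  have hwell : ∀ {x y}, (Y.sys m).limit y = Z.mid.limit x → σ x - y ∈ Qf := fun {x y} h =>
    hker (RingHom.mem_ker.mpr (by rw [map_sub, hσ, h, sub_self]))
  let τ : PS (Fin (nVars e (1 + g'))) 𝒪 →+* PS (Fin (nVars e (1 + g))) 𝒪 ⧸ Qf :=
    { toFun := fun x => Ideal.Quotient.mk Qf (σ x)
      map_one' := Ideal.Quotient.eq.mpr (hwell (by rw [map_one, map_one]))
      map_zero' := Ideal.Quotient.eq.mpr (hwell (by rw [map_zero, map_zero]))
      map_mul' := fun x y => by
        rw [← map_mul]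
        exact Ideal.Quotient.eq.mpr (hwell (by rw [map_mul, map_mul, hσ, hσ]))
      map_add' := fun x y => by
        rw [← map_add]
        exact Ideal.Quotient.eq.mpr (hwell (by rw [map_add, map_add, hσ, hσ])) }
  have : IsDomain (PS (Fin (nVars e (1 + g))) 𝒪 ⧸ Qf) := Ideal.Quotient.isDomain Qf
  have hτ : ∀ x y, (∀ n, (Z.L n).q (Z.coords n x) = Y.coords n y) →
      (x ∈ RingHom.ker τ ↔ y ∈ Qf) := by
    intro x y h
    have he : (Y.sys m).limit y = Z.mid.limit x := by
      rw [← matLim_act (Y.sys m) y, ← matLim_act Z.mid x]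
      exact congrArg _ (funext fun n => by
        show (Y.L n).act m (Y.coords n y) = (Y.L n).act m ((Z.L n).q (Z.coords n x))
        rw [h n])
    have h1 := hwell he
    rw [RingHom.mem_ker, show τ x = Ideal.Quotient.mk Qf (σ x) from rfl,
      Ideal.Quotient.eq_zero_iff_mem]
    exact ⟨fun h2 => by simpa using sub_mem h2 h1, fun h2 => by simpa using add_mem h1 h2⟩
  let ι := ∀ i, Fin (B i).K
  have hdim : ∀ c : ι, ringKrullDim (PS (Fin (nVars e (1 + g'))) 𝒪 ⧸ extraIdeal g' (pick B c)) ≤
      ((D + 1 : ℕ) : WithBot ℕ∞) := fun c => by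
    refine (ringKrullDim_quotient_extraIdeal_le g' _ fun i => (B i).hasParams (c i)).trans ?_
    have h : ∑ i, (pick B c i).f ≤ ∑ i, (B i).w := Finset.sum_le_sum fun i _ => (B i).f_le (c i)
    have hp := Z.params
    exact Nat.cast_le.mpr (by
      show ∑ i, (pick B c i).f + g' + 1 ≤ D + 1
      omega)
  have hscal' : ∀ s, ∃ r, Z.mid.limit r = Matrix.scalar (Fin (S₀.d m)) s := fun s => by
    obtain ⟨y, hy, -⟩ := Y.exists_scalar s
    obtain ⟨x, hx⟩ := hbwd y
    exact ⟨x, hx.trans (hy m le_rfl)⟩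
  have hQ : RingHom.ker Z.mid.limit ≤ RingHom.ker τ := fun x hx => by
    rw [RingHom.mem_ker, show τ x = Ideal.Quotient.mk Qf (σ x) from rfl,
      Ideal.Quotient.eq_zero_iff_mem]
    exact hker (RingHom.mem_ker.mpr ((hσ x).trans (RingHom.mem_ker.mp hx)))
  have : (RingHom.ker τ).IsPrime := RingHom.ker_isPrime τ
  refine ker_le_step (J := fun n => (Y.L n).J) (haug := fun n => (Y.L n).J_aug)
    (hJ := Y.trunc_le) (A' := (S₀.A m).comp (T.π.comp Z.aug).toRingHom)
    (A'' := T.A.comp Z.aug.toRingHom) (h' := Z.mid.act_aug) (h'' := Z.top.act_aug) (RingHom.id _)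
    (fun n => (Z.L n).up) (fun n => (Z.L n).down)
    (fun n r => (Z.L n).up_comm _) (fun n r => (Z.L n).down_comm _)
    (fun n => (Z.L n).up_inv) (fun n => (Z.L n).down_inv)
    (extraEmb g' (T.G 0 0)) (extraEmb g' (T.G 0 1)) (extraEmb g' (T.G 1 0)) (extraEmb g' (T.G 1 1))
    (fun n => ?_) hscal' (fun s => (Z.exists_scalar s).imp fun _ hr => hr.1)
    (fun c : ι => extraIdeal g' (pick B c)) (fun c => extraIdeal_isPrime g' _) hdim
    (fun t ht n => ?_) (RingHom.ker τ) hQ ?_ (fun i => (B i).st) ?_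
  · show (Z.L n).down * (Z.L n).up = _
    rw [(Z.L n).down_up]
    simp only [mid, RingHom.comp_apply, AlgHom.toRingHom_eq_coe, RingHom.coe_coe,
      AlgHom.comp_apply, q_coords_extraEmb]
  · refine (Z.L n).kill_new _ fun b hb => ?_
    obtain ⟨ha, hr⟩ := (Z.L n).new_reach b hb
    choose c hc using hr
    have hmem : zeroExtra g' t ∈ compIdeal g' (pick B c) := ht c
    let v : Fin (nVars e g') → (Z.L n).F b :=
      blockTuple (fun i k => (Z.L n).pt b ((Z.L n).coord i k)) fun j => (Z.L n).pt b (Z.free n j)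
    have hv : ∀ k, v k ∈ maximalIdeal _ := blockTuple_mem
      (fun i k => (Z.L n).pt_mem b _ ((Z.L n).coord_mem i k))
      fun j => (Z.L n).pt_mem b _ (Z.free_mem n j)
    have hloc : ∀ x ∈ maximalIdeal 𝒪, algebraMap 𝒪 ((Z.L n).F b) x ∈ maximalIdeal _ :=
      fun x hx => by
        rw [← ((Z.L n).pt b).commutes]
        exact (Z.L n).pt_mem b _ (map_nonunit (algebraMap 𝒪 (Z.L n).R) x hx)
    have hfac : (evalSeries v hv).comp (zeroExtra g') = ((Z.L n).pt b).comp (Z.coords n) := by
      refine (algHom_ext_series (fun k => ?_) fun k => ?_).symm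
      · rw [AlgHom.comp_apply, coords_X]; exact (Z.L n).pt_mem b _ (Z.vals_mem n k)
      · simp only [AlgHom.comp_apply, coords_X, zeroExtra, evalSeries_X]
        obtain ⟨⟨i, k⟩ | j, rfl⟩ := varIdx_cases k
        · simp [vals, v]
        · induction j using Fin.addCases with
          | left j => simp [vals, ha]
          | right j => simp [vals, v]
    show (Z.L n).pt b (Z.coords n t) = 0
    rw [← AlgHom.comp_apply, ← hfac, AlgHom.comp_apply]
    exact map_eq_zero_of_reaches (F := (Z.L n).F b) (fun i => pick B c i) hloc (evalSeries v hv)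
      (fun k => by rw [evalSeries_X]; exact hv k)
      (fun i => by simpa [v] using hc i) hmem
  · rw [← map_mul, ← map_mul, ← map_sub]
    generalize hu : T.G 0 0 * T.G 1 1 - T.G 0 1 * T.G 1 0 = u
    have hu0 : MvPowerSeries.constantCoeff u = 0 := hu ▸ T.G_det
    have hz : extraEmb g u ∈ Qf := by
      rw [mem_extraIdeal, zeroExtra_extraEmb, hu0, map_zero]
      exact zero_mem _
    have hn : ∀ n, (Z.L n).q (Z.coords n (extraEmb g' u)) = Y.coords n (extraEmb g u) := fun n =>
      (Z.q_coords_extraEmb n u).trans (coords_flat_extraEmb n u).symm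
    exact (hτ (extraEmb g' u) (extraEmb g u) hn).mpr hz
  · intro c hne
    obtain ⟨i, hi⟩ : ∃ i, c i ≠ (B i).st := by
      by_contra hall
      push Not at hall
      exact hne (funext hall)
    obtain ⟨x, hx, hx'⟩ := (B i).sep (c i) hi
    refine ⟨blockEmb (1 + g') i x, ?_, fun hmem => ?_⟩
    · rw [mem_extraIdeal, zeroExtra_blockEmb]
      exact blockEmb_mem_compIdeal g' (pick B c) hx
    · have h1 : zeroExtra g (blockEmb (1 + g) i x) ∈ compIdeal g (pick B fun i => (B i).st) :=
        (hτ _ _ fun n => Z.q_coords_blockEmb n i x).mp hmem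
      rw [zeroExtra_blockEmb] at h1
      exact blockEmb_notMem_compIdeal g (pick B fun i => (B i).st) hx' h1

include Z in
/-- **A point on `a = 0` and on the component raised everywhere is a point of the top level.** -/
theorem ker_le_point (w : R₁ →ₐ[𝒪] 𝒪) (hwm : ∀ x ∈ maximalIdeal R₁, w x ∈ maximalIdeal 𝒪)
    (hreach : ∀ i, ((B i).comp (B i).st).Reaches fun c => w (T.coord i c))
    (ha : w T.a = 0) {x : R₁} (hx : T.A x = 0) : w x = 0 := by
  classical
  let ψ : PS (Fin (nVars e (1 + g'))) 𝒪 →ₐ[𝒪] 𝒪 := w.comp Z.aug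
  let Q : Ideal (PS (Fin (nVars e (1 + g'))) 𝒪) := RingHom.ker ψ
  have : Q.IsPrime := RingHom.ker_isPrime _
  have haug : ∀ k, Z.aug (MvPowerSeries.X k) = (Z.L 0).proj (Z.vals 0 k) := fun k => by simp [aug]
  let v : Fin (nVars e g') → 𝒪 := blockTuple (fun i c => w (T.coord i c))
    fun j => w ((Z.L 0).proj (Z.free 0 j))
  have hv : ∀ k, v k ∈ maximalIdeal 𝒪 := blockTuple_mem
    (fun i c => hwm _ ((Z.L 0).proj_coord i c ▸
      Z.map_mem_maximalIdeal_proj 0 ((Z.L 0).coord_mem i c)))
    fun j => hwm _ (Z.map_mem_maximalIdeal_proj 0 (Z.free_mem 0 j))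
  have hfac : (evalSeries v hv).comp (zeroExtra g') = ψ := by
    refine (algHom_ext_series (fun k => ?_) fun k => ?_).symm
    · rw [AlgHom.comp_apply, haug]
      exact hwm _ (Z.map_mem_maximalIdeal_proj 0 (Z.vals_mem 0 k))
    · simp only [ψ, AlgHom.comp_apply, haug, zeroExtra, evalSeries_X]
      obtain ⟨⟨i, c⟩ | j, rfl⟩ := varIdx_cases k
      · simp [vals, v, (Z.L 0).proj_coord]
      · induction j using Fin.addCases with
        | left j => simp [vals, (Z.L 0).proj_a, ha]
        | right j => simp [vals, v]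
  have hQ : RingHom.ker Z.top.limit ≤ Q := fun t ht => RingHom.mem_ker.mpr (by
    rw [← hfac, AlgHom.comp_apply]
    exact map_eq_zero_of_reaches (F := 𝒪) (fun i => (B i).comp (B i).st) (fun c hc => hc)
      (evalSeries v hv) (fun k => by rw [evalSeries_X]; exact hv k)
      (fun i => by simpa [v] using hreach i) (Z.ker_le_top ht))
  obtain ⟨f, rfl⟩ := Z.aug_surjective x
  refine ker_aug_le Z.top (fun s => (Z.exists_scalar s).imp fun _ hr => hr.1) Q hQ
    (fun i => ?_) (RingHom.mem_ker.mpr hx)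
  obtain ⟨r, hr, hr0⟩ := Z.exists_scalar (MvPowerSeries.X i)
  refine ⟨r, RingHom.mem_ker.mpr ?_, hr⟩
  show w (Z.aug r) = 0
  rw [hr0 (MvPowerSeries.constantCoeff_X i), map_zero]

end LastSys

end Fermat.Agent.Raising
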