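import Fermat.Agent.Attach.Inputs
import Fermat.Agent.LevelLowering.TWPoint
import Fermat.Agent.Raising.AtResidualPrime.LastInputs
import Fermat.Agent.SquareLevel.GluePush
import Fermat.Agent.TwoComponent.Ordinary.Geo
import Fermat.Agent.TwoComponent.Ordinary.Main

/-!
# Points of a level exactly divisible by `p` are ordinary

A residually ordinary point of a Taylor–Wiles level exactly divisible by `p` has a twisted level
exactly divisible by `p`, so it is ordinary at `p`.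
-/

noncomputable section

open scoped MatrixGroups
open IsLocalRing Fermat.Agent.Grp Fermat.Agent.Ihara Fermat.Agent.LevelLowering

namespace Fermat.Agent.Raising.AtResidualPrime

local notation "Qbar" => AlgebraicClosure ℚ

/-- `IsOrdinaryAt` in the shape with bases. -/
theorem hasOrdBases_of_isOrdinaryAt {R : Type} [CommRing R] [IsLocalRing R] {ρ : GaloisRepAdic R}
    {p : ℕ} (h : ρ.IsOrdinaryAt p) : HasOrdBases ρ p := fun A hA => by
  obtain ⟨L, ⟨b, rfl⟩, hD, hI⟩ := h A hA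
  exact ⟨b, hD, hI⟩

variable {O : Type} [CommRing O] [IsDomain O] [IsDiscreteValuationRing O]
  [IsAdicComplete (maximalIdeal O) O] [Finite (ResidueField O)] [CharZero O]
  {p r : ℕ} [Fact p.Prime] {lv : Fin r → ℕ} {qs : Fin r → ℕ} {N : ℕ} [NeZero N]
  {Ψ : (ZMod N)ˣ →* DiaGroup p lv} {hΨ : Function.Surjective Ψ}
  {hneg : (-1 : SL(2, ℤ)) ∈ GammaPsi Ψ} {S : Finset ℕ}
  {hNS : ∀ l : ℕ, l.Prime → l ∣ N → l ∈ S} {a : Nat.Primes → ResidueField O}

omit [Finite (ResidueField O)] [CharZero O] in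
/-- **A point of a level exactly divisible by `p` is ordinary.** -/
theorem hasOrdBases_of_point (P : TWPoint qs Ψ hΨ hneg S hNS a) (hp2 : p ≠ 2)
    (hp : (p : O) ∈ maximalIdeal O) (hqs : ∀ i, qs i ≠ p) (hpN : p ∣ N) (hp2N : ¬ p ^ 2 ∣ N)
    (hres : (GaloisRepAdic.ofResidualGaloisRep P.H.ρ.residual).IsOrdinaryAt p) :
    HasOrdBases P.H.ρ p := by
  have hpp : p.Prime := Fact.out
  have hd : p ∣ P.level := (P.dvd_iff p hpp).mpr hpN
  have hd2 : ¬ p ^ 2 ∣ P.level := fun h =>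
    hp2N ((P.sq_dvd p hpp fun i hi => absurd hi (hqs i)).mp h)
  obtain ⟨M₀, hM₀⟩ := hd
  rw [mul_comm] at hM₀
  have : NeZero M₀ := ⟨fun h => NeZero.ne P.level (by rw [hM₀, h, zero_mul])⟩
  have : NeZero p := ⟨hpp.ne_zero⟩
  have hpM : ¬ p ∣ M₀ := fun h => hd2 (by rw [hM₀, sq]; exact Nat.mul_dvd_mul h dvd_rfl)
  have key : ∀ (L : ℕ) (_ : NeZero L) (e : L = M₀ * p)
      (π : CuspForm.heckeAlgebra L 2 (↑S : Set ℕ) →+* P.R) (_ : ∀ l, l.Prime → l ∣ L → l ∈ S)
      (_ : ∀ (ℓ : ℕ) (hℓ : ℓ.Prime) (hℓN : ¬ ℓ ∣ L) (hℓS : ℓ ∉ (↑S : Set ℕ)),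
        ∀ A : ValuationSubring Qbar, A.LiesOverPrime ℓ →
          ∀ σ : Qbar ≃ₐ[ℚ] Qbar, A.IsFrobeniusAt σ ℓ → LinearMap.charpoly (P.H.ρ.ρ σ) =
            Polynomial.X ^ 2 - Polynomial.C (π (CuspForm.heckeAlgebra.T hℓ hℓN hℓS)) *
              Polynomial.X + Polynomial.C ((ℓ : P.R))),
      P.H.ρ.IsOrdinaryAt p := by
    intro L _ e π hLS hfrob
    subst e
    exact TwoComponent.Ordinary.isOrdinaryAt_of_hom hp2 (P.natCast_mem hp)
      (hLS p hpp (dvd_mul_left p M₀))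
      (fun l hl h => hLS l hl h) (Attach.nonempty_jacobianInputs (M₀ * p) p).some
      (SquareLevel.pushAlpha M₀ p) (SquareLevel.pushBeta M₀ p) (SquareLevel.pushAlpha_smul M₀ p)
      (SquareLevel.pushBeta_smul M₀ p) (fun A hA => TwoComponent.Ordinary.hasConnectedPart M₀ p
        hp2 hpM hA)
      (fun A hA => TwoComponent.Ordinary.hasToricPart M₀ p hpM hA) π (Subsingleton.elim _ _)
        P.H.ρ hfrob
      P.H.residual_absIrr hres
  exact hasOrdBases_of_isOrdinaryAt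
    (key P.level inferInstance hM₀ P.H.π P.level_mem P.H.charpoly_frob)

end Fermat.Agent.Raising.AtResidualPrime
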