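import Fermat.Prelude.Def_ModularCurve_ReductionModL
import Fermat.Agent.Flat.ModularClass

/-!
# Reduced ideals and reduced divisors

For an affine ideal of the good model with divisor `E`, the functions of bounded pole order in the
reduced ideal are the Riemann–Roch space of the reduced divisor, for any place reduction.
-/

noncomputable section

namespace Fermat.Agent.Raising.AtResidualPrime

open ModularCurve AlgebraicCurve Module Fermat.Agent.Flat Fermat.Agent.Flat.GoodModel
open Fermat.Agent.FF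
open scoped TensorProduct

local notation "Qbar" => AlgebraicClosure ℚ

section Affine

variable {K F : Type*} [Field K] [Field F] [Algebra K F] [IsAlgClosed K]
  [Fermat.Agent.FF.IsFunctionField K F] {P : Place K F}

omit [IsAlgClosed K] [Fermat.Agent.FF.IsFunctionField K F] in
theorem divIdeal_zero : AC.divIdeal P (0 : Divisor K F) = ⊤ := by
  refine (Ideal.eq_top_iff_one _).mpr (AC.mem_divIdeal.mpr fun v _ => Or.inr ?_)
  simp

omit [IsAlgClosed K] [Fermat.Agent.FF.IsFunctionField K F] in
theorem off_sub_single {Z : Divisor K F} (hZ : AC.Off P Z) {v : Place K F} (hv : 0 < Z v) :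
    AC.Off P (Z - Finsupp.single v 1) := by
  classical
  have hvP : v ≠ P := fun h => by rw [h, hZ.1] at hv; exact lt_irrefl 0 hv
  refine ⟨by rw [Finsupp.sub_apply, hZ.1, (AC.off_single (P := P) hvP).1, sub_zero], fun w => ?_⟩
  rw [Finsupp.zero_apply, Finsupp.sub_apply, Finsupp.single_apply]
  split_ifs with h
  · subst h; omega
  · rw [sub_zero]; exact hZ.2 w

/-- A maximal ideal containing the ideal of an effective divisor is a point of its support. -/
theorem exists_point_of_le {m : Ideal (AC.Reg P)} (hm : m.IsMaximal) : ∀ (e : ℕ) (Z : Divisor K F),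
    AC.Off P Z → (Divisor.degree Z).toNat ≤ e → AC.divIdeal P Z ≤ m →
      ∃ v, 0 < Z v ∧ m = AC.divIdeal P (Finsupp.single v 1) := by
  classical
  intro e
  induction e with
  | zero =>
    intro Z hZ hd hle
    have h0 : (AC.poleBasis P).codim (AC.divIdeal P Z) = 0 := by
      have h1 := AC.codim_divIdeal hZ
      omega
    rw [(AC.poleBasis P).eq_of_le_of_codim_le (AC.divIdeal_ne_bot hZ) le_top (by omega),
      top_le_iff] at hle
    exact absurd hle hm.ne_top
  | succ e ih =>
    intro Z hZ hd hle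
    by_cases hZ0 : Z = 0
    · subst hZ0
      rw [divIdeal_zero, top_le_iff] at hle
      exact absurd hle hm.ne_top
    obtain ⟨v, hv⟩ := Finsupp.ne_iff.mp hZ0
    have hpos : 0 < Z v := lt_of_le_of_ne (hZ.2 v) (fun h => hv h.symm)
    have hvP : v ≠ P := fun h => hv (by rw [h]; exact hZ.1)
    have hs := AC.off_single (P := P) hvP
    have hrest := off_sub_single hZ hpos
    rw [← add_sub_cancel (Finsupp.single v (1 : ℤ)) Z, ← AC.divIdeal_mul hs hrest] at hle
    rcases hm.isPrime.mul_le.mp hle with h | h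
    · refine ⟨v, hpos, ((AC.poleBasis P).eq_of_le_of_codim_le (AC.divIdeal_ne_bot hs) h ?_).symm⟩
      have h1 := AC.codim_divIdeal hs
      rw [Divisor.degree_single, place_deg_eq_one] at h1
      by_contra hlt
      rw [not_le] at hlt
      have := (AC.poleBasis P).eq_of_le_of_codim_le (I := m) (J := ⊤)
        (fun hb => AC.divIdeal_ne_bot hs (le_bot_iff.mp (hb ▸ h))) le_top (by omega)
      exact hm.ne_top this
    · obtain ⟨w, hw, hmw⟩ := ih _ hrest (by
        rw [map_sub, Divisor.degree_single, place_deg_eq_one]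
        omega) h
      refine ⟨w, ?_, hmw⟩
      rw [Finsupp.sub_apply, Finsupp.single_apply] at hw
      split_ifs at hw <;> omega

/-- An ideal containing the ideal of an effective divisor is the ideal of a divisor. -/
theorem exists_div_of_le : ∀ (d : ℕ) (Z : Divisor K F) (I : Ideal (AC.Reg P)), AC.Off P Z →
    (Divisor.degree Z).toNat ≤ d → AC.divIdeal P Z ≤ I →
      ∃ E, AC.Off P E ∧ I = AC.divIdeal P E := by
  classical
  have := (AC.poleBasis P).isDedekindDomain
  intro d
  induction d with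
  | zero =>
    intro Z I hZ hd hle
    have h0 : (AC.poleBasis P).codim (AC.divIdeal P Z) = 0 := by
      have h1 := AC.codim_divIdeal hZ
      omega
    have htop : AC.divIdeal P Z = ⊤ :=
      (AC.poleBasis P).eq_of_le_of_codim_le (AC.divIdeal_ne_bot hZ) le_top (by omega)
    exact ⟨0, AC.Off.zero, by rw [divIdeal_zero, eq_top_iff, ← htop]; exact hle⟩
  | succ d ih =>
    intro Z I hZ hd hle
    by_cases hI : I = ⊤
    · exact ⟨0, AC.Off.zero, by rw [divIdeal_zero, hI]⟩
    obtain ⟨m, hm, hIm⟩ := Ideal.exists_le_maximal I hI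
    obtain ⟨v, hv, hmv⟩ := exists_point_of_le hm _ Z hZ le_rfl (hle.trans hIm)
    have hvP : v ≠ P := fun h => by rw [h, hZ.1] at hv; exact lt_irrefl 0 hv
    have hs := AC.off_single (P := P) hvP
    have hrest := off_sub_single hZ hv
    obtain ⟨I', hI'⟩ := Ideal.dvd_iff_le.mpr (hmv ▸ hIm)
    have hle' : AC.divIdeal P (Z - Finsupp.single v 1) ≤ I' := by
      have h1 : AC.divIdeal P (Finsupp.single v 1) * AC.divIdeal P (Z - Finsupp.single v 1) ≤
          AC.divIdeal P (Finsupp.single v 1) * I' := by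
        rw [AC.divIdeal_mul hs hrest, add_sub_cancel, ← hI']
        exact hle
      have h2 := Ideal.dvd_iff_le.mpr h1
      exact Ideal.dvd_iff_le.mp ((mul_dvd_mul_iff_left (AC.divIdeal_ne_bot hs)).mp h2)
    obtain ⟨E, hE, hEI⟩ := ih _ I' hrest (by
      rw [map_sub, Divisor.degree_single, place_deg_eq_one]
      omega) hle'
    exact ⟨Finsupp.single v 1 + E, hs.add hE, by rw [hI', hEI, AC.divIdeal_mul hs hE]⟩

/-- Every nonzero ideal of the affine algebra is the ideal of a divisor off `P`. -/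
theorem exists_div {I : Ideal (AC.Reg P)} (hI : I ≠ ⊥) :
    ∃ E, AC.Off P E ∧ I = AC.divIdeal P E := by
  obtain ⟨f, hf, hf0⟩ := Submodule.exists_mem_ne_zero_of_ne_bot hI
  have e := AC.span_mul_divIdeal (P := P) hf0 (AC.Off.zero (P := P))
  rw [divIdeal_zero, Ideal.mul_top, zero_add] at e
  exact exists_div_of_le _ _ I (AC.off_zerosOff f) le_rfl
    (e ▸ (Ideal.span_singleton_le_iff_mem I).mpr hf)

end Affine

/-- The functions on the special fibre as an algebra over the residue field; stated separately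
because the search for it through the series field is slow. -/
instance (priority := high) instAlgebraSpecialFunctions (N : ℕ) [NeZero N] {ℓ : ℕ} (v : Pl ℓ) :
    Algebra v.k (modularFunctionFieldFullC v.k N) :=
  (modularFunctionFieldFullC v.k N).algebra

/-- The module structure of `instAlgebraSpecialFunctions`. -/
instance (priority := high) instModuleSpecialFunctions (N : ℕ) [NeZero N] {ℓ : ℕ} (v : Pl ℓ) :
    Module v.k (modularFunctionFieldFullC v.k N) :=
  Algebra.toModule

/-- The functions on the generic fibre as an algebra over `ℚ̄`, stated separately likewise. -/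
instance (priority := high) instAlgebraGenericFunctions (N : ℕ) [NeZero N] :
    Algebra Qbar (modularFunctionFieldBar N) :=
  (modularFunctionFieldBar N).algebra

/-- The module structure of `instAlgebraGenericFunctions`. -/
instance (priority := high) instModuleGenericFunctions (N : ℕ) [NeZero N] :
    Module Qbar (modularFunctionFieldBar N) :=
  Algebra.toModule

variable {N : ℕ} [NeZero N] {ℓ : ℕ} [Fact ℓ.Prime] (hℓN : ¬ ℓ ∣ N)
  (hg : ∀ v : Pl ℓ, Mdl.GenusLe N v)

/-- The function of an element of the generic fibre. -/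
def genFun : (Mdl.model hℓN hg).R Qbar →ₗ[Qbar] modularFunctionFieldBar N :=
  (AC.Reg (Mdl.Pinf N)).val.toLinearMap.comp (Mdl.genEquiv hℓN hg).toLinearMap

theorem coe_genFun (x : (Mdl.model hℓN hg).R Qbar) :
    (genFun hℓN hg x : LaurentSeries Qbar) = (Mdl.lat N ℓ).phi Qbar x :=
  Mdl.coe_fibreEquiv (Mdl.fibreGeneric N ℓ) x

theorem genFun_injective : Function.Injective (genFun hℓN hg) :=
  Subtype.val_injective.comp (Mdl.genEquiv hℓN hg).injective

variable (v : Pl ℓ)

/-- The function of an element of the special fibre. -/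
def specFun : (Mdl.model hℓN hg).R v.k →ₗ[v.k] modularFunctionFieldFullC v.k N :=
  (AC.Reg (Mdl.redPlace hℓN hg v)).val.toLinearMap.comp
    (Mdl.fibreEquiv (Mdl.fibreSpecial hℓN hg v)).toLinearMap

theorem coe_specFun (x : (Mdl.model hℓN hg).R v.k) :
    (specFun hℓN hg v x : LaurentSeries v.k) = (Mdl.lat N ℓ).phi v.k x :=
  Mdl.coe_fibreEquiv (Mdl.fibreSpecial hℓN hg v) x

theorem specFun_injective : Function.Injective (specFun hℓN hg v) :=
  Subtype.val_injective.comp (Mdl.fibreEquiv (Mdl.fibreSpecial hℓN hg v)).injective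

theorem specFun_mul (x y : (Mdl.model hℓN hg).R v.k) :
    specFun hℓN hg v (x * y) = specFun hℓN hg v x * specFun hℓN hg v y :=
  congrArg (fun z : AC.Reg (Mdl.redPlace hℓN hg v) => (z : modularFunctionFieldFullC v.k N))
    (map_mul (Mdl.fibreEquiv (Mdl.fibreSpecial hℓN hg v)) x y)

/-- A series over the valuation ring inducing both fibres. -/
theorem exists_series_lat (Λ : Ser.Lat ℓ) (y : v.O ⊗[Zl ℓ] Λ.A) :
    ∃ Y : LaurentSeries v.O,
      coeffMap v.A.subtype Y =
        Λ.phi Qbar (Algebra.TensorProduct.map v.incl (AlgHom.id (Zl ℓ) Λ.A) y) ∧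
      coeffMap (IsLocalRing.residue v.O) Y =
        Λ.phi v.k (Algebra.TensorProduct.map v.res (AlgHom.id (Zl ℓ) Λ.A) y) := by
  induction y using TensorProduct.induction_on with
  | zero => exact ⟨0, by simp, by simp⟩
  | tmul c a =>
    refine ⟨HahnSeries.C c * coeffMap (algebraMap (Zl ℓ) v.O) (a : LaurentSeries (Zl ℓ)), ?_, ?_⟩
    · rw [map_mul, HahnSeries.C_apply, coeffMap_single, coeffMap_coeffMap,
        Algebra.TensorProduct.map_tmul, Ser.Lat.phi_tmul, Ser.smul_eq_algebraMap_mul,
        algebraMap_laurentSeries_eq_single]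
      rfl
    · rw [map_mul, HahnSeries.C_apply, coeffMap_single, coeffMap_coeffMap,
        Algebra.TensorProduct.map_tmul, Ser.Lat.phi_tmul, Ser.smul_eq_algebraMap_mul,
        algebraMap_laurentSeries_eq_single]
      rfl
  | add x y hx hy =>
    obtain ⟨Y, h1, h2⟩ := hx
    obtain ⟨Z, h3, h4⟩ := hy
    exact ⟨Y + Z, by rw [map_add, map_add, map_add, h1, h3],
      by rw [map_add, map_add, map_add, h2, h4]⟩

/-- An integral element and its reduction have a common series. -/
theorem exists_series {x : (Mdl.model hℓN hg).R Qbar} (hx : IsInt v x) :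
    ∃ Y : LaurentSeries v.O, coeffMap v.A.subtype Y = (genFun hℓN hg x : LaurentSeries Qbar) ∧
      coeffMap (IsLocalRing.residue v.O) Y =
        (specFun hℓN hg v (redR v x) : LaurentSeries v.k) := by
  obtain ⟨y, rfl⟩ := isInt_iff.mp hx
  rw [redR_chg, coe_genFun, coe_specFun]
  exact exists_series_lat v (Mdl.lat N ℓ) y

variable {r : Place Qbar (modularFunctionFieldBar N) →
    Place v.k (modularFunctionFieldFullC v.k N)}
  (hr : IsPlaceReductionAlong v.A (IsLocalRing.residue v.O) N r)

include hr in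
/-- Reduction takes a Riemann–Roch space into that of the reduced divisor. -/
theorem red_mem_rr {x : (Mdl.model hℓN hg).R Qbar} (hxi : IsInt v x)
    {D : Divisor Qbar (modularFunctionFieldBar N)}
    (hx : genFun hℓN hg x ∈ riemannRochSpace D) :
    specFun hℓN hg v (redR v x) ∈ riemannRochSpace (Finsupp.mapDomain r D) := by
  classical
  rcases eq_or_ne (redR v x) 0 with h0 | h0
  · rw [h0, map_zero]; exact Submodule.zero_mem _
  have hs0 : specFun hℓN hg v (redR v x) ≠ 0 := fun h =>
    h0 (specFun_injective hℓN hg v (h.trans (map_zero _).symm))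
  have hg0 : genFun hℓN hg x ≠ 0 := fun h => h0 (by
    rw [genFun_injective hℓN hg (h.trans (map_zero _).symm), redR_zero])
  obtain ⟨Y, hY, hYk⟩ := exists_series hℓN hg v hxi
  have hmap : ∀ Q, Finsupp.mapDomain r (divOf (genFun hℓN hg x)) Q =
      Q.ord (specFun hℓN hg v (redR v x)) := by
    intro Q
    have h := hr.2 Y (hY ▸ (genFun hℓN hg x).2) (hYk ▸ (specFun hℓN hg v (redR v x)).2)
      (fun h => hs0 (Subtype.ext (hYk.symm.trans h))) (divOf (genFun hℓN hg x))
      (fun P => congrArg P.ord (Subtype.ext hY.symm)) Q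
    rw [h]
    exact congrArg Q.ord (Subtype.ext hYk)
  rw [mem_rrSpace_of_ord hs0]
  intro Q
  have hnn : 0 ≤ D + divOf (genFun hℓN hg x) := fun P => by
    have := (mem_rrSpace_of_ord hg0).mp hx P
    rw [Finsupp.zero_apply, Finsupp.add_apply, divOf_apply]
    omega
  have h2 : 0 ≤ Finsupp.mapDomain r (D + divOf (genFun hℓN hg x)) Q := by
    rw [Finsupp.mapDomain, Finsupp.sum, Finsupp.finsetSum_apply]
    refine Finset.sum_nonneg fun P _ => ?_
    rw [Finsupp.single_apply]
    split_ifs
    · exact hnn P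
    · exact le_rfl
  rw [Finsupp.mapDomain_add, Finsupp.add_apply, hmap Q] at h2
  omega

theorem model_g : (Mdl.model hℓN hg).g = genusFF Qbar (modularFunctionFieldBar N) := rfl

theorem special_genus :
    genusFF v.k (modularFunctionFieldFullC v.k N) = (Mdl.model hℓN hg).g :=
  (Mdl.genus_eq hℓN v (hg v)).symm

/-- The filtration of the generic fibre is the one by the order at `∞`. -/
theorem mem_L_generic {n : ℕ} (hn : 2 * (Mdl.model hℓN hg).g ≤ n)
    (x : (Mdl.model hℓN hg).R Qbar) :
    x ∈ ((Mdl.model hℓN hg).P Qbar).L n ↔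
      genFun hℓN hg x ∈ riemannRochSpace (AC.nP (Mdl.Pinf N) n) := by
  have hle : ((Mdl.model hℓN hg).P Qbar).L n ≤
      (riemannRochSpace (AC.nP (Mdl.Pinf N) n)).comap (genFun hℓN hg) := by
    rw [(Mdl.model hℓN hg).L_generic n]
    refine Submodule.span_le.mpr ?_
    rintro _ ⟨s, hs, rfl⟩
    obtain ⟨w, hw, hws⟩ := (Mdl.fibreGeneric N ℓ).mem s
    show genFun hℓN hg ((Mdl.model hℓN hg).bK Qbar s) ∈ riemannRochSpace (AC.nP (Mdl.Pinf N) n)
    have e : genFun hℓN hg ((Mdl.model hℓN hg).bK Qbar s) = w := Subtype.ext (by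
      rw [coe_genFun, hws]
      exact Ser.Lat.phi_basis (Mdl.lat N ℓ) Qbar s)
    rw [e]
    have hsn : (s : ℕ) ≤ n := hs
    refine AC.mem_rr_nP.mpr ⟨(AC.mem_rr_nP.mp hw).1, (AC.mem_rr_nP.mp hw).2.imp id fun h => ?_⟩
    omega
  refine ⟨fun h => hle h, fun h => ?_⟩
  have hres : ∀ y ∈ (riemannRochSpace (AC.nP (Mdl.Pinf N) n)).comap (genFun hℓN hg),
      genFun hℓN hg y ∈ riemannRochSpace (AC.nP (Mdl.Pinf N) n) := fun _ hy => hy
  have hinj : Function.Injective ((genFun hℓN hg).restrict hres) := fun a b e =>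
    Subtype.ext (genFun_injective hℓN hg
      (show genFun hℓN hg a = genFun hℓN hg b from congrArg
        (fun z : ↥(riemannRochSpace (AC.nP (Mdl.Pinf N) n)) => (z : modularFunctionFieldBar N)) e))
  have heq : ((Mdl.model hℓN hg).P Qbar).L n =
      (riemannRochSpace (AC.nP (Mdl.Pinf N) n)).comap (genFun hℓN hg) := by
    have : FiniteDimensional Qbar
        ↥((riemannRochSpace (AC.nP (Mdl.Pinf N) n)).comap (genFun hℓN hg)) :=
      FiniteDimensional.of_injective _ hinj
    refine Submodule.eq_of_le_of_finrank_le hle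
      (le_trans (LinearMap.finrank_le_finrank_of_injective hinj) ?_)
    have hCg : ((Mdl.model hℓN hg).P Qbar).g = genusFF Qbar (modularFunctionFieldBar N) := rfl
    show ell (AC.nP (Mdl.Pinf N) n) ≤ _
    have := model_g hℓN hg
    have h1 := ((Mdl.model hℓN hg).P Qbar).finrank_L (n := n) (by omega)
    have h2 := ell_eq_of_large_degree (D := AC.nP (Mdl.Pinf N) n) (by
      rw [AC.degree_nP]; omega)
    rw [AC.degree_nP] at h2
    omega
  rw [heq]; exact h

/-- The divisor of an ideal of codimension `c`. -/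
theorem exists_idealOf {I : Ideal ((Mdl.model hℓN hg).R Qbar)} (hI : I ≠ ⊥) :
    ∃ E, AC.Off (Mdl.Pinf N) E ∧ I = Mdl.idealOf hℓN hg E ∧
      Divisor.degree E = (((Mdl.model hℓN hg).P Qbar).codim I : ℤ) := by
  have hI' : I.map (Mdl.genEquiv hℓN hg).toRingEquiv.toRingHom ≠ ⊥ := fun h =>
    hI ((Ideal.map_eq_bot_iff_of_injective (Mdl.genEquiv hℓN hg).injective).mp h)
  obtain ⟨E, hE, hEI⟩ := exists_div hI'
  have hmem : ∀ x, x ∈ I ↔ Mdl.genEquiv hℓN hg x ∈ AC.divIdeal (Mdl.Pinf N) E := fun x => by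
    rw [← hEI, Ideal.mem_map_iff_of_surjective (Mdl.genEquiv hℓN hg).toRingEquiv.toRingHom
      (Mdl.genEquiv hℓN hg).surjective]
    refine ⟨fun h => ⟨x, h, rfl⟩, ?_⟩
    rintro ⟨y, hy, hyx⟩
    exact (Mdl.genEquiv hℓN hg).injective hyx ▸ hy
  refine ⟨E, hE, Ideal.ext fun x => by rw [Mdl.mem_idealOf]; exact hmem x, ?_⟩
  set n := ((Mdl.model hℓN hg).P Qbar).codim I + 3 * (Mdl.model hℓN hg).g +
    (Divisor.degree E).toNat + 2 * (Mdl.model hℓN hg).g
  have hCg : ((Mdl.model hℓN hg).P Qbar).g = (Mdl.model hℓN hg).g := rfl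
  have h1 := ((Mdl.model hℓN hg).P Qbar).finrank_LI hI (n := n) (by omega)
  have heq : (((Mdl.model hℓN hg).P Qbar).LI I n).map (genFun hℓN hg) =
      riemannRochSpace (AC.nP (Mdl.Pinf N) n - E) := by
    ext f
    constructor
    · rintro ⟨x, hx, rfl⟩
      exact (AC.coe_mem_rr_sub hE (f := Mdl.genEquiv hℓN hg x)).mpr ⟨(hmem x).mp hx.1,
        AC.mem_L_poleBasis.mpr ((mem_L_generic hℓN hg (by omega) x).mp hx.2)⟩
    · intro hf
      have h := (AC.coe_mem_rr_sub hE (f := ⟨f, AC.mem_Reg_of_mem_rr hE hf⟩)).mp hf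
      refine ⟨(Mdl.genEquiv hℓN hg).symm ⟨f, AC.mem_Reg_of_mem_rr hE hf⟩,
        ⟨(hmem _).mpr ?_, ?_⟩, ?_⟩
      · rw [(Mdl.genEquiv hℓN hg).apply_symm_apply]; exact h.1
      · refine (mem_L_generic hℓN hg (by omega) _).mpr ?_
        show ((Mdl.genEquiv hℓN hg ((Mdl.genEquiv hℓN hg).symm _) : AC.Reg (Mdl.Pinf N)) :
          modularFunctionFieldBar N) ∈ _
        rw [(Mdl.genEquiv hℓN hg).apply_symm_apply]
        exact AC.mem_L_poleBasis.mp h.2
      · show ((Mdl.genEquiv hℓN hg ((Mdl.genEquiv hℓN hg).symm _) : AC.Reg (Mdl.Pinf N)) :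
          modularFunctionFieldBar N) = _
        rw [(Mdl.genEquiv hℓN hg).apply_symm_apply]
  have h2 : finrank Qbar ↥(((Mdl.model hℓN hg).P Qbar).LI I n) =
      ell (AC.nP (Mdl.Pinf N) n - E) := by
    rw [ell, ← heq]
    exact LinearEquiv.finrank_eq (Submodule.equivMapOfInjective _ (genFun_injective hℓN hg) _)
  have h3 := ell_eq_of_large_degree (D := AC.nP (Mdl.Pinf N) n - E) (by
    rw [map_sub, AC.degree_nP]
    have := degree_nonneg hE.2
    have := model_g hℓN hg
    omega)
  rw [map_sub, AC.degree_nP] at h3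
  have := model_g hℓN hg
  omega

/-- The part of pole order at most `n` of a reduced ideal, in the function field. -/
def redSpace (I : Ideal ((Mdl.model hℓN hg).R Qbar)) (n : ℕ) :
    Submodule v.k (modularFunctionFieldFullC v.k N) :=
  (((Mdl.model hℓN hg).P v.k).LI (redI v I) n).map (specFun hℓN hg v)

include hr in
/-- The reduced ideal against the reduced divisor. -/
theorem redSpace_eq {E : Divisor Qbar (modularFunctionFieldBar N)}
    (hE : AC.Off (Mdl.Pinf N) E) (hA : AFF v (Mdl.idealOf hℓN hg E))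
    (hdeg : Divisor.degree E = (((Mdl.model hℓN hg).P Qbar).codim (Mdl.idealOf hℓN hg E) : ℤ))
    {n : ℕ}
    (hn : ((Mdl.model hℓN hg).P Qbar).codim (Mdl.idealOf hℓN hg E) +
      3 * (Mdl.model hℓN hg).g ≤ n) :
    redSpace hℓN hg v (Mdl.idealOf hℓN hg E) n =
      riemannRochSpace (Finsupp.mapDomain r (AC.nP (Mdl.Pinf N) n - E)) := by
  have hgk := (Mdl.model hℓN hg).P_g v.k
  have hCg : ((Mdl.model hℓN hg).P Qbar).g = (Mdl.model hℓN hg).g := rfl
  have hCg'' := model_g hℓN hg
  set I := Mdl.idealOf hℓN hg E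
  have hle : redSpace hℓN hg v I n ≤
      riemannRochSpace (Finsupp.mapDomain r (AC.nP (Mdl.Pinf N) n - E)) := by
    rintro _ ⟨z, hz, rfl⟩
    have hzv : (Mdl.model hℓN hg).vec v.k n z ∈
        redSub v.A ((Mdl.model hℓN hg).vLI Qbar I n) :=
      (hA.redSub_vLI (n := n) (by omega)).symm ▸ ⟨z, hz, rfl⟩
    rw [← (Mdl.model hℓN hg).unvec_vec v.k (n := n) (by omega) hz.2]
    have hsub : redSub v.A ((Mdl.model hℓN hg).vLI Qbar I n) ≤
        (riemannRochSpace (Finsupp.mapDomain r (AC.nP (Mdl.Pinf N) n - E))).comap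
          ((specFun hℓN hg v).comp ((Mdl.model hℓN hg).unvec v.k n)) := by
      refine Submodule.span_le.mpr ?_
      rintro _ ⟨a, ⟨ha, hai⟩, rfl⟩
      simp only [SetLike.mem_coe, Submodule.mem_comap, LinearMap.comp_apply]
      have hai' : IsInt v ((Mdl.model hℓN hg).unvec Qbar n a) := isInt_unvec hai
      have e : (Mdl.model hℓN hg).unvec v.k n (fun i => red v.A (a i)) =
          redR v ((Mdl.model hℓN hg).unvec Qbar n a) := by
        conv_rhs => rw [← (Mdl.model hℓN hg).unvec_vec v.k (n := n) (by omega)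
          (redR_mem_L ((Mdl.model hℓN hg).unvec_mem Qbar n a))]
        rw [vec_redR, (Mdl.model hℓN hg).vec_unvec]
      rw [e]
      refine red_mem_rr hℓN hg v hr hai' ?_
      exact (AC.coe_mem_rr_sub hE).mpr
        ⟨(Mdl.mem_idealOf hℓN hg).mp ((Mdl.model hℓN hg).mem_vLI.mp ha),
          AC.mem_L_poleBasis.mpr ((mem_L_generic hℓN hg (by omega) _).mp
            ((Mdl.model hℓN hg).unvec_mem Qbar n a))⟩
    exact hsub hzv
  refine Submodule.eq_of_le_of_finrank_le hle ?_
  have h1 := ((Mdl.model hℓN hg).P v.k).finrank_LI (redI_ne_bot v hA.1) (n := n)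
    (by have := hA.2; omega)
  have h2 : finrank v.k ↥(redSpace hℓN hg v I n) =
      finrank v.k ↥(((Mdl.model hℓN hg).P v.k).LI (redI v I) n) :=
    (LinearEquiv.finrank_eq
      (Submodule.equivMapOfInjective _ (specFun_injective hℓN hg v) _)).symm
  have hdegr : Divisor.degree (Finsupp.mapDomain r (AC.nP (Mdl.Pinf N) n - E)) =
      (n : ℤ) - Divisor.degree E := by
    rw [degree_mapDomain_of_deg_eq hr.1, map_sub, AC.degree_nP]
  have h3 := ell_eq_of_large_degree (D := Finsupp.mapDomain r (AC.nP (Mdl.Pinf N) n - E)) (by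
    rw [hdegr, special_genus hℓN hg v]; omega)
  rw [hdegr, special_genus hℓN hg v, hdeg] at h3
  have := hA.2
  show ell (Finsupp.mapDomain r (AC.nP (Mdl.Pinf N) n - E)) ≤ _
  omega

end Fermat.Agent.Raising.AtResidualPrime
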