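import Fermat.Agent.TW.Flat.LocalBound

/-!
# Ordinary deformations with constant unit root

A tangent vector killing the scalar by which the decomposition group acts on the unramified
quotient of an ordinary deformation has a strictly ordinary class.  If the deformation is flat as
well, these classes lie in a space of dimension at most `h⁰`.
-/

noncomputable section

namespace Fermat.Agent.Raising.AtResidualPrime

open Fermat.Agent Fermat.Agent.PT Fermat.Agent.Gal Fermat.Agent.TW Matrix Module IsLocalRing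
  DualNumber
open Fermat.Agent.TW.Flat

local notation "Qbar" => AlgebraicClosure ℚ

section Residual

variable {p : ℕ} [Fact p.Prime] {k : Type} [Field k] [CharP k p] {A : ValuationSubring Qbar}
  {rb : AG →* M2 k}

variable {D : TameLvl A p}

/-- The flat classes with constant diagonal span at most `h⁰` dimensions. -/
theorem finrank_classes_Z0_le [Finite k] (hO : OrdCase p rb D) (hA : A.LiesOverPrime p)
    (hp2 : p ≠ 2) (hW : HasModel A (A.decompositionSubgroup ℚ) (wAct rb)) :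
    FiniteDimensional k (hO.Z0.map (classMap A rb)) ∧
      finrank k (hO.Z0.map (classMap A rb)) ≤ finrank k (Representation.invariants
        (resRep (adRep rb) (A.decompositionSubgroup ℚ))) := by
  obtain ⟨Φ, hΦ⟩ := Gal.exists_isFrobeniusAt (A := A) Fact.out hA
  by_cases hr : ∀ h ∈ D.Γ0, rb h 0 1 = 0
  · obtain ⟨hfin, hdim⟩ := hO.finrank_Z0 hA hΦ ⊥ (fun w hw => by
      rw [Submodule.mem_bot] at hw; rw [hw]; exact map_zero _) fun w hw _ => by simpa using hw
    rw [finrank_bot, add_zero] at hdim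
    obtain ⟨H, hH0, hH⟩ := hO.invariants_pos hr
    refine ⟨hfin, hdim.trans ?_⟩
    exact (Module.finrank_pos_iff_exists_ne_zero (R := k)).2
      ⟨⟨H, hH⟩, fun h0 => hH0 (congrArg Subtype.val h0)⟩
  · push Not at hr
    obtain ⟨h₀, hh₀, hr₀⟩ := hr
    obtain ⟨w₀, hwc, hf₀⟩ := hO.exists_boundary hp2 hW hh₀ hr₀
    have hw₀ : w₀ ≠ 0 := fun h => hf₀ (by rw [h]; rfl)
    obtain ⟨hfin, hdim⟩ := hO.finrank_Z0 hA hΦ (k ∙ w₀) (fun w hw => by
      obtain ⟨a, rfl⟩ := Submodule.mem_span_singleton.mp hw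
      rw [Submodule.coe_smul, map_smul, hwc, smul_zero]) fun w hw hw0 => by
      obtain ⟨a, rfl⟩ := Submodule.mem_span_singleton.mp hw
      have h := hw0 h₀ hh₀
      rw [show fOf (a • w₀ : hO.Z0).1 h₀ = a * fOf w₀.1 h₀ from rfl, mul_eq_zero] at h
      rw [h.resolve_right hf₀, zero_smul]
    rw [finrank_span_singleton (K := k) (V := hO.Z0) hw₀] at hdim
    exact ⟨hfin, le_trans (by omega) (Nat.zero_le _)⟩

/-- A space of dimension at most `h⁰` containing the classes with a model which are nilpotent in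
the frame up to a coboundary. -/
theorem exists_flatLineLocal [Finite k] (hA : A.LiesOverPrime p) (hp2 : p ≠ 2)
    (hdet : DetCyc p rb) (hrb : ∃ U ∈ lvQ, ∀ s ∈ U, rb s = 1) {P P' : M2 k}
    (hF : IsOrdFrame p A rb P P') :
    ∃ L : Submodule k ((A.decompositionSubgroup ℚ → sl2 k) ⧸
        B1 (resRep (adRep rb) (A.decompositionSubgroup ℚ))),
      FiniteDimensional k L ∧
      finrank k L ≤ finrank k (Representation.invariants
        (resRep (adRep rb) (A.decompositionSubgroup ℚ))) ∧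
      ∀ c ∈ Z1 lvQ (adRep rb),
        HasModel A (A.decompositionSubgroup ℚ) (vAct rb fun g => (c g : M2 k)) →
        (∃ Y : sl2 k, ∀ σ ∈ A.decompositionSubgroup ℚ,
          c σ - (adRep rb σ Y - Y) ∈ k ∙ frameE P P') →
        c ∈ condAt (adRep rb) L := by
  set Dc := A.decompositionSubgroup ℚ
  by_cases hex : ∃ c ∈ Z1 lvQ (adRep rb), HasModel A Dc (vAct rb fun g => (c g : M2 k))
  swap
  · refine ⟨⊥, inferInstance, by rw [finrank_bot]; exact Nat.zero_le _, fun c hc hM _ => ?_⟩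
    exact absurd ⟨c, hc, hM⟩ hex
  obtain ⟨c₀, -, hM₀⟩ := hex
  have h := hF.mul_inv
  have h' := hF.inv_mul
  set rb' := conjHom rb P P' h h'
  obtain ⟨Dt, hO⟩ := exists_ordCase_conj (rb := rb) h h' hA hp2 hdet hrb
    { upper := hF.upper
      i00 := fun σ hσ => by
        show (P' * rb σ * P) 0 0 = _
        rw [hF.shape σ (inertia_le_decomposition hσ), hF.unram σ hσ, mul_one]
      i11 := hF.unram }
  obtain ⟨hfin, hle⟩ := finrank_classes_Z0_le hO hA hp2 (hasModel_wAct_conj h h' hM₀.residual)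
  set L := hO.Z0.map (classMap A rb') with hL
  obtain ⟨L', hfin', hle', hinv, hmem⟩ := exists_conjClasses h h' L
  refine ⟨L', hfin', hle'.trans (hle.trans hinv), ?_⟩
  rintro c hc hM ⟨Y, hY⟩
  let E := conjSl2 h h'
  let c' : AG → sl2 k := fun g => E (c g)
  have hc' : c' ∈ Z1 lvQ (adRep rb') := conj_mem_Z1 h h' hc
  have hM' : HasModel A Dc (vAct rb' fun g => (c' g : M2 k)) := hasModel_vAct_conj h h' hM
  have hEE : (E (frameE P P') : M2 k) = !![0, 1; 0, 0] := by
    rw [coe_conjSl2, coe_frameE h']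
    calc P' * (P * !![0, 1; 0, 0] * P') * P = (P' * P) * !![0, 1; 0, 0] * (P' * P) := by
          simp only [mul_assoc]
      _ = _ := by rw [h', one_mul, mul_one]
  set c'' := c' - d0 (adRep rb') (E Y) with hc''
  have hval : ∀ σ ∈ Dc, ∃ s : k, (c'' σ : M2 k) = s • !![0, 1; 0, 0] := fun σ hσ => by
    obtain ⟨s, hs⟩ := Submodule.mem_span_singleton.1 (hY σ hσ)
    refine ⟨s, ?_⟩
    have h3 := congrArg E hs
    rw [map_smul, map_sub, map_sub, conjSl2_adRep h h'] at h3
    rw [← hEE, ← Submodule.coe_smul, h3]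
    rfl
  have hq : ∀ σ ∈ Dc, (c'' σ : M2 k) 1 0 = 0 := fun σ hσ => by
    obtain ⟨s, hs⟩ := hval σ hσ
    simp [hs]
  have hd : ∀ σ ∈ Dc, (c'' σ : M2 k) 0 0 = 0 := fun σ hσ => by
    obtain ⟨s, hs⟩ := hval σ hσ
    simp [hs]
  have hdI : ∀ τ ∈ A.inertiaSubgroupIn ℚ, (c'' τ : M2 k) 0 0 = 0 := fun τ hτ =>
    hd τ (inertia_le_decomposition hτ)
  have hc''' : c'' ∈ Z1 lvQ (adRep rb') := sub_mem hc' (d0_mem_Z1 hO.finLvl _)
  have key : classMap A rb' c' ∈ L := by
    refine ⟨c'', ⟨⟨hc''', hq, hdI,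
      (hO.ordFun_fOf hc''' hq hdI (hM'.sub_d0 (E Y))).allLev⟩, hd⟩, ?_⟩
    rw [hc'', map_sub, classMap_d0, sub_zero]
  exact hmem c key

end Residual

section Tangent

variable {O : Type} [CommRing O] [IsLocalRing O] {R : Type} [CommRing R] [IsLocalRing R]
  [Algebra O R] [IsLocalHom (algebraMap O R)]
  {ρbar : ResidualGaloisRep (ResidueField O)} {bbar : Basis (Fin 2) (ResidueField O) ρbar.V}
  {hres : Function.Surjective (residue R ∘ algebraMap O R)}
  {ρ : GaloisRepAdic R} {b : Basis (Fin 2) R ρ.V}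
  {p : ℕ} [Fact p.Prime] [CharP (ResidueField O) p]
  {A : ValuationSubring Qbar}

/-- The deformation is ordinary at `A` and the tangent vector kills the scalar on the quotient. -/
def UnitRootFixed (A : ValuationSubring Qbar) (ρ : GaloisRepAdic R) (b : Basis (Fin 2) R ρ.V)
    (δ : R → ResidueField O) : Prop :=
  ∃ Q Q' : M2 R, Q * Q' = 1 ∧ Q' * Q = 1 ∧
    (∀ σ ∈ A.decompositionSubgroup ℚ, (Q' * matrixRep b ρ.ρ σ * Q) 1 0 = 0 ∧
      δ ((Q' * matrixRep b ρ.ρ σ * Q) 1 1) = 0) ∧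
    ∀ σ ∈ A.inertiaSubgroupIn ℚ, (Q' * matrixRep b ρ.ρ σ * Q) 1 1 = 1

variable (hb : Adapted bbar hres ρ b)
include hb

omit [CharP (ResidueField O) p] in
/-- An ordinary basis and the value at Frobenius give a constant unit root. -/
theorem unitRootFixed_of_basis (hA : A.LiesOverPrime p) (bL : Basis (Fin 2) R ρ.V)
    (hD : ∀ σ ∈ A.decompositionSubgroup ℚ, ∀ v ∈ R ∙ bL 0, ρ.ρ σ v ∈ R ∙ bL 0)
    (hI : ∀ σ ∈ A.inertiaSubgroupIn ℚ, ∀ v, ρ.ρ σ v - v ∈ R ∙ bL 0)
    {Φ : AG} (hΦ : A.IsFrobeniusAt Φ p) {α : R} (hα : ∀ v, ρ.ρ Φ v - α • v ∈ R ∙ bL 0)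
    (δ : tangent hres) (hδα : (δ : R → ResidueField O) α = 0) :
    UnitRootFixed A ρ b (δ : R → ResidueField O) := by
  set d : R → ResidueField O := (δ : R → ResidueField O)
  refine ⟨b.toMatrix bL, bL.toMatrix b, b.toMatrix_mul_toMatrix_flip bL,
    bL.toMatrix_mul_toMatrix_flip b, ?_⟩
  set Q := b.toMatrix bL
  set Q' := bL.toMatrix b
  have hM : ∀ σ, Q' * matrixRep b ρ.ρ σ * Q = LinearMap.toMatrix bL bL (ρ.ρ σ) := fun σ =>
    basis_toMatrix_mul_linearMap_toMatrix_mul_basis_toMatrix bL b bL b (ρ.ρ σ)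
  have hline : ∀ v ∈ R ∙ bL 0, bL.repr v 1 = 0 := fun v hv => by
    obtain ⟨c, rfl⟩ := Submodule.mem_span_singleton.1 hv
    simp
  have h10 : ∀ σ ∈ A.decompositionSubgroup ℚ, (Q' * matrixRep b ρ.ρ σ * Q) 1 0 = 0 :=
    fun σ hσ => by
      rw [hM, LinearMap.toMatrix_apply]
      exact hline _ (hD σ hσ _ (Submodule.mem_span_singleton_self _))
  have h11 : ∀ σ ∈ A.inertiaSubgroupIn ℚ, (Q' * matrixRep b ρ.ρ σ * Q) 1 1 = 1 := fun σ hσ => by
    rw [hM, LinearMap.toMatrix_apply]
    have := hline _ (hI σ hσ (bL 1))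
    rw [map_sub, Finsupp.sub_apply, Basis.repr_self, Finsupp.single_eq_same, sub_eq_zero] at this
    exact this
  refine ⟨fun σ hσ => ⟨h10 σ hσ, ?_⟩, h11⟩
  let z : AG → R := fun g => (Q' * matrixRep b ρ.ρ g * Q) 1 1
  have hzmul : ∀ g ∈ A.decompositionSubgroup ℚ, ∀ h, z (g * h) = z g * z h := fun g hg h => by
    have h0 := h10 g hg
    simp only [z, hM] at h0 ⊢
    rw [map_mul, LinearMap.toMatrix_mul, mul_apply, Fin.sum_univ_two, h0, zero_mul, zero_add]
  have hd1 : d 1 = 0 := by have := δ.2.2.1 1; rwa [map_one] at this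
  have hdmul : ∀ g ∈ A.decompositionSubgroup ℚ, ∀ h, d (z g) = 0 → d (z h) = 0 →
      d (z (g * h)) = 0 := fun g hg h h1 h2 => by
    show (δ : R → ResidueField O) (z (g * h)) = 0
    change (δ : R → ResidueField O) (z g) = 0 at h1
    change (δ : R → ResidueField O) (z h) = 0 at h2
    rw [hzmul g hg, δ.2.2.2, h1, h2]
    ring
  have hΦD := (Gal.isFrobeniusAt_iff.1 hΦ).1
  have hzΦ : z Φ = α := by
    show (Q' * matrixRep b ρ.ρ Φ * Q) 1 1 = α
    rw [hM, LinearMap.toMatrix_apply]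
    have := hline _ (hα (bL 1))
    rwa [map_sub, Finsupp.sub_apply, map_smul, Finsupp.smul_apply, Basis.repr_self,
      Finsupp.single_eq_same, smul_eq_mul, mul_one, sub_eq_zero] at this
  have hpow : ∀ i : ℕ, d (z (Φ ^ i)) = 0 := fun i => by
    induction i with
    | zero =>
      rw [pow_zero, show z 1 = 1 from h11 1 (one_mem _), hd1]
    | succ i ih => rw [pow_succ]; exact hdmul _ (pow_mem hΦD i) _ ih (by rw [hzΦ]; exact hδα)
  obtain ⟨U, hU, hU'⟩ := exists_level_matrixRep (b := b) (bbar := bbar) δ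
  obtain ⟨i, τ, hτ, hs⟩ := exists_frob_pow_mul Fact.out hA hΦ hU hσ
  have hg : d (z (Φ ^ i * τ)) = 0 := hdmul _ (pow_mem hΦD i) _ (hpow i) (by
    rw [show z τ = 1 from h11 τ hτ, hd1])
  obtain ⟨hd', -⟩ := hU' (Φ ^ i * τ) _ hs
  rw [mul_inv_cancel_left] at hd'
  have hres' : (matrixRep b ρ.ρ σ).map (toRes hres) =
      (matrixRep b ρ.ρ (Φ ^ i * τ)).map (toRes hres) := by
    rw [hb, hb, show σ = Φ ^ i * τ * ((Φ ^ i * τ)⁻¹ * σ) from (mul_inv_cancel_left _ _).symm,
      map_mul, (hU' 1 _ hs).2, mul_one]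
  have e : ∀ g, (Q' * matrixRep b ρ.ρ g * Q).map d =
      (Q'.map (toRes hres) * tanMat ρ b d g + Q'.map d * (matrixRep b ρ.ρ g).map (toRes hres)) *
        Q.map (toRes hres) +
      Q'.map (toRes hres) * (matrixRep b ρ.ρ g).map (toRes hres) * Q.map d := fun g => by
    rw [map_tangent_mul, map_tangent_mul, Matrix.map_mul]
    exact add_comm _ _
  have e' : (Q' * matrixRep b ρ.ρ σ * Q).map d =
      (Q' * matrixRep b ρ.ρ (Φ ^ i * τ) * Q).map d := by
    rw [e, e, hd', hres']
  exact (congrFun (congrFun e' 1) 1).trans hg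

variable (hdet : ρ.DetIsCyclotomic p) (hA : A.LiesOverPrime p) (hp2 : p ≠ 2)
include hA hp2

/-- The class of a tangent vector fixing the unit root is nilpotent in the frame up to a
coboundary. -/
theorem exists_coboundary_line {P P' : M2 (ResidueField O)}
    (hF : IsOrdFrame p A (rbar bbar) P P') (δ : tangent hres)
    (h : UnitRootFixed A ρ b (δ : R → ResidueField O)) :
    ∃ Y : sl2 (ResidueField O), ∀ σ ∈ A.decompositionSubgroup ℚ,
      tanCocycle hb hdet δ σ - (adRep (rbar bbar) σ Y - Y) ∈ (ResidueField O) ∙ frameE P P' := by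
  obtain ⟨Q, Q', h1, h2, hD, hI⟩ := h
  refine exists_coboundary_of_triangular hb hdet hp2 h1 h2 δ (fun σ hσ => (hD σ hσ).1)
    (fun σ hσ => ⟨?_, (hD σ hσ).2⟩) (frameE_mem_span_of_unramified hA hp2 hF ?_ ?_ ?_ ?_)
  · obtain ⟨hdet', hz0⟩ := tangent_det_of_triangular hb h1 h2 δ hdet σ (hD σ hσ).1
    rw [δ.2.2.2, (hD σ hσ).2] at hdet'
    exact (mul_eq_zero.1 (by linear_combination hdet')).resolve_left hz0
  · rw [← Matrix.map_mul, h1, Matrix.map_one _ (map_zero _) (map_one _)]
  · rw [← Matrix.map_mul, h2, Matrix.map_one _ (map_zero _) (map_one _)]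
  · exact fun σ hσ => by rw [← map_toRes_mul hb, map_apply, (hD σ hσ).1, map_zero]
  · exact fun σ hσ => by rw [← map_toRes_mul hb, map_apply, hI σ hσ, map_one]

/-- **Ordinary with constant unit root is strictly ordinary on tangent classes.** -/
theorem tanCocycle_mem_ordClasses_of_unitRoot {P P' : M2 (ResidueField O)}
    (hF : IsOrdFrame p A (rbar bbar) P P') (δ : tangent hres)
    (h : UnitRootFixed A ρ b (δ : R → ResidueField O)) :
    tanCocycle hb hdet δ ∈
      condAt (adRep (rbar bbar)) (ordClasses A (rbar bbar) P P') := by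
  obtain ⟨Y₀, hY₀⟩ := exists_coboundary_line hb hdet hA hp2 hF δ h
  exact mkQ_mem_ordClasses_of_line hb hdet δ hY₀

end Tangent

/-- **Flat with constant unit root: at most `h⁰` dimensions.** -/
theorem exists_flatUnitRootLocal {O : Type} [CommRing O] [IsDomain O] [IsDiscreteValuationRing O]
    [Finite (ResidueField O)] {p : ℕ} [Fact p.Prime] [CharP (ResidueField O) p]
    {ρbar : ResidualGaloisRep (ResidueField O)} (bbar : Basis (Fin 2) (ResidueField O) ρbar.V)
    {A : ValuationSubring Qbar} (hA : A.LiesOverPrime p) (hp2 : p ≠ 2)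
    (hdetbar : DetCyc p (rbar bbar)) {P P' : M2 (ResidueField O)}
    (hF : IsOrdFrame p A (rbar bbar) P P') :
    ∃ L : Submodule (ResidueField O) ((A.decompositionSubgroup ℚ → sl2 (ResidueField O)) ⧸
        B1 (resRep (adRep (rbar bbar)) (A.decompositionSubgroup ℚ))),
      FiniteDimensional (ResidueField O) L ∧
      finrank (ResidueField O) L ≤ finrank (ResidueField O) (Representation.invariants
        (resRep (adRep (rbar bbar)) (A.decompositionSubgroup ℚ))) ∧
      ∀ {R : Type} [CommRing R] [IsLocalRing R] [Algebra O R] [IsLocalHom (algebraMap O R)]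
        {hres : Function.Surjective (residue R ∘ algebraMap O R)} {ρ : GaloisRepAdic R}
        {b : Basis (Fin 2) R ρ.V} (hb : Adapted bbar hres ρ b) (hdet : ρ.DetIsCyclotomic p),
        ρ.IsFlatAt p → ∀ δ : tangent hres, UnitRootFixed A ρ b (δ : R → ResidueField O) →
          tanCocycle hb hdet δ ∈ condAt (adRep (rbar bbar)) L := by
  obtain ⟨L₀, hL₀, hL₀rb⟩ := ρbar.factorsThroughFiniteLevel
  obtain ⟨L, hfin, hle, hL⟩ := exists_flatLineLocal hA hp2 hdetbar ⟨_, fixingSubgroup_mem_krull L₀,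
    fun s hs => by
      show LinearMap.toMatrixAlgEquiv bbar (ρbar.ρ s) = 1
      rw [hL₀rb s ((IntermediateField.mem_fixingSubgroup_iff _ _).1 hs), map_one]⟩ hF
  refine ⟨L, hfin, hle, fun {R} _ _ _ _ {hres ρ b} hb hdet hflat δ hδ => ?_⟩
  by_cases hδ0 : δ = 0
  · rw [hδ0, map_zero]
    exact zero_mem _
  obtain ⟨bd, hbd⟩ := exists_basis_adicBaseChange
    (dualHom δ : R →+* (ResidueField O)[ε]) (isLocalHom_dualHom δ) ρ b
  refine hL _ (tanCocycle_mem_Z1 hb hdet δ) (hasModel_of_isFlatAt hA (dualRep ρ δ) bd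
    (isFlatAt_baseChange _ (dualHom_surjective hδ0) hflat) (fun g => ?_) _)
    (exists_coboundary_line hb hdet hA hp2 hF δ hδ)
  refine (hbd g).trans (Matrix.ext fun i j => ?_)
  rw [coe_tanCocycle, mul_assoc, rbar_inv_mul, mul_one, map_apply, Matrix.add_apply, map_apply,
    map_apply, tanMat, map_apply, ← toRes_entry hb]
  exact TrivSqZeroExt.ext (by simp [fst_dualHom]) (by simp [snd_dualHom])

/-- **The strictly ordinary space also holds the classes with constant unit root.** -/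
theorem exists_ordUnitRootLocal {O : Type} [CommRing O] [IsDomain O] [IsDiscreteValuationRing O]
    [Finite (ResidueField O)] {p : ℕ} [Fact p.Prime] [CharP (ResidueField O) p]
    {ρbar : ResidualGaloisRep (ResidueField O)} (bbar : Basis (Fin 2) (ResidueField O) ρbar.V)
    {A : ValuationSubring Qbar} (hA : A.LiesOverPrime p) (hp2 : p ≠ 2) {P P' : M2 (ResidueField O)}
    (hF : IsOrdFrame p A (rbar bbar) P P') :
    ∃ L : Submodule (ResidueField O) ((A.decompositionSubgroup ℚ → sl2 (ResidueField O)) ⧸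
        B1 (resRep (adRep (rbar bbar)) (A.decompositionSubgroup ℚ))),
      FiniteDimensional (ResidueField O) L ∧
      finrank (ResidueField O) L ≤ finrank (ResidueField O) (Representation.invariants
        (resRep (adRep (rbar bbar)) (A.decompositionSubgroup ℚ))) + 1 ∧
      ∀ {R : Type} [CommRing R] [IsLocalRing R] [Algebra O R] [IsLocalHom (algebraMap O R)]
        {hres : Function.Surjective (residue R ∘ algebraMap O R)} {ρ : GaloisRepAdic R}
        {b : Basis (Fin 2) R ρ.V} (hb : Adapted bbar hres ρ b) (hdet : ρ.DetIsCyclotomic p)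
        (δ : tangent hres),
        ρ.IsStrictOrdinaryAt p ∨ UnitRootFixed A ρ b (δ : R → ResidueField O) →
          tanCocycle hb hdet δ ∈ condAt (adRep (rbar bbar)) L := by
  obtain ⟨L₀, hL₀, hL₀rb⟩ := ρbar.factorsThroughFiniteLevel
  obtain ⟨hfin, hle⟩ := finrank_ordClasses_le hF hA hp2 ⟨_, fixingSubgroup_mem_krull L₀,
    fun s hs => by
      show LinearMap.toMatrixAlgEquiv bbar (ρbar.ρ s) = 1
      rw [hL₀rb s ((IntermediateField.mem_fixingSubgroup_iff _ _).1 hs), map_one]⟩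
  refine ⟨ordClasses A (rbar bbar) P P', hfin, hle,
    fun {R} _ _ _ _ {hres ρ b} hb hdet δ h => ?_⟩
  rcases h with hord | hδ
  · exact tanCocycle_mem_ordClasses hb hA hord hdet hp2 hF δ
  · exact tanCocycle_mem_ordClasses_of_unitRoot hb hdet hA hp2 hF δ hδ

end Fermat.Agent.Raising.AtResidualPrime

end
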